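/-
S41 (level raising) -- captain Spec, helper123.

Top-level decomposition of the frozen statement S41 into Prop-valued interfaces, each stated
only in terms of Mathlib, the Prelude and the LANDED Hecke operators on `Hom(Γ₀(M), A)`
(`Fermat.Agent.S16.helper2138.heckeHomT / heckeHomU`).  Route: findings #2474.

* `Stmt_Witness`  (module F)  : elliptic-curve side, a prime `ℓ₀ ≡ 1 mod M` with `p ∤ #W̃(𝔽_ℓ₀)`.
* `Stmt_Core`                 : modular-form side (no elliptic curve), level raising for an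
                                 integer system `t ℓ` with a non-Eisenstein witness `ℓ₀`.
* `Stmt_Ihara`    (A,B,D,E)   : the lattice package on `Λ_M = Hom(Γ₀(M), ℤ)` (degeneracy maps,
                                 `κρ`, `U_q² = 1` on `ker κ`, both Ihara halves up to `η`).
* `Stmt_Boundary` (module C)  : `η = T_ℓ − (ℓ+1)` maps `Hom(Γ₀(M), A)` into parabolic homs when
                                 `ℓ ≡ 1 mod M`.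
* `Stmt_CSP`      (module E)  : congruence subgroup property of `Γ₀(N)[1/q]` for `𝔽_p`-valued homs.

Proved here: `S41_of_core_witness : Stmt_Core → Stmt_Witness → (frozen S41)`.
Leaves (owners on the board): `Stmt_Witness`, `Stmt_Boundary`, `Stmt_CSP`,
`Stmt_CSP → Stmt_Boundary → Stmt_Ihara`, `Stmt_Ihara → Stmt_Boundary → Stmt_Core`.
-/
import Mathlib
import Fermat.Prelude.Def_FLTPrelim_ModularRep
import Fermat.Prelude.Def_FreyPackage_LevelRaising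
import Fermat.Agent.S16.helper2138_HeckeHom

set_option autoImplicit false
open WeierstrassCurve WeierstrassCurve.Affine WeierstrassCurve.Affine.Point
open scoped CongruenceSubgroup MatrixGroups
open WeierstrassCurve
open CongruenceSubgroup Fermat.Agent.S16.helper2138

namespace Fermat.Agent.S41.helper123

/-! ### Module F : the witness prime -/

/-- **Witness** (module F).  For an elliptic curve `E/ℚ` with integral model `W`, `p` odd and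
`E[p]` irreducible, and every modulus `M > 0`, there is a prime `ℓ ≡ 1 mod M`, good for `W`,
`ℓ ≠ p`, with `p ∤ ℓ + 1 - a_ℓ(W) = #W̃(𝔽_ℓ)`. -/
def Stmt_Witness : Prop :=
  ∀ (E : WeierstrassCurve ℚ) [E.IsElliptic] (W : WeierstrassCurve ℤ), W.IsIntegralModelOf E →
  ∀ (p : ℕ), p.Prime → p ≠ 2 →
    GaloisRepIsIrreducible (K := AlgebraicClosure ℚ) ℚ E p →
  ∀ M : ℕ, 0 < M →
    ∃ ℓ : ℕ, ℓ.Prime ∧ W.IsGoodPrimeFor ℓ ∧ ℓ ≠ p ∧ (ℓ : ZMod M) = 1 ∧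
      ¬ (p : ℤ) ∣ (ℓ : ℤ) + 1 - W.apOfModel ℓ

/-! ### The modular-form core -/

/-- **Core** (no elliptic curve).  `t : ℕ → ℤ` is an integer system of eigenvalues, `S` a set of
primes not dividing `N` and different from `p` at which `f ≡ t mod 𝔪`; `ℓ₀ ∈ S` is a witness
`ℓ₀ ≡ 1 mod M` (for a modulus `M` depending only on `N, q, p`) with `p ∤ ℓ₀ + 1 - t ℓ₀`.
Then the level raising congruence at `q` produces `g` of level `N q`, new at `q`, with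
`g ≡ t mod 𝔪'` on `S` away from `q`. -/
def Stmt_Core : Prop :=
  ∀ (N q p : ℕ), 0 < N → q.Prime → ¬ q ∣ N → p.Prime → p ≠ 2 → q ≠ p →
  ∃ M : ℕ, 0 < M ∧
  ∀ (f : CuspForm (CongruenceSubgroup.Gamma0 N) 2) (𝔪 : Ideal (integralClosure ℤ ℂ))
    (t : ℕ → ℤ) (S : Set ℕ) (ℓ₀ : ℕ),
    f.IsNormalizedEigenform → 𝔪.IsMaximal → (p : integralClosure ℤ ℂ) ∈ 𝔪 →
    (∀ ℓ ∈ S, ℓ.Prime ∧ ¬ ℓ ∣ N ∧ ℓ ≠ p) →
    (∀ ℓ ∈ S, ∃ a : integralClosure ℤ ℂ, (a : ℂ) = ModularFormClass.qCoeff f ℓ ∧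
      a - ((t ℓ : ℤ) : integralClosure ℤ ℂ) ∈ 𝔪) →
    ℓ₀ ∈ S → (ℓ₀ : ZMod M) = 1 → ¬ (p : ℤ) ∣ (ℓ₀ : ℤ) + 1 - t ℓ₀ →
    (∃ a : integralClosure ℤ ℂ, (a : ℂ) = ModularFormClass.qCoeff f q ∧
      a ^ 2 - ((q : integralClosure ℤ ℂ) + 1) ^ 2 ∈ 𝔪) →
    ∃ (g : CuspForm (CongruenceSubgroup.Gamma0 (N * q)) 2) (𝔪' : Ideal (integralClosure ℤ ℂ)),
      g.IsNormalizedEigenform ∧ 𝔪'.IsMaximal ∧ (p : integralClosure ℤ ℂ) ∈ 𝔪' ∧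
      (∀ ℓ ∈ S, ¬ ℓ ∣ N * q →
        ∃ a : integralClosure ℤ ℂ, (a : ℂ) = ModularFormClass.qCoeff g ℓ ∧
          a - ((t ℓ : ℤ) : integralClosure ℤ ℂ) ∈ 𝔪') ∧
      g.IsNewAt q

/-- **Assembly of the frozen statement S41** from `Stmt_Core` and `Stmt_Witness`. -/
theorem S41_of_core_witness (hCore : Stmt_Core) (hWit : Stmt_Witness)
    (E : WeierstrassCurve ℚ) [E.IsElliptic] {W : WeierstrassCurve ℤ} (hW : W.IsIntegralModelOf E)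
    {p N q' : ℕ} (hp : p.Prime) (hp2 : p ≠ 2) (hN : 0 < N) (hq' : q'.Prime) (hq'N : ¬ q' ∣ N) (hq'p : q' ≠ p)
    (hirr : GaloisRepIsIrreducible (K := AlgebraicClosure ℚ) ℚ E p)
    (f : CuspForm (CongruenceSubgroup.Gamma0 N) 2) (𝔪 : Ideal (integralClosure ℤ ℂ))
    (hf : f.IsNormalizedEigenform) (hmax : 𝔪.IsMaximal) (hpm : (p : integralClosure ℤ ℂ) ∈ 𝔪)
    (hcong : ∀ ℓ : ℕ, ℓ.Prime → W.IsGoodPrimeFor ℓ → ¬ ℓ ∣ N → ℓ ≠ p →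
      ∃ a : integralClosure ℤ ℂ, (a : ℂ) = ModularFormClass.qCoeff f ℓ ∧
        a - ((W.apOfModel ℓ : ℤ) : integralClosure ℤ ℂ) ∈ 𝔪)
    (hLR : ∃ a : integralClosure ℤ ℂ, (a : ℂ) = ModularFormClass.qCoeff f q' ∧
      a ^ 2 - ((q' : integralClosure ℤ ℂ) + 1) ^ 2 ∈ 𝔪) :
    ∃ (g : CuspForm (CongruenceSubgroup.Gamma0 (N * q')) 2) (𝔪' : Ideal (integralClosure ℤ ℂ)),
      g.IsNormalizedEigenform ∧ 𝔪'.IsMaximal ∧ (p : integralClosure ℤ ℂ) ∈ 𝔪' ∧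
      (∀ ℓ : ℕ, ℓ.Prime → W.IsGoodPrimeFor ℓ → ¬ ℓ ∣ N * q' → ℓ ≠ p →
        ∃ a : integralClosure ℤ ℂ, (a : ℂ) = ModularFormClass.qCoeff g ℓ ∧
          a - ((W.apOfModel ℓ : ℤ) : integralClosure ℤ ℂ) ∈ 𝔪') ∧
      g.IsNewAt q' := by
  obtain ⟨M, hM, hcore⟩ := hCore N q' p hN hq' hq'N hp hp2 hq'p
  -- witness prime for the modulus `M * N`
  obtain ⟨ℓ₀, hℓ₀, hgood, hℓ₀p, hℓ₀M, hℓ₀w⟩ :=
    hWit E W hW p hp hp2 hirr (M * N) (Nat.mul_pos hM hN)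
  have h1M : (ℓ₀ : ZMod M) = 1 := by
    have h := congrArg (ZMod.castHom (Dvd.intro N rfl) (ZMod M)) hℓ₀M
    simpa using h
  have hℓ₀N : ¬ ℓ₀ ∣ N := by
    intro hdvd
    have hdvd' : ℓ₀ ∣ M * N := Dvd.dvd.mul_left hdvd M
    have h := congrArg (ZMod.castHom hdvd' (ZMod ℓ₀)) hℓ₀M
    rw [map_natCast, map_one, ZMod.natCast_self] at h
    haveI : Fact (1 < ℓ₀) := ⟨hℓ₀.one_lt⟩
    exact zero_ne_one h
  let S : Set ℕ := {ℓ | ℓ.Prime ∧ W.IsGoodPrimeFor ℓ ∧ ¬ ℓ ∣ N ∧ ℓ ≠ p}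
  obtain ⟨g, 𝔪', hg, hmax', hpm', hcong', hnew⟩ :=
    hcore f 𝔪 (fun ℓ => W.apOfModel ℓ) S ℓ₀ hf hmax hpm
      (fun ℓ hℓ => ⟨hℓ.1, hℓ.2.2.1, hℓ.2.2.2⟩)
      (fun ℓ hℓ => hcong ℓ hℓ.1 hℓ.2.1 hℓ.2.2.1 hℓ.2.2.2)
      ⟨hℓ₀, hgood, hℓ₀N, hℓ₀p⟩ h1M hℓ₀w hLR
  refine ⟨g, 𝔪', hg, hmax', hpm', ?_, hnew⟩
  intro ℓ hℓ hgoodℓ hℓNq hℓp
  exact hcong' ℓ ⟨hℓ, hgoodℓ, fun h => hℓNq (Dvd.dvd.mul_right h q'), hℓp⟩ hℓNq

/-! ### Module C : the boundary is killed by `η` -/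

/-- **Boundary** (module C).  For a prime `l ≡ 1 mod M`, the operator `η = T_l - (l+1)` maps
`Hom(Γ₀(M), A)` into the parabolic homs (Prelude predicate), for every abelian group `A`. -/
def Stmt_Boundary : Prop :=
  ∀ (M l : ℕ) [Fact l.Prime] (hl : ¬ l ∣ M), 0 < M → (l : ZMod M) = 1 →
  ∀ (A : Type) [AddCommGroup A] (φ : Additive (Gamma0 M) →+ A),
    ModularCurve.Period.IsParabolicHom (Gamma0 M)
      (heckeHomT M l hl A φ - ((l : ℤ) + 1) • φ)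

/-! ### Modules A, B, D : the Ihara package on the lattices `Λ_M = Hom(Γ₀(M), ℤ)` -/

/-- The lattice `Λ_M = Hom(Γ₀(M), ℤ)`. -/
abbrev Lam (M : ℕ) : Type := Additive (Gamma0 M) →+ ℤ

/-- `η = T_l - (l+1)` on `Hom(Γ₀(M), A)`. -/
noncomputable def eta (M l : ℕ) [Fact l.Prime] (hl : ¬ l ∣ M) (A : Type*) [AddCommGroup A]
    (φ : Additive (Gamma0 M) →+ A) : Additive (Gamma0 M) →+ A :=
  heckeHomT M l hl A φ - ((l : ℤ) + 1) • φ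

/-- The properties of the degeneracy maps `r₁ = res`, `r₂ = res^c : Λ_N → Λ_{Nq}` and
`k₁ = cores`, `k₂ = cores^c : Λ_{Nq} → Λ_N` consumed by the endgame.  `ℓ₀` is the witness prime,
`η = T_ℓ₀ - (ℓ₀+1)`. -/
structure IsIharaPackage (N q p ℓ₀ : ℕ) [Fact q.Prime] [Fact ℓ₀.Prime]
    (hqN : ¬ q ∣ N) (h₀N : ¬ ℓ₀ ∣ N)
    (r₁ r₂ : Lam N →+ Lam (N * q)) (k₁ k₂ : Lam (N * q) →+ Lam N) : Prop where
  /-- `res`, `res^c` commute with `T_l`, `l ∤ N q`. -/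
  r_T : ∀ (l : ℕ) [Fact l.Prime] (hlN : ¬ l ∣ N) (hlNq : ¬ l ∣ N * q) (x : Lam N),
    r₁ (heckeHomT N l hlN ℤ x) = heckeHomT (N * q) l hlNq ℤ (r₁ x) ∧
    r₂ (heckeHomT N l hlN ℤ x) = heckeHomT (N * q) l hlNq ℤ (r₂ x)
  /-- `res`, `res^c` commute with `U_r`, `r ∣ N`. -/
  r_U : ∀ (r : ℕ) [Fact r.Prime] [NeZero r] (hrN : r ∣ N) (hrNq : r ∣ N * q) (x : Lam N),
    r₁ (heckeHomU N r hrN ℤ x) = heckeHomU (N * q) r hrNq ℤ (r₁ x) ∧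
    r₂ (heckeHomU N r hrN ℤ x) = heckeHomU (N * q) r hrNq ℤ (r₂ x)
  /-- `cores`, `cores^c` commute with `T_l`, `l ∤ N q`. -/
  k_T : ∀ (l : ℕ) [Fact l.Prime] (hlN : ¬ l ∣ N) (hlNq : ¬ l ∣ N * q) (w : Lam (N * q)),
    k₁ (heckeHomT (N * q) l hlNq ℤ w) = heckeHomT N l hlN ℤ (k₁ w) ∧
    k₂ (heckeHomT (N * q) l hlNq ℤ w) = heckeHomT N l hlN ℤ (k₂ w)
  /-- `cores`, `cores^c` commute with `U_r`, `r ∣ N`. -/
  k_U : ∀ (r : ℕ) [Fact r.Prime] [NeZero r] (hrN : r ∣ N) (hrNq : r ∣ N * q) (w : Lam (N * q)),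
    k₁ (heckeHomU (N * q) r hrNq ℤ w) = heckeHomU N r hrN ℤ (k₁ w) ∧
    k₂ (heckeHomU (N * q) r hrNq ℤ w) = heckeHomU N r hrN ℤ (k₂ w)
  /-- `κ ρ = [[q+1, T_q], [T_q, q+1]]`. -/
  kr : ∀ x : Lam N,
    k₁ (r₁ x) = ((q : ℤ) + 1) • x ∧ k₂ (r₂ x) = ((q : ℤ) + 1) • x ∧
    k₁ (r₂ x) = heckeHomT N q hqN ℤ x ∧ k₂ (r₁ x) = heckeHomT N q hqN ℤ x
  /-- `ker κ` is stable under `U_q` and `U_q² = 1` on it. -/
  new_U : ∀ [NeZero q] (hqNq : q ∣ N * q) (w : Lam (N * q)), k₁ w = 0 → k₂ w = 0 →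
    k₁ (heckeHomU (N * q) q hqNq ℤ w) = 0 ∧ k₂ (heckeHomU (N * q) q hqNq ℤ w) = 0 ∧
    heckeHomU (N * q) q hqNq ℤ (heckeHomU (N * q) q hqNq ℤ w) = w
  /-- Ihara half (a): `ρ` is injective mod `p` up to `η³`. -/
  ihara_a : ∀ x y : Lam N, (∃ w : Lam (N * q), r₁ x + r₂ y = (p : ℤ) • w) →
    (∃ x' : Lam N, eta N ℓ₀ h₀N ℤ (eta N ℓ₀ h₀N ℤ (eta N ℓ₀ h₀N ℤ x)) = (p : ℤ) • x') ∧
    (∃ y' : Lam N, eta N ℓ₀ h₀N ℤ (eta N ℓ₀ h₀N ℤ (eta N ℓ₀ h₀N ℤ y)) = (p : ℤ) • y')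
  /-- Ihara half (b): `κ` is surjective mod `p` up to `η`. -/
  ihara_b : ∀ x y : Lam N, ∃ w : Lam (N * q),
    (∃ x' : Lam N, eta N ℓ₀ h₀N ℤ x - k₁ w = (p : ℤ) • x') ∧
    (∃ y' : Lam N, eta N ℓ₀ h₀N ℤ y - k₂ w = (p : ℤ) • y')

/-- **Ihara package** (modules A, B, D on top of C and E).  There is a modulus `M` (depending
only on `N, q, p`) such that for every prime `ℓ₀ ≡ 1 mod M`, `ℓ₀ ∤ N q`, the degeneracy maps form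
an Ihara package for `η = T_ℓ₀ - (ℓ₀+1)`. -/
def Stmt_Ihara : Prop :=
  ∀ (N q p : ℕ) [Fact q.Prime], 0 < N → ∀ (hqN : ¬ q ∣ N), p.Prime → p ≠ 2 → q ≠ p →
  ∃ M : ℕ, 0 < M ∧
  ∀ (ℓ₀ : ℕ) [Fact ℓ₀.Prime] (h₀N : ¬ ℓ₀ ∣ N), ¬ ℓ₀ ∣ N * q → (ℓ₀ : ZMod M) = 1 →
    ∃ (r₁ r₂ : Lam N →+ Lam (N * q)) (k₁ k₂ : Lam (N * q) →+ Lam N),
      IsIharaPackage N q p ℓ₀ hqN h₀N r₁ r₂ k₁ k₂

/-! ### Module E : the congruence subgroup property of `Γ₀(N)[1/q]` -/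

/-- `x ∈ ℤ[1/q]`. -/
def IsZq (q : ℕ) (x : ℚ) : Prop := ∃ (k : ℕ) (n : ℤ), x * (q : ℚ) ^ k = n

/-- Membership in `Δ = Γ₀(N)[1/q] ≤ SL(2, ℚ)`: entries in `ℤ[1/q]`, lower left entry in
`N ℤ[1/q]`. -/
def InDelta (N q : ℕ) (g : SL(2, ℚ)) : Prop :=
  (∀ i j, IsZq q (g i j)) ∧ ∃ y : ℚ, IsZq q y ∧ g 1 0 = (N : ℚ) * y

/-- The upper unipotent `[[1, x], [0, 1]]`. -/
def upperUni (x : ℚ) : SL(2, ℚ) := ⟨!![1, x; 0, 1], by simp [Matrix.det_fin_two]⟩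

/-- The lower unipotent `[[1, 0], [y, 1]]`. -/
def lowerUni (y : ℚ) : SL(2, ℚ) := ⟨!![1, 0; y, 1], by simp [Matrix.det_fin_two]⟩

/-- **CSP** (module E).  There is a modulus `M` (the squads aim at `M = N`) such that every
`𝔽_p`-valued function on `SL(2, ℚ)` that is additive on `Δ = Γ₀(N)[1/q]` and kills the unipotents
`[[1, x], [0, 1]]` (`x ∈ ℤ[1/q]`) and `[[1, 0], [N y, 1]]` (`y ∈ ℤ[1/q]`) vanishes on the integral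
principal congruence subgroup `Γ(M)`. -/
def Stmt_CSP : Prop :=
  ∀ (N q p : ℕ), 0 < N → q.Prime → ¬ q ∣ N → p.Prime → p ≠ 2 → q ≠ p →
  ∃ M : ℕ, 0 < M ∧
  ∀ (Φ : SL(2, ℚ) → ZMod p),
    (∀ g h : SL(2, ℚ), InDelta N q g → InDelta N q h → Φ (g * h) = Φ g + Φ h) →
    (∀ x : ℚ, IsZq q x → Φ (upperUni x) = 0) →
    (∀ y : ℚ, IsZq q y → Φ (lowerUni ((N : ℚ) * y)) = 0) →
    ∀ γ : SL(2, ℤ), γ ∈ CongruenceSubgroup.Gamma M →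
      Φ (Matrix.SpecialLinearGroup.map (Int.castRingHom ℚ) γ) = 0

end Fermat.Agent.S41.helper123
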