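/-
helper1763 — S41 module C (route #2474): the boundary is killed by `η = T_ℓ - (ℓ+1)`.

For `ℓ` prime, `ℓ ∤ M`, `ℓ ≡ 1 (mod M)`, every additive character `χ : Γ₀(M) → A` (any abelian
group `A`) and every parabolic `π ∈ Γ₀(M)` (Prelude predicate: `trace ^ 2 = 4`):
`(T_ℓ χ)(π) = (ℓ + 1) • χ(π)` for the LANDED coset-transfer operator
`Fermat.Agent.S16.helper2138.heckeHomT`.
-/
import Mathlib
import Fermat.Agent.S16.helper2138_HeckeHom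

set_option autoImplicit false

open CongruenceSubgroup Matrix.SpecialLinearGroup
open scoped MatrixGroups

namespace Fermat.Agent.S41.helper1763

open Fermat.Agent.S16.helper2138
open ModularForm (heckeMatrix heckeDiagMatrix val_heckeMatrix val_heckeDiagMatrix)

/-! ### Integer matrices inside `GL (Fin 2) ℝ` -/

/-- An integer `2 × 2` matrix with nonzero determinant as an element of `GL (Fin 2) ℝ`
(junk value `1` when the determinant vanishes). -/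
noncomputable def intGL (m : Matrix (Fin 2) (Fin 2) ℤ) : GL (Fin 2) ℝ :=
  if h : m.det ≠ 0 then
    Matrix.GeneralLinearGroup.mkOfDetNeZero ((Int.castRingHom ℝ).mapMatrix m) (by
      rw [← RingHom.map_det, eq_intCast]
      exact_mod_cast h)
  else 1

theorem val_intGL {m : Matrix (Fin 2) (Fin 2) ℤ} (h : m.det ≠ 0) :
    ((intGL m : GL (Fin 2) ℝ) : Matrix (Fin 2) (Fin 2) ℝ) = (Int.castRingHom ℝ).mapMatrix m := by
  rw [intGL, dif_pos h]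
  rfl

theorem intGL_mul {m₁ m₂ : Matrix (Fin 2) (Fin 2) ℤ} (h₁ : m₁.det ≠ 0) (h₂ : m₂.det ≠ 0) :
    intGL (m₁ * m₂) = intGL m₁ * intGL m₂ := by
  have h : (m₁ * m₂).det ≠ 0 := by rw [Matrix.det_mul]; exact mul_ne_zero h₁ h₂
  apply Matrix.GeneralLinearGroup.ext
  intro i j
  rw [Matrix.GeneralLinearGroup.coe_mul, val_intGL h, val_intGL h₁, val_intGL h₂, map_mul]

theorem intGL_inj {m₁ m₂ : Matrix (Fin 2) (Fin 2) ℤ} (h₁ : m₁.det ≠ 0) (h₂ : m₂.det ≠ 0)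
    (h : intGL m₁ = intGL m₂) : m₁ = m₂ := by
  have h' := congrArg (fun g : GL (Fin 2) ℝ => (g : Matrix (Fin 2) (Fin 2) ℝ)) h
  simp only [val_intGL h₁, val_intGL h₂] at h'
  ext i j
  have := congrFun (congrFun h' i) j
  simpa using this

theorem det_coe_SL (g : SL(2, ℤ)) : (g : Matrix (Fin 2) (Fin 2) ℤ).det ≠ 0 := by
  rw [g.det_coe]; exact one_ne_zero

theorem mapGL_eq_intGL (g : SL(2, ℤ)) : mapGL ℝ g = intGL (g : Matrix (Fin 2) (Fin 2) ℤ) := by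
  apply Matrix.GeneralLinearGroup.ext
  intro i j
  rw [val_intGL (det_coe_SL g), mapGL_val]
  simp

theorem intGL_rel {m₁ m₂ : Matrix (Fin 2) (Fin 2) ℤ} (π N : SL(2, ℤ)) (h₁ : m₁.det ≠ 0)
    (h₂ : m₂.det ≠ 0)
    (H : m₁ * (π : Matrix (Fin 2) (Fin 2) ℤ) = (N : Matrix (Fin 2) (Fin 2) ℤ) * m₂) :
    intGL m₁ * mapGL ℝ π = mapGL ℝ N * intGL m₂ := by
  rw [mapGL_eq_intGL, mapGL_eq_intGL, ← intGL_mul h₁ (det_coe_SL _),
    ← intGL_mul (det_coe_SL _) h₂, H]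

/-! ### Changing coset representatives -/

section Adapted

variable {Γ : Subgroup SL(2, ℤ)} {ι : Type} [Fintype ι] (C : Corr Γ ι)

/-- If `β x = t x * α (e x)` are other representatives of the cosets of a correspondence and
`β x * γ = N x * β (s x)`, then `(op φ) γ = ∑ x, φ (N x)`. -/
theorem op_eq_sum_of_adapted {κ : Type} [Fintype κ] (e : κ ≃ ι) (t : κ → Γ)
    (β : κ → GL (Fin 2) ℝ) (hβ : ∀ x, β x = mapGL ℝ (t x : SL(2, ℤ)) * C.α (e x))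
    (γ : Γ) (s : κ ≃ κ) (N : κ → Γ)
    (hrel : ∀ x, β x * mapGL ℝ (γ : SL(2, ℤ)) = mapGL ℝ (N x : SL(2, ℤ)) * β (s x))
    (A : Type*) [AddCommGroup A] (φ : Additive Γ →+ A) :
    C.op A φ (Additive.ofMul γ) = ∑ x, φ (Additive.ofMul (N x)) := by
  have key : ∀ x, C.g (e x) γ = (t x)⁻¹ * N x * t (s x) := by
    intro x
    have H : C.α (e x) * mapGL ℝ (γ : SL(2, ℤ)) =
        mapGL ℝ ((((t x)⁻¹ * N x * t (s x) : Γ)) : SL(2, ℤ)) * C.α (e (s x)) := by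
      have h1 := hrel x
      rw [hβ x, hβ (s x)] at h1
      rw [Subgroup.coe_mul, Subgroup.coe_mul, map_mul, map_mul, Subgroup.coe_inv, map_inv]
      have h2 : C.α (e x) * mapGL ℝ (γ : SL(2, ℤ)) =
          (mapGL ℝ (t x : SL(2, ℤ)))⁻¹ *
            (mapGL ℝ (t x : SL(2, ℤ)) * C.α (e x) * mapGL ℝ (γ : SL(2, ℤ))) := by
        group
      rw [h2, h1]
      group
    exact ((C.uniq H).2).symm
  rw [Corr.op_apply, ← Equiv.sum_comp e (fun i => φ (Additive.ofMul (C.g i γ)))]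
  have hterm : ∀ x, φ (Additive.ofMul (C.g (e x) γ)) =
      φ (Additive.ofMul (N x)) + (φ (Additive.ofMul (t (s x))) - φ (Additive.ofMul (t x))) := by
    intro x
    rw [key x, ofMul_mul, ofMul_mul, ofMul_inv, map_add, map_add, map_neg]
    abel
  rw [Finset.sum_congr rfl (fun x _ => hterm x), Finset.sum_add_distrib, Finset.sum_sub_distrib,
    Equiv.sum_comp s (fun x => φ (Additive.ofMul (t x))), sub_self, add_zero]

/-- Variant of `op_eq_sum_of_adapted` with the new representatives indexed by the same type: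
it suffices that every `β x` lies in one of the cosets and that the `β x` lie in pairwise
distinct `SL(2,ℤ)`-cosets. -/
theorem op_eq_sum_of_adapted' (β : ι → GL (Fin 2) ℝ)
    (hβ : ∀ x, ∃ (y : ι) (t : Γ), β x = mapGL ℝ (t : SL(2, ℤ)) * C.α y)
    (hinj : ∀ (x x' : ι) (g : SL(2, ℤ)), mapGL ℝ g * β x = β x' → x = x')
    (γ : Γ) (s : ι ≃ ι) (N : ι → Γ)
    (hrel : ∀ x, β x * mapGL ℝ (γ : SL(2, ℤ)) = mapGL ℝ (N x : SL(2, ℤ)) * β (s x))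
    (A : Type*) [AddCommGroup A] (φ : Additive Γ →+ A) :
    C.op A φ (Additive.ofMul γ) = ∑ x, φ (Additive.ofMul (N x)) := by
  classical
  choose e₀ t ht using hβ
  have hinj₀ : Function.Injective e₀ := by
    intro x x' hxx
    apply hinj x x' ((t x' : SL(2, ℤ)) * (t x : SL(2, ℤ))⁻¹)
    rw [ht x, ht x', hxx, map_mul, map_inv]
    group
  have hbij : Function.Bijective e₀ := Finite.injective_iff_bijective.mp hinj₀
  exact op_eq_sum_of_adapted C (Equiv.ofBijective e₀ hbij) t β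
    (fun x => by rw [ht x]; rfl) γ s N hrel A φ

end Adapted

/-! ### Integer representatives of `T_ℓ` -/

/-- The standard representatives of `T_ℓ` as integer matrices. -/
def Arep (ℓ : ℕ) (x : OnePoint (ZMod ℓ)) : Matrix (Fin 2) (Fin 2) ℤ :=
  x.elim !![(ℓ : ℤ), 0; 0, 1] (fun j => !![1, (j.val : ℤ); 0, (ℓ : ℤ)])

@[simp] theorem Arep_infty (ℓ : ℕ) : Arep ℓ OnePoint.infty = !![(ℓ : ℤ), 0; 0, 1] := rfl

@[simp] theorem Arep_coe (ℓ : ℕ) (j : ZMod ℓ) :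
    Arep ℓ (j : OnePoint (ZMod ℓ)) = !![1, (j.val : ℤ); 0, (ℓ : ℤ)] := rfl

theorem det_Arep (ℓ : ℕ) (x : OnePoint (ZMod ℓ)) : (Arep ℓ x).det = ℓ := by
  induction x using OnePoint.rec with
  | infty => simp [Matrix.det_fin_two_of]
  | coe j => simp [Matrix.det_fin_two_of]

theorem repT_eq_intGL {ℓ : ℕ} (hℓ : ℓ ≠ 0) (x : OnePoint (ZMod ℓ)) :
    repT ℓ x = intGL (Arep ℓ x) := by
  have hdet : (Arep ℓ x).det ≠ 0 := by rw [det_Arep]; exact_mod_cast hℓ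
  apply Matrix.GeneralLinearGroup.ext
  intro a b
  rw [val_intGL hdet]
  induction x using OnePoint.rec with
  | infty =>
    rw [repT_infty, val_heckeDiagMatrix hℓ, Arep_infty]
    fin_cases a <;> fin_cases b <;> simp
  | coe j =>
    rw [repT_coe, val_heckeMatrix hℓ, Arep_coe]
    fin_cases a <;> fin_cases b <;> simp

/-- Every integer matrix of determinant `ℓ` with lower-left entry divisible by `M` lies in
`Γ₀(M) * Arep ℓ y` for some `y` (`ℓ` prime, `ℓ ∤ M`). -/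
theorem exists_gamma0_mul_Arep (M ℓ : ℕ) [Fact ℓ.Prime] (hℓM : ¬ ℓ ∣ M)
    (m : Matrix (Fin 2) (Fin 2) ℤ) (hdet : m.det = ℓ) (hM : (M : ℤ) ∣ m 1 0) :
    ∃ (y : OnePoint (ZMod ℓ)) (τ : Gamma0 M),
      m = ((τ : SL(2, ℤ)) : Matrix (Fin 2) (Fin 2) ℤ) * Arep ℓ y := by
  have hℓp : ℓ.Prime := Fact.out
  have hℓ0 : (ℓ : ℤ) ≠ 0 := by exact_mod_cast hℓp.ne_zero
  have : NeZero ℓ := ⟨hℓp.ne_zero⟩
  rw [Matrix.det_fin_two] at hdet
  by_cases hcase : (ℓ : ℤ) ∣ m 0 0 ∧ (ℓ : ℤ) ∣ m 1 0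
  · obtain ⟨⟨p', hp'⟩, ⟨r', hr'⟩⟩ := hcase
    have hd : p' * m 1 1 - m 0 1 * r' = 1 := by
      apply mul_left_cancel₀ hℓ0
      rw [hp', hr'] at hdet
      linear_combination hdet
    have hMr : (M : ℤ) ∣ r' := by
      have hcop : IsCoprime (M : ℤ) (ℓ : ℤ) :=
        Nat.isCoprime_iff_coprime.mpr ((Nat.Prime.coprime_iff_not_dvd hℓp).mpr hℓM).symm
      exact hcop.dvd_of_dvd_mul_left (hr' ▸ hM)
    refine ⟨OnePoint.infty, ⟨⟨!![p', m 0 1; r', m 1 1], by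
      rw [Matrix.det_fin_two_of]; exact hd⟩, ?_⟩, ?_⟩
    · exact mem_Gamma0_iff_dvd.mpr (by simpa using hMr)
    · ext a b
      fin_cases a <;> fin_cases b <;>
        simp [Matrix.mul_apply, Fin.sum_univ_two, hp', hr', mul_comm]
  · obtain ⟨j, hj1, hj2⟩ : ∃ j : ZMod ℓ, (ℓ : ℤ) ∣ m 0 1 - (j.val : ℤ) * m 0 0 ∧
        (ℓ : ℤ) ∣ m 1 1 - (j.val : ℤ) * m 1 0 := by
      have hdetZ : ((m 0 0 : ℤ) : ZMod ℓ) * ((m 1 1 : ℤ) : ZMod ℓ) -
          ((m 0 1 : ℤ) : ZMod ℓ) * ((m 1 0 : ℤ) : ZMod ℓ) = 0 := by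
        have := congrArg (Int.cast : ℤ → ZMod ℓ) hdet
        push_cast at this
        rw [this]
        exact ZMod.natCast_self ℓ
      by_cases hp : (ℓ : ℤ) ∣ m 0 0
      · have hr : ((m 1 0 : ℤ) : ZMod ℓ) ≠ 0 := fun h =>
          hcase ⟨hp, (ZMod.intCast_zmod_eq_zero_iff_dvd _ _).mp h⟩
        have hp0 : ((m 0 0 : ℤ) : ZMod ℓ) = 0 := (ZMod.intCast_zmod_eq_zero_iff_dvd _ _).mpr hp
        have hq0 : ((m 0 1 : ℤ) : ZMod ℓ) = 0 := by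
          rw [hp0, zero_mul, zero_sub, neg_eq_zero] at hdetZ
          exact (mul_eq_zero.mp hdetZ).resolve_right hr
        refine ⟨((m 1 1 : ℤ) : ZMod ℓ) * ((m 1 0 : ℤ) : ZMod ℓ)⁻¹, ?_, ?_⟩
        · rw [← ZMod.intCast_zmod_eq_zero_iff_dvd]
          push_cast
          rw [ZMod.natCast_zmod_val, hp0, hq0]
          ring
        · rw [← ZMod.intCast_zmod_eq_zero_iff_dvd]
          push_cast
          rw [ZMod.natCast_zmod_val, mul_assoc, inv_mul_cancel₀ hr]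
          ring
      · have hp0 : ((m 0 0 : ℤ) : ZMod ℓ) ≠ 0 := fun h =>
          hp ((ZMod.intCast_zmod_eq_zero_iff_dvd _ _).mp h)
        refine ⟨((m 0 1 : ℤ) : ZMod ℓ) * ((m 0 0 : ℤ) : ZMod ℓ)⁻¹, ?_, ?_⟩
        · rw [← ZMod.intCast_zmod_eq_zero_iff_dvd]
          push_cast
          rw [ZMod.natCast_zmod_val, mul_assoc, inv_mul_cancel₀ hp0]
          ring
        · rw [← ZMod.intCast_zmod_eq_zero_iff_dvd]
          push_cast
          rw [ZMod.natCast_zmod_val]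
          apply (mul_eq_zero.mp (?_ : ((m 0 0 : ℤ) : ZMod ℓ) * _ = 0)).resolve_left hp0
          have e : ((m 0 0 : ℤ) : ZMod ℓ) * (((m 1 1 : ℤ) : ZMod ℓ) -
              ((m 0 1 : ℤ) : ZMod ℓ) * ((m 0 0 : ℤ) : ZMod ℓ)⁻¹ * ((m 1 0 : ℤ) : ZMod ℓ)) =
              ((m 0 0 : ℤ) : ZMod ℓ) * ((m 1 1 : ℤ) : ZMod ℓ) -
                ((m 0 1 : ℤ) : ZMod ℓ) * ((m 1 0 : ℤ) : ZMod ℓ) *
                  (((m 0 0 : ℤ) : ZMod ℓ) * ((m 0 0 : ℤ) : ZMod ℓ)⁻¹) := by ring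
          rw [e, mul_inv_cancel₀ hp0, mul_one, hdetZ]
    obtain ⟨q', hq'⟩ := hj1
    obtain ⟨s', hs'⟩ := hj2
    have hd : m 0 0 * s' - q' * m 1 0 = 1 := by
      apply mul_left_cancel₀ hℓ0
      linear_combination hdet - m 0 0 * hs' + m 1 0 * hq'
    refine ⟨(j : OnePoint (ZMod ℓ)), ⟨⟨!![m 0 0, q'; m 1 0, s'], by
      rw [Matrix.det_fin_two_of]; exact hd⟩, ?_⟩, ?_⟩
    · exact mem_Gamma0_iff_dvd.mpr (by simpa using hM)
    · ext a b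
      fin_cases a <;> fin_cases b <;> simp [-ZMod.natCast_val, Matrix.mul_apply, Fin.sum_univ_two]
      · linear_combination hq'
      · linear_combination hs'

/-! ### Conjugation of integer matrices by `γ₀ ∈ SL(2,ℤ)` -/

/-- conjugation `X ↦ γ₀ X γ₀⁻¹` on integer matrices -/
def cj (γ₀ : SL(2, ℤ)) (X : Matrix (Fin 2) (Fin 2) ℤ) : Matrix (Fin 2) (Fin 2) ℤ :=
  (γ₀ : Matrix (Fin 2) (Fin 2) ℤ) * X * ((γ₀⁻¹ : SL(2, ℤ)) : Matrix (Fin 2) (Fin 2) ℤ)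

theorem coe_inv_mul_coe (γ₀ : SL(2, ℤ)) :
    ((γ₀⁻¹ : SL(2, ℤ)) : Matrix (Fin 2) (Fin 2) ℤ) * (γ₀ : Matrix (Fin 2) (Fin 2) ℤ) = 1 := by
  rw [← Matrix.SpecialLinearGroup.coe_mul, inv_mul_cancel, Matrix.SpecialLinearGroup.coe_one]

theorem coe_mul_coe_inv (γ₀ : SL(2, ℤ)) :
    (γ₀ : Matrix (Fin 2) (Fin 2) ℤ) * ((γ₀⁻¹ : SL(2, ℤ)) : Matrix (Fin 2) (Fin 2) ℤ) = 1 := by
  rw [← Matrix.SpecialLinearGroup.coe_mul, mul_inv_cancel, Matrix.SpecialLinearGroup.coe_one]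

theorem cj_mul (γ₀ : SL(2, ℤ)) (X Y : Matrix (Fin 2) (Fin 2) ℤ) :
    cj γ₀ (X * Y) = cj γ₀ X * cj γ₀ Y := by
  unfold cj
  have h := coe_inv_mul_coe γ₀
  calc (γ₀ : Matrix (Fin 2) (Fin 2) ℤ) * (X * Y) * ((γ₀⁻¹ : SL(2, ℤ)) : Matrix (Fin 2) (Fin 2) ℤ)
      = (γ₀ : Matrix (Fin 2) (Fin 2) ℤ) * X *
          (((γ₀⁻¹ : SL(2, ℤ)) : Matrix (Fin 2) (Fin 2) ℤ) * (γ₀ : Matrix (Fin 2) (Fin 2) ℤ)) * Y *
            ((γ₀⁻¹ : SL(2, ℤ)) : Matrix (Fin 2) (Fin 2) ℤ) := by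
        rw [h, Matrix.mul_one]; simp only [Matrix.mul_assoc]
    _ = _ := by simp only [Matrix.mul_assoc]

theorem det_cj (γ₀ : SL(2, ℤ)) (X : Matrix (Fin 2) (Fin 2) ℤ) : (cj γ₀ X).det = X.det := by
  unfold cj
  rw [Matrix.det_mul, Matrix.det_mul, γ₀.det_coe, (γ₀⁻¹).det_coe, one_mul, mul_one]

theorem cj_coe (γ₀ g : SL(2, ℤ)) :
    cj γ₀ (g : Matrix (Fin 2) (Fin 2) ℤ) = ((γ₀ * g * γ₀⁻¹ : SL(2, ℤ)) : Matrix (Fin 2) (Fin 2) ℤ) := by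
  simp [cj]

theorem cj_injective (γ₀ : SL(2, ℤ)) : Function.Injective (cj γ₀) := by
  intro X Y h
  have h' := congrArg (fun Z => ((γ₀⁻¹ : SL(2, ℤ)) : Matrix (Fin 2) (Fin 2) ℤ) * Z *
    (γ₀ : Matrix (Fin 2) (Fin 2) ℤ)) h
  simp only [cj] at h'
  have e : ∀ Z : Matrix (Fin 2) (Fin 2) ℤ,
      ((γ₀⁻¹ : SL(2, ℤ)) : Matrix (Fin 2) (Fin 2) ℤ) *
        ((γ₀ : Matrix (Fin 2) (Fin 2) ℤ) * Z * ((γ₀⁻¹ : SL(2, ℤ)) : Matrix (Fin 2) (Fin 2) ℤ)) *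
          (γ₀ : Matrix (Fin 2) (Fin 2) ℤ) = Z := by
    intro Z
    calc _ = (((γ₀⁻¹ : SL(2, ℤ)) : Matrix (Fin 2) (Fin 2) ℤ) * (γ₀ : Matrix (Fin 2) (Fin 2) ℤ)) * Z *
          (((γ₀⁻¹ : SL(2, ℤ)) : Matrix (Fin 2) (Fin 2) ℤ) * (γ₀ : Matrix (Fin 2) (Fin 2) ℤ)) := by
            simp only [Matrix.mul_assoc]
      _ = Z := by rw [coe_inv_mul_coe, Matrix.one_mul, Matrix.mul_one]
  rwa [e, e] at h'

/-- the lower-left entry of a conjugate -/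
theorem cj_apply_one_zero (γ₀ : SL(2, ℤ)) (X : Matrix (Fin 2) (Fin 2) ℤ) :
    cj γ₀ X 1 0 = γ₀ 1 0 * γ₀ 1 1 * X 0 0 - γ₀ 1 0 ^ 2 * X 0 1 + γ₀ 1 1 ^ 2 * X 1 0
      - γ₀ 1 0 * γ₀ 1 1 * X 1 1 := by
  simp only [cj, Matrix.mul_apply, Fin.sum_univ_two, Matrix.SpecialLinearGroup.coe_inv,
    Matrix.adjugate_fin_two, Matrix.of_apply, Matrix.cons_val_zero, Matrix.cons_val_one]
  ring

/-! ### Representatives adapted to a cusp -/

/-- upper triangular representatives `!![1, j M; 0, ℓ]`, `!![ℓ, 0; 0, 1]`; their conjugates by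
`γ₀` are congruent to `1` modulo `M` when `ℓ ≡ 1 (mod M)`. -/
def Brep (M ℓ : ℕ) (x : OnePoint (ZMod ℓ)) : Matrix (Fin 2) (Fin 2) ℤ :=
  x.elim !![(ℓ : ℤ), 0; 0, 1] (fun j => !![1, (j.val : ℤ) * M; 0, (ℓ : ℤ)])

@[simp] theorem Brep_infty (M ℓ : ℕ) : Brep M ℓ OnePoint.infty = !![(ℓ : ℤ), 0; 0, 1] := rfl

@[simp] theorem Brep_coe (M ℓ : ℕ) (j : ZMod ℓ) :
    Brep M ℓ (j : OnePoint (ZMod ℓ)) = !![1, (j.val : ℤ) * M; 0, (ℓ : ℤ)] := rfl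

theorem det_Brep (M ℓ : ℕ) (x : OnePoint (ZMod ℓ)) : (Brep M ℓ x).det = ℓ := by
  induction x using OnePoint.rec with
  | infty => simp [Matrix.det_fin_two_of]
  | coe j => simp [Matrix.det_fin_two_of]

theorem Brep_inj (M ℓ : ℕ) [Fact ℓ.Prime] (hℓM : ¬ ℓ ∣ M) (x x' : OnePoint (ZMod ℓ))
    (g : SL(2, ℤ)) (H : (g : Matrix (Fin 2) (Fin 2) ℤ) * Brep M ℓ x = Brep M ℓ x') : x = x' := by
  have hℓp : ℓ.Prime := Fact.out
  have hℓ2 : (2 : ℤ) ≤ ℓ := by exact_mod_cast hℓp.two_le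
  have : NeZero ℓ := ⟨hℓp.ne_zero⟩
  have h00 := congrFun (congrFun H 0) 0
  have h01 := congrFun (congrFun H 0) 1
  have h10 := congrFun (congrFun H 1) 0
  induction x using OnePoint.rec with
  | infty =>
    induction x' using OnePoint.rec with
    | infty => rfl
    | coe j' =>
      exfalso
      simp only [Brep_infty, Brep_coe, Matrix.mul_apply, Fin.sum_univ_two, Matrix.of_apply,
        Matrix.cons_val_zero, Matrix.cons_val_one, mul_zero, add_zero] at h00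
      have := Int.eq_one_or_neg_one_of_mul_eq_one' h00
      omega
  | coe j =>
    induction x' using OnePoint.rec with
    | infty =>
      exfalso
      simp only [Brep_infty, Brep_coe, Matrix.mul_apply, Fin.sum_univ_two, Matrix.of_apply,
        Matrix.cons_val_zero, Matrix.cons_val_one, mul_zero, add_zero, mul_one] at h00 h10
      have hdet := det_SL g
      rw [h00, h10, mul_zero, sub_zero] at hdet
      have := Int.eq_one_or_neg_one_of_mul_eq_one' hdet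
      omega
    | coe j' =>
      simp only [Brep_coe, Matrix.mul_apply, Fin.sum_univ_two, Matrix.of_apply,
        Matrix.cons_val_zero, Matrix.cons_val_one, mul_zero, add_zero, mul_one] at h00 h01
      rw [h00, one_mul] at h01
      have hdvd : (ℓ : ℤ) ∣ ((j'.val : ℤ) - (j.val : ℤ)) * (M : ℤ) := ⟨g 0 1, by linear_combination -h01⟩
      have hcop : IsCoprime (ℓ : ℤ) (M : ℤ) :=
        Nat.isCoprime_iff_coprime.mpr ((Nat.Prime.coprime_iff_not_dvd hℓp).mpr hℓM)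
      have hdvd' : (ℓ : ℤ) ∣ (j'.val : ℤ) - (j.val : ℤ) := hcop.dvd_of_dvd_mul_right hdvd
      have hz := (ZMod.intCast_zmod_eq_zero_iff_dvd _ _).mpr hdvd'
      push_cast at hz
      rw [ZMod.natCast_zmod_val, ZMod.natCast_zmod_val, sub_eq_zero] at hz
      rw [hz]

/-! ### Unipotent elements of `SL(2,ℤ)` -/

/-- A unipotent element of `SL(2,ℤ)` (trace `2`) is conjugate in `SL(2,ℤ)` to a power of `T`. -/
theorem exists_conj_T_zpow (π : SL(2, ℤ)) (htr : (π : Matrix (Fin 2) (Fin 2) ℤ).trace = 2) :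
    ∃ (γ₀ : SL(2, ℤ)) (h : ℤ), π = γ₀ * ModularGroup.T ^ h * γ₀⁻¹ := by
  have hdet := det_SL π
  rw [Matrix.trace_fin_two] at htr
  obtain ⟨u, v, hcop, h1, h2⟩ : ∃ u v : ℤ, IsCoprime u v ∧ π 0 0 * u + π 0 1 * v = u ∧
      π 1 0 * u + π 1 1 * v = v := by
    by_cases hb : π 0 0 - 1 = 0 ∧ π 0 1 = 0
    · refine ⟨0, 1, isCoprime_zero_left.mpr isUnit_one, ?_, ?_⟩
      · simp [hb.2]
      · have h11 : π 1 1 = 1 := by have := hb.1; omega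
        simp [h11]
    · have hg : 0 < Int.gcd (π 0 0 - 1) (π 0 1) := by
        rw [Int.gcd_pos_iff]
        by_contra hcon
        rw [not_or, not_not, not_not] at hcon
        exact hb hcon
      obtain ⟨α', b', hgcd, hα', hb'⟩ := Int.exists_gcd_one hg
      have hcop : IsCoprime b' (-α') :=
        (Int.isCoprime_iff_gcd_eq_one.mpr hgcd).symm.neg_right
      have hg0 : ((Int.gcd (π 0 0 - 1) (π 0 1) : ℕ) : ℤ) ≠ 0 := by exact_mod_cast hg.ne'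
      refine ⟨b', -α', hcop, ?_, ?_⟩
      · apply mul_left_cancel₀ hg0
        have e1 : π 0 0 = α' * (Int.gcd (π 0 0 - 1) (π 0 1) : ℤ) + 1 := by linarith
        have e2 : π 0 1 = b' * (Int.gcd (π 0 0 - 1) (π 0 1) : ℤ) := hb'
        generalize ((Int.gcd (π 0 0 - 1) (π 0 1) : ℕ) : ℤ) = G at *
        rw [e1, e2]
        ring
      · apply mul_left_cancel₀ hg0
        have e1 : π 0 0 = α' * (Int.gcd (π 0 0 - 1) (π 0 1) : ℤ) + 1 := by linarith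
        have e2 : π 0 1 = b' * (Int.gcd (π 0 0 - 1) (π 0 1) : ℤ) := hb'
        have e3 : π 1 1 = 1 - α' * (Int.gcd (π 0 0 - 1) (π 0 1) : ℤ) := by linarith
        generalize ((Int.gcd (π 0 0 - 1) (π 0 1) : ℕ) : ℤ) = G at *
        rw [e1, e2, e3] at hdet
        rw [e3]
        linear_combination (-1 : ℤ) * hdet
  obtain ⟨γ₀, rfl, rfl⟩ := hcop.exists_SL2_col 0
  have hdetγ := det_SL γ₀
  have hX00 : (γ₀⁻¹ * π * γ₀) 0 0 = 1 := by
    simp only [Matrix.SpecialLinearGroup.coe_mul, Matrix.SpecialLinearGroup.coe_inv,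
      Matrix.adjugate_fin_two, Matrix.mul_apply, Fin.sum_univ_two, Matrix.of_apply,
      Matrix.cons_val_zero, Matrix.cons_val_one]
    linear_combination γ₀ 1 1 * h1 - γ₀ 0 1 * h2 + hdetγ
  have hX10 : (γ₀⁻¹ * π * γ₀) 1 0 = 0 := by
    simp only [Matrix.SpecialLinearGroup.coe_mul, Matrix.SpecialLinearGroup.coe_inv,
      Matrix.adjugate_fin_two, Matrix.mul_apply, Fin.sum_univ_two, Matrix.of_apply,
      Matrix.cons_val_zero, Matrix.cons_val_one]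
    linear_combination -γ₀ 1 0 * h1 + γ₀ 0 0 * h2
  have hX11 : (γ₀⁻¹ * π * γ₀) 1 1 = 1 := by
    have hd := det_SL (γ₀⁻¹ * π * γ₀)
    rw [hX00, hX10, mul_zero, sub_zero, one_mul] at hd
    exact hd
  have hX : γ₀⁻¹ * π * γ₀ = ModularGroup.T ^ ((γ₀⁻¹ * π * γ₀) 0 1) := by
    ext i j
    rw [ModularGroup.coe_T_zpow]
    fin_cases i <;> fin_cases j
    · simpa using hX00
    · simp
    · simpa using hX10
    · simpa using hX11
  refine ⟨γ₀, (γ₀⁻¹ * π * γ₀) 0 1, ?_⟩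
  rw [← hX]
  group

/-! ### The unipotent one-parameter group at a cusp -/

/-- the unipotent one-parameter group `s ↦ γ₀ T^s γ₀⁻¹` at the cusp `γ₀ ∞` -/
def P (γ₀ : SL(2, ℤ)) (s : ℤ) : SL(2, ℤ) := γ₀ * ModularGroup.T ^ s * γ₀⁻¹

theorem P_coe (γ₀ : SL(2, ℤ)) (s : ℤ) :
    ((P γ₀ s : SL(2, ℤ)) : Matrix (Fin 2) (Fin 2) ℤ) = cj γ₀ !![1, s; 0, 1] := by
  rw [P, ← cj_coe, ModularGroup.coe_T_zpow]

theorem P_zero (γ₀ : SL(2, ℤ)) : P γ₀ 0 = 1 := by simp [P]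

theorem P_add (γ₀ : SL(2, ℤ)) (s s' : ℤ) : P γ₀ (s + s') = P γ₀ s * P γ₀ s' := by
  simp only [P, zpow_add]
  group

theorem P_neg (γ₀ : SL(2, ℤ)) (s : ℤ) : P γ₀ (-s) = (P γ₀ s)⁻¹ := by
  simp only [P, zpow_neg]
  group

theorem P_mem_iff (M : ℕ) (γ₀ : SL(2, ℤ)) (s : ℤ) :
    P γ₀ s ∈ Gamma0 M ↔ (M : ℤ) ∣ s * γ₀ 1 0 ^ 2 := by
  rw [mem_Gamma0_iff_dvd]
  have e : (P γ₀ s) 1 0 = -(s * γ₀ 1 0 ^ 2) := by
    show ((P γ₀ s : SL(2, ℤ)) : Matrix (Fin 2) (Fin 2) ℤ) 1 0 = _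
    rw [P_coe, cj_apply_one_zero]
    simp only [Matrix.of_apply, Matrix.cons_val_zero, Matrix.cons_val_one]
    ring
  rw [e, dvd_neg]

/-- the integers `s` with `γ₀ T^s γ₀⁻¹ ∈ Γ₀(M)` -/
def parSub (M : ℕ) (γ₀ : SL(2, ℤ)) : AddSubgroup ℤ where
  carrier := {s | P γ₀ s ∈ Gamma0 M}
  zero_mem' := by
    show P γ₀ 0 ∈ Gamma0 M
    rw [P_zero]; exact one_mem _
  add_mem' := by
    intro a b ha hb
    show P γ₀ (a + b) ∈ Gamma0 M
    rw [P_add]; exact mul_mem ha hb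
  neg_mem' := by
    intro a ha
    show P γ₀ (-a) ∈ Gamma0 M
    rw [P_neg]; exact inv_mem ha

theorem mem_parSub {M : ℕ} {γ₀ : SL(2, ℤ)} {s : ℤ} : s ∈ parSub M γ₀ ↔ P γ₀ s ∈ Gamma0 M :=
  Iff.rfl

/-- a character of `Γ₀(M)` restricted to the unipotent group at the cusp `γ₀ ∞` -/
def parHom (M : ℕ) (γ₀ : SL(2, ℤ)) (A : Type*) [AddCommGroup A]
    (χ : Additive (Gamma0 M) →+ A) : parSub M γ₀ →+ A where
  toFun s := χ (Additive.ofMul ⟨P γ₀ (s : ℤ), s.2⟩)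
  map_zero' := by
    have e : (⟨P γ₀ ((0 : parSub M γ₀) : ℤ), (0 : parSub M γ₀).2⟩ : Gamma0 M) = 1 :=
      Subtype.ext (by simp [P_zero])
    rw [e]; simp
  map_add' s s' := by
    have e : (⟨P γ₀ ((s + s' : parSub M γ₀) : ℤ), (s + s').2⟩ : Gamma0 M) =
        ⟨P γ₀ (s : ℤ), s.2⟩ * ⟨P γ₀ (s' : ℤ), s'.2⟩ :=
      Subtype.ext (by simp [P_add])
    rw [e, ofMul_mul, map_add]

theorem parHom_apply (M : ℕ) (γ₀ : SL(2, ℤ)) (A : Type*) [AddCommGroup A]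
    (χ : Additive (Gamma0 M) →+ A) (s : ℤ) (hs : P γ₀ s ∈ Gamma0 M) :
    parHom M γ₀ A χ ⟨s, hs⟩ = χ (Additive.ofMul ⟨P γ₀ s, hs⟩) := rfl

/-! ### The transfer formula on parabolic elements -/

section Main

variable (M ℓ : ℕ) [Fact ℓ.Prime] (hℓM : ¬ ℓ ∣ M)

include hℓM in
theorem natCast_M_ne_zero : ((M : ℕ) : ZMod ℓ) ≠ 0 := by
  intro h
  exact hℓM ((ZMod.natCast_eq_zero_iff _ _).mp h)

/-- the shift of the finite cosets induced by `T^h` at the cusp -/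
noncomputable def shiftEquiv (h : ℤ) : ZMod ℓ ≃ ZMod ℓ :=
  Equiv.addRight ((h : ZMod ℓ) * ((M : ℕ) : ZMod ℓ)⁻¹)

include hℓM in
theorem dvd_shift (h : ℤ) (j : ZMod ℓ) :
    (ℓ : ℤ) ∣ h + (j.val : ℤ) * M - ((shiftEquiv M ℓ h j).val : ℤ) * M := by
  have hℓp : ℓ.Prime := Fact.out
  have : NeZero ℓ := ⟨hℓp.ne_zero⟩
  rw [← ZMod.intCast_zmod_eq_zero_iff_dvd]
  push_cast
  rw [ZMod.natCast_zmod_val, ZMod.natCast_zmod_val]
  show (h : ZMod ℓ) + j * (M : ZMod ℓ) - (j + (h : ZMod ℓ) * ((M : ℕ) : ZMod ℓ)⁻¹) * (M : ZMod ℓ) = 0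
  have hM := natCast_M_ne_zero M ℓ hℓM
  have e : (j + (h : ZMod ℓ) * ((M : ℕ) : ZMod ℓ)⁻¹) * (M : ZMod ℓ) =
      j * (M : ZMod ℓ) + (h : ZMod ℓ) * (((M : ℕ) : ZMod ℓ)⁻¹ * (M : ZMod ℓ)) := by ring
  rw [e, inv_mul_cancel₀ hM]
  ring

/-- the exponents `s_j` with `B_j T^h = T^{s_j} B_{j'}` -/
noncomputable def shiftExp (h : ℤ) (j : ZMod ℓ) : ℤ :=
  (h + (j.val : ℤ) * M - ((shiftEquiv M ℓ h j).val : ℤ) * M) / ℓ

include hℓM in
theorem mul_shiftExp (h : ℤ) (j : ZMod ℓ) :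
    (ℓ : ℤ) * shiftExp M ℓ h j = h + (j.val : ℤ) * M - ((shiftEquiv M ℓ h j).val : ℤ) * M :=
  Int.mul_ediv_cancel' (dvd_shift M ℓ hℓM h j)

include hℓM in
theorem sum_shiftExp (h : ℤ) : ∑ j : ZMod ℓ, shiftExp M ℓ h j = h := by
  have hℓp : ℓ.Prime := Fact.out
  have : NeZero ℓ := ⟨hℓp.ne_zero⟩
  have hℓ0 : (ℓ : ℤ) ≠ 0 := by exact_mod_cast hℓp.ne_zero
  apply mul_left_cancel₀ hℓ0
  rw [Finset.mul_sum, Finset.sum_congr rfl (fun j _ => mul_shiftExp M ℓ hℓM h j),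
    Finset.sum_sub_distrib, Finset.sum_add_distrib, ← Finset.sum_mul, ← Finset.sum_mul,
    Equiv.sum_comp (shiftEquiv M ℓ h) (fun j : ZMod ℓ => (j.val : ℤ)), Finset.sum_const,
    Finset.card_univ, ZMod.card]
  simp

/-- exponents indexed by all cosets: `ℓ h` at `∞` -/
noncomputable def expAt (h : ℤ) (x : OnePoint (ZMod ℓ)) : ℤ :=
  x.elim ((ℓ : ℤ) * h) (shiftExp M ℓ h)

include hℓM in
theorem P_expAt_mem (γ₀ : SL(2, ℤ)) (h : ℤ) (hπ : P γ₀ h ∈ Gamma0 M) (x : OnePoint (ZMod ℓ)) :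
    P γ₀ (expAt M ℓ h x) ∈ Gamma0 M := by
  have hℓp : ℓ.Prime := Fact.out
  rw [P_mem_iff] at hπ ⊢
  induction x using OnePoint.rec with
  | infty =>
    show (M : ℤ) ∣ (ℓ : ℤ) * h * γ₀ 1 0 ^ 2
    rw [mul_assoc]
    exact Dvd.dvd.mul_left hπ _
  | coe j =>
    show (M : ℤ) ∣ shiftExp M ℓ h j * γ₀ 1 0 ^ 2
    have hcop : IsCoprime (M : ℤ) (ℓ : ℤ) :=
      Nat.isCoprime_iff_coprime.mpr ((Nat.Prime.coprime_iff_not_dvd hℓp).mpr hℓM).symm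
    apply hcop.dvd_of_dvd_mul_left
    have e : (ℓ : ℤ) * (shiftExp M ℓ h j * γ₀ 1 0 ^ 2) =
        h * γ₀ 1 0 ^ 2 + (M : ℤ) * (((j.val : ℤ) - ((shiftEquiv M ℓ h j).val : ℤ)) * γ₀ 1 0 ^ 2) := by
      rw [← mul_assoc, mul_shiftExp M ℓ hℓM h j]
      ring
    rw [e]
    exact dvd_add hπ (Dvd.intro _ rfl)

/-- **Transfer formula at a unipotent element.** For `ℓ ≡ 1 (mod M)`,
`(T_ℓ χ)(γ₀ T^h γ₀⁻¹) = (ℓ + 1) • χ(γ₀ T^h γ₀⁻¹)`. -/
theorem heckeHomT_apply_unipotent (h1 : (M : ℤ) ∣ (ℓ : ℤ) - 1) (A : Type*) [AddCommGroup A]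
    (χ : Additive (Gamma0 M) →+ A) (γ₀ : SL(2, ℤ)) (h : ℤ) (hπ : P γ₀ h ∈ Gamma0 M) :
    heckeHomT M ℓ hℓM A χ (Additive.ofMul ⟨P γ₀ h, hπ⟩) =
      (ℓ + 1) • χ (Additive.ofMul ⟨P γ₀ h, hπ⟩) := by
  have hℓp : ℓ.Prime := Fact.out
  have hℓ0 : ℓ ≠ 0 := hℓp.ne_zero
  have hℓ0' : (ℓ : ℤ) ≠ 0 := by exact_mod_cast hℓ0
  have : NeZero ℓ := ⟨hℓ0⟩
  have hdetB : ∀ x, (cj γ₀ (Brep M ℓ x)).det ≠ 0 := by
    intro x; rw [det_cj, det_Brep]; exact hℓ0'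
  -- the adapted representatives lie in the standard cosets
  have hβ : ∀ x, ∃ (y : OnePoint (ZMod ℓ)) (t : Gamma0 M),
      intGL (cj γ₀ (Brep M ℓ x)) = mapGL ℝ (t : SL(2, ℤ)) * (corrT M ℓ hℓM).α y := by
    intro x
    have hM : (M : ℤ) ∣ cj γ₀ (Brep M ℓ x) 1 0 := by
      rw [cj_apply_one_zero]
      obtain ⟨k, hk⟩ := h1
      induction x using OnePoint.rec with
      | infty =>
        refine ⟨γ₀ 1 0 * γ₀ 1 1 * k, ?_⟩
        simp only [Brep_infty, Matrix.of_apply, Matrix.cons_val_zero, Matrix.cons_val_one]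
        linear_combination γ₀ 1 0 * γ₀ 1 1 * hk
      | coe j =>
        refine ⟨-(γ₀ 1 0 * γ₀ 1 1 * k) - γ₀ 1 0 ^ 2 * (j.val : ℤ), ?_⟩
        simp only [Brep_coe, Matrix.of_apply, Matrix.cons_val_zero, Matrix.cons_val_one]
        linear_combination -(γ₀ 1 0 * γ₀ 1 1) * hk
    obtain ⟨y, τ, hτ⟩ := exists_gamma0_mul_Arep M ℓ hℓM (cj γ₀ (Brep M ℓ x))
      (by rw [det_cj, det_Brep]) hM
    refine ⟨y, τ, ?_⟩
    rw [corrT_α, repT_eq_intGL hℓ0, mapGL_eq_intGL,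
      ← intGL_mul (det_coe_SL _) (by rw [det_Arep]; exact hℓ0'), ← hτ]
  -- they lie in distinct cosets
  have hinj : ∀ (x x' : OnePoint (ZMod ℓ)) (g : SL(2, ℤ)),
      mapGL ℝ g * intGL (cj γ₀ (Brep M ℓ x)) = intGL (cj γ₀ (Brep M ℓ x')) → x = x' := by
    intro x x' g H
    rw [mapGL_eq_intGL, ← intGL_mul (det_coe_SL _) (hdetB x)] at H
    have H' := intGL_inj (by rw [Matrix.det_mul]; exact mul_ne_zero (det_coe_SL _) (hdetB x))
      (hdetB x') H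
    have e : (g : Matrix (Fin 2) (Fin 2) ℤ) * cj γ₀ (Brep M ℓ x) =
        cj γ₀ (((γ₀⁻¹ * g * γ₀ : SL(2, ℤ)) : Matrix (Fin 2) (Fin 2) ℤ) * Brep M ℓ x) := by
      have e0 : γ₀ * (γ₀⁻¹ * g * γ₀) * γ₀⁻¹ = g := by group
      rw [cj_mul, cj_coe, e0]
    rw [e] at H'
    exact Brep_inj M ℓ hℓM x x' _ (cj_injective γ₀ H')
  -- the relation with `π = γ₀ T^h γ₀⁻¹`
  have hrel : ∀ x : OnePoint (ZMod ℓ),
      intGL (cj γ₀ (Brep M ℓ x)) * mapGL ℝ (((⟨P γ₀ h, hπ⟩ : Gamma0 M)) : SL(2, ℤ)) =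
        mapGL ℝ (((⟨P γ₀ (expAt M ℓ h x), P_expAt_mem M ℓ hℓM γ₀ h hπ x⟩ : Gamma0 M)) : SL(2, ℤ)) *
          intGL (cj γ₀ (Brep M ℓ (Equiv.optionCongr (shiftEquiv M ℓ h) x))) := by
    intro x
    apply intGL_rel _ _ (hdetB x) (hdetB _)
    show cj γ₀ (Brep M ℓ x) * ((P γ₀ h : SL(2, ℤ)) : Matrix (Fin 2) (Fin 2) ℤ) =
      ((P γ₀ (expAt M ℓ h x) : SL(2, ℤ)) : Matrix (Fin 2) (Fin 2) ℤ) * _
    rw [P_coe, P_coe, ← cj_mul, ← cj_mul]
    congr 1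
    induction x using OnePoint.rec with
    | infty =>
      show Brep M ℓ OnePoint.infty * !![1, h; 0, 1] =
        !![1, (ℓ : ℤ) * h; 0, 1] * Brep M ℓ OnePoint.infty
      ext a b
      fin_cases a <;> fin_cases b <;> simp [Matrix.mul_apply, Fin.sum_univ_two]
    | coe j =>
      show Brep M ℓ (j : OnePoint (ZMod ℓ)) * !![1, h; 0, 1] =
        !![1, shiftExp M ℓ h j; 0, 1] * Brep M ℓ ((shiftEquiv M ℓ h j : ZMod ℓ) : OnePoint (ZMod ℓ))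
      have hs := mul_shiftExp M ℓ hℓM h j
      ext a b
      fin_cases a <;> fin_cases b <;> simp [-ZMod.natCast_val, Matrix.mul_apply, Fin.sum_univ_two]
      linear_combination -hs
  rw [heckeHomT, op_eq_sum_of_adapted' (corrT M ℓ hℓM) (fun x => intGL (cj γ₀ (Brep M ℓ x)))
    hβ hinj ⟨P γ₀ h, hπ⟩ (Equiv.optionCongr (shiftEquiv M ℓ h))
    (fun x => ⟨P γ₀ (expAt M ℓ h x), P_expAt_mem M ℓ hℓM γ₀ h hπ x⟩) hrel A χ]
  -- the sum
  have hh : h ∈ parSub M γ₀ := hπ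
  have hterm : ∀ x : OnePoint (ZMod ℓ),
      χ (Additive.ofMul (⟨P γ₀ (expAt M ℓ h x), P_expAt_mem M ℓ hℓM γ₀ h hπ x⟩ : Gamma0 M)) =
        parHom M γ₀ A χ ⟨expAt M ℓ h x, P_expAt_mem M ℓ hℓM γ₀ h hπ x⟩ := fun x => rfl
  rw [Finset.sum_congr rfl (fun x _ => hterm x)]
  rw [show (∑ x : OnePoint (ZMod ℓ),
      parHom M γ₀ A χ ⟨expAt M ℓ h x, P_expAt_mem M ℓ hℓM γ₀ h hπ x⟩) =
      parHom M γ₀ A χ ⟨(ℓ : ℤ) * h, P_expAt_mem M ℓ hℓM γ₀ h hπ OnePoint.infty⟩ +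
        ∑ j : ZMod ℓ, parHom M γ₀ A χ ⟨shiftExp M ℓ h j,
          P_expAt_mem M ℓ hℓM γ₀ h hπ (j : OnePoint (ZMod ℓ))⟩ from
    Fintype.sum_option _]
  have e1 : (⟨(ℓ : ℤ) * h, P_expAt_mem M ℓ hℓM γ₀ h hπ OnePoint.infty⟩ : parSub M γ₀) =
      ℓ • (⟨h, hh⟩ : parSub M γ₀) := by
    apply Subtype.ext
    simp
  have e2 : (∑ j : ZMod ℓ, (⟨shiftExp M ℓ h j,
      P_expAt_mem M ℓ hℓM γ₀ h hπ (j : OnePoint (ZMod ℓ))⟩ : parSub M γ₀)) = ⟨h, hh⟩ := by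
    apply Subtype.ext
    rw [AddSubgroup.val_finsetSum]
    exact sum_shiftExp M ℓ hℓM h
  rw [e1, map_nsmul, ← map_sum, e2, add_smul, one_smul]
  rfl

end Main

/-! ### General parabolic elements -/

theorem neg_one_mem_Gamma0 (M : ℕ) : (-1 : SL(2, ℤ)) ∈ Gamma0 M := by
  rw [mem_Gamma0_iff_dvd]
  simp [Matrix.SpecialLinearGroup.coe_neg]

theorem card_onePoint_zmod (ℓ : ℕ) [NeZero ℓ] : Fintype.card (OnePoint (ZMod ℓ)) = ℓ + 1 := by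
  rw [show Fintype.card (OnePoint (ZMod ℓ)) = Fintype.card (Option (ZMod ℓ)) from rfl,
    Fintype.card_option, ZMod.card]

/-- The transfer formula at `-1`. -/
theorem heckeHomT_apply_neg_one (M ℓ : ℕ) [Fact ℓ.Prime] (hℓM : ¬ ℓ ∣ M) (A : Type*)
    [AddCommGroup A] (χ : Additive (Gamma0 M) →+ A) :
    heckeHomT M ℓ hℓM A χ (Additive.ofMul ⟨-1, neg_one_mem_Gamma0 M⟩) =
      (ℓ + 1) • χ (Additive.ofMul ⟨-1, neg_one_mem_Gamma0 M⟩) := by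
  have hℓp : ℓ.Prime := Fact.out
  have : NeZero ℓ := ⟨hℓp.ne_zero⟩
  have hrel : ∀ x : OnePoint (ZMod ℓ),
      (corrT M ℓ hℓM).α x * mapGL ℝ (((⟨-1, neg_one_mem_Gamma0 M⟩ : Gamma0 M)) : SL(2, ℤ)) =
        mapGL ℝ (((⟨-1, neg_one_mem_Gamma0 M⟩ : Gamma0 M)) : SL(2, ℤ)) *
          (corrT M ℓ hℓM).α (Equiv.refl _ x) := by
    intro x
    apply Matrix.GeneralLinearGroup.ext
    intro i j
    simp only [Matrix.GeneralLinearGroup.coe_mul, Matrix.mul_apply, Fin.sum_univ_two, mapGL_val,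
      Equiv.refl_apply]
    fin_cases i <;> fin_cases j <;> simp [Matrix.SpecialLinearGroup.coe_neg]
  rw [heckeHomT, op_eq_sum_of_adapted (corrT M ℓ hℓM) (Equiv.refl _) (fun _ => 1)
    (fun x => (corrT M ℓ hℓM).α x) (fun x => by simp) ⟨-1, neg_one_mem_Gamma0 M⟩ (Equiv.refl _)
    (fun _ => ⟨-1, neg_one_mem_Gamma0 M⟩) hrel A χ]
  rw [Finset.sum_const, Finset.card_univ, card_onePoint_zmod]

/-- **Module C1: the transfer formula on parabolic elements.** For `ℓ` prime, `ℓ ∤ M`,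
`ℓ ≡ 1 (mod M)`, every character `χ : Γ₀(M) → A` and every parabolic `π ∈ Γ₀(M)` (in the sense of
the Prelude: `trace ^ 2 = 4`), `(T_ℓ χ)(π) = (ℓ + 1) • χ(π)`. -/
theorem heckeHomT_apply_parabolic (M ℓ : ℕ) [Fact ℓ.Prime] (hℓM : ¬ ℓ ∣ M)
    (h1 : (M : ℤ) ∣ (ℓ : ℤ) - 1) (A : Type*) [AddCommGroup A]
    (χ : Additive (Gamma0 M) →+ A) (π : Gamma0 M)
    (hπ : ((π : SL(2, ℤ)) : Matrix (Fin 2) (Fin 2) ℤ).trace ^ 2 = 4) :
    heckeHomT M ℓ hℓM A χ (Additive.ofMul π) = (ℓ + 1) • χ (Additive.ofMul π) := by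
  have htr : ((π : SL(2, ℤ)) : Matrix (Fin 2) (Fin 2) ℤ).trace = 2 ∨
      ((π : SL(2, ℤ)) : Matrix (Fin 2) (Fin 2) ℤ).trace = -2 := by
    have h0 : (((π : SL(2, ℤ)) : Matrix (Fin 2) (Fin 2) ℤ).trace - 2) *
        (((π : SL(2, ℤ)) : Matrix (Fin 2) (Fin 2) ℤ).trace + 2) = 0 := by
      linear_combination hπ
    rcases mul_eq_zero.mp h0 with h | h
    · left; linarith
    · right; linarith
  rcases htr with htr | htr
  · obtain ⟨γ₀, h, hh⟩ := exists_conj_T_zpow (π : SL(2, ℤ)) htr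
    have hmem : P γ₀ h ∈ Gamma0 M := by
      have := π.2
      rwa [hh] at this
    have e : π = ⟨P γ₀ h, hmem⟩ := Subtype.ext hh
    rw [e]
    exact heckeHomT_apply_unipotent M ℓ hℓM h1 A χ γ₀ h hmem
  · have hn1sq : (⟨-1, neg_one_mem_Gamma0 M⟩ : Gamma0 M) * ⟨-1, neg_one_mem_Gamma0 M⟩ = 1 :=
      Subtype.ext (by simp)
    have htr' : ((((⟨-1, neg_one_mem_Gamma0 M⟩ : Gamma0 M) * π : Gamma0 M) : SL(2, ℤ)) :
        Matrix (Fin 2) (Fin 2) ℤ).trace = 2 := by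
      rw [Subgroup.coe_mul, Matrix.SpecialLinearGroup.coe_mul]
      simp only [Matrix.SpecialLinearGroup.coe_neg, Matrix.SpecialLinearGroup.coe_one,
        neg_mul, one_mul, Matrix.trace_neg]
      linarith
    obtain ⟨γ₀, h, hh⟩ := exists_conj_T_zpow _ htr'
    have hmem : P γ₀ h ∈ Gamma0 M := by
      have := ((⟨-1, neg_one_mem_Gamma0 M⟩ : Gamma0 M) * π).2
      rwa [hh] at this
    have e : (⟨-1, neg_one_mem_Gamma0 M⟩ : Gamma0 M) * π = ⟨P γ₀ h, hmem⟩ := Subtype.ext hh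
    have hπ' := heckeHomT_apply_unipotent M ℓ hℓM h1 A χ γ₀ h hmem
    rw [← e] at hπ'
    have hn := heckeHomT_apply_neg_one M ℓ hℓM A χ
    have e' : Additive.ofMul π = Additive.ofMul (⟨-1, neg_one_mem_Gamma0 M⟩ : Gamma0 M) +
        Additive.ofMul ((⟨-1, neg_one_mem_Gamma0 M⟩ : Gamma0 M) * π) := by
      rw [← ofMul_mul, ← mul_assoc, hn1sq, one_mul]
    rw [e', map_add, map_add, hn, hπ', smul_add]

open ModularCurve.Period in
/-- **Module C2.** `η χ = T_ℓ χ - (ℓ + 1) χ` is a parabolic hom (`ℓ ≡ 1 (mod M)`). -/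
theorem isParabolicHom_heckeHomT_sub (M ℓ : ℕ) [Fact ℓ.Prime] (hℓM : ¬ ℓ ∣ M)
    (h1 : (M : ℤ) ∣ (ℓ : ℤ) - 1) (A : Type*) [AddCommGroup A]
    (χ : Additive (Gamma0 M) →+ A) :
    IsParabolicHom (Gamma0 M) (heckeHomT M ℓ hℓM A χ - (ℓ + 1) • χ) := by
  intro π hπ
  rw [AddMonoidHom.sub_apply, AddMonoidHom.smul_apply,
    heckeHomT_apply_parabolic M ℓ hℓM h1 A χ π hπ, sub_self]

open ModularCurve.Period in
/-- `η` maps all of `Hom(Γ₀(M), A)` into the Prelude submodule `parabolicHoms`. -/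
theorem heckeHomT_sub_mem_parabolicHoms (M ℓ : ℕ) [Fact ℓ.Prime] (hℓM : ¬ ℓ ∣ M)
    (h1 : (M : ℤ) ∣ (ℓ : ℤ) - 1) (R : Type*) [Semiring R] (A : Type*) [AddCommGroup A]
    [Module R A] (χ : Additive (Gamma0 M) →+ A) :
    heckeHomT M ℓ hℓM A χ - (ℓ + 1) • χ ∈ parabolicHoms R (Gamma0 M) A :=
  isParabolicHom_heckeHomT_sub M ℓ hℓM h1 A χ

open ModularCurve.Period in
/-- **Module C3 (eigenclasses).** A `T_ℓ`-eigenclass whose eigenvalue `a` differs from `ℓ + 1` by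
a scalar acting injectively on `A` is parabolic: non-parabolic classes are excluded by `η`. -/
theorem isParabolicHom_of_heckeHomT_eq_smul (M ℓ : ℕ) [Fact ℓ.Prime] (hℓM : ¬ ℓ ∣ M)
    (h1 : (M : ℤ) ∣ (ℓ : ℤ) - 1) (R : Type*) [Ring R] (A : Type*) [AddCommGroup A]
    [Module R A] (χ : Additive (Gamma0 M) →+ A) (a : R)
    (heig : heckeHomT M ℓ hℓM A χ = a • χ)
    (hinj : ∀ x : A, (a - ((ℓ : R) + 1)) • x = 0 → x = 0) :
    IsParabolicHom (Gamma0 M) χ := by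
  intro π hπ
  apply hinj
  have h := heckeHomT_apply_parabolic M ℓ hℓM h1 A χ π hπ
  rw [heig, AddMonoidHom.smul_apply] at h
  rw [sub_smul, h, ← Nat.cast_smul_eq_nsmul R]
  push_cast
  rw [sub_self]

open ModularCurve.Period in
/-- Field form of C3: over a field, a `T_ℓ`-eigenclass with eigenvalue `a ≠ ℓ + 1` is parabolic. -/
theorem mem_parabolicHoms_of_heckeHomT_eq_smul (M ℓ : ℕ) [Fact ℓ.Prime] (hℓM : ¬ ℓ ∣ M)
    (h1 : (M : ℤ) ∣ (ℓ : ℤ) - 1) (K : Type*) [Field K] (A : Type*) [AddCommGroup A]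
    [Module K A] (χ : Additive (Gamma0 M) →+ A) (a : K)
    (heig : heckeHomT M ℓ hℓM A χ = a • χ) (ha : a ≠ (ℓ : K) + 1) :
    χ ∈ parabolicHoms K (Gamma0 M) A :=
  isParabolicHom_of_heckeHomT_eq_smul M ℓ hℓM h1 K A χ a heig (fun x hx => by
    rcases smul_eq_zero.mp hx with h | h
    · exact absurd (sub_eq_zero.mp h) ha
    · exact h)

end Fermat.Agent.S41.helper1763
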