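/-
S41 (level raising) -- module C, helper1763: the captain's interface `Stmt_Boundary`
(`Fermat.Agent.S41.helper123.Stmt_Boundary`) is PROVED here, from
`Fermat.Agent.S41.helper1763.isParabolicHom_heckeHomT_sub`.

Also provided, in the exact `eta` notation of the captain's Spec:
* `eta_isParabolicHom`     : `IsParabolicHom (Gamma0 M) (eta M l hl A φ)` for `l ≡ 1 mod M`;
* `eta_apply_parabolic`    : `eta M l hl A φ (ofMul π) = 0` for `π` of trace `±2`;
* `eta_eta_isParabolicHom` etc. are immediate from these (apply to `eta … φ`).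
-/
import Mathlib
import Fermat.Agent.S41.helper123_Spec
import Fermat.Agent.S41.helper1763_Boundary

set_option autoImplicit false
open scoped CongruenceSubgroup MatrixGroups
open CongruenceSubgroup Fermat.Agent.S16.helper2138

namespace Fermat.Agent.S41.helper1763

/-- `(l : ZMod M) = 1` is the congruence `M ∣ l - 1` over `ℤ`. -/
theorem int_dvd_sub_one_of_zmod_eq_one (M l : ℕ) (h : (l : ZMod M) = 1) :
    (M : ℤ) ∣ (l : ℤ) - 1 := by
  rw [← ZMod.intCast_zmod_eq_zero_iff_dvd]
  push_cast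
  rw [h, sub_self]

/-- The `ℤ`-scalar `(l : ℤ) + 1` acts on a hom as the `ℕ`-scalar `l + 1`. -/
theorem intCast_add_one_zsmul (l : ℕ) {G A : Type*} [AddZeroClass G] [AddCommGroup A]
    (φ : G →+ A) : ((l : ℤ) + 1) • φ = (l + 1) • φ := by
  have h : ((l : ℤ) + 1) = ((l + 1 : ℕ) : ℤ) := by push_cast; rfl
  rw [h, natCast_zsmul]

/-- **Module C, Spec form.** The captain's `Stmt_Boundary` holds. -/
theorem stmt_Boundary : Fermat.Agent.S41.helper123.Stmt_Boundary := by
  intro M l _ hl _ h1 A _ φ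
  rw [intCast_add_one_zsmul]
  exact isParabolicHom_heckeHomT_sub M l hl (int_dvd_sub_one_of_zmod_eq_one M l h1) A φ

/-- `η = T_l - (l+1)` (captain's `eta`) lands in parabolic homs when `l ≡ 1 mod M`. -/
theorem eta_isParabolicHom (M l : ℕ) [Fact l.Prime] (hl : ¬ l ∣ M) (h1 : (l : ZMod M) = 1)
    (A : Type*) [AddCommGroup A] (φ : Additive (Gamma0 M) →+ A) :
    ModularCurve.Period.IsParabolicHom (Gamma0 M) (Fermat.Agent.S41.helper123.eta M l hl A φ) := by
  unfold Fermat.Agent.S41.helper123.eta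
  rw [intCast_add_one_zsmul]
  exact isParabolicHom_heckeHomT_sub M l hl (int_dvd_sub_one_of_zmod_eq_one M l h1) A φ

/-- Pointwise form: `η φ` vanishes on every element of trace `±2`. -/
theorem eta_apply_parabolic (M l : ℕ) [Fact l.Prime] (hl : ¬ l ∣ M) (h1 : (l : ZMod M) = 1)
    (A : Type*) [AddCommGroup A] (φ : Additive (Gamma0 M) →+ A) (π : Gamma0 M)
    (hπ : ((π : SL(2, ℤ)) : Matrix (Fin 2) (Fin 2) ℤ).trace ^ 2 = 4) :
    Fermat.Agent.S41.helper123.eta M l hl A φ (Additive.ofMul π) = 0 :=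
  eta_isParabolicHom M l hl h1 A φ π hπ

end Fermat.Agent.S41.helper1763
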