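/-
S41, module E (CSP core), interface between the two halves of the proof in findings #2895.

* `SymbolRules N q J S` : the formal rules of the column symbol
  `S a c = Φ [[a, *], [c, *]]` of a hom `Φ` on `Γ₀(N)[1/q]` killing the unipotents.
* `Stmt_SymbolVanish`   : the rules force `S a c = 0` for `a ≡ 1 mod N` (proved in
  `helper389_SymbolVanish.lean`).
Mathlib only.
-/
import Mathlib

set_option autoImplicit false

namespace Fermat.Agent.S41.helper389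

/-- Admissible column: `N ∣ c` and `a`, `c` coprime integers. -/
def Adm (N : ℕ) (a c : ℤ) : Prop := (N : ℤ) ∣ c ∧ IsCoprime a c

/-- The formal rules satisfied by the column symbol `S a c := Φ [[a, *], [c, *]]`
(on admissible integer columns) of a homomorphism `Φ : Γ₀(N)[1/q] → V` (`V` abelian,
`Φ (-1) = 0`) killing `[[1, x], [0, 1]]` and `[[1, 0], [N y, 1]]`, where `q ^ J ≡ 1 mod N`.

* `r0`–`r2` : elementary row operations;
* `r3` : conjugation by `diag (1/q, q)`;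
* `r6` : right multiplication by `diag (w, 1/w)`, `w = q ^ (2 J)` (`Φ` kills it), then `r3`;
* `m2` : `Φ (g₁ g₂⁻¹) = Φ g₁ - Φ g₂` for `gᵢ = [[aᵢ, bᵢ], [cᵢ, -d]]`, `b₁ = b`. -/
structure SymbolRules (N q J : ℕ) {V : Type*} [AddCommGroup V] (S : ℤ → ℤ → V) : Prop where
  r0 : S 1 0 = 0
  r1 : ∀ a c x : ℤ, Adm N a c → S (a + x * c) c = S a c
  r2 : ∀ a c y : ℤ, Adm N a c → S a (c + y * ((N : ℤ) * a)) = S a c
  r3 : ∀ a c : ℤ, Adm N a c → ¬ (q : ℤ) ∣ a → S a ((q : ℤ) ^ 2 * c) = S a c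
  r6 : ∀ a c : ℤ, Adm N a c → ¬ (q : ℤ) ∣ c → S ((q : ℤ) ^ (2 * J) * a) c = S a c
  m2 : ∀ d c₁ c₂ b : ℤ, Adm N d c₁ → Adm N d c₂ → d ∣ b * c₁ + 1 →
    S d c₂ - S d c₁ = S (1 + b * (c₁ - c₂)) (d * (c₂ - c₁))

/-- **Symbol vanishing** (Steps 1–5 of findings #2895): for an odd prime `p`, a `ZMod p`-valued
symbol obeying the rules vanishes on every admissible column `(a, c)` with `a ≡ 1 mod N`. -/
def Stmt_SymbolVanish : Prop :=
  ∀ (N q J p : ℕ), 0 < N → q.Prime → ¬ q ∣ N → 0 < J → (q : ℤ) ^ J ≡ 1 [ZMOD (N : ℤ)] →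
    p.Prime → p ≠ 2 →
    ∀ S : ℤ → ℤ → ZMod p, SymbolRules N q J S →
      ∀ a c : ℤ, Adm N a c → a ≡ 1 [ZMOD (N : ℤ)] → S a c = 0

end Fermat.Agent.S41.helper389
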