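/-
S41, module E (CSP), Step 3 of findings #2895 (helper389's elementary proof), as a standalone
Mathlib-only lemma.

`f : ZMod l → V` (only the values at nonzero residues matter), `iota ≠ 0, 1`,
`f (iota * s) = f s`, and the cross relation
`f (s * rho * t) - f (s * rho) = f (s * t) - f s` for `rho * (iota * t - 1) = t - 1`
(`t ∉ {0, 1, 1/iota}`), with values in characteristic `p ∤ l - 1`:
then `f` is constant on the nonzero residues.

Proof: finite Fourier analysis on `(ZMod l)ˣ` with Dirichlet characters valued in an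
algebraically closed field of characteristic `p`, and a pigeonhole on a Moebius map.
-/
import Mathlib

set_option autoImplicit false

namespace Fermat.Agent.S41.helper674

open Finset

section Core

variable {l : ℕ} [Fact l.Prime] {K : Type*} [Field K]

/-- The Fourier coefficient of `f` at the Dirichlet character `χ`. -/
noncomputable def fourierCoeff (f : ZMod l → K) (χ : DirichletCharacter K l) : K :=
  ∑ a : ZMod l, χ a⁻¹ * f a

theorem char_zero_eq (χ : DirichletCharacter K l) : χ (0 : ZMod l) = 0 :=
  MulChar.map_zero χ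

theorem char_inv_mul (χ : DirichletCharacter K l) {a : ZMod l} (ha : a ≠ 0) :
    χ a⁻¹ * χ a = 1 := by
  rw [← map_mul, inv_mul_cancel₀ ha, map_one]

theorem char_ne_zero (χ : DirichletCharacter K l) {a : ZMod l} (ha : a ≠ 0) : χ a ≠ 0 := by
  intro h
  have := char_inv_mul χ ha
  rw [h, mul_zero] at this
  exact zero_ne_one this

/-- Translating the argument multiplies the Fourier coefficient by the character value. -/
theorem fourierCoeff_translate (f : ZMod l → K) (χ : DirichletCharacter K l) {h : ZMod l}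
    (hh : h ≠ 0) : fourierCoeff (fun s => f (s * h)) χ = χ h * fourierCoeff f χ := by
  unfold fourierCoeff
  rw [Finset.mul_sum]
  refine Fintype.sum_equiv (Equiv.mulRight₀ h hh) _ _ fun a => ?_
  simp only [Equiv.mulRight₀_apply]
  by_cases ha : a = 0
  · subst ha
    simp [char_zero_eq]
  · rw [mul_inv, map_mul, ← mul_assoc, ← mul_assoc, mul_comm (χ h) (χ a⁻¹), mul_assoc (χ a⁻¹),
      mul_comm (χ h), char_inv_mul χ hh, mul_one]

/-- Two functions agreeing at the nonzero residues have the same Fourier coefficients. -/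
theorem fourierCoeff_congr {f g : ZMod l → K} (χ : DirichletCharacter K l)
    (hfg : ∀ s, s ≠ 0 → f s = g s) : fourierCoeff f χ = fourierCoeff g χ := by
  unfold fourierCoeff
  refine Finset.sum_congr rfl fun a _ => ?_
  by_cases ha : a = 0
  · subst ha
    simp [char_zero_eq]
  · rw [hfg a ha]

theorem fourierCoeff_add (f g : ZMod l → K) (χ : DirichletCharacter K l) :
    fourierCoeff (fun s => f s + g s) χ = fourierCoeff f χ + fourierCoeff g χ := by
  unfold fourierCoeff
  rw [← Finset.sum_add_distrib]
  exact Finset.sum_congr rfl fun a _ => by ring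

theorem fourierCoeff_sub (f g : ZMod l → K) (χ : DirichletCharacter K l) :
    fourierCoeff (fun s => f s - g s) χ = fourierCoeff f χ - fourierCoeff g χ := by
  unfold fourierCoeff
  rw [← Finset.sum_sub_distrib]
  exact Finset.sum_congr rfl fun a _ => by ring

/-- The pigeonhole at the heart of Step 3: a nontrivial character whose Fourier coefficient
does not vanish cannot exist. -/
theorem fourierCoeff_eq_zero_of_cross (f : ZMod l → K) (iota : ZMod l) (hi0 : iota ≠ 0)
    (hi1 : iota ≠ 1) (hinv : ∀ s, s ≠ 0 → f (iota * s) = f s)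
    (hW : ∀ t rho s : ZMod l, t ≠ 0 → t ≠ 1 → iota * t ≠ 1 → s ≠ 0 →
      rho * (iota * t - 1) = t - 1 → f (s * rho * t) - f (s * rho) = f (s * t) - f s)
    (χ : DirichletCharacter K l) (hχ : χ ≠ 1) : fourierCoeff f χ = 0 := by
  by_contra hF
  -- (a) `χ iota = 1`
  have hχi : χ iota = 1 := by
    have h1 : fourierCoeff (fun s => f (s * iota)) χ = fourierCoeff f χ :=
      fourierCoeff_congr χ fun s hs => by rw [mul_comm]; exact hinv s hs
    rw [fourierCoeff_translate f χ hi0] at h1
    have h2 : (χ iota - 1) * fourierCoeff f χ = 0 := by rw [sub_mul, h1, one_mul, sub_self]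
    rcases mul_eq_zero.mp h2 with h | h
    · exact sub_eq_zero.mp h
    · exact absurd h hF
  -- (b) the cross relation on character values
  have hcross : ∀ t rho : ZMod l, t ≠ 0 → t ≠ 1 → iota * t ≠ 1 →
      rho * (iota * t - 1) = t - 1 → χ t ≠ 1 → χ rho = 1 := by
    intro t rho ht0 ht1 hit hrho hχt
    have hden : iota * t - 1 ≠ 0 := sub_ne_zero.mpr hit
    have hrho0 : rho ≠ 0 := by
      rintro rfl
      rw [zero_mul] at hrho
      exact ht1 (sub_eq_zero.mp hrho.symm)
    have h1 : fourierCoeff (fun s => f (s * rho * t) - f (s * rho)) χ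
        = fourierCoeff (fun s => f (s * t) - f s) χ :=
      fourierCoeff_congr χ fun s hs => hW t rho s ht0 ht1 hit hs hrho
    rw [fourierCoeff_sub, fourierCoeff_sub] at h1
    have e1 : fourierCoeff (fun s => f (s * rho * t)) χ = χ rho * χ t * fourierCoeff f χ := by
      have : (fun s : ZMod l => f (s * rho * t)) = fun s => f (s * (rho * t)) := by
        funext s; rw [mul_assoc]
      rw [this, fourierCoeff_translate f χ (mul_ne_zero hrho0 ht0), map_mul]
    rw [e1, fourierCoeff_translate f χ hrho0, fourierCoeff_translate f χ ht0] at h1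
    have h2 : (χ rho - 1) * (χ t - 1) * fourierCoeff f χ = 0 := by
      have : (χ rho - 1) * (χ t - 1) * fourierCoeff f χ
          = (χ rho * χ t * fourierCoeff f χ - χ rho * fourierCoeff f χ)
            - (χ t * fourierCoeff f χ - fourierCoeff f χ) := by ring
      rw [this, h1, sub_self]
    rcases mul_eq_zero.mp h2 with h | h
    · rcases mul_eq_zero.mp h with h | h
      · exact sub_eq_zero.mp h
      · exact absurd (sub_eq_zero.mp h) hχt
    · exact absurd h hF
  -- (c) the count
  classical
  set A : Finset (ZMod l) := Finset.univ.filter fun t => t ≠ 0 ∧ χ t ≠ 1 with hA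
  set K0 : Finset (ZMod l) := Finset.univ.filter fun z => z ≠ 0 ∧ χ z = 1 with hK0
  have h1K0 : (1 : ZMod l) ∈ K0 := by
    simp only [hK0, Finset.mem_filter, Finset.mem_univ, true_and]
    exact ⟨one_ne_zero, map_one χ⟩
  -- `K0 → A` by multiplication with a non-kernel element
  obtain ⟨g0, hg0⟩ := (MulChar.ne_one_iff).mp hχ
  have hg00 : (g0 : ZMod l) ≠ 0 := g0.ne_zero
  have hK0A : K0.card ≤ A.card := by
    refine Finset.card_le_card_of_injOn (fun z => (g0 : ZMod l) * z) ?_ ?_
    · intro z hz
      simp only [hK0, Finset.coe_filter, Finset.mem_univ, true_and, Set.mem_ofPred_eq] at hz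
      simp only [hA, Finset.coe_filter, Finset.mem_univ, true_and, Set.mem_ofPred_eq]
      refine ⟨mul_ne_zero hg00 hz.1, ?_⟩
      rw [map_mul, hz.2, mul_one]
      exact hg0
    · intro z _ z' _ hzz'
      exact mul_left_cancel₀ hg00 hzz'
  -- `A → K0 \ {1}` by the Moebius map
  have hAK0 : A.card ≤ (K0.erase 1).card := by
    refine Finset.card_le_card_of_injOn (fun t => (t - 1) * (iota * t - 1)⁻¹) ?_ ?_
    · intro t ht
      simp only [hA, Finset.coe_filter, Finset.mem_univ, true_and, Set.mem_ofPred_eq] at ht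
      obtain ⟨ht0, hχt⟩ := ht
      have ht1 : t ≠ 1 := by
        rintro rfl
        exact hχt (map_one χ)
      have hit : iota * t ≠ 1 := by
        intro h
        apply hχt
        have := congrArg χ h
        rw [map_mul, hχi, one_mul, map_one] at this
        exact this
      have hden : iota * t - 1 ≠ 0 := sub_ne_zero.mpr hit
      have hrho : (t - 1) * (iota * t - 1)⁻¹ * (iota * t - 1) = t - 1 := by
        rw [mul_assoc, inv_mul_cancel₀ hden, mul_one]
      have hχrho := hcross t _ ht0 ht1 hit hrho hχt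
      simp only [hK0, Finset.coe_erase, Finset.coe_filter, Finset.mem_univ, true_and,
        Set.mem_sdiff, Set.mem_ofPred_eq, Set.mem_singleton_iff]
      refine ⟨⟨mul_ne_zero (sub_ne_zero.mpr ht1) (inv_ne_zero hden), hχrho⟩, ?_⟩
      intro h
      rw [h, one_mul] at hrho
      -- `iota * t - 1 = t - 1` forces `(iota - 1) * t = 0`
      have h3 : (iota - 1) * t = 0 := by
        have : (iota - 1) * t = (iota * t - 1) - (t - 1) := by ring
        rw [this, hrho, sub_self]
      rcases mul_eq_zero.mp h3 with h4 | h4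
      · exact hi1 (sub_eq_zero.mp h4)
      · exact ht0 h4
    · intro t ht t' ht' htt'
      simp only [hA, Finset.coe_filter, Finset.mem_univ, true_and, Set.mem_ofPred_eq] at ht ht'
      have hit : ∀ u : ZMod l, χ u ≠ 1 → iota * u - 1 ≠ 0 := by
        intro u hχu h
        apply hχu
        have := congrArg χ (sub_eq_zero.mp h)
        rw [map_mul, hχi, one_mul, map_one] at this
        exact this
      have hd := hit t ht.2
      have hd' := hit t' ht'.2
      have h5 : (t - 1) * (iota * t' - 1) = (t' - 1) * (iota * t - 1) := by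
        have h6 : (t - 1) * (iota * t - 1)⁻¹ = (t' - 1) * (iota * t' - 1)⁻¹ := htt'
        have h9 : t - 1 = (t' - 1) * (iota * t' - 1)⁻¹ * (iota * t - 1) := by
          rw [← h6, mul_assoc, inv_mul_cancel₀ hd, mul_one]
        calc (t - 1) * (iota * t' - 1)
            = (t' - 1) * (iota * t' - 1)⁻¹ * (iota * t - 1) * (iota * t' - 1) := by rw [← h9]
          _ = (t' - 1) * (iota * t - 1) * ((iota * t' - 1)⁻¹ * (iota * t' - 1)) := by ring
          _ = (t' - 1) * (iota * t - 1) := by rw [inv_mul_cancel₀ hd', mul_one]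
      have h7 : (iota - 1) * (t - t') = 0 := by linear_combination h5
      rcases mul_eq_zero.mp h7 with h8 | h8
      · exact absurd (sub_eq_zero.mp h8) hi1
      · exact sub_eq_zero.mp h8
  have hcard : (K0.erase 1).card = K0.card - 1 := Finset.card_erase_of_mem h1K0
  have hpos : 0 < K0.card := Finset.card_pos.mpr ⟨1, h1K0⟩
  omega

variable [HasEnoughRootsOfUnity K (Monoid.exponent (ZMod l)ˣ)]

/-- Fourier inversion on the nonzero residues. -/
theorem sum_char_mul_fourierCoeff (f : ZMod l → K) {b : ZMod l} (hb : b ≠ 0) :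
    ∑ χ : DirichletCharacter K l, χ b * fourierCoeff f χ = (l.totient : K) * f b := by
  have : NeZero l := ⟨(Fact.out : l.Prime).ne_zero⟩
  unfold fourierCoeff
  simp only [Finset.mul_sum]
  rw [Finset.sum_comm]
  have key : ∀ a : ZMod l, ∑ χ : DirichletCharacter K l, χ b * (χ a⁻¹ * f a)
      = if a = b then (l.totient : K) * f b else 0 := by
    intro a
    by_cases ha : a = 0
    · subst ha
      have hb' : ¬ (0 : ZMod l) = b := fun h => hb h.symm
      simp [char_zero_eq, hb']
    · have hu : IsUnit a := isUnit_iff_ne_zero.mpr ha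
      have h := DirichletCharacter.sum_char_inv_mul_char_eq K hu b
      have : ∑ χ : DirichletCharacter K l, χ b * (χ a⁻¹ * f a)
          = (∑ χ : DirichletCharacter K l, χ a⁻¹ * χ b) * f a := by
        rw [Finset.sum_mul]
        exact Finset.sum_congr rfl fun χ _ => by ring
      rw [this, h]
      split_ifs with hab
      · rw [hab]
      · rw [zero_mul]
  rw [Finset.sum_congr rfl fun a _ => key a]
  simp

/-- **Step 3**, field-valued form. -/
theorem const_of_cross_field (hl : (l.totient : K) ≠ 0) (f : ZMod l → K) (iota : ZMod l)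
    (hi0 : iota ≠ 0) (hi1 : iota ≠ 1) (hinv : ∀ s, s ≠ 0 → f (iota * s) = f s)
    (hW : ∀ t rho s : ZMod l, t ≠ 0 → t ≠ 1 → iota * t ≠ 1 → s ≠ 0 →
      rho * (iota * t - 1) = t - 1 → f (s * rho * t) - f (s * rho) = f (s * t) - f s) :
    ∀ s s' : ZMod l, s ≠ 0 → s' ≠ 0 → f s = f s' := by
  have hval : ∀ b : ZMod l, b ≠ 0 →
      (l.totient : K) * f b = fourierCoeff f (1 : DirichletCharacter K l) := by
    intro b hb
    rw [← sum_char_mul_fourierCoeff f hb]
    rw [Finset.sum_eq_single (1 : DirichletCharacter K l)]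
    · rw [MulChar.one_apply (isUnit_iff_ne_zero.mpr hb), one_mul]
    · intro χ _ hχ
      rw [fourierCoeff_eq_zero_of_cross f iota hi0 hi1 hinv hW χ hχ, mul_zero]
    · intro h
      exact absurd (Finset.mem_univ _) h
  intro s s' hs hs'
  have := (hval s hs).trans (hval s' hs').symm
  exact mul_left_cancel₀ hl this

end Core

/-- `l - 1` is invertible in characteristic `p ∤ l - 1`, and the algebraic closure of `ZMod p`
has enough roots of unity for the characters of `(ZMod l)ˣ`. -/
theorem exponent_units_dvd (l : ℕ) [Fact l.Prime] : Monoid.exponent (ZMod l)ˣ ∣ l - 1 := by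
  have h := Group.exponent_dvd_card (G := (ZMod l)ˣ)
  rwa [ZMod.card_units] at h

/-- **Step 3 of the CSP proof** (findings #2895), values in `ZMod p`. -/
theorem const_of_cross {l p : ℕ} [Fact l.Prime] [Fact p.Prime] (hpl : ¬ p ∣ l - 1)
    (f : ZMod l → ZMod p) (iota : ZMod l) (hi0 : iota ≠ 0) (hi1 : iota ≠ 1)
    (hinv : ∀ s, s ≠ 0 → f (iota * s) = f s)
    (hW : ∀ t rho s : ZMod l, t ≠ 0 → t ≠ 1 → iota * t ≠ 1 → s ≠ 0 →
      rho * (iota * t - 1) = t - 1 → f (s * rho * t) - f (s * rho) = f (s * t) - f s) :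
    ∀ s s' : ZMod l, s ≠ 0 → s' ≠ 0 → f s = f s' := by
  set K := AlgebraicClosure (ZMod p) with hK
  have hcast : ∀ n : ℕ, ¬ p ∣ n → ((n : ZMod p) ≠ 0) := by
    intro n hn h
    exact hn ((ZMod.natCast_eq_zero_iff n p).mp h)
  have : NeZero ((Monoid.exponent (ZMod l)ˣ : ℕ) : ZMod p) :=
    ⟨hcast _ fun h => hpl (h.trans (exponent_units_dvd l))⟩
  have hinj : Function.Injective (algebraMap (ZMod p) K) := (algebraMap (ZMod p) K).injective
  have htot : ((l.totient : ℕ) : K) ≠ 0 := by
    rw [Nat.totient_prime (Fact.out : l.Prime)]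
    have h0 : ((l - 1 : ℕ) : ZMod p) ≠ 0 := hcast _ hpl
    intro h
    apply h0
    apply hinj
    rw [map_natCast, map_zero]
    exact h
  intro s s' hs hs'
  apply hinj
  refine const_of_cross_field (K := K) htot (fun x => algebraMap (ZMod p) K (f x)) iota hi0 hi1
    (fun x hx => by rw [hinv x hx]) ?_ s s' hs hs'
  intro t rho x ht0 ht1 hit hx hrho
  rw [← map_sub, ← map_sub, hW t rho x ht0 ht1 hit hx hrho]

/-- **Step 3**, values in an arbitrary `ZMod p`-vector space. -/
theorem const_of_cross_module {l p : ℕ} [Fact l.Prime] [Fact p.Prime] (hpl : ¬ p ∣ l - 1)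
    {V : Type*} [AddCommGroup V] [Module (ZMod p) V]
    (f : ZMod l → V) (iota : ZMod l) (hi0 : iota ≠ 0) (hi1 : iota ≠ 1)
    (hinv : ∀ s, s ≠ 0 → f (iota * s) = f s)
    (hW : ∀ t rho s : ZMod l, t ≠ 0 → t ≠ 1 → iota * t ≠ 1 → s ≠ 0 →
      rho * (iota * t - 1) = t - 1 → f (s * rho * t) - f (s * rho) = f (s * t) - f s) :
    ∀ s s' : ZMod l, s ≠ 0 → s' ≠ 0 → f s = f s' := by
  intro s s' hs hs'
  rw [← sub_eq_zero, ← Module.forall_dual_apply_eq_zero_iff (ZMod p)]
  intro φ
  rw [map_sub, sub_eq_zero]
  refine const_of_cross hpl (fun x => φ (f x)) iota hi0 hi1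
    (fun x hx => by rw [hinv x hx]) ?_ s s' hs hs'
  intro t rho x ht0 ht1 hit hx hrho
  rw [← map_sub, ← map_sub, hW t rho x ht0 ht1 hit hx hrho]

end Fermat.Agent.S41.helper674
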