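/-
S41, module E (CSP core): the symbol vanishing theorem (Steps 1–5 of findings #2895).
Step 3 (constancy from the cross relation) is imported from `helper674_CharCount`.
-/
import Fermat.Agent.S41.helper389_SymbolSpec
import Fermat.Agent.S41.helper674_CharCount

set_option autoImplicit false

namespace Fermat.Agent.S41.helper389

open Finset

/-! ### Elementary consequences of the rules -/

section basic

variable {N q J p : ℕ} {S : ℤ → ℤ → ZMod p}

theorem adm_one (N : ℕ) {c : ℤ} (hc : (N : ℤ) ∣ c) : Adm N 1 c := ⟨hc, isCoprime_one_left⟩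

theorem S_one (hS : SymbolRules N q J S) {c : ℤ} (hc : (N : ℤ) ∣ c) : S 1 c = 0 := by
  obtain ⟨y, rfl⟩ := hc
  have h := hS.r2 1 0 y (adm_one N (dvd_zero _))
  rw [hS.r0] at h
  rw [← h]
  congr 1
  ring

/-- `S` only depends on `a` modulo `c`. -/
theorem S_congr_left (hS : SymbolRules N q J S) {a a' c : ℤ} (h : Adm N a c)
    (hm : a' ≡ a [ZMOD c]) : S a' c = S a c := by
  obtain ⟨x, hx⟩ := Int.modEq_iff_dvd.mp hm.symm
  have : a' = a + x * c := by linarith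
  rw [this]
  exact hS.r1 a c x h

theorem Adm.coprime_N {a c : ℤ} (h : Adm N a c) : IsCoprime a (N : ℤ) := by
  obtain ⟨⟨k, rfl⟩, hc⟩ := h
  exact hc.of_mul_right_left

/-- `S` only depends on `c` (a multiple of `N`) modulo `a`. -/
theorem S_congr_right (hS : SymbolRules N q J S) {a c c' : ℤ} (h : Adm N a c)
    (hN : (N : ℤ) ∣ c') (hm : c' ≡ c [ZMOD a]) : S a c' = S a c := by
  have h1 : a ∣ c' - c := Int.modEq_iff_dvd.mp hm.symm
  have h2 : (N : ℤ) ∣ c' - c := dvd_sub hN h.1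
  obtain ⟨y, hy⟩ := (h.coprime_N.symm).mul_dvd h2 h1
  have : c' = c + y * ((N : ℤ) * a) := by linarith
  rw [this]
  exact hS.r2 a c y h

theorem adm_congr_left {a a' c : ℤ} (h : Adm N a c) (hm : a' ≡ a [ZMOD c]) : Adm N a' c := by
  obtain ⟨x, hx⟩ := Int.modEq_iff_dvd.mp hm.symm
  have : a' = a + x * c := by linarith
  rw [this]
  exact ⟨h.1, h.2.add_mul_right_left x⟩

end basic

/-! ### The residue function `g` and the identity (M3) -/

section prime

variable {N q J p : ℕ} {S : ℤ → ℤ → ZMod p} {l : ℕ} [Fact l.Prime]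

theorem int_prime_of_fact (l : ℕ) [hl : Fact l.Prime] : Prime (l : ℤ) :=
  Nat.prime_iff_prime_int.mp hl.out

theorem isCoprime_prime_iff (l : ℕ) [Fact l.Prime] (c : ℤ) :
    IsCoprime (l : ℤ) c ↔ (c : ZMod l) ≠ 0 := by
  rw [(int_prime_of_fact l).coprime_iff_not_dvd, Ne, ZMod.intCast_zmod_eq_zero_iff_dvd]

/-- An integer multiple of `N` in the residue class `s` mod `l`. -/
noncomputable def rep (N l : ℕ) (s : ZMod l) : ℤ :=
  (N : ℤ) * ((((N : ZMod l)⁻¹ * s).val : ℕ) : ℤ)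

theorem rep_dvd (N l : ℕ) (s : ZMod l) : (N : ℤ) ∣ rep N l s := dvd_mul_right _ _

theorem natCast_ne_zero_of_not_dvd (hlN : ¬ l ∣ N) : (N : ZMod l) ≠ 0 := by
  rwa [Ne, ZMod.natCast_eq_zero_iff]

theorem rep_cast (hlN : ¬ l ∣ N) (s : ZMod l) : ((rep N l s : ℤ) : ZMod l) = s := by
  have hN0 : (N : ZMod l) ≠ 0 := natCast_ne_zero_of_not_dvd hlN
  unfold rep
  push_cast
  rw [ZMod.natCast_zmod_val]
  field_simp

/-- The function `s ↦ S l c` for `c ≡ s mod l`, `N ∣ c`. -/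
noncomputable def gfun (S : ℤ → ℤ → ZMod p) (N l : ℕ) (s : ZMod l) : ZMod p :=
  S l (rep N l s)

theorem adm_prime {c : ℤ} (hc : (N : ℤ) ∣ c) (hcl : (c : ZMod l) ≠ 0) : Adm N (l : ℤ) c :=
  ⟨hc, (isCoprime_prime_iff l c).mpr hcl⟩

theorem S_eq_gfun (hS : SymbolRules N q J S) (hlN : ¬ l ∣ N) {c : ℤ} (hc : (N : ℤ) ∣ c)
    (hcl : (c : ZMod l) ≠ 0) : S l c = gfun S N l (c : ZMod l) := by
  unfold gfun
  refine (S_congr_right hS (adm_prime hc hcl) (rep_dvd N l _) ?_).symm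
  rw [← ZMod.intCast_eq_intCast_iff, rep_cast hlN]

/-- **(M3)**: the symbol of an `l`-supported element at level `l * e`. -/
theorem m3 (hS : SymbolRules N q J S) (hlN : ¬ l ∣ N) {e X : ℤ} (he : (N : ℤ) ∣ e)
    (hel : (e : ZMod l) ≠ 0) (hX : X ≡ 1 [ZMOD e]) (hXl : (X : ZMod l) ≠ 0)
    (hX1 : (X : ZMod l) ≠ 1) :
    S X (l * e) = gfun S N l ((e : ZMod l) * X / (X - 1)) - gfun S N l ((e : ZMod l) / (X - 1)) := by
  set t : ZMod l := (X : ZMod l) with ht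
  have hu : t - 1 ≠ 0 := sub_ne_zero.mpr hX1
  set s1 : ZMod l := (e : ZMod l) / (t - 1) with hs1
  have hs1_ne : s1 ≠ 0 := div_ne_zero hel hu
  set c1 : ℤ := rep N l s1 with hc1
  set c2 : ℤ := c1 + e with hc2
  have hc1N : (N : ℤ) ∣ c1 := rep_dvd N l s1
  have hc2N : (N : ℤ) ∣ c2 := dvd_add hc1N he
  have hc1l : (c1 : ZMod l) = s1 := rep_cast hlN s1
  have hc2l : (c2 : ZMod l) = (e : ZMod l) * t / (t - 1) := by
    rw [hc2]; push_cast; rw [hc1l, hs1]; field_simp; ring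
  have hc2_ne : (c2 : ZMod l) ≠ 0 := by
    rw [hc2l]; exact div_ne_zero (mul_ne_zero hel hXl) hu
  have hc1_ne : (c1 : ZMod l) ≠ 0 := by rw [hc1l]; exact hs1_ne
  -- the integer `b` with `b * c1 ≡ -1 mod l`
  set b : ℤ := (((-(s1⁻¹) : ZMod l).val : ℕ) : ℤ) with hb
  have hbl : (b : ZMod l) = -(s1⁻¹) := by
    rw [hb]; push_cast; rw [ZMod.natCast_zmod_val]
  have hdvd : (l : ℤ) ∣ b * c1 + 1 := by
    rw [← ZMod.intCast_zmod_eq_zero_iff_dvd]
    push_cast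
    rw [hbl, hc1l]
    field_simp
    ring
  have key := hS.m2 (l : ℤ) c1 c2 b (adm_prime hc1N hc1_ne) (adm_prime hc2N hc2_ne) hdvd
  have e1 : 1 + b * (c1 - c2) = 1 - b * e := by rw [hc2]; ring
  have e2 : (l : ℤ) * (c2 - c1) = l * e := by rw [hc2]; ring
  rw [e1, e2] at key
  -- admissibility of `(X, l * e)`
  have hXe : IsCoprime X e := by
    obtain ⟨k, hk⟩ := Int.modEq_iff_dvd.mp hX.symm
    have : X = 1 + k * e := by linarith
    rw [this]
    exact (isCoprime_one_left).add_mul_right_left k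
  have hadm : Adm N X (l * e) :=
    ⟨Dvd.dvd.mul_left he _, IsCoprime.mul_right ((isCoprime_prime_iff l X).mpr hXl).symm hXe⟩
  -- `1 - b e ≡ X mod l e`
  have hle : IsCoprime (l : ℤ) e := (isCoprime_prime_iff l e).mpr hel
  have hcong : 1 - b * e ≡ X [ZMOD (l * e)] := by
    rw [← Int.modEq_and_modEq_iff_modEq_mul (Int.isCoprime_iff_gcd_eq_one.mp hle)]
    constructor
    · rw [← ZMod.intCast_eq_intCast_iff]
      push_cast
      rw [hbl, ← ht, hs1]
      field_simp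
      ring
    · calc 1 - b * e ≡ 1 - b * 0 [ZMOD e] :=
            Int.ModEq.sub_left _ (Int.ModEq.mul_left _ (Int.modEq_zero_iff_dvd.mpr dvd_rfl)
              |>.trans (by simp))
        _ ≡ X [ZMOD e] := by simpa using hX.symm
  rw [← S_congr_left hS hadm hcong, ← key, S_eq_gfun hS hlN hc2N hc2_ne, hc2l]
  rfl

end prime

/-! ### The unit relation (W) -/

section unitrel

variable {N q J p : ℕ} {S : ℤ → ℤ → ZMod p} {l : ℕ} [Fact l.Prime]

theorem natCast_prime_ne_zero (hq : q.Prime) (hlq : l ≠ q) : (q : ZMod l) ≠ 0 := by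
  rw [Ne, ZMod.natCast_eq_zero_iff]
  intro h
  exact hlq ((Nat.prime_dvd_prime_iff_eq Fact.out hq).mp h)

theorem adm_level {e X : ℤ} (he : (N : ℤ) ∣ e) (hX : X ≡ 1 [ZMOD e])
    (hXl : (X : ZMod l) ≠ 0) : Adm N X (l * e) := by
  have hXe : IsCoprime X e := by
    obtain ⟨k, hk⟩ := Int.modEq_iff_dvd.mp hX.symm
    have : X = 1 + k * e := by linarith
    rw [this]
    exact (isCoprime_one_left).add_mul_right_left k
  exact ⟨Dvd.dvd.mul_left he _, IsCoprime.mul_right ((isCoprime_prime_iff l X).mpr hXl).symm hXe⟩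

theorem gfun_qsq (hS : SymbolRules N q J S) (hq : q.Prime) (hlN : ¬ l ∣ N) (hlq : l ≠ q)
    {s : ZMod l} (hs : s ≠ 0) : gfun S N l ((q : ZMod l) ^ 2 * s) = gfun S N l s := by
  have hql : (q : ZMod l) ≠ 0 := natCast_prime_ne_zero hq hlq
  have hcN : (N : ℤ) ∣ rep N l s := rep_dvd N l s
  have hcl : ((rep N l s : ℤ) : ZMod l) = s := rep_cast hlN s
  have hadm : Adm N (l : ℤ) (rep N l s) := adm_prime hcN (by rw [hcl]; exact hs)
  have hnq : ¬ (q : ℤ) ∣ (l : ℤ) := by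
    intro h
    have := Int.natCast_dvd_natCast.mp h
    exact hlq ((Nat.prime_dvd_prime_iff_eq hq Fact.out).mp this).symm
  have h3 := hS.r3 (l : ℤ) (rep N l s) hadm hnq
  have h4 := S_eq_gfun hS hlN (c := (q : ℤ) ^ 2 * rep N l s) (Dvd.dvd.mul_left hcN _) (by
    push_cast; rw [hcl]; exact mul_ne_zero (pow_ne_zero _ hql) hs)
  rw [h3] at h4
  have h5 : ((((q : ℤ) ^ 2 * rep N l s : ℤ)) : ZMod l) = (q : ZMod l) ^ 2 * s := by
    push_cast; rw [hcl]
  rw [h5] at h4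
  exact h4.symm

theorem gfun_qsq_pow (hS : SymbolRules N q J S) (hq : q.Prime) (hlN : ¬ l ∣ N) (hlq : l ≠ q)
    {s : ZMod l} (hs : s ≠ 0) (k : ℕ) :
    gfun S N l (((q : ZMod l) ^ 2) ^ k * s) = gfun S N l s := by
  have hql : (q : ZMod l) ≠ 0 := natCast_prime_ne_zero hq hlq
  induction k with
  | zero => simp
  | succ k ih =>
    rw [pow_succ', mul_assoc,
      gfun_qsq hS hq hlN hlq (mul_ne_zero (pow_ne_zero _ (pow_ne_zero _ hql)) hs), ih]

/-- `g` is invariant under `ι = (q ^ (4 J))⁻¹`. -/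
theorem gfun_iota (hS : SymbolRules N q J S) (hq : q.Prime) (hlN : ¬ l ∣ N) (hlq : l ≠ q)
    {s : ZMod l} (hs : s ≠ 0) :
    gfun S N l (((q : ZMod l) ^ (4 * J))⁻¹ * s) = gfun S N l s := by
  have hql : (q : ZMod l) ≠ 0 := natCast_prime_ne_zero hq hlq
  have hpow : ((q : ZMod l) ^ (4 * J)) ≠ 0 := pow_ne_zero _ hql
  have h := gfun_qsq_pow hS hq hlN hlq (s := ((q : ZMod l) ^ (4 * J))⁻¹ * s)
    (mul_ne_zero (inv_ne_zero hpow) hs) (2 * J)
  rw [← h]
  congr 1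
  rw [← pow_mul, show 2 * (2 * J) = 4 * J by ring]
  field_simp

theorem isCoprime_qpow (hq : q.Prime) {c : ℤ} (hqc : ¬ (q : ℤ) ∣ c) (m : ℕ) :
    IsCoprime ((q : ℤ) ^ m) c :=
  IsCoprime.pow_left ((Nat.prime_iff_prime_int.mp hq).coprime_iff_not_dvd.mpr hqc)

theorem r6_pow (hS : SymbolRules N q J S) (hq : q.Prime) {a c : ℤ} (h : Adm N a c)
    (hqc : ¬ (q : ℤ) ∣ c) (k : ℕ) : S (((q : ℤ) ^ (2 * J)) ^ k * a) c = S a c := by
  induction k with
  | zero => simp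
  | succ k ih =>
    have hadm : Adm N (((q : ℤ) ^ (2 * J)) ^ k * a) c :=
      ⟨h.1, IsCoprime.mul_left (IsCoprime.pow_left (isCoprime_qpow hq hqc _)) h.2⟩
    rw [pow_succ', mul_assoc, hS.r6 _ c hadm hqc, ih]

/-- **(W)**: the relation produced by the units `q ^ (2 J (r - 1))`. -/
theorem W_rel (hS : SymbolRules N q J S) (hN : 0 < N) (hq : q.Prime) (hqN : ¬ q ∣ N)
    (hqJ : (q : ℤ) ^ J ≡ 1 [ZMOD (N : ℤ)]) (hlN : ¬ l ∣ N) (hlq : l ≠ q) (hl3 : 3 ≤ l)
    {t s : ZMod l} (ht0 : t ≠ 0) (ht1 : t ≠ 1)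
    (hιt : ((q : ZMod l) ^ (4 * J))⁻¹ * t ≠ 1) (hs : s ≠ 0) :
    gfun S N l (s * ((t - 1) / (((q : ZMod l) ^ (4 * J))⁻¹ * t - 1)) * t)
      - gfun S N l (s * ((t - 1) / (((q : ZMod l) ^ (4 * J))⁻¹ * t - 1)))
      = gfun S N l (s * t) - gfun S N l s := by
  have hl : l.Prime := Fact.out
  set ι : ZMod l := ((q : ZMod l) ^ (4 * J))⁻¹ with hι
  have hql : (q : ZMod l) ≠ 0 := natCast_prime_ne_zero hq hlq
  have hι_ne : ι ≠ 0 := inv_ne_zero (pow_ne_zero _ hql)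
  have hN0 : (N : ZMod l) ≠ 0 := natCast_ne_zero_of_not_dvd hlN
  have ht1' : t - 1 ≠ 0 := sub_ne_zero.mpr ht1
  have hιt' : ι * t - 1 ≠ 0 := sub_ne_zero.mpr hιt
  set x0 : ZMod l := s * (t - 1) / N with hx0
  have hx0_ne : x0 ≠ 0 := div_ne_zero (mul_ne_zero hs ht1') hN0
  -- the auxiliary prime `r`
  set m : ℕ := 2 * (l - 1) with hm
  have hm4 : 4 ≤ m := by omega
  have hco : Nat.Coprime l m := by
    rw [hm]
    apply Nat.Coprime.mul_right
    · exact (Nat.coprime_primes hl Nat.prime_two).mpr (by omega)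
    · exact (Nat.Prime.coprime_iff_not_dvd hl).mpr (Nat.not_dvd_of_pos_of_lt (by omega) (by omega))
  obtain ⟨k0, hk0l, hk0m⟩ := Nat.chineseRemainder hco x0.val (m - 1)
  have hk0_cop : Nat.Coprime k0 (l * m) := by
    apply Nat.Coprime.mul_right
    · rw [Nat.coprime_comm, Nat.Prime.coprime_iff_not_dvd hl]
      intro hdvd
      apply hx0_ne
      have h0 : (k0 : ZMod l) = 0 := (ZMod.natCast_eq_zero_iff _ _).mpr hdvd
      rw [← ZMod.natCast_zmod_val x0, ← h0]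
      exact ((ZMod.natCast_eq_natCast_iff _ _ _).mpr hk0l).symm
    · have hg : Nat.gcd k0 m = Nat.gcd (m - 1) m := Nat.ModEq.gcd_eq hk0m
      rw [Nat.Coprime, hg]
      have : Nat.Coprime (m - 1) ((m - 1) + 1) := by simp
      rwa [show m - 1 + 1 = m by omega] at this
  obtain ⟨r, hr_gt, hr_prime, hr_mod⟩ :=
    Nat.forall_exists_prime_gt_and_modEq (q + N + l) (q := l * m) (by positivity) hk0_cop
  have hr_l : (r : ZMod l) = x0 := by
    have h1 : r ≡ k0 [MOD l] := Nat.ModEq.of_mul_right m hr_mod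
    rw [← ZMod.natCast_zmod_val x0]
    exact (ZMod.natCast_eq_natCast_iff _ _ _).mpr (h1.trans hk0l)
  have hr_m : m ∣ r + 1 := by
    have h1 : r ≡ k0 [MOD m] := Nat.ModEq.of_mul_left l hr_mod
    have h2 : r ≡ m - 1 [MOD m] := h1.trans hk0m
    have h3 : r + 1 ≡ (m - 1) + 1 [MOD m] := Nat.ModEq.add_right 1 h2
    rw [show m - 1 + 1 = m by omega] at h3
    exact (Nat.modEq_zero_iff_dvd.mp (h3.trans (by simp [Nat.ModEq])))
  have : Fact r.Prime := ⟨hr_prime⟩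
  have hrq : r ≠ q := by omega
  have hrN : ¬ r ∣ N := Nat.not_dvd_of_pos_of_lt hN (by omega)
  have hrl : r ≠ l := by omega
  -- `e = N r` and the unit `w`
  set e : ℤ := (N : ℤ) * r with he
  have heN : (N : ℤ) ∣ e := dvd_mul_right _ _
  have hel : (e : ZMod l) = s * (t - 1) := by
    rw [he]; push_cast; rw [hr_l, hx0]; field_simp
  have hel_ne : (e : ZMod l) ≠ 0 := by rw [hel]; exact mul_ne_zero hs ht1'
  set w : ℤ := ((q : ℤ) ^ (2 * J)) ^ (r - 1) with hw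
  have hwN : w ≡ 1 [ZMOD (N : ℤ)] := by
    rw [hw, ← pow_mul, show 2 * J * (r - 1) = J * (2 * (r - 1)) by ring, pow_mul]
    simpa using hqJ.pow (2 * (r - 1))
  have hwr : w ≡ 1 [ZMOD (r : ℤ)] := by
    rw [← ZMod.intCast_eq_intCast_iff, hw]
    push_cast
    rw [← pow_mul, mul_comm (2 * J) (r - 1), pow_mul,
      ZMod.pow_card_sub_one_eq_one (natCast_prime_ne_zero hq hrq), one_pow]
  have hNr : Nat.Coprime N r := ((Nat.Prime.coprime_iff_not_dvd hr_prime).mpr hrN).symm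
  have hwe : w ≡ 1 [ZMOD e] := by
    rw [he, ← Int.modEq_and_modEq_iff_modEq_mul (by simpa using hNr)]
    exact ⟨hwN, hwr⟩
  have hwl : (w : ZMod l) = ι := by
    rw [hι]
    apply eq_inv_of_mul_eq_one_left
    rw [hw]
    push_cast
    rw [← pow_mul, ← pow_add]
    obtain ⟨k, hk⟩ := hr_m
    have hexp : 2 * J * (r - 1) + 4 * J = (l - 1) * (4 * J * k) := by
      have hr1 : 1 ≤ r := hr_prime.one_lt.le
      have h1 : 2 * J * (r - 1) + 4 * J = 2 * J * (r + 1) := by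
        obtain ⟨r', rfl⟩ : ∃ r', r = r' + 1 := ⟨r - 1, by omega⟩
        simp only [Nat.add_sub_cancel]; ring
      rw [h1, hk, hm]; ring
    rw [hexp, pow_mul, ZMod.pow_card_sub_one_eq_one hql, one_pow]
  -- the element `X`
  have hco2 : Nat.Coprime l (N * r) := by
    apply Nat.Coprime.mul_right
    · exact (Nat.Prime.coprime_iff_not_dvd hl).mpr hlN
    · exact (Nat.coprime_primes hl hr_prime).mpr hrl.symm
  obtain ⟨X0, hX0l, hX0e⟩ := Nat.chineseRemainder hco2 t.val 1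
  have hXl : (((X0 : ℤ)) : ZMod l) = t := by
    rw [Int.cast_natCast, ← ZMod.natCast_zmod_val t]
    exact (ZMod.natCast_eq_natCast_iff _ _ _).mpr hX0l
  have hXe : (X0 : ℤ) ≡ 1 [ZMOD e] := by
    have h1 := Int.natCast_modEq_iff.mpr hX0e
    rw [he]
    push_cast at h1
    exact h1
  have hXl0 : (((X0 : ℤ)) : ZMod l) ≠ 0 := by rw [hXl]; exact ht0
  have hXl1 : (((X0 : ℤ)) : ZMod l) ≠ 1 := by rw [hXl]; exact ht1
  have h1 := m3 hS hlN heN hel_ne hXe hXl0 hXl1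
  have hwXe : w * (X0 : ℤ) ≡ 1 [ZMOD e] := by simpa using hwe.mul hXe
  have hwXl : ((w * (X0 : ℤ) : ℤ) : ZMod l) = ι * t := by rw [Int.cast_mul, hwl, hXl]
  have h2 := m3 hS hlN heN hel_ne hwXe (by rw [hwXl]; exact mul_ne_zero hι_ne ht0)
    (by rw [hwXl]; exact hιt)
  have hadm : Adm N (X0 : ℤ) (l * e) := adm_level heN hXe hXl0
  have hq_le : ¬ (q : ℤ) ∣ l * e := by
    rw [he]
    intro h
    have h' : q ∣ l * (N * r) := by exact_mod_cast h
    rcases (Nat.Prime.dvd_mul hq).mp h' with h1 | h1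
    · exact hlq ((Nat.prime_dvd_prime_iff_eq hq hl).mp h1).symm
    · rcases (Nat.Prime.dvd_mul hq).mp h1 with h2 | h2
      · exact hqN h2
      · exact hrq ((Nat.prime_dvd_prime_iff_eq hq hr_prime).mp h2).symm
  have h3 : S (w * (X0 : ℤ)) (l * e) = S (X0 : ℤ) (l * e) := r6_pow hS hq hadm hq_le (r - 1)
  rw [h3, h1, hwXl, hXl, hel] at h2
  -- rewrite the four arguments
  have a1 : s * (t - 1) * t / (t - 1) = s * t := by field_simp
  have a2 : s * (t - 1) / (t - 1) = s := by field_simp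
  have a3 : s * (t - 1) * (ι * t) / (ι * t - 1) = ι * (s * ((t - 1) / (ι * t - 1)) * t) := by
    field_simp
  have a4 : s * (t - 1) / (ι * t - 1) = s * ((t - 1) / (ι * t - 1)) := by field_simp
  rw [a1, a2, a3, a4] at h2
  have hne : s * ((t - 1) / (ι * t - 1)) * t ≠ 0 :=
    mul_ne_zero (mul_ne_zero hs (div_ne_zero ht1' hιt')) ht0
  rw [hι, gfun_iota hS hq hlN hlq hne] at h2
  rw [hι]
  exact h2.symm

end unitrel

/-! ### Steps 3–5 -/

section final

variable {N q J p : ℕ} {S : ℤ → ℤ → ZMod p}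

/-- **Step 4**: the symbol vanishes at the levels `N * l`, `l` a good prime. -/
theorem S_level [Fact p.Prime] {l : ℕ} [Fact l.Prime] (hS : SymbolRules N q J S) (hN : 0 < N)
    (hq : q.Prime) (hqN : ¬ q ∣ N) (hqJ : (q : ℤ) ^ J ≡ 1 [ZMOD (N : ℤ)]) (hlN : ¬ l ∣ N)
    (hlq : l ≠ q) (hl3 : 3 ≤ l) (hpl : ¬ p ∣ l - 1) (hι1 : (q : ZMod l) ^ (4 * J) ≠ 1)
    {X : ℤ} (hX : X ≡ 1 [ZMOD (N : ℤ)]) (hXl : (X : ZMod l) ≠ 0) :
    S X ((N : ℤ) * l) = 0 := by
  have hl : l.Prime := Fact.out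
  have hql : (q : ZMod l) ≠ 0 := natCast_prime_ne_zero hq hlq
  have hN0 : (N : ZMod l) ≠ 0 := natCast_ne_zero_of_not_dvd hlN
  have hconst := helper674.const_of_cross hpl (gfun S N l) (((q : ZMod l) ^ (4 * J))⁻¹)
    (inv_ne_zero (pow_ne_zero _ hql)) (fun h => hι1 (inv_eq_one.mp h))
    (fun s hs => gfun_iota hS hq hlN hlq hs)
    (fun t rho s ht0 ht1 hιt hs hrho => by
      have hne : ((q : ZMod l) ^ (4 * J))⁻¹ * t - 1 ≠ 0 := sub_ne_zero.mpr hιt
      have hr : rho = (t - 1) / (((q : ZMod l) ^ (4 * J))⁻¹ * t - 1) :=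
        eq_div_of_mul_eq hne hrho
      rw [hr]
      exact W_rel hS hN hq hqN hqJ hlN hlq hl3 ht0 ht1 hιt hs)
  by_cases h1 : (X : ZMod l) = 1
  · have hXl1 : X ≡ 1 [ZMOD (l : ℤ)] := by
      rw [← ZMod.intCast_eq_intCast_iff]
      simpa using h1
    have hco : Nat.Coprime (N : ℤ).natAbs (l : ℤ).natAbs := by
      simpa using ((Nat.Prime.coprime_iff_not_dvd hl).mpr hlN).symm
    have hmod : X ≡ 1 [ZMOD ((N : ℤ) * l)] :=
      (Int.modEq_and_modEq_iff_modEq_mul hco).mp ⟨hX, hXl1⟩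
    rw [S_congr_left hS (adm_one N (dvd_mul_right _ _)) hmod]
    exact S_one hS (dvd_mul_right _ _)
  · have hNl : (((N : ℤ)) : ZMod l) ≠ 0 := by simpa using hN0
    rw [mul_comm, m3 hS hlN dvd_rfl hNl hX hXl h1]
    have hX1 : (X : ZMod l) - 1 ≠ 0 := sub_ne_zero.mpr h1
    exact sub_eq_zero.mpr
      (hconst _ _ (div_ne_zero (mul_ne_zero hNl hXl) hX1) (div_ne_zero hNl hX1))

/-- **Step 5**, core: Dirichlet's theorem moves `c` to a level `N * l`. -/
theorem S_vanish_core [Fact p.Prime] (hS : SymbolRules N q J S) (hN : 0 < N)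
    (hq : q.Prime) (hqN : ¬ q ∣ N) (hJ : 0 < J) (hqJ : (q : ℤ) ^ J ≡ 1 [ZMOD (N : ℤ)])
    {a c z : ℤ} (hadm : Adm N a c) (ha1 : a ≡ 1 [ZMOD (N : ℤ)]) (ha0 : a ≠ 0)
    (hz : (N : ℤ) * z ≡ c [ZMOD a]) (hzc : IsCoprime z (a * p))
    (hz1 : ¬ z ≡ 1 [ZMOD (p : ℤ)]) : S a c = 0 := by
  have hp : p.Prime := Fact.out
  set M : ℕ := (a * p).natAbs with hM
  have hM0 : M ≠ 0 := by
    rw [hM]
    exact Int.natAbs_ne_zero.mpr (mul_ne_zero ha0 (by exact_mod_cast hp.ne_zero))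
  have hMdvd : (M : ℤ) ∣ a * p := Int.natAbs_dvd.mpr dvd_rfl
  have hdvdM : a * p ∣ (M : ℤ) := Int.dvd_natAbs.mpr dvd_rfl
  have hzM : IsCoprime z (M : ℤ) := hzc.of_isCoprime_of_dvd_right hMdvd
  obtain ⟨l, hl_gt, hl_prime, hl_mod⟩ :=
    Nat.forall_exists_prime_gt_and_zmodEq (q + N + a.natAbs + q ^ (4 * J) + 3) hM0 hzM
  have : Fact l.Prime := ⟨hl_prime⟩
  have hla : (l : ℤ) ≡ z [ZMOD a] := hl_mod.of_dvd ((dvd_mul_right a p).trans hdvdM)
  have hlp : (l : ℤ) ≡ z [ZMOD (p : ℤ)] := hl_mod.of_dvd ((dvd_mul_left (p : ℤ) a).trans hdvdM)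
  have hlN : ¬ l ∣ N := Nat.not_dvd_of_pos_of_lt hN (by omega)
  have hlq : l ≠ q := by omega
  have hl3 : 3 ≤ l := by omega
  have hpl : ¬ p ∣ l - 1 := by
    intro h
    apply hz1
    have h1 : (p : ℤ) ∣ (l : ℤ) - 1 := by
      have h2 := Int.natCast_dvd_natCast.mpr h
      rwa [Nat.cast_sub hl_prime.one_lt.le, Nat.cast_one] at h2
    exact hlp.symm.trans (Int.modEq_iff_dvd.mpr h1).symm
  have hι1 : (q : ZMod l) ^ (4 * J) ≠ 1 := by
    intro h
    have h2 : ((q ^ (4 * J) : ℕ) : ZMod l) = ((1 : ℕ) : ZMod l) := by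
      push_cast
      exact h
    rw [ZMod.natCast_eq_natCast_iff', Nat.mod_eq_of_lt (by omega), Nat.mod_eq_of_lt (by omega)]
      at h2
    have h3 : 1 < q ^ (4 * J) := Nat.one_lt_pow (by omega) hq.one_lt
    omega
  have hal : (a : ZMod l) ≠ 0 := by
    rw [Ne, ZMod.intCast_zmod_eq_zero_iff_dvd]
    intro h
    apply ha0
    apply Int.eq_zero_of_abs_lt_dvd h
    rw [Int.abs_eq_natAbs]
    exact_mod_cast (by omega : a.natAbs < l)
  have hcong : (N : ℤ) * l ≡ c [ZMOD a] := (hla.mul_left _).trans hz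
  rw [← S_congr_right hS hadm (dvd_mul_right _ _) hcong]
  exact S_level hS hN hq hqN hqJ hlN hlq hl3 hpl hι1 ha1 hal

/-- **Symbol vanishing** (Steps 1–5 of findings #2895). -/
theorem stmt_SymbolVanish : Stmt_SymbolVanish := by
  intro N q J p hN hq hqN hJ hqJ hp hp2 S hS a c hadm ha1
  have : Fact p.Prime := ⟨hp⟩
  have hpZ : Prime (p : ℤ) := Nat.prime_iff_prime_int.mp hp
  -- the case `p ∤ a`
  have caseA : ∀ a c : ℤ, Adm N a c → a ≡ 1 [ZMOD (N : ℤ)] → ¬ (p : ℤ) ∣ a → S a c = 0 := by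
    intro a c hadm ha1 hpa
    have ha0 : a ≠ 0 := by
      rintro rfl
      exact hpa (dvd_zero _)
    obtain ⟨hNc, hac⟩ := hadm
    obtain ⟨c0, rfl⟩ := hNc
    have hac0 : IsCoprime a c0 := hac.of_mul_right_right
    have hap : IsCoprime a (p : ℤ) := (hpZ.coprime_iff_not_dvd.mpr hpa).symm
    obtain ⟨u, v, huv⟩ := hap
    set z : ℤ := c0 * (v * p) + 2 * (u * a) with hz
    have hza : z ≡ c0 [ZMOD a] := by
      rw [Int.modEq_iff_dvd]
      refine ⟨c0 * u - 2 * u, ?_⟩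
      rw [hz]
      linear_combination (-c0) * huv
    have hzp : z ≡ 2 [ZMOD (p : ℤ)] := by
      rw [Int.modEq_iff_dvd]
      refine ⟨2 * v - c0 * v, ?_⟩
      rw [hz]
      linear_combination (-2) * huv
    have hzca : IsCoprime z a := by
      obtain ⟨k, hk⟩ := Int.modEq_iff_dvd.mp hza.symm
      have h1 : z = c0 + k * a := by linarith
      rw [h1]
      exact hac0.symm.add_mul_right_left k
    have h2p : IsCoprime (2 : ℤ) (p : ℤ) := by
      rw [isCoprime_comm, hpZ.coprime_iff_not_dvd]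
      intro h
      have h2 : p ∣ 2 := by exact_mod_cast h
      exact hp2 ((Nat.prime_dvd_prime_iff_eq hp Nat.prime_two).mp h2)
    have hzcp : IsCoprime z (p : ℤ) := by
      obtain ⟨k, hk⟩ := Int.modEq_iff_dvd.mp hzp.symm
      have h1 : z = 2 + k * p := by linarith
      rw [h1]
      exact h2p.add_mul_right_left k
    have hz1 : ¬ z ≡ 1 [ZMOD (p : ℤ)] := by
      intro h
      have h21 : (2 : ℤ) ≡ 1 [ZMOD (p : ℤ)] := hzp.symm.trans h
      have h3 : (p : ℤ) ∣ 1 - 2 := Int.modEq_iff_dvd.mp h21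
      have h4 : (p : ℤ) ∣ 1 := by
        have := (dvd_neg).mpr h3
        simpa using this
      exact hpZ.not_isUnit (isUnit_of_dvd_one h4)
    exact S_vanish_core hS hN hq hqN hJ hqJ ⟨dvd_mul_right _ _, hac⟩ ha1 ha0 (hza.mul_left _)
      (hzca.mul_right hzcp) hz1
  by_cases hpa : (p : ℤ) ∣ a
  · have hpc : ¬ (p : ℤ) ∣ a + 1 * c := by
      intro h
      have hpc' : (p : ℤ) ∣ c := by
        have := dvd_sub h hpa
        simpa using this
      exact hpZ.not_isUnit (hadm.2.isUnit_of_dvd' hpa hpc')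
    have ha1' : a + 1 * c ≡ 1 [ZMOD (N : ℤ)] := by
      have := ha1.add ((Int.modEq_zero_iff_dvd.mpr hadm.1).mul_left 1)
      simpa using this
    rw [← hS.r1 a c 1 hadm]
    exact caseA (a + 1 * c) c ⟨hadm.1, hadm.2.add_mul_right_left 1⟩ ha1' hpc
  · exact caseA a c hadm ha1 hpa

end final

end Fermat.Agent.S41.helper389
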