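import Fermat.Agent.S16.helper2138_HeckeHom

/-!
# S41, module A (commutativity): the Hecke operators on `Hom(Γ₀(L), A)` commute

* `op_comm_of_swap` : abstract swap lemma for two `helper2138.Corr` correspondences on the same
  group: if every product `α₂ j * α₁ i` lies in `Γ * (α₁ a * α₂ b)` and both product families lie
  in pairwise distinct left `Γ`-cosets, then the two coset-transfer operators commute.
* `heckeHomT_comm`, `heckeHomT_heckeHomU_comm`, `heckeHomU_comm` : the landed operators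
  `helper2138.heckeHomT`, `helper2138.heckeHomU` on `Hom(Γ₀(L), A)` pairwise commute (any level,
  any abelian group `A`).
-/

set_option autoImplicit false

open CongruenceSubgroup Matrix.SpecialLinearGroup
open scoped MatrixGroups

namespace Fermat.Agent.S41.helper262

open Fermat.Agent.S16.helper2138

section Abstract

variable {Γ : Subgroup SL(2, ℤ)} {ι₁ ι₂ : Type} [Fintype ι₁] [Fintype ι₂]

/-- **Swap lemma.** Two correspondences on `Γ` whose representatives commute up to `Γ` on the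
left and a re-indexing, and whose products lie in distinct cosets, give commuting operators on
`Hom(Γ, A)`. -/
theorem op_comm_of_swap (C₁ : Corr Γ ι₁) (C₂ : Corr Γ ι₂)
    (hE : ∀ (i : ι₁) (j : ι₂), ∃ (a : ι₁) (b : ι₂) (t : Γ),
      C₂.α j * C₁.α i = mapGL ℝ (t : SL(2, ℤ)) * (C₁.α a * C₂.α b))
    (hA : ∀ (i i' : ι₁) (j j' : ι₂) (h : Γ),
      mapGL ℝ (h : SL(2, ℤ)) * (C₂.α j * C₁.α i) = C₂.α j' * C₁.α i' → i = i' ∧ j = j')
    (hB : ∀ (i i' : ι₁) (j j' : ι₂) (h : Γ),
      mapGL ℝ (h : SL(2, ℤ)) * (C₁.α i * C₂.α j) = C₁.α i' * C₂.α j' → i = i' ∧ j = j')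
    (A : Type*) [AddCommGroup A] (φ : Additive Γ →+ A) :
    C₁.op A (C₂.op A φ) = C₂.op A (C₁.op A φ) := by
  classical
  choose Pa Pb t ht using hE
  -- the re-indexing is injective, hence bijective
  let P : ι₁ × ι₂ → ι₁ × ι₂ := fun x => (Pa x.1 x.2, Pb x.1 x.2)
  have hPinj : Function.Injective P := by
    rintro ⟨i, j⟩ ⟨i', j'⟩ hP
    have h1 : Pa i j = Pa i' j' := congrArg Prod.fst hP
    have h2 : Pb i j = Pb i' j' := congrArg Prod.snd hP
    have e1 := ht i j
    have e2 := ht i' j'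
    rw [← h1, ← h2] at e2
    have e3 : mapGL ℝ (((t i' j' * (t i j)⁻¹ : Γ)) : SL(2, ℤ)) * (C₂.α j * C₁.α i)
        = C₂.α j' * C₁.α i' := by
      rw [e1, e2, Subgroup.coe_mul, map_mul, Subgroup.coe_inv, map_inv]
      group
    obtain ⟨hi, hj⟩ := hA i i' j j' _ e3
    rw [hi, hj]
  have hPbij : Function.Bijective P := Finite.injective_iff_bijective.mp hPinj
  let Pe : ι₁ × ι₂ ≃ ι₁ × ι₂ := Equiv.ofBijective P hPbij
  -- the permutation induced by `γ` on pairs
  let S : Γ → ι₁ × ι₂ → ι₁ × ι₂ := fun γ x => (C₁.σ γ x.1, C₂.σ (C₁.g x.1 γ) x.2)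
  have hSinj : ∀ γ, Function.Injective (S γ) := by
    rintro γ ⟨i, j⟩ ⟨i', j'⟩ hS
    have h1 : C₁.σ γ i = C₁.σ γ i' := congrArg Prod.fst hS
    have h2 : C₂.σ (C₁.g i γ) j = C₂.σ (C₁.g i' γ) j' := congrArg Prod.snd hS
    have hi : i = i' := (C₁.σEquiv γ).injective h1
    subst hi
    have hj : j = j' := (C₂.σEquiv (C₁.g i γ)).injective h2
    rw [hj]
  have hSbij : ∀ γ, Function.Bijective (S γ) := fun γ =>
    Finite.injective_iff_bijective.mp (hSinj γ)
  -- the key relation between the two cocycles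
  have key : ∀ (i : ι₁) (j : ι₂) (γ : Γ),
      t i j * C₁.g (Pa i j) (C₂.g (Pb i j) γ)
        = C₂.g j (C₁.g i γ) * t (C₁.σ γ i) (C₂.σ (C₁.g i γ) j) := by
    intro i j γ
    set i₁ := C₁.σ γ i with hi₁
    set j₁ := C₂.σ (C₁.g i γ) j with hj₁
    obtain ⟨a, ha⟩ : ∃ a, a = Pa i j := ⟨_, rfl⟩
    obtain ⟨b, hb⟩ : ∃ b, b = Pb i j := ⟨_, rfl⟩
    have hta := ht i j
    rw [← ha, ← hb] at hta ⊢
    have E1 : C₂.α j * C₁.α i * mapGL ℝ (γ : SL(2, ℤ))
        = mapGL ℝ ((C₂.g j (C₁.g i γ) : Γ) : SL(2, ℤ)) * (C₂.α j₁ * C₁.α i₁) := by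
      rw [mul_assoc, C₁.rel i γ, ← mul_assoc, C₂.rel j (C₁.g i γ), mul_assoc]
    have E2 : C₁.α a * C₂.α b * mapGL ℝ (γ : SL(2, ℤ))
        = mapGL ℝ ((C₁.g a (C₂.g b γ) : Γ) : SL(2, ℤ))
          * (C₁.α (C₁.σ (C₂.g b γ) a) * C₂.α (C₂.σ γ b)) := by
      rw [mul_assoc, C₂.rel b γ, ← mul_assoc, C₁.rel a (C₂.g b γ), mul_assoc]
    have E3 : mapGL ℝ ((t i j * C₁.g a (C₂.g b γ) : Γ) : SL(2, ℤ))
          * (C₁.α (C₁.σ (C₂.g b γ) a) * C₂.α (C₂.σ γ b))
        = mapGL ℝ ((C₂.g j (C₁.g i γ) * t i₁ j₁ : Γ) : SL(2, ℤ))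
          * (C₁.α (Pa i₁ j₁) * C₂.α (Pb i₁ j₁)) := by
      calc mapGL ℝ ((t i j * C₁.g a (C₂.g b γ) : Γ) : SL(2, ℤ))
            * (C₁.α (C₁.σ (C₂.g b γ) a) * C₂.α (C₂.σ γ b))
          = mapGL ℝ ((t i j : Γ) : SL(2, ℤ)) * (C₁.α a * C₂.α b * mapGL ℝ (γ : SL(2, ℤ))) := by
            rw [E2, Subgroup.coe_mul, map_mul, mul_assoc]
        _ = C₂.α j * C₁.α i * mapGL ℝ (γ : SL(2, ℤ)) := by
            rw [hta]; simp only [mul_assoc]
        _ = mapGL ℝ ((C₂.g j (C₁.g i γ) : Γ) : SL(2, ℤ))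
              * (mapGL ℝ ((t i₁ j₁ : Γ) : SL(2, ℤ)) * (C₁.α (Pa i₁ j₁) * C₂.α (Pb i₁ j₁))) := by
            rw [E1, ht i₁ j₁]
        _ = _ := by
            rw [Subgroup.coe_mul, map_mul, mul_assoc]
    have E4 : mapGL ℝ ((((C₂.g j (C₁.g i γ) * t i₁ j₁)⁻¹ * (t i j * C₁.g a (C₂.g b γ)) : Γ))
          : SL(2, ℤ)) * (C₁.α (C₁.σ (C₂.g b γ) a) * C₂.α (C₂.σ γ b))
        = C₁.α (Pa i₁ j₁) * C₂.α (Pb i₁ j₁) := by
      rw [Subgroup.coe_mul, map_mul, mul_assoc, E3, ← mul_assoc, ← map_mul, Subgroup.coe_inv,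
        inv_mul_cancel, map_one, one_mul]
    obtain ⟨h1, h2⟩ := hB _ _ _ _ _ E4
    rw [← h1, ← h2] at E3
    have E5 := mul_right_cancel E3
    exact Subtype.ext (mapGL_injective E5)
  refine AddMonoidHom.ext fun γ => ?_
  obtain ⟨γ, rfl⟩ := Additive.ofMul.surjective γ
  show ∑ i, ∑ j, φ (Additive.ofMul (C₂.g j (C₁.g i γ)))
    = ∑ j, ∑ i, φ (Additive.ofMul (C₁.g i (C₂.g j γ)))
  rw [Finset.sum_comm (f := fun j i => φ (Additive.ofMul (C₁.g i (C₂.g j γ)))),
    ← Finset.sum_product', ← Finset.sum_product', Finset.univ_product_univ]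
  have hterm : ∀ x : ι₁ × ι₂, φ (Additive.ofMul (C₂.g x.2 (C₁.g x.1 γ)))
      = φ (Additive.ofMul (C₁.g (Pe x).1 (C₂.g (Pe x).2 γ)))
        + (φ (Additive.ofMul (t x.1 x.2))
          - φ (Additive.ofMul (t (S γ x).1 (S γ x).2))) := by
    rintro ⟨i, j⟩
    have hk := key i j γ
    have hk' : C₂.g j (C₁.g i γ)
        = t i j * C₁.g (Pa i j) (C₂.g (Pb i j) γ) * (t (C₁.σ γ i) (C₂.σ (C₁.g i γ) j))⁻¹ := by
      rw [hk]; group
    show φ (Additive.ofMul (C₂.g j (C₁.g i γ))) = φ (Additive.ofMul (C₁.g (Pa i j)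
      (C₂.g (Pb i j) γ))) + (φ (Additive.ofMul (t i j))
        - φ (Additive.ofMul (t (C₁.σ γ i) (C₂.σ (C₁.g i γ) j))))
    rw [hk', ofMul_mul, ofMul_mul, ofMul_inv, map_add, map_add, map_neg]
    abel
  rw [Finset.sum_congr rfl (fun x _ => hterm x), Finset.sum_add_distrib, Finset.sum_sub_distrib]
  have hperm : ∑ x : ι₁ × ι₂, φ (Additive.ofMul (t (S γ x).1 (S γ x).2))
      = ∑ x : ι₁ × ι₂, φ (Additive.ofMul (t x.1 x.2)) :=
    Equiv.sum_comp (Equiv.ofBijective (S γ) (hSbij γ))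
      (fun x => φ (Additive.ofMul (t x.1 x.2)))
  rw [hperm, sub_self, add_zero]
  exact Equiv.sum_comp Pe (fun x => φ (Additive.ofMul (C₁.g x.1 (C₂.g x.2 γ))))

end Abstract

/-! ### Upper-triangular bookkeeping -/

section UT

open ModularForm (heckeMatrix heckeDiagMatrix val_heckeMatrix val_heckeDiagMatrix)

/-- `M` is the upper triangular matrix `!![a, b; 0, d]`. -/
def IsUT (M : GL (Fin 2) ℝ) (a d : ℕ) (b : ℤ) : Prop :=
  (M : Matrix (Fin 2) (Fin 2) ℝ) = !![(a : ℝ), (b : ℝ); 0, (d : ℝ)]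

theorem isUT_heckeMatrix {l : ℕ} (hl : l ≠ 0) (j : ℕ) : IsUT (heckeMatrix l j) 1 l j := by
  unfold IsUT
  rw [val_heckeMatrix hl]
  simp

theorem isUT_heckeDiagMatrix {l : ℕ} (hl : l ≠ 0) : IsUT (heckeDiagMatrix l) l 1 0 := by
  unfold IsUT
  rw [val_heckeDiagMatrix hl]
  simp

theorem IsUT.mul {M M' : GL (Fin 2) ℝ} {a d a' d' : ℕ} {b b' : ℤ} (h : IsUT M a d b)
    (h' : IsUT M' a' d' b') :
    IsUT (M * M') (a * a') (d * d') ((a : ℤ) * b' + b * (d' : ℤ)) := by
  unfold IsUT at *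
  rw [Matrix.GeneralLinearGroup.coe_mul, h, h']
  ext i j
  fin_cases i <;> fin_cases j <;> simp [Matrix.mul_apply, Fin.sum_univ_two]

/-- Two upper triangular integer matrices with positive diagonal in the same left
`SL(2,ℤ)`-coset have the same diagonal and `b ≡ b' mod d`. -/
theorem IsUT.left_eq {M M' : GL (Fin 2) ℝ} {a d a' d' : ℕ} {b b' : ℤ} (hM : IsUT M a d b)
    (hM' : IsUT M' a' d' b') (ha : 0 < a) (ha' : 0 < a') (h : SL(2, ℤ))
    (H : mapGL ℝ h * M = M') : a = a' ∧ d = d' ∧ (d : ℤ) ∣ b' - b := by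
  unfold IsUT at hM hM'
  have H' := congrArg (fun X : GL (Fin 2) ℝ => (X : Matrix (Fin 2) (Fin 2) ℝ)) H
  simp only [Matrix.GeneralLinearGroup.coe_mul] at H'
  rw [hM, hM'] at H'
  have e00 := congrFun (congrFun H' 0) 0
  have e01 := congrFun (congrFun H' 0) 1
  have e10 := congrFun (congrFun H' 1) 0
  have e11 := congrFun (congrFun H' 1) 1
  simp only [Matrix.mul_apply, Fin.sum_univ_two, mapGL_val, Matrix.of_apply, Matrix.cons_val_zero,
    Matrix.cons_val_one, mul_zero, add_zero] at e00 e01 e10 e11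
  have z00 : h 0 0 * (a : ℤ) = a' := by exact_mod_cast e00
  have z01 : h 0 0 * b + h 0 1 * (d : ℤ) = b' := by exact_mod_cast e01
  have z10 : h 1 0 * (a : ℤ) = 0 := by exact_mod_cast e10
  have z11 : h 1 0 * b + h 1 1 * (d : ℤ) = d' := by exact_mod_cast e11
  have haZ : (0 : ℤ) < a := by exact_mod_cast ha
  have ha'Z : (0 : ℤ) < a' := by exact_mod_cast ha'
  have h10 : h 1 0 = 0 := by
    rcases mul_eq_zero.mp z10 with h0 | h0
    · exact h0
    · omega
  have hdet := det_SL h
  rw [h10, mul_zero, sub_zero] at hdet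
  have h00pos : 0 < h 0 0 := by
    by_contra hneg
    have : h 0 0 ≤ 0 := not_lt.mp hneg
    nlinarith
  have h00 : h 0 0 = 1 := by
    rcases Int.eq_one_or_neg_one_of_mul_eq_one' hdet with ⟨h1, -⟩ | ⟨h1, -⟩
    · exact h1
    · omega
  have h11 : h 1 1 = 1 := by
    rw [h00, one_mul] at hdet
    exact hdet
  rw [h00, one_mul] at z00 z01
  rw [h10, zero_mul, zero_add, h11, one_mul] at z11
  refine ⟨by exact_mod_cast z00, by exact_mod_cast z11, ⟨h 0 1, ?_⟩⟩
  rw [← z01]; ring

/-- Conversely, `b ≡ b' mod d` gives a translation in `Γ₀(N)` relating the two matrices. -/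
theorem IsUT.exists_left {M M' : GL (Fin 2) ℝ} {a d : ℕ} {b b' : ℤ} (hM : IsUT M a d b)
    (hM' : IsUT M' a d b') (hdvd : (d : ℤ) ∣ b' - b) (N : ℕ) :
    ∃ t : Gamma0 N, M' = mapGL ℝ (t : SL(2, ℤ)) * M := by
  obtain ⟨k, hk⟩ := hdvd
  refine ⟨⟨ModularGroup.T ^ k, T_zpow_mem_Gamma0 N k⟩, ?_⟩
  unfold IsUT at hM hM'
  apply Matrix.GeneralLinearGroup.ext
  intro i j
  rw [hM', Matrix.GeneralLinearGroup.coe_mul, hM]
  have hk' : (b' : ℝ) = b + (d : ℝ) * k := by
    have : b' = b + (d : ℤ) * k := by rw [← hk]; ring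
    exact_mod_cast this
  simp only [Matrix.mul_apply, Fin.sum_univ_two, mapGL_val, ModularGroup.coe_T_zpow]
  fin_cases i <;> fin_cases j <;> simp [hk']
  ring

/-- **Commutation for upper-triangular correspondences on `Γ₀(N)`**, reduced to arithmetic of
the entries. -/
theorem op_comm_of_UT {N : ℕ} {ι₁ ι₂ : Type} [Fintype ι₁] [Fintype ι₂]
    (C₁ : Corr (Gamma0 N) ι₁) (C₂ : Corr (Gamma0 N) ι₂)
    (a₁ d₁ : ι₁ → ℕ) (b₁ : ι₁ → ℤ) (a₂ d₂ : ι₂ → ℕ) (b₂ : ι₂ → ℤ)
    (h₁ : ∀ i, IsUT (C₁.α i) (a₁ i) (d₁ i) (b₁ i))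
    (h₂ : ∀ j, IsUT (C₂.α j) (a₂ j) (d₂ j) (b₂ j))
    (ha₁ : ∀ i, 0 < a₁ i) (ha₂ : ∀ j, 0 < a₂ j)
    (hE : ∀ i j, ∃ a b, a₂ j * a₁ i = a₁ a * a₂ b ∧ d₂ j * d₁ i = d₁ a * d₂ b ∧
      ((d₁ a * d₂ b : ℕ) : ℤ) ∣ ((a₂ j : ℤ) * b₁ i + b₂ j * (d₁ i : ℤ))
        - ((a₁ a : ℤ) * b₂ b + b₁ a * (d₂ b : ℤ)))
    (hA : ∀ i i' j j', a₂ j * a₁ i = a₂ j' * a₁ i' → d₂ j * d₁ i = d₂ j' * d₁ i' →
      ((d₂ j * d₁ i : ℕ) : ℤ) ∣ ((a₂ j' : ℤ) * b₁ i' + b₂ j' * (d₁ i' : ℤ))
        - ((a₂ j : ℤ) * b₁ i + b₂ j * (d₁ i : ℤ)) → i = i' ∧ j = j')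
    (hB : ∀ i i' j j', a₁ i * a₂ j = a₁ i' * a₂ j' → d₁ i * d₂ j = d₁ i' * d₂ j' →
      ((d₁ i * d₂ j : ℕ) : ℤ) ∣ ((a₁ i' : ℤ) * b₂ j' + b₁ i' * (d₂ j' : ℤ))
        - ((a₁ i : ℤ) * b₂ j + b₁ i * (d₂ j : ℤ)) → i = i' ∧ j = j')
    (A : Type*) [AddCommGroup A] (φ : Additive (Gamma0 N) →+ A) :
    C₁.op A (C₂.op A φ) = C₂.op A (C₁.op A φ) := by
  refine op_comm_of_swap C₁ C₂ ?_ ?_ ?_ A φ
  · intro i j
    obtain ⟨a, b, e1, e2, e3⟩ := hE i j
    have hM := (h₁ a).mul (h₂ b)
    have hM' := (h₂ j).mul (h₁ i)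
    rw [e1, e2] at hM'
    obtain ⟨t, ht⟩ := hM.exists_left hM' e3 N
    exact ⟨a, b, t, ht⟩
  · intro i i' j j' h H
    obtain ⟨e1, e2, e3⟩ := ((h₂ j).mul (h₁ i)).left_eq ((h₂ j').mul (h₁ i'))
      (Nat.mul_pos (ha₂ j) (ha₁ i)) (Nat.mul_pos (ha₂ j') (ha₁ i')) (h : SL(2, ℤ)) H
    exact hA i i' j j' e1 e2 e3
  · intro i i' j j' h H
    obtain ⟨e1, e2, e3⟩ := ((h₁ i).mul (h₂ j)).left_eq ((h₁ i').mul (h₂ j'))
      (Nat.mul_pos (ha₁ i) (ha₂ j)) (Nat.mul_pos (ha₁ i') (ha₂ j')) (h : SL(2, ℤ)) H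
    exact hB i i' j j' e1 e2 e3

end UT

/-! ### Residue arithmetic -/

section Arith

theorem zmod_eq_of_dvd {n : ℕ} [NeZero n] (i j : ZMod n)
    (h : (n : ℤ) ∣ (j.val : ℤ) - (i.val : ℤ)) : j = i := by
  have h0 := (ZMod.intCast_zmod_eq_zero_iff_dvd _ n).mpr h
  push_cast at h0
  rw [ZMod.natCast_zmod_val, ZMod.natCast_zmod_val] at h0
  exact sub_eq_zero.mp h0

theorem exists_zmod_dvd (n : ℕ) [NeZero n] (m : ℤ) : ∃ i : ZMod n, (n : ℤ) ∣ m - (i.val : ℤ) := by
  refine ⟨(m : ZMod n), ?_⟩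
  rw [← ZMod.intCast_zmod_eq_zero_iff_dvd]
  push_cast
  rw [ZMod.natCast_zmod_val, sub_self]

theorem exists_zmod_mul_dvd (n c : ℕ) [NeZero n] (hc : Nat.Coprime c n) (m : ℤ) :
    ∃ i : ZMod n, (n : ℤ) ∣ m - (c : ℤ) * (i.val : ℤ) := by
  have hco : IsCoprime (c : ℤ) (n : ℤ) := Nat.isCoprime_iff_coprime.mpr hc
  obtain ⟨u, v, huv⟩ := hco
  obtain ⟨i, k, hk⟩ := exists_zmod_dvd n (u * m)
  refine ⟨i, v * m + c * k, ?_⟩
  linear_combination (-m : ℤ) * huv + (c : ℤ) * hk

theorem dvd_of_dvd_mul_coprime (n c : ℕ) (hc : Nat.Coprime c n) (m : ℤ)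
    (h : (n : ℤ) ∣ (c : ℤ) * m) : (n : ℤ) ∣ m := by
  have hco : IsCoprime (n : ℤ) (c : ℤ) := (Nat.isCoprime_iff_coprime.mpr hc).symm
  exact hco.dvd_of_dvd_mul_left h

theorem digits_exists (n n' : ℕ) [NeZero n] [NeZero n'] (m : ℤ) :
    ∃ (i : ZMod n) (i' : ZMod n'),
      ((n * n' : ℕ) : ℤ) ∣ m - ((i'.val : ℤ) + (i.val : ℤ) * (n' : ℤ)) := by
  obtain ⟨i', k, hk⟩ := exists_zmod_dvd n' m
  obtain ⟨i, k', hk'⟩ := exists_zmod_dvd n k
  refine ⟨i, i', k', ?_⟩
  push_cast
  linear_combination hk + (n' : ℤ) * hk'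

theorem digits_unique (n n' : ℕ) [NeZero n] [NeZero n'] (i j : ZMod n) (i' j' : ZMod n')
    (h : ((n * n' : ℕ) : ℤ) ∣ ((j'.val : ℤ) + (j.val : ℤ) * (n' : ℤ))
      - ((i'.val : ℤ) + (i.val : ℤ) * (n' : ℤ))) : j = i ∧ j' = i' := by
  obtain ⟨k, hk⟩ := h
  push_cast at hk
  have h1 : j' = i' := by
    apply zmod_eq_of_dvd
    refine ⟨n * k - ((j.val : ℤ) - (i.val : ℤ)), ?_⟩
    linear_combination hk
  subst h1
  have hn' : (n' : ℤ) ≠ 0 := by exact_mod_cast NeZero.ne n'
  refine ⟨?_, rfl⟩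
  apply zmod_eq_of_dvd
  refine ⟨k, ?_⟩
  apply mul_right_cancel₀ hn'
  linear_combination hk

end Arith

/-! ### The concrete Hecke operators commute -/

section Concrete

open ModularForm (heckeMatrix heckeDiagMatrix val_heckeMatrix val_heckeDiagMatrix)

/-- `U_r` and `U_r'` commute on `Hom(Γ₀(N), A)`. -/
theorem heckeHomU_comm (N r r' : ℕ) [NeZero r] [NeZero r'] (hr : r ∣ N) (hr' : r' ∣ N)
    (A : Type*) [AddCommGroup A] (φ : Additive (Gamma0 N) →+ A) :
    heckeHomU N r hr A (heckeHomU N r' hr' A φ)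
      = heckeHomU N r' hr' A (heckeHomU N r hr A φ) := by
  refine op_comm_of_UT (corrU N r hr) (corrU N r' hr') (fun _ => 1) (fun _ => r)
    (fun j => ((j.val : ℕ) : ℤ)) (fun _ => 1) (fun _ => r') (fun j => ((j.val : ℕ) : ℤ))
    (fun j => isUT_heckeMatrix (NeZero.ne r) j.val)
    (fun j => isUT_heckeMatrix (NeZero.ne r') j.val)
    (fun _ => Nat.one_pos) (fun _ => Nat.one_pos) ?_ ?_ ?_ A φ
  · intro j j'
    obtain ⟨i, i', h⟩ := digits_exists r r' ((j.val : ℤ) + (j'.val : ℤ) * r)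
    refine ⟨i, i', rfl, Nat.mul_comm _ _, ?_⟩
    convert h using 2 <;> push_cast <;> ring
  · intro i i' j j' _ _ h
    have h' : ((r' * r : ℕ) : ℤ) ∣ ((i'.val : ℤ) + (j'.val : ℤ) * (r : ℤ))
        - ((i.val : ℤ) + (j.val : ℤ) * (r : ℤ)) := by
      convert h using 2 <;> push_cast <;> ring
    obtain ⟨e1, e2⟩ := digits_unique r' r j j' i i' h'
    exact ⟨e2.symm, e1.symm⟩
  · intro i i' j j' _ _ h
    have h' : ((r * r' : ℕ) : ℤ) ∣ ((j'.val : ℤ) + (i'.val : ℤ) * (r' : ℤ))
        - ((j.val : ℤ) + (i.val : ℤ) * (r' : ℤ)) := by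
      convert h using 2 <;> push_cast <;> ring
    obtain ⟨e1, e2⟩ := digits_unique r r' i i' j j' h'
    exact ⟨e1.symm, e2.symm⟩

/-- upper-left entry of `repT l x` -/
def utA (l : ℕ) (x : OnePoint (ZMod l)) : ℕ := x.elim l (fun _ => 1)

/-- lower-right entry of `repT l x` -/
def utD (l : ℕ) (x : OnePoint (ZMod l)) : ℕ := x.elim 1 (fun _ => l)

/-- upper-right entry of `repT l x` -/
def utB (l : ℕ) (x : OnePoint (ZMod l)) : ℤ := x.elim 0 (fun j => ((j.val : ℕ) : ℤ))

@[simp] theorem utA_infty (l : ℕ) : utA l OnePoint.infty = l := rfl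
@[simp] theorem utA_coe (l : ℕ) (j : ZMod l) : utA l (j : OnePoint (ZMod l)) = 1 := rfl
@[simp] theorem utD_infty (l : ℕ) : utD l OnePoint.infty = 1 := rfl
@[simp] theorem utD_coe (l : ℕ) (j : ZMod l) : utD l (j : OnePoint (ZMod l)) = l := rfl
@[simp] theorem utB_infty (l : ℕ) : utB l OnePoint.infty = 0 := rfl
@[simp] theorem utB_coe (l : ℕ) (j : ZMod l) :
    utB l (j : OnePoint (ZMod l)) = ((j.val : ℕ) : ℤ) := rfl

theorem isUT_repT {l : ℕ} (hl : l ≠ 0) (x : OnePoint (ZMod l)) :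
    IsUT (repT l x) (utA l x) (utD l x) (utB l x) := by
  induction x using OnePoint.rec with
  | infty => exact isUT_heckeDiagMatrix hl
  | coe j => exact isUT_heckeMatrix hl j.val

theorem utA_pos {l : ℕ} (hl : l ≠ 0) (x : OnePoint (ZMod l)) : 0 < utA l x := by
  induction x using OnePoint.rec with
  | infty => exact Nat.pos_of_ne_zero hl
  | coe j => exact Nat.one_pos

/-- `T_l` (`l ∤ N`) and `U_r` (`r ∣ N`) commute on `Hom(Γ₀(N), A)`. -/
theorem heckeHomT_heckeHomU_comm (N l r : ℕ) [Fact l.Prime] [NeZero r] (hl : ¬ l ∣ N)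
    (hr : r ∣ N) (A : Type*) [AddCommGroup A] (φ : Additive (Gamma0 N) →+ A) :
    heckeHomT N l hl A (heckeHomU N r hr A φ)
      = heckeHomU N r hr A (heckeHomT N l hl A φ) := by
  have hlp : l.Prime := Fact.out
  have hl0 : l ≠ 0 := hlp.ne_zero
  have hl2 : 2 ≤ l := hlp.two_le
  have : NeZero l := ⟨hl0⟩
  have hco : Nat.Coprime l r :=
    (Nat.Prime.coprime_iff_not_dvd hlp).mpr (fun h => hl (h.trans hr))
  refine op_comm_of_UT (corrT N l hl) (corrU N r hr) (utA l) (utD l) (utB l)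
    (fun _ => 1) (fun _ => r) (fun j => ((j.val : ℕ) : ℤ))
    (fun x => isUT_repT hl0 x) (fun j => isUT_heckeMatrix (NeZero.ne r) j.val)
    (fun x => utA_pos hl0 x) (fun _ => Nat.one_pos) ?_ ?_ ?_ A φ
  · intro x j
    induction x using OnePoint.rec with
    | infty =>
      obtain ⟨j₂, h⟩ := exists_zmod_mul_dvd r l hco (j.val : ℤ)
      refine ⟨OnePoint.infty, j₂, Nat.mul_comm _ _, Nat.mul_comm _ _, ?_⟩
      simp only [utA_infty, utD_infty, utB_infty]
      convert h using 2 <;> push_cast <;> ring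
    | coe i =>
      obtain ⟨i₂, j₂, h⟩ := digits_exists l r ((i.val : ℤ) + (j.val : ℤ) * l)
      refine ⟨(i₂ : OnePoint (ZMod l)), j₂, Nat.mul_comm _ _, Nat.mul_comm _ _, ?_⟩
      simp only [utA_coe, utD_coe, utB_coe]
      convert h using 2 <;> push_cast <;> ring
  · intro x x' j j' ha _ h
    induction x using OnePoint.rec with
    | infty =>
      induction x' using OnePoint.rec with
      | infty =>
        simp only [utD_infty, utB_infty] at h
        have h' : (r : ℤ) ∣ (j'.val : ℤ) - (j.val : ℤ) := by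
          convert h using 2 <;> push_cast <;> ring
        exact ⟨rfl, (zmod_eq_of_dvd j j' h').symm⟩
      | coe i' =>
        exfalso
        simp only [utA_infty, utA_coe] at ha
        omega
    | coe i =>
      induction x' using OnePoint.rec with
      | infty =>
        exfalso
        simp only [utA_infty, utA_coe] at ha
        omega
      | coe i' =>
        simp only [utD_coe, utB_coe] at h
        have h' : ((r * l : ℕ) : ℤ) ∣ ((i'.val : ℤ) + (j'.val : ℤ) * (l : ℤ))
            - ((i.val : ℤ) + (j.val : ℤ) * (l : ℤ)) := by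
          convert h using 2 <;> push_cast <;> ring
        obtain ⟨e1, e2⟩ := digits_unique r l j j' i i' h'
        exact ⟨by rw [e2], e1.symm⟩
  · intro x x' j j' ha _ h
    induction x using OnePoint.rec with
    | infty =>
      induction x' using OnePoint.rec with
      | infty =>
        simp only [utA_infty, utD_infty, utB_infty] at h
        have h' : (r : ℤ) ∣ (l : ℤ) * ((j'.val : ℤ) - (j.val : ℤ)) := by
          convert h using 2 <;> ring
        have h'' := dvd_of_dvd_mul_coprime r l hco _ h'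
        exact ⟨rfl, (zmod_eq_of_dvd j j' h'').symm⟩
      | coe i' =>
        exfalso
        simp only [utA_infty, utA_coe] at ha
        omega
    | coe i =>
      induction x' using OnePoint.rec with
      | infty =>
        exfalso
        simp only [utA_infty, utA_coe] at ha
        omega
      | coe i' =>
        simp only [utA_coe, utD_coe, utB_coe] at h
        have h' : ((l * r : ℕ) : ℤ) ∣ ((j'.val : ℤ) + (i'.val : ℤ) * (r : ℤ))
            - ((j.val : ℤ) + (i.val : ℤ) * (r : ℤ)) := by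
          convert h using 2 <;> push_cast <;> ring
        obtain ⟨e1, e2⟩ := digits_unique l r i i' j j' h'
        exact ⟨by rw [e1], e2.symm⟩

/-- Distinctness of the products `repT l x * repT l' y` (arithmetic form), `l ≠ l'` primes. -/
theorem dist_TT {l l' : ℕ} [Fact l.Prime] [Fact l'.Prime] (hne : l ≠ l')
    (x x' : OnePoint (ZMod l)) (y y' : OnePoint (ZMod l'))
    (ha : utA l x * utA l' y = utA l x' * utA l' y')
    (h : ((utD l x * utD l' y : ℕ) : ℤ) ∣ ((utA l x' : ℤ) * utB l' y' + utB l x' * (utD l' y' : ℤ))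
      - ((utA l x : ℤ) * utB l' y + utB l x * (utD l' y : ℤ))) :
    x = x' ∧ y = y' := by
  have hlp : l.Prime := Fact.out
  have hlp' : l'.Prime := Fact.out
  have hl2 : 2 ≤ l := hlp.two_le
  have hl2' : 2 ≤ l' := hlp'.two_le
  have : NeZero l := ⟨hlp.ne_zero⟩
  have : NeZero l' := ⟨hlp'.ne_zero⟩
  have hco : Nat.Coprime l l' := (Nat.coprime_primes hlp hlp').mpr hne
  have hm1 : 2 * l ≤ l * l' := by nlinarith
  have hm2 : 2 * l' ≤ l * l' := by nlinarith
  induction x using OnePoint.rec with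
  | infty =>
    induction x' using OnePoint.rec with
    | infty =>
      induction y using OnePoint.rec with
      | infty =>
        induction y' using OnePoint.rec with
        | infty => exact ⟨rfl, rfl⟩
        | coe i' =>
          exfalso
          simp only [utA_infty, utA_coe] at ha
          generalize l * l' = m at *
          omega
      | coe j' =>
        induction y' using OnePoint.rec with
        | infty =>
          exfalso
          simp only [utA_infty, utA_coe] at ha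
          generalize l * l' = m at *
          omega
        | coe i' =>
          simp only [utA_infty, utD_infty, utB_infty, utD_coe, utB_coe] at h
          have h' : (l' : ℤ) ∣ (l : ℤ) * ((i'.val : ℤ) - (j'.val : ℤ)) := by
            convert h using 2 <;> ring
          have h'' := dvd_of_dvd_mul_coprime l' l hco _ h'
          exact ⟨rfl, by rw [zmod_eq_of_dvd j' i' h'']⟩
    | coe i =>
      exfalso
      induction y using OnePoint.rec with
      | infty =>
        induction y' using OnePoint.rec with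
        | infty =>
          simp only [utA_infty, utA_coe] at ha
          generalize l * l' = m at *
          omega
        | coe i' =>
          simp only [utA_infty, utA_coe] at ha
          generalize l * l' = m at *
          omega
      | coe j' =>
        induction y' using OnePoint.rec with
        | infty =>
          simp only [utA_infty, utA_coe] at ha
          generalize l * l' = m at *
          omega
        | coe i' =>
          simp only [utA_infty, utA_coe] at ha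
          generalize l * l' = m at *
          omega
  | coe j =>
    induction x' using OnePoint.rec with
    | infty =>
      exfalso
      induction y using OnePoint.rec with
      | infty =>
        induction y' using OnePoint.rec with
        | infty =>
          simp only [utA_infty, utA_coe] at ha
          generalize l * l' = m at *
          omega
        | coe i' =>
          simp only [utA_infty, utA_coe] at ha
          generalize l * l' = m at *
          omega
      | coe j' =>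
        induction y' using OnePoint.rec with
        | infty =>
          simp only [utA_infty, utA_coe] at ha
          generalize l * l' = m at *
          omega
        | coe i' =>
          simp only [utA_infty, utA_coe] at ha
          generalize l * l' = m at *
          omega
    | coe i =>
      induction y using OnePoint.rec with
      | infty =>
        induction y' using OnePoint.rec with
        | infty =>
          simp only [utD_infty, utB_infty, utA_coe, utD_coe, utB_coe] at h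
          have h' : (l : ℤ) ∣ (i.val : ℤ) - (j.val : ℤ) := by
            convert h using 2 <;> push_cast <;> ring
          exact ⟨by rw [zmod_eq_of_dvd j i h'], rfl⟩
        | coe i' =>
          exfalso
          simp only [utA_infty, utA_coe] at ha
          generalize l * l' = m at *
          omega
      | coe j' =>
        induction y' using OnePoint.rec with
        | infty =>
          exfalso
          simp only [utA_infty, utA_coe] at ha
          generalize l * l' = m at *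
          omega
        | coe i' =>
          simp only [utA_coe, utD_coe, utB_coe] at h
          have h' : ((l * l' : ℕ) : ℤ) ∣ ((i'.val : ℤ) + (i.val : ℤ) * (l' : ℤ))
              - ((j'.val : ℤ) + (j.val : ℤ) * (l' : ℤ)) := by
            convert h using 2 <;> push_cast <;> ring
          obtain ⟨e1, e2⟩ := digits_unique l l' j i j' i' h'
          exact ⟨by rw [e1], by rw [e2]⟩

/-- `T_l` and `T_l'` (`l, l' ∤ N`) commute on `Hom(Γ₀(N), A)`. -/
theorem heckeHomT_comm (N l l' : ℕ) [Fact l.Prime] [Fact l'.Prime] (hl : ¬ l ∣ N)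
    (hl' : ¬ l' ∣ N) (A : Type*) [AddCommGroup A] (φ : Additive (Gamma0 N) →+ A) :
    heckeHomT N l hl A (heckeHomT N l' hl' A φ)
      = heckeHomT N l' hl' A (heckeHomT N l hl A φ) := by
  by_cases hne : l = l'
  · subst hne
    rfl
  have hlp : l.Prime := Fact.out
  have hlp' : l'.Prime := Fact.out
  have hl0 : l ≠ 0 := hlp.ne_zero
  have hl0' : l' ≠ 0 := hlp'.ne_zero
  have : NeZero l := ⟨hl0⟩
  have : NeZero l' := ⟨hl0'⟩
  have hco : Nat.Coprime l l' := (Nat.coprime_primes hlp hlp').mpr hne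
  refine op_comm_of_UT (corrT N l hl) (corrT N l' hl') (utA l) (utD l) (utB l)
    (utA l') (utD l') (utB l')
    (fun x => isUT_repT hl0 x) (fun y => isUT_repT hl0' y)
    (fun x => utA_pos hl0 x) (fun y => utA_pos hl0' y) ?_ ?_ ?_ A φ
  · intro x y
    induction x using OnePoint.rec with
    | infty =>
      induction y using OnePoint.rec with
      | infty =>
        refine ⟨OnePoint.infty, OnePoint.infty, Nat.mul_comm _ _, Nat.mul_comm _ _, ?_⟩
        simp
      | coe j' =>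
        obtain ⟨i', h⟩ := exists_zmod_mul_dvd l' l hco (j'.val : ℤ)
        refine ⟨OnePoint.infty, (i' : OnePoint (ZMod l')), Nat.mul_comm _ _, Nat.mul_comm _ _, ?_⟩
        simp only [utA_infty, utD_infty, utB_infty, utA_coe, utD_coe, utB_coe]
        convert h using 2 <;> push_cast <;> ring
    | coe i =>
      induction y using OnePoint.rec with
      | infty =>
        obtain ⟨i₂, h⟩ := exists_zmod_dvd l ((l' : ℤ) * (i.val : ℤ))
        refine ⟨(i₂ : OnePoint (ZMod l)), OnePoint.infty, Nat.mul_comm _ _, Nat.mul_comm _ _, ?_⟩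
        simp only [utA_infty, utD_infty, utB_infty, utA_coe, utD_coe, utB_coe]
        convert h using 2 <;> push_cast <;> ring
      | coe j' =>
        obtain ⟨i₂, i₂', h⟩ := digits_exists l l' ((i.val : ℤ) + (j'.val : ℤ) * l)
        refine ⟨(i₂ : OnePoint (ZMod l)), (i₂' : OnePoint (ZMod l')), Nat.mul_comm _ _,
          Nat.mul_comm _ _, ?_⟩
        simp only [utA_coe, utD_coe, utB_coe]
        convert h using 2 <;> push_cast <;> ring
  · intro x x' y y' ha _ h
    obtain ⟨e1, e2⟩ := dist_TT (l := l') (l' := l) (Ne.symm hne) y y' x x' ha h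
    exact ⟨e2, e1⟩
  · intro x x' y y' ha _ h
    exact dist_TT hne x x' y y' ha h

end Concrete

/-! ### The commutative Hecke ring action on `Hom(Γ₀(N), A)` -/

section Ring

variable (N : ℕ) (A : Type*) [AddCommGroup A]

/-- The Hecke operator at `l` on `Hom(Γ₀(N), A)` as a `ℤ`-linear endomorphism: `T_l` if `l` is a
prime not dividing `N`, `U_l` if `l` is a prime dividing `N`, and `0` if `l` is not prime. -/
noncomputable def heckeEnd (l : ℕ) : Module.End ℤ (Additive (Gamma0 N) →+ A) :=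
  if hl : l.Prime then
    if hN : l ∣ N then
      haveI : NeZero l := ⟨hl.ne_zero⟩
      (corrU N l hN).opLin ℤ A
    else
      haveI : Fact l.Prime := ⟨hl⟩
      (corrT N l hN).opLin ℤ A
  else 0

theorem heckeEnd_of_not_dvd {l : ℕ} [Fact l.Prime] (hN : ¬ l ∣ N)
    (φ : Additive (Gamma0 N) →+ A) : heckeEnd N A l φ = heckeHomT N l hN A φ := by
  unfold heckeEnd
  rw [dif_pos (Fact.out : l.Prime), dif_neg hN]
  rfl

theorem heckeEnd_of_dvd {l : ℕ} [Fact l.Prime] [NeZero l] (hN : l ∣ N)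
    (φ : Additive (Gamma0 N) →+ A) : heckeEnd N A l φ = heckeHomU N l hN A φ := by
  unfold heckeEnd
  rw [dif_pos (Fact.out : l.Prime), dif_pos hN]
  rfl

theorem heckeEnd_of_not_prime {l : ℕ} (hl : ¬ l.Prime) : heckeEnd N A l = 0 := by
  unfold heckeEnd
  rw [dif_neg hl]

/-- The Hecke operators at all primes pairwise commute. -/
theorem heckeEnd_comm (l l' : ℕ) : heckeEnd N A l * heckeEnd N A l' = heckeEnd N A l' * heckeEnd N A l := by
  by_cases hl : l.Prime
  swap
  · rw [heckeEnd_of_not_prime N A hl, zero_mul, mul_zero]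
  by_cases hl' : l'.Prime
  swap
  · rw [heckeEnd_of_not_prime N A hl', zero_mul, mul_zero]
  have : Fact l.Prime := ⟨hl⟩
  have : Fact l'.Prime := ⟨hl'⟩
  have : NeZero l := ⟨hl.ne_zero⟩
  have : NeZero l' := ⟨hl'.ne_zero⟩
  refine LinearMap.ext fun φ => ?_
  rw [Module.End.mul_apply, Module.End.mul_apply]
  by_cases hN : l ∣ N <;> by_cases hN' : l' ∣ N
  · rw [heckeEnd_of_dvd N A hN, heckeEnd_of_dvd N A hN', heckeEnd_of_dvd N A hN,
      heckeEnd_of_dvd N A hN']
    exact heckeHomU_comm N l l' hN hN' A φ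
  · rw [heckeEnd_of_dvd N A hN, heckeEnd_of_not_dvd N A hN', heckeEnd_of_dvd N A hN,
      heckeEnd_of_not_dvd N A hN']
    exact (heckeHomT_heckeHomU_comm N l' l hN' hN A φ).symm
  · rw [heckeEnd_of_not_dvd N A hN, heckeEnd_of_dvd N A hN', heckeEnd_of_not_dvd N A hN,
      heckeEnd_of_dvd N A hN']
    exact heckeHomT_heckeHomU_comm N l l' hN hN' A φ
  · rw [heckeEnd_of_not_dvd N A hN, heckeEnd_of_not_dvd N A hN', heckeEnd_of_not_dvd N A hN,
      heckeEnd_of_not_dvd N A hN']
    exact heckeHomT_comm N l l' hN hN' A φ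

/-- Naturality of the Hecke operators in the coefficient group. -/
theorem heckeEnd_comp {A B : Type*} [AddCommGroup A] [AddCommGroup B] (f : A →+ B) (l : ℕ)
    (φ : Additive (Gamma0 N) →+ A) :
    heckeEnd N B l (f.comp φ) = f.comp (heckeEnd N A l φ) := by
  by_cases hl : l.Prime
  swap
  · rw [heckeEnd_of_not_prime N A hl, heckeEnd_of_not_prime N B hl]
    simp
  have : Fact l.Prime := ⟨hl⟩
  have : NeZero l := ⟨hl.ne_zero⟩
  by_cases hN : l ∣ N
  · rw [heckeEnd_of_dvd N B hN, heckeEnd_of_dvd N A hN]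
    exact heckeHomU_comp N l hN f φ
  · rw [heckeEnd_of_not_dvd N B hN, heckeEnd_of_not_dvd N A hN]
    exact heckeHomT_comp N l hN f φ

/-- The commutative subalgebra of `End_ℤ(Hom(Γ₀(N), A))` generated by the Hecke operators. -/
noncomputable abbrev heckeSubalgebra : Subalgebra ℤ (Module.End ℤ (Additive (Gamma0 N) →+ A)) :=
  Algebra.adjoin ℤ (Set.range (heckeEnd N A))

instance heckeSubalgebra_isMulCommutative : IsMulCommutative (heckeSubalgebra N A) :=
  Algebra.isMulCommutative_adjoin ℤ (by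
    rintro _ ⟨l, rfl⟩ _ ⟨l', rfl⟩
    exact heckeEnd_comm N A l l')

open scoped IsMulCommutative in
/-- **The Hecke ring action**: the ring homomorphism from the polynomial ring `ℤ[X_l : l ∈ ℕ]`
to `End_ℤ(Hom(Γ₀(N), A))` sending `X_l` to `T_l` (`l ∤ N` prime), `U_l` (`l ∣ N` prime). -/
noncomputable def heckeRing : MvPolynomial ℕ ℤ →+* Module.End ℤ (Additive (Gamma0 N) →+ A) :=
  (heckeSubalgebra N A).val.toRingHom.comp
    (MvPolynomial.aeval (R := ℤ) (S₁ := heckeSubalgebra N A)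
      (fun l => ⟨heckeEnd N A l, Algebra.subset_adjoin ⟨l, rfl⟩⟩)).toRingHom

@[simp] theorem heckeRing_X (l : ℕ) : heckeRing N A (MvPolynomial.X l) = heckeEnd N A l := by
  unfold heckeRing
  simp

theorem heckeRing_C (c : ℤ) (φ : Additive (Gamma0 N) →+ A) :
    heckeRing N A (MvPolynomial.C c) φ = c • φ := by
  unfold heckeRing
  simp

theorem heckeRing_X_of_not_dvd {l : ℕ} [Fact l.Prime] (hN : ¬ l ∣ N)
    (φ : Additive (Gamma0 N) →+ A) :
    heckeRing N A (MvPolynomial.X l) φ = heckeHomT N l hN A φ := by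
  rw [heckeRing_X, heckeEnd_of_not_dvd]

theorem heckeRing_X_of_dvd {l : ℕ} [Fact l.Prime] [NeZero l] (hN : l ∣ N)
    (φ : Additive (Gamma0 N) →+ A) :
    heckeRing N A (MvPolynomial.X l) φ = heckeHomU N l hN A φ := by
  rw [heckeRing_X, heckeEnd_of_dvd]

/-- Every element of the Hecke ring commutes with every Hecke operator. -/
theorem heckeRing_mul_heckeEnd (t : MvPolynomial ℕ ℤ) (l : ℕ) :
    heckeRing N A t * heckeEnd N A l = heckeEnd N A l * heckeRing N A t := by
  rw [← heckeRing_X, ← map_mul, ← map_mul, mul_comm]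

/-- The endomorphism of the polynomial ring `ℤ[X_l]` killing the variable `X_q`. -/
noncomputable def killVar (q : ℕ) : MvPolynomial ℕ ℤ →+* MvPolynomial ℕ ℤ :=
  (MvPolynomial.aeval (R := ℤ)
    (fun l => if l = q then (0 : MvPolynomial ℕ ℤ) else MvPolynomial.X l)).toRingHom

theorem killVar_X_of_ne {q l : ℕ} (hl : l ≠ q) :
    killVar q (MvPolynomial.X l) = MvPolynomial.X l := by
  unfold killVar
  simp [hl]

theorem killVar_X_self (q : ℕ) : killVar q (MvPolynomial.X q) = 0 := by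
  unfold killVar
  simp

theorem killVar_C (q : ℕ) (c : ℤ) : killVar q (MvPolynomial.C c) = MvPolynomial.C c := by
  unfold killVar
  simp

/-- The Hecke ring action away from `q`: `X_l ↦ T_l / U_l` for primes `l ≠ q`, `X_q ↦ 0`.
(The same polynomial ring then acts compatibly at levels `N` and `N * q`.) -/
noncomputable def heckeRingAway (q : ℕ) :
    MvPolynomial ℕ ℤ →+* Module.End ℤ (Additive (Gamma0 N) →+ A) :=
  (heckeRing N A).comp (killVar q)

theorem heckeRingAway_X_of_ne {q l : ℕ} (hl : l ≠ q) :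
    heckeRingAway N A q (MvPolynomial.X l) = heckeEnd N A l := by
  unfold heckeRingAway
  rw [RingHom.comp_apply, killVar_X_of_ne hl, heckeRing_X]

theorem heckeRingAway_X_self (q : ℕ) : heckeRingAway N A q (MvPolynomial.X q) = 0 := by
  unfold heckeRingAway
  rw [RingHom.comp_apply, killVar_X_self, map_zero]

theorem heckeRingAway_C (q : ℕ) (c : ℤ) (φ : Additive (Gamma0 N) →+ A) :
    heckeRingAway N A q (MvPolynomial.C c) φ = c • φ := by
  unfold heckeRingAway
  rw [RingHom.comp_apply, killVar_C, heckeRing_C]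

/-- Every element of the Hecke ring away from `q` commutes with every Hecke operator
(including the one at `q`). -/
theorem heckeRingAway_mul_heckeEnd (q : ℕ) (t : MvPolynomial ℕ ℤ) (l : ℕ) :
    heckeRingAway N A q t * heckeEnd N A l = heckeEnd N A l * heckeRingAway N A q t :=
  heckeRing_mul_heckeEnd N A _ l

end Ring

/-- Naturality of the Hecke ring action in the coefficient group. -/
theorem heckeRing_comp (N : ℕ) {A B : Type*} [AddCommGroup A] [AddCommGroup B] (f : A →+ B)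
    (t : MvPolynomial ℕ ℤ) (φ : Additive (Gamma0 N) →+ A) :
    heckeRing N B t (f.comp φ) = f.comp (heckeRing N A t φ) := by
  induction t using MvPolynomial.induction_on generalizing φ with
  | C c =>
    rw [heckeRing_C, heckeRing_C]
    refine AddMonoidHom.ext fun γ => ?_
    simp
  | add p q hp hq =>
    rw [map_add, map_add, LinearMap.add_apply, LinearMap.add_apply, hp, hq]
    refine AddMonoidHom.ext fun γ => ?_
    simp
  | mul_X p l hp =>
    rw [map_mul, map_mul, heckeRing_X, heckeRing_X, Module.End.mul_apply, Module.End.mul_apply,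
      heckeEnd_comp, hp]

/-- Naturality of the Hecke ring action away from `q` in the coefficient group. -/
theorem heckeRingAway_comp (N : ℕ) {A B : Type*} [AddCommGroup A] [AddCommGroup B] (f : A →+ B)
    (q : ℕ) (t : MvPolynomial ℕ ℤ) (φ : Additive (Gamma0 N) →+ A) :
    heckeRingAway N B q t (f.comp φ) = f.comp (heckeRingAway N A q t φ) :=
  heckeRing_comp N f _ φ

end Fermat.Agent.S41.helper262
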