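/-
S41 (level raising), leaf L5 (ENDGAME) of `helper123_Spec`, backup copy by helper5472.

`core_of_ihara : Stmt_Ihara → Stmt_Boundary → Stmt_Core`.

Design (integral, no tensor products): the eigenvalue system `t` of `Stmt_Core` is
integer valued, so everything mod `p` can be phrased inside the lattices
`Λ_M = Hom(Γ₀(M), ℤ)` with the predicate `PDiv p z` (`z ∈ p Λ`).

* `exists_new_vector`  : abstract Ribet argument (Ihara halves (a), (b) ⟹ a vector of
                         `ker κ` which is not divisible by `p` and is an eigenvector mod `p`).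
* `exists_lift`        : Deligne–Serre lifting of a mod `p` eigenvector of a lattice to an
                         honest complex eigenvector (on top of `S49.helper1129.exists_eigen_lift`).
* `exists_int_eigen`   : the mod `𝔪` eigensystem of `f` occurs in `Λ_N / p Λ_N`
                         (on top of `S29.helper5875.exists_eigen_parabolicHom`).
-/
import Mathlib
import Fermat.Agent.S41.helper123_Spec
import Fermat.Agent.S41.helper262_HeckeComm
import Fermat.Agent.S41.helper262_EigenClass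
import Fermat.Agent.S49.helper1129_Lift
import Fermat.Agent.S29.helper5875_EigenLattice
import Fermat.Agent.S21.helper2438_ParabolicFinite

set_option autoImplicit false
set_option linter.style.haveILetI false

namespace Fermat.Agent.S41.helper5472

/-! ### Divisibility by `p` in an abelian group -/

/-- `z ∈ p G`. -/
def PDiv (p : ℕ) {G : Type*} [AddCommGroup G] (z : G) : Prop := ∃ y : G, z = (p : ℤ) • y

section PDiv

variable {p : ℕ} {G H : Type*} [AddCommGroup G] [AddCommGroup H]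

theorem pDiv_smul (y : G) : PDiv p ((p : ℤ) • y) := ⟨y, rfl⟩

theorem pDiv_zero : PDiv p (0 : G) := ⟨0, (smul_zero _).symm⟩

theorem PDiv.add {a b : G} (ha : PDiv p a) (hb : PDiv p b) : PDiv p (a + b) := by
  obtain ⟨x, rfl⟩ := ha
  obtain ⟨y, rfl⟩ := hb
  exact ⟨x + y, (smul_add _ _ _).symm⟩

theorem PDiv.neg {a : G} (ha : PDiv p a) : PDiv p (-a) := by
  obtain ⟨x, rfl⟩ := ha
  exact ⟨-x, (smul_neg _ _).symm⟩

theorem PDiv.sub {a b : G} (ha : PDiv p a) (hb : PDiv p b) : PDiv p (a - b) := by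
  rw [sub_eq_add_neg]
  exact ha.add hb.neg

theorem PDiv.zsmul (n : ℤ) {a : G} (ha : PDiv p a) : PDiv p (n • a) := by
  obtain ⟨x, rfl⟩ := ha
  exact ⟨n • x, smul_comm _ _ _⟩

theorem PDiv.map (f : G →+ H) {a : G} (ha : PDiv p a) : PDiv p (f a) := by
  obtain ⟨x, rfl⟩ := ha
  exact ⟨f x, map_zsmul f _ _⟩

theorem PDiv.iterate (f : G →+ G) (n : ℕ) {a : G} (ha : PDiv p a) : PDiv p (f^[n] a) := by
  obtain ⟨x, rfl⟩ := ha
  exact ⟨f^[n] x, iterate_map_zsmul f n x _⟩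

theorem PDiv.of_coprime {d : ℤ} (hd : IsCoprime d (p : ℤ)) {a : G} (h : PDiv p (d • a)) :
    PDiv p a := by
  obtain ⟨u, v, huv⟩ := hd
  have h1 : a = u • (d • a) + (p : ℤ) • (v • a) := by
    rw [smul_smul, smul_smul, ← add_smul, mul_comm (p : ℤ) v, huv, one_smul]
  rw [h1]
  exact (h.zsmul u).add (pDiv_smul _)

/-- If `E z ≡ d z` mod `p` then `E^n z ≡ d^n z` mod `p`. -/
theorem PDiv.iterate_sub (E : G →+ G) (d : ℤ) {z : G} (h : PDiv p (E z - d • z)) (n : ℕ) :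
    PDiv p (E^[n] z - d ^ n • z) := by
  induction n with
  | zero => simpa using (pDiv_zero : PDiv p (0 : G))
  | succ n ih =>
    have h1 : E^[n + 1] z - d ^ (n + 1) • z = E (E^[n] z - d ^ n • z) + d ^ n • (E z - d • z) := by
      rw [Function.iterate_succ_apply', map_sub, map_zsmul, smul_sub, smul_smul, pow_succ]
      abel
    rw [h1]
    exact (ih.map E).add (h.zsmul _)

end PDiv

/-! ### The abstract Ribet argument -/

section Alg

variable {L L' : Type*} [AddCommGroup L] [AddCommGroup L']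

/-- **Abstract level raising mod `p` on lattices.**  `ρ = (r₁, r₂) : L² → L'`,
`κ = (k₁, k₂) : L' → L²` with `κ ρ = [[c, T_q], [T_q, c]]`, commuting families `A i`, `A' i`
compatible with `ρ`, `κ`, and `η = A j₀ - c₀` satisfying the two Ihara halves
(a) `ρ (x, y) ∈ p L' ⟹ η³ x, η³ y ∈ p L` and (b) `η L² ⊆ κ L' + p L²`.
If `x ∉ p L` is an eigenvector mod `p` with eigenvalues `t i`, `t j₀ - c₀` prime to `p`, and
`T_q x ≡ -ε c x`, then `ker κ` contains a vector `w ∉ p L'` which is an eigenvector mod `p`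
with the same eigenvalues. -/
theorem exists_new_vector [Module.Finite ℤ L] (p : ℕ)
    (r₁ r₂ : L →+ L') (k₁ k₂ : L' →+ L) (Tq : L →+ L) (c : ℤ)
    (hkr : ∀ x, k₁ (r₁ x) = c • x ∧ k₂ (r₂ x) = c • x ∧ k₁ (r₂ x) = Tq x ∧ k₂ (r₁ x) = Tq x)
    {ι : Type*} (A : ι → L →+ L) (A' : ι → L' →+ L') (t : ι → ℤ)
    (hrA : ∀ i x, r₁ (A i x) = A' i (r₁ x) ∧ r₂ (A i x) = A' i (r₂ x))
    (hkA : ∀ i w, k₁ (A' i w) = A i (k₁ w) ∧ k₂ (A' i w) = A i (k₂ w))
    (j₀ : ι) (c₀ : ℤ)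
    (hcomm : ∀ i w, A' i (A' j₀ w) = A' j₀ (A' i w))
    (η : L → L) (hη : ∀ x, η x = A j₀ x - c₀ • x)
    (ha : ∀ x y : L, PDiv p (r₁ x + r₂ y) → PDiv p (η (η (η x))) ∧ PDiv p (η (η (η y))))
    (hb : ∀ x y : L, ∃ w : L', PDiv p (η x - k₁ w) ∧ PDiv p (η y - k₂ w))
    (hd : IsCoprime (t j₀ - c₀) (p : ℤ))
    (x : L) (hx : ¬ PDiv p x) (hxA : ∀ i, PDiv p (A i x - t i • x))
    (ε : ℤ) (hε : ε * ε = 1) (hxq : PDiv p (Tq x + (ε * c) • x)) :
    ∃ w : L', k₁ w = 0 ∧ k₂ w = 0 ∧ ¬ PDiv p w ∧ ∀ i, PDiv p (A' i w - t i • w) := by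
  classical
  -- the operators `η` and `η'` as additive maps
  let E : L →+ L := A j₀ - c₀ • AddMonoidHom.id L
  let E' : L' →+ L' := A' j₀ - c₀ • AddMonoidHom.id L'
  have hE : ∀ z, E z = A j₀ z - c₀ • z := fun z => rfl
  have hE' : ∀ z, E' z = A' j₀ z - c₀ • z := fun z => rfl
  obtain rfl : η = E := funext fun z => by rw [hη, hE]
  set d : ℤ := t j₀ - c₀ with hd_def
  have hkE : ∀ w, k₁ (E' w) = E (k₁ w) ∧ k₂ (E' w) = E (k₂ w) := by
    intro w
    rw [hE', hE, hE, map_sub, map_sub, map_zsmul, map_zsmul, (hkA j₀ w).1, (hkA j₀ w).2]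
    exact ⟨rfl, rfl⟩
  have hA'E : ∀ i w, A' i (E' w) = E' (A' i w) := by
    intro i w
    rw [hE', hE', map_sub, map_zsmul, hcomm]
  have hA'En : ∀ i n w, A' i (E'^[n] w) = E'^[n] (A' i w) := fun i n w =>
    (Function.Semiconj.iterate_right (f := A' i) (ga := E') (gb := E') (hA'E i) n) w
  -- the candidate `u = ρ (x, ε x)`
  set u : L' := r₁ x + ε • r₂ x with hu
  obtain ⟨hk11, hk22, hk12, hk21⟩ := hkr x
  have hk₂u : k₂ u = Tq x + (ε * c) • x := by
    rw [hu, map_add, map_zsmul, hk21, hk22, smul_smul]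
  have hk₁u : k₁ u = ε • (Tq x + (ε * c) • x) := by
    rw [hu, map_add, map_zsmul, hk11, hk12, smul_add, smul_smul, ← mul_assoc, hε, one_mul,
      add_comm]
  obtain ⟨y₂, hy₂⟩ : PDiv p (k₂ u) := hk₂u ▸ hxq
  obtain ⟨y₁, hy₁⟩ : PDiv p (k₁ u) := hk₁u ▸ hxq.zsmul ε
  have huA : ∀ i, PDiv p (A' i u - t i • u) := by
    intro i
    have h1 : A' i u - t i • u = r₁ (A i x - t i • x) + ε • r₂ (A i x - t i • x) := by
      rw [hu, map_add, map_zsmul, map_sub, map_sub, map_zsmul, map_zsmul, (hrA i x).1,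
        (hrA i x).2]
      module
    rw [h1]
    exact ((hxA i).map r₁).add (((hxA i).map r₂).zsmul ε)
  have huE' : PDiv p (E' u - d • u) := by
    have h1 : E' u - d • u = A' j₀ u - t j₀ • u := by
      rw [hE', hd_def, sub_smul]
      abel
    rw [h1]
    exact huA j₀
  -- `u ∉ p L'` by Ihara (a)
  have hu_not : ¬ PDiv p u := by
    intro hu'
    have h1 : PDiv p (r₁ x + r₂ (ε • x)) := by rwa [map_zsmul]
    have h2 := (ha x (ε • x) h1).1
    have h3 : PDiv p (E x - d • x) := by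
      have h : E x - d • x = A j₀ x - t j₀ • x := by
        rw [hE, hd_def, sub_smul]
        abel
      rw [h]
      exact hxA j₀
    have h4 := PDiv.iterate_sub E d h3 3
    have e3 : E^[3] x = E (E (E x)) := rfl
    have h5 : PDiv p (d ^ 3 • x) := by
      have h : d ^ 3 • x = E (E (E x)) - (E^[3] x - d ^ 3 • x) := by
        rw [e3]
        abel
      rw [h]
      exact h2.sub h4
    exact hx (PDiv.of_coprime (IsCoprime.pow_left hd) h5)
  -- `κ` and the diagonal action of `η`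
  let κ : L' →+ L × L := k₁.prod k₂
  let EE : L × L →+ L × L := E.prodMap E
  have hκ : ∀ w, κ w = (k₁ w, k₂ w) := fun w => rfl
  have hEE : ∀ y : L × L, EE y = (E y.1, E y.2) := fun y => rfl
  have hκE : ∀ w, κ (E' w) = EE (κ w) := by
    intro w
    rw [hκ, hκ, hEE, (hkE w).1, (hkE w).2]
  have hκEn : ∀ n w, κ (E'^[n] w) = EE^[n] (κ w) := fun n w =>
    (Function.Semiconj.iterate_right (f := κ) (ga := E') (gb := EE) hκE n) w
  -- the `p`-saturation of the image of `κ` is reached at a finite stage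
  let Iκ : Submodule ℤ (L × L) := LinearMap.range κ.toIntLinearMap
  have hIκ : ∀ y, y ∈ Iκ ↔ ∃ w, κ w = y := fun y => Iff.rfl
  let P : ℕ →o Submodule ℤ (L × L) :=
    { toFun := fun n => Iκ.comap (((p : ℤ) ^ n) • (LinearMap.id : (L × L) →ₗ[ℤ] L × L))
      monotone' := by
        apply monotone_nat_of_le_succ
        intro n y hy
        simp only [Submodule.mem_comap, LinearMap.smul_apply, LinearMap.id_apply] at hy ⊢
        rw [pow_succ, mul_comm, mul_smul]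
        exact Iκ.smul_mem _ hy }
  have hP : ∀ n y, y ∈ P n ↔ ((p : ℤ) ^ n) • y ∈ Iκ := fun n y => Iff.rfl
  have hnoeth : IsNoetherian ℤ (L × L) := inferInstance
  obtain ⟨e, he⟩ := monotone_stabilizes_iff_noetherian.mpr hnoeth P
  have hsat : ∀ y : L × L, (∃ n, ((p : ℤ) ^ n) • y ∈ Iκ) → ((p : ℤ) ^ e) • y ∈ Iκ := by
    rintro y ⟨n, hn⟩
    have h1 : y ∈ P (max n e) := P.monotone (le_max_left n e) ((hP n y).mpr hn)
    rw [← he (max n e) (le_max_right n e)] at h1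
    exact (hP e y).mp h1
  -- `η^j y ∈ κ L' + p^j (saturation)` for `y` in the saturation
  have key : ∀ (j : ℕ) (y : L × L), (∃ n, ((p : ℤ) ^ n) • y ∈ Iκ) →
      ∃ (w : L') (y' : L × L), (∃ n, ((p : ℤ) ^ n) • y' ∈ Iκ) ∧
        EE^[j] y = κ w + ((p : ℤ) ^ j) • y' := by
    intro j
    induction j with
    | zero =>
      intro y hy
      exact ⟨0, y, hy, by simp⟩
    | succ j ih =>
      intro y hy
      obtain ⟨w, y', ⟨n, hn⟩, hwy⟩ := ih y hy
      obtain ⟨w₃, hw₃⟩ := (hIκ _).mp hn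
      obtain ⟨w₂, ⟨z₁, hz₁⟩, ⟨z₂, hz₂⟩⟩ := hb y'.1 y'.2
      have h1 : EE y' = κ w₂ + (p : ℤ) • ((z₁, z₂) : L × L) := by
        rw [hEE, hκ]
        refine Prod.ext ?_ ?_
        · show E y'.1 = k₁ w₂ + (p : ℤ) • z₁
          rw [← hz₁]
          abel
        · show E y'.2 = k₂ w₂ + (p : ℤ) • z₂
          rw [← hz₂]
          abel
      refine ⟨E' w + ((p : ℤ) ^ j) • w₂, (z₁, z₂), ⟨n + 1, ?_⟩, ?_⟩
      · refine (hIκ _).mpr ⟨E' w₃ - ((p : ℤ) ^ n) • w₂, ?_⟩
        rw [map_sub, map_zsmul, hκE, hw₃, map_zsmul, h1, smul_add, pow_succ, mul_smul]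
        abel
      · rw [Function.iterate_succ_apply', hwy, map_add, map_zsmul, h1, map_add, map_zsmul, hκE,
          smul_add, pow_succ, mul_smul]
        abel
  have hκu : κ u = (p : ℤ) • ((y₁, y₂) : L × L) := by
    rw [hκ, hy₁, hy₂]
    rfl
  have hy0 : ∃ n, ((p : ℤ) ^ n) • ((y₁, y₂) : L × L) ∈ Iκ :=
    ⟨1, (hIκ _).mpr ⟨u, by rw [hκu, pow_one]⟩⟩
  obtain ⟨w, y', hy', hwy⟩ := key e (y₁, y₂) hy0
  obtain ⟨w₄, hw₄⟩ := (hIκ _).mp (hsat y' hy')
  have hw₅ : EE^[e] ((y₁, y₂) : L × L) = κ (w + w₄) := by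
    rw [hwy, map_add, hw₄]
  have hκfin : κ (E'^[e] u - (p : ℤ) • (w + w₄)) = 0 := by
    rw [map_sub, map_zsmul, hκEn, ← hw₅, hκu, iterate_map_zsmul, sub_self]
  refine ⟨E'^[e] u - (p : ℤ) • (w + w₄), congrArg Prod.fst hκfin, congrArg Prod.snd hκfin,
    ?_, ?_⟩
  · intro h
    have h1 : PDiv p (E'^[e] u) := by
      have h' := h.add (pDiv_smul (p := p) (w + w₄))
      rwa [sub_add_cancel] at h'
    have h2 := PDiv.iterate_sub E' d huE' e
    have h3 : PDiv p (d ^ e • u) := by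
      have h' := h1.sub h2
      rwa [sub_sub_cancel] at h'
    exact hu_not (PDiv.of_coprime (IsCoprime.pow_left hd) h3)
  · intro i
    have h1 : A' i (E'^[e] u - (p : ℤ) • (w + w₄)) - t i • (E'^[e] u - (p : ℤ) • (w + w₄))
        = E'^[e] (A' i u - t i • u) - (p : ℤ) • (A' i (w + w₄) - t i • (w + w₄)) := by
      rw [map_sub, map_zsmul, hA'En, iterate_map_sub, iterate_map_zsmul]
      module
    rw [h1]
    exact ((huA i).iterate E' e).sub (pDiv_smul _)

end Alg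

/-! ### Deligne–Serre lifting for a lattice -/

section Lift

open scoped IsMulCommutative in
/-- **Lifting.**  `Lat` a finitely generated `ℤ`-lattice in a complex vector space, stable under
a commuting family `τ l` of `ℂ`-linear maps; `w ∈ Lat`, `w ∉ p Lat`, with
`τ l w ≡ t l w` mod `p Lat` for `l ∈ S`.  Then the `ℂ`-span of `Lat` contains a simultaneous
eigenvector of all `τ l`, with algebraic integer eigenvalues `a l`, and there is a maximal
ideal `𝔪' ∋ p` of the algebraic integers with `a l ≡ t l` mod `𝔪'` for `l ∈ S`. -/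
theorem exists_lift {W : Type*} [AddCommGroup W] [Module ℂ W]
    (Lat : Submodule ℤ W) (hfg : Lat.FG) (τ : ℕ → Module.End ℂ W)
    (hcomm : ∀ l l', τ l * τ l' = τ l' * τ l) (hstab : ∀ l, ∀ x ∈ Lat, τ l x ∈ Lat)
    (p : ℕ) (t : ℕ → ℤ) (S : Set ℕ) (w : W) (hw : w ∈ Lat)
    (hwp : ¬ ∃ y ∈ Lat, w = (p : ℤ) • y)
    (heig : ∀ l ∈ S, ∃ y ∈ Lat, τ l w - t l • w = (p : ℤ) • y) :
    ∃ (v : W) (a : ℕ → integralClosure ℤ ℂ) (𝔪' : Ideal (integralClosure ℤ ℂ)),
      v ≠ 0 ∧ v ∈ Submodule.span ℂ (Lat : Set W) ∧ 𝔪'.IsMaximal ∧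
      (p : integralClosure ℤ ℂ) ∈ 𝔪' ∧ (∀ l, τ l v = (a l : ℂ) • v) ∧
      (∀ l ∈ S, a l - ((t l : ℤ) : integralClosure ℤ ℂ) ∈ 𝔪') := by
  classical
  let V : Submodule ℂ W := Submodule.span ℂ (Lat : Set W)
  have hLatV : ∀ x ∈ Lat, x ∈ V := fun x hx => Submodule.subset_span hx
  have hτV : ∀ l, ∀ x ∈ V, τ l x ∈ V := by
    intro l x hx
    refine Submodule.span_induction (p := fun x _ => τ l x ∈ V) ?_ ?_ ?_ ?_ hx
    · intro y hy
      exact hLatV _ (hstab l y hy)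
    · rw [map_zero]
      exact V.zero_mem
    · intro a b _ _ ha hb
      rw [map_add]
      exact V.add_mem ha hb
    · intro c a _ ha
      rw [map_smul]
      exact V.smul_mem c ha
  let τV : ℕ → Module.End ℂ V := fun l => (τ l).restrict (hτV l)
  have hτV_apply : ∀ l (x : V), ((τV l x : V) : W) = τ l (x : W) := fun l x => rfl
  have hcommV : ∀ l l', τV l * τV l' = τV l' * τV l := by
    intro l l'
    refine LinearMap.ext fun x => Subtype.ext ?_
    rw [Module.End.mul_apply, Module.End.mul_apply, hτV_apply, hτV_apply, hτV_apply, hτV_apply]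
    exact LinearMap.congr_fun (hcomm l l') (x : W)
  -- the lattice inside `V`
  let ιV : V →ₗ[ℤ] W := V.subtype.restrictScalars ℤ
  have hιV : ∀ x : V, ιV x = (x : W) := fun x => rfl
  let LatV : Submodule ℤ V := Lat.comap ιV
  have hLatV_mem : ∀ x : V, x ∈ LatV ↔ (x : W) ∈ Lat := fun x => Iff.rfl
  have hmap : LatV.map ιV = Lat := by
    refine le_antisymm ?_ ?_
    · rintro _ ⟨x, hx, rfl⟩
      exact hx
    · intro x hx
      exact ⟨⟨x, hLatV x hx⟩, hx, rfl⟩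
  have hfgV : LatV.FG := by
    refine Submodule.fg_of_fg_map_injective ιV Subtype.val_injective ?_
    rw [hmap]
    exact hfg
  have hspan : Submodule.span ℂ (LatV : Set V) = ⊤ := by
    apply Submodule.map_injective_of_injective (f := V.subtype) Subtype.val_injective
    rw [Submodule.map_span, Submodule.map_subtype_top]
    have himg : (V.subtype '' (LatV : Set V)) = (Lat : Set W) := by
      ext x
      constructor
      · rintro ⟨y, hy, rfl⟩
        exact hy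
      · intro hx
        exact ⟨⟨x, hLatV x hx⟩, hx, rfl⟩
    rw [himg]
  -- the polynomial ring acting through the commuting family
  let B : Subalgebra ℤ (Module.End ℂ V) := Algebra.adjoin ℤ (Set.range τV)
  have : IsMulCommutative B := Algebra.isMulCommutative_adjoin ℤ (by
    rintro _ ⟨l, rfl⟩ _ ⟨l', rfl⟩
    exact hcommV l l')
  let ρ : MvPolynomial ℕ ℤ →+* Module.End ℂ V :=
    B.val.toRingHom.comp
      (MvPolynomial.aeval (R := ℤ) (S₁ := B)
        (fun l => ⟨τV l, Algebra.subset_adjoin ⟨l, rfl⟩⟩)).toRingHom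
  have hρX : ∀ l, ρ (MvPolynomial.X l) = τV l := by
    intro l
    simp [ρ]
  have hρint : ∀ (c : ℤ) (x : V), ρ ((c : ℤ) : MvPolynomial ℕ ℤ) x = c • x := by
    intro c x
    rw [map_intCast, Module.End.intCast_apply]
  have hstabρ : ∀ s, ∀ x ∈ LatV, ρ s x ∈ LatV := by
    intro s
    induction s using MvPolynomial.induction_on with
    | C c =>
      intro x hx
      rw [eq_intCast (MvPolynomial.C : ℤ →+* MvPolynomial ℕ ℤ) c, hρint]
      exact LatV.smul_mem c hx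
    | add s₁ s₂ h₁ h₂ =>
      intro x hx
      rw [map_add, LinearMap.add_apply]
      exact LatV.add_mem (h₁ x hx) (h₂ x hx)
    | mul_X s l h =>
      intro x hx
      rw [map_mul, hρX, Module.End.mul_apply]
      refine h _ ?_
      rw [hLatV_mem, hτV_apply]
      exact hstab l _ hx
  -- the ideal of operators sending `w` into `p Lat`
  let wV : V := ⟨w, hLatV w hw⟩
  let bad : Ideal (MvPolynomial ℕ ℤ) :=
    { carrier := {s | ∃ y ∈ LatV, ρ s wV = (p : ℤ) • y}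
      zero_mem' := ⟨0, LatV.zero_mem, by simp⟩
      add_mem' := by
        rintro a b ⟨y, hy, h1⟩ ⟨z, hz, h2⟩
        exact ⟨y + z, LatV.add_mem hy hz, by
          rw [map_add, LinearMap.add_apply, h1, h2, smul_add]⟩
      smul_mem' := by
        rintro c a ⟨y, hy, h1⟩
        refine ⟨ρ c y, hstabρ c y hy, ?_⟩
        rw [smul_eq_mul, map_mul, Module.End.mul_apply, h1, map_zsmul] }
  have hbad : ∀ s, s ∈ bad ↔ ∃ y ∈ LatV, ρ s wV = (p : ℤ) • y := fun s => Iff.rfl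
  let gens : Set (MvPolynomial ℕ ℤ) :=
    {s | s = ((p : ℤ) : MvPolynomial ℕ ℤ) ∨
      ∃ l ∈ S, s = MvPolynomial.X l - ((t l : ℤ) : MvPolynomial ℕ ℤ)}
  let J : Ideal (MvPolynomial ℕ ℤ) := RingHom.ker ρ ⊔ Ideal.span gens
  have hJbad : J ≤ bad := by
    refine sup_le ?_ (Ideal.span_le.mpr ?_)
    · intro s hs
      rw [RingHom.mem_ker] at hs
      exact (hbad s).mpr ⟨0, LatV.zero_mem, by rw [hs, smul_zero, LinearMap.zero_apply]⟩
    · rintro s (rfl | ⟨l, hl, rfl⟩)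
      · exact (hbad _).mpr ⟨wV, hw, hρint _ _⟩
      · obtain ⟨y, hy, hy'⟩ := heig l hl
        refine (hbad _).mpr ⟨⟨y, hLatV y hy⟩, hy, Subtype.ext ?_⟩
        rw [map_sub, LinearMap.sub_apply, hρX, hρint]
        exact hy'
  have hJ : J ≠ ⊤ := by
    intro h
    have h1 : (1 : MvPolynomial ℕ ℤ) ∈ bad := hJbad (h ▸ Submodule.mem_top)
    obtain ⟨y, hy, h2⟩ := (hbad _).mp h1
    rw [map_one, Module.End.one_apply] at h2
    exact hwp ⟨(y : W), hy, congrArg Subtype.val h2⟩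
  obtain ⟨I, hImax, hJI⟩ := Ideal.exists_le_maximal J hJ
  obtain ⟨v, χ, 𝔪', hv, hχ, h𝔪', hmem⟩ :=
    Fermat.Agent.S49.helper1129.exists_eigen_lift ρ LatV hfgV hspan hstabρ I
      (le_sup_left.trans hJI)
  have hgensI : ∀ s ∈ gens, s ∈ I := fun s hs =>
    hJI (Ideal.mem_sup_right (Ideal.subset_span hs))
  refine ⟨(v : W), fun l => χ (MvPolynomial.X l), 𝔪', ?_, v.2, h𝔪', ?_, ?_, ?_⟩
  · intro h
    exact hv (Subtype.ext h)
  · have h1 := hmem _ (hgensI _ (Or.inl rfl))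
    rwa [map_intCast, Int.cast_natCast] at h1
  · intro l
    have h1 := congrArg Subtype.val (hχ (MvPolynomial.X l))
    rw [hρX] at h1
    exact h1
  · intro l hl
    have h1 := hmem _ (hgensI _ (Or.inr ⟨l, hl, rfl⟩))
    rwa [map_sub, map_intCast] at h1

end Lift

/-! ### Integral characters of `Γ₀(M)` -/

section Concrete

open CongruenceSubgroup ModularCurve.Period
open Fermat.Agent.S16.helper2138 Fermat.Agent.S41.helper262 Fermat.Agent.S41.helper123
open scoped MatrixGroups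

/-- Integral characters of a finitely generated group form a finitely generated `ℤ`-module. -/
theorem finite_int_addHom (G : Type*) [Group G] [Group.FG G] :
    Module.Finite ℤ (Additive G →+ ℤ) := by
  classical
  obtain ⟨S, hS⟩ := Group.fg_def.mp (inferInstance : Group.FG G)
  let ev : (Additive G →+ ℤ) →ₗ[ℤ] ({x // x ∈ S} → ℤ) :=
    { toFun := fun φ s => φ (Additive.ofMul (s : G))
      map_add' := fun _ _ => rfl
      map_smul' := fun _ _ => rfl }
  have hinj : Function.Injective ev := by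
    intro φ ψ h
    refine AddMonoidHom.ext fun g => ?_
    have hg : Additive.toMul g ∈ Subgroup.closure (S : Set G) := by rw [hS]; trivial
    have key : ∀ x ∈ Subgroup.closure (S : Set G),
        φ (Additive.ofMul x) = ψ (Additive.ofMul x) := by
      intro x hx
      induction hx using Subgroup.closure_induction with
      | mem x hx => exact congrFun h ⟨x, Finset.mem_coe.mp hx⟩
      | one => rw [ofMul_one, map_zero, map_zero]
      | mul x y _ _ hx hy => rw [ofMul_mul, map_add, map_add, hx, hy]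
      | inv x _ hx => rw [ofMul_inv, map_neg, map_neg, hx]
    exact key _ hg
  exact Module.Finite.of_injective ev hinj

theorem finite_lam (M : ℕ) [NeZero M] : Module.Finite ℤ (Lam M) :=
  haveI : Group.FG (Gamma0 M) := Fermat.Agent.S21.helper2438.fg_Gamma0 M
  finite_int_addHom (Gamma0 M)

/-- A character with values in `ℤ` all of whose values are divisible by `p` is `p` times a
character. -/
theorem pDiv_of_cast_comp_eq_zero {p : ℕ} {G : Type*} [AddZeroClass G] (z : G →+ ℤ)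
    (h : (Int.castAddHom (ZMod p)).comp z = 0) : PDiv p z := by
  have hdvd : ∀ γ, (p : ℤ) ∣ z γ := fun γ => by
    have h1 := DFunLike.congr_fun h γ
    exact (ZMod.intCast_zmod_eq_zero_iff_dvd (z γ) p).mp h1
  refine ⟨{ toFun := fun γ => z γ / (p : ℤ)
            map_zero' := by simp
            map_add' := fun a b => by
              rw [map_add]
              exact Int.add_ediv_of_dvd_left (hdvd a) }, ?_⟩
  refine AddMonoidHom.ext fun γ => ?_
  exact (Int.mul_ediv_cancel' (hdvd γ)).symm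

theorem not_pDiv_of_cast_comp_ne_zero {p : ℕ} {G : Type*} [AddZeroClass G] (z : G →+ ℤ)
    (h : (Int.castAddHom (ZMod p)).comp z ≠ 0) : ¬ PDiv p z := by
  rintro ⟨y, rfl⟩
  apply h
  refine AddMonoidHom.ext fun γ => ?_
  show (((p : ℤ) * y γ : ℤ) : ZMod p) = 0
  simp

theorem eq_zero_of_smul_eq_zero {p : ℕ} (hp : p ≠ 0) {G : Type*} [AddZeroClass G] (z : G →+ ℤ)
    (h : (p : ℤ) • z = 0) : z = 0 := by
  refine AddMonoidHom.ext fun γ => ?_
  have h1 : (p : ℤ) * z γ = 0 := DFunLike.congr_fun h γ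
  rcases mul_eq_zero.mp h1 with h2 | h2
  · exact absurd (Int.natCast_eq_zero.mp h2) hp
  · exact h2

/-- **The eigensystem of `f` occurs in `Λ_N / p Λ_N`.**  If `a_l(f) ≡ t l` mod `𝔪` for `l ∈ S`
with integers `t l`, there is an integral character `x ∉ p Λ_N` with `T_l x ≡ t l x` mod `p Λ_N`
for all `l ∈ S`. -/
theorem exists_int_eigen {N : ℕ} [NeZero N] (f : CuspForm (Gamma0 N) 2)
    (hf : f.IsNormalizedEigenform) (𝔪 : Ideal (integralClosure ℤ ℂ)) (hmax : 𝔪.IsMaximal)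
    (p : ℕ) (hp : p.Prime) (hpm : (p : integralClosure ℤ ℂ) ∈ 𝔪) (t : ℕ → ℤ) (S : Set ℕ)
    (hS : ∀ l ∈ S, l.Prime ∧ ¬ l ∣ N)
    (hcong : ∀ l ∈ S, ∃ a : integralClosure ℤ ℂ, (a : ℂ) = ModularFormClass.qCoeff f l ∧
      a - ((t l : ℤ) : integralClosure ℤ ℂ) ∈ 𝔪) :
    ∃ x : Lam N, ¬ PDiv p x ∧ ∀ l ∈ S, PDiv p (heckeEnd N ℤ l x - t l • x) := by
  classical
  haveI : Fact p.Prime := ⟨hp⟩
  letI : Field (integralClosure ℤ ℂ ⧸ 𝔪) := Ideal.Quotient.field 𝔪
  let ψ : integralClosure ℤ ℂ →+* (integralClosure ℤ ℂ ⧸ 𝔪) := Ideal.Quotient.mk 𝔪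
  have hpκ : ((p : ℕ) : integralClosure ℤ ℂ ⧸ 𝔪) = 0 := by
    have h : ψ (p : integralClosure ℤ ℂ) = 0 := Ideal.Quotient.eq_zero_iff_mem.mpr hpm
    rwa [map_natCast] at h
  haveI : CharP (integralClosure ℤ ℂ ⧸ 𝔪) p := (CharP.charP_iff_prime_eq_zero hp).mpr hpκ
  letI : Algebra (ZMod p) (integralClosure ℤ ℂ ⧸ 𝔪) := ZMod.algebra _ p
  obtain ⟨c, hc0, ⟨n, lam, k, -, hc⟩, hT, -⟩ :=
    Fermat.Agent.S29.helper5875.exists_eigen_parabolicHom hf ψ
  obtain ⟨γ₀, hγ₀⟩ : ∃ γ, c γ ≠ 0 := by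
    by_contra h
    push Not at h
    exact hc0 (AddMonoidHom.ext h)
  obtain ⟨π, hπ⟩ : ∃ π : (integralClosure ℤ ℂ ⧸ 𝔪) →ₗ[ZMod p] ZMod p, π (c γ₀) ≠ 0 := by
    by_contra h
    push Not at h
    exact hγ₀ ((Module.forall_dual_apply_eq_zero_iff (ZMod p) (c γ₀)).mp h)
  let πa : (integralClosure ℤ ℂ ⧸ 𝔪) →+ ZMod p := π.toAddMonoidHom
  let CZ : Lam N →+ (Additive (Gamma0 N) →+ ZMod p) :=
    AddMonoidHom.compHom (Int.castAddHom (ZMod p))
  let PC : (Additive (Gamma0 N) →+ (integralClosure ℤ ℂ ⧸ 𝔪)) →+ (Additive (Gamma0 N) →+ ZMod p) :=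
    AddMonoidHom.compHom πa
  let x : Lam N := ∑ i, ((π (k i)).val : ℤ) • lam i
  have hx : CZ x = PC c := by
    refine AddMonoidHom.ext fun γ => ?_
    show (((x γ : ℤ)) : ZMod p) = π (c γ)
    rw [hc]
    simp only [x, AddMonoidHom.finsetSum_apply, AddMonoidHom.smul_apply, map_sum, Int.cast_sum,
      AddMonoidHom.comp_apply, Int.coe_castAddHom, smul_eq_mul, Int.cast_mul, Int.cast_natCast,
      ZMod.natCast_zmod_val]
    refine Finset.sum_congr rfl fun i _ => ?_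
    have h1 : k i * ((lam i γ : ℤ) : integralClosure ℤ ℂ ⧸ 𝔪) = (lam i γ) • k i := by
      rw [zsmul_eq_mul, mul_comm]
    rw [h1, map_zsmul, zsmul_eq_mul, mul_comm]
  refine ⟨x, not_pDiv_of_cast_comp_ne_zero x ?_, ?_⟩
  · intro h
    have h1 : CZ x γ₀ = 0 := by
      show ((Int.castAddHom (ZMod p)).comp x) γ₀ = 0
      rw [h]
      rfl
    rw [hx] at h1
    exact hπ h1
  · intro l hl
    obtain ⟨hlp, hlN⟩ := hS l hl
    haveI : Fact l.Prime := ⟨hlp⟩
    obtain ⟨a, ha, ham⟩ := hcong l hl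
    have hTc : heckeHomT N l hlN _ c = ψ a • c := hT l hlN a ha
    have hψa : ψ a = ((t l : ℤ) : integralClosure ℤ ℂ ⧸ 𝔪) := by
      have h1 : ψ a = ψ ((t l : ℤ) : integralClosure ℤ ℂ) := Ideal.Quotient.eq.mpr ham
      rw [h1, map_intCast]
    apply pDiv_of_cast_comp_eq_zero
    show CZ (heckeEnd N ℤ l x - t l • x) = 0
    have h1 : CZ (heckeEnd N ℤ l x) = heckeEnd N (ZMod p) l (CZ x) :=
      (heckeEnd_comp N (Int.castAddHom (ZMod p)) l x).symm
    have h2 : heckeEnd N (ZMod p) l (PC c) = PC (heckeEnd N _ l c) := heckeEnd_comp N πa l c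
    rw [map_sub, map_zsmul, h1, hx, h2, heckeEnd_of_not_dvd N _ hlN, hTc, hψa,
      Int.cast_smul_eq_zsmul, map_zsmul, sub_self]

/-! ### Complex coefficients -/

/-- The Hecke operator at `l` on `Hom(Γ₀(M), ℂ)` as a `ℂ`-linear map. -/
noncomputable def heckeEndC (M l : ℕ) : Module.End ℂ (Additive (Gamma0 M) →+ ℂ) where
  toFun := heckeEnd M ℂ l
  map_add' := map_add _
  map_smul' c φ := by
    have h : c • φ = (AddMonoidHom.mulLeft c).comp φ := AddMonoidHom.ext fun γ => rfl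
    rw [RingHom.id_apply, h, heckeEnd_comp]
    exact AddMonoidHom.ext fun γ => rfl

theorem heckeEndC_apply (M l : ℕ) (φ : Additive (Gamma0 M) →+ ℂ) :
    heckeEndC M l φ = heckeEnd M ℂ l φ := rfl

/-- Extension of coefficients `Λ_M → Hom(Γ₀(M), ℂ)`. -/
noncomputable def toC (M : ℕ) : Lam M →+ (Additive (Gamma0 M) →+ ℂ) :=
  AddMonoidHom.compHom (Int.castAddHom ℂ)

theorem toC_injective (M : ℕ) : Function.Injective (toC M) := by
  intro a b h
  refine AddMonoidHom.ext fun γ => ?_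
  have h1 : ((a γ : ℤ) : ℂ) = ((b γ : ℤ) : ℂ) := DFunLike.congr_fun h γ
  exact Int.cast_injective h1

theorem toC_heckeEnd (M l : ℕ) (x : Lam M) :
    toC M (heckeEnd M ℤ l x) = heckeEndC M l (toC M x) :=
  (heckeEnd_comp M (Int.castAddHom ℂ) l x).symm

/-! ### The endgame -/

/-- **Leaf L5 (ENDGAME)** of `helper123_Spec`: the Ihara package and the boundary statement
imply the modular-form core of level raising. -/
theorem core_of_ihara (hI : Stmt_Ihara) (hB : Stmt_Boundary) : Stmt_Core := by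
  intro N q p hN hq hqN hp hp2 hqp
  haveI : Fact q.Prime := ⟨hq⟩
  haveI : NeZero q := ⟨hq.ne_zero⟩
  haveI : NeZero N := ⟨hN.ne'⟩
  have hNq : 0 < N * q := Nat.mul_pos hN hq.pos
  haveI : NeZero (N * q) := ⟨hNq.ne'⟩
  haveI : Module.Finite ℤ (Lam N) := finite_lam N
  haveI : Module.Finite ℤ (Lam (N * q)) := finite_lam (N * q)
  obtain ⟨M₀, hM₀, hpack⟩ := hI N q p hN hqN hp hp2 hqp
  refine ⟨M₀ * (N * q), Nat.mul_pos hM₀ hNq, ?_⟩
  intro f 𝔪 t S ℓ₀ hf hmax hpm hS hcong hℓ₀S hℓ₀M hℓ₀w hLR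
  classical
  obtain ⟨hℓ₀, hℓ₀N, hℓ₀p⟩ := hS ℓ₀ hℓ₀S
  haveI : Fact ℓ₀.Prime := ⟨hℓ₀⟩
  have h1M₀ : (ℓ₀ : ZMod M₀) = 1 := by
    have h := congrArg (ZMod.castHom (Dvd.intro (N * q) rfl) (ZMod M₀)) hℓ₀M
    simpa using h
  have h1Nq : (ℓ₀ : ZMod (N * q)) = 1 := by
    have h := congrArg (ZMod.castHom (Dvd.intro_left M₀ rfl) (ZMod (N * q))) hℓ₀M
    simpa using h
  have hℓ₀Nq : ¬ ℓ₀ ∣ N * q := by
    intro hdvd
    have h := congrArg (ZMod.castHom hdvd (ZMod ℓ₀)) h1Nq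
    rw [map_natCast, map_one, ZMod.natCast_self] at h
    haveI : Fact (1 < ℓ₀) := ⟨hℓ₀.one_lt⟩
    exact zero_ne_one h
  obtain ⟨r₁, r₂, k₁, k₂, P⟩ := hpack ℓ₀ hℓ₀N hℓ₀Nq h1M₀
  have hd : IsCoprime (t ℓ₀ - ((ℓ₀ : ℤ) + 1)) (p : ℤ) := by
    have hpi : Irreducible (p : ℤ) := (Nat.prime_iff_prime_int.mp hp).irreducible
    refine (hpi.coprime_iff_not_dvd.mpr ?_).symm
    intro h
    apply hℓ₀w
    have h' := (dvd_neg (a := (p : ℤ))).mpr h
    rwa [neg_sub] at h'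
  -- the sign of `a_q(f)` mod `𝔪`
  obtain ⟨aq, haq, haq2⟩ := hLR
  obtain ⟨ε, hε, haqε⟩ : ∃ ε : ℤ, ε * ε = 1 ∧
      aq - ((-(ε * ((q : ℤ) + 1)) : ℤ) : integralClosure ℤ ℂ) ∈ 𝔪 := by
    have h : (aq - ((q : integralClosure ℤ ℂ) + 1)) * (aq + ((q : integralClosure ℤ ℂ) + 1))
        ∈ 𝔪 := by
      have h' : (aq - ((q : integralClosure ℤ ℂ) + 1)) * (aq + ((q : integralClosure ℤ ℂ) + 1))
          = aq ^ 2 - ((q : integralClosure ℤ ℂ) + 1) ^ 2 := by ring
      rw [h']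
      exact haq2
    rcases hmax.isPrime.mem_or_mem h with h1 | h1
    · refine ⟨-1, by norm_num, ?_⟩
      have e : aq - ((-(-1 * ((q : ℤ) + 1)) : ℤ) : integralClosure ℤ ℂ)
          = aq - ((q : integralClosure ℤ ℂ) + 1) := by
        push_cast
        ring
      rw [e]
      exact h1
    · refine ⟨1, by norm_num, ?_⟩
      have e : aq - ((-(1 * ((q : ℤ) + 1)) : ℤ) : integralClosure ℤ ℂ)
          = aq + ((q : integralClosure ℤ ℂ) + 1) := by
        push_cast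
        ring
      rw [e]
      exact h1
  -- (I) an eigenvector mod `p` in `Λ_N`
  let t' : ℕ → ℤ := Function.update t q (-(ε * ((q : ℤ) + 1)))
  obtain ⟨x, hx, hxS⟩ := exists_int_eigen f hf 𝔪 hmax p hp hpm t' (insert q S)
    (by
      intro l hl
      rcases hl with hl | hl
      · rw [hl]
        exact ⟨hq, hqN⟩
      · exact ⟨(hS l hl).1, (hS l hl).2.1⟩)
    (by
      intro l hl
      by_cases hlq : l = q
      · rw [hlq]
        refine ⟨aq, haq, ?_⟩
        simp only [t', Function.update_self]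
        exact haqε
      · have hl' : l ∈ S := hl.resolve_left hlq
        simp only [t', Function.update_of_ne hlq]
        exact hcong l hl')
  -- (II) the abstract Ribet argument
  let ι : Type := {l : ℕ // l ∈ S ∧ ¬ l ∣ N * q}
  have hιq : ∀ i : ι, (i : ℕ) ≠ q := fun i h => i.2.2 (by
    rw [h]
    exact Dvd.intro_left N rfl)
  have hιp : ∀ i : ι, (i : ℕ).Prime := fun i => (hS i.1 i.2.1).1
  have hιN : ∀ i : ι, ¬ (i : ℕ) ∣ N := fun i h => i.2.2 (Dvd.dvd.mul_right h q)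
  let j₀ : ι := ⟨ℓ₀, hℓ₀S, hℓ₀Nq⟩
  obtain ⟨w, hk₁w, hk₂w, hw, hwA⟩ := exists_new_vector (L := Lam N) (L' := Lam (N * q)) p
    r₁ r₂ k₁ k₂ (heckeEnd N ℤ q).toAddMonoidHom ((q : ℤ) + 1)
    (by
      intro y
      obtain ⟨h1, h2, h3, h4⟩ := P.kr y
      refine ⟨h1, h2, ?_, ?_⟩
      · rw [h3]
        exact (heckeEnd_of_not_dvd N ℤ hqN y).symm
      · rw [h4]
        exact (heckeEnd_of_not_dvd N ℤ hqN y).symm)
    (fun i : ι => (heckeEnd N ℤ i.1).toAddMonoidHom)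
    (fun i : ι => (heckeEnd (N * q) ℤ i.1).toAddMonoidHom)
    (fun i : ι => t i.1)
    (by
      intro i y
      haveI : Fact (i : ℕ).Prime := ⟨hιp i⟩
      obtain ⟨h1, h2⟩ := P.r_T i.1 (hιN i) i.2.2 y
      show r₁ (heckeEnd N ℤ i.1 y) = heckeEnd (N * q) ℤ i.1 (r₁ y) ∧
        r₂ (heckeEnd N ℤ i.1 y) = heckeEnd (N * q) ℤ i.1 (r₂ y)
      rw [heckeEnd_of_not_dvd N ℤ (hιN i), heckeEnd_of_not_dvd (N * q) ℤ i.2.2,
        heckeEnd_of_not_dvd (N * q) ℤ i.2.2]
      exact ⟨h1, h2⟩)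
    (by
      intro i y
      haveI : Fact (i : ℕ).Prime := ⟨hιp i⟩
      obtain ⟨h1, h2⟩ := P.k_T i.1 (hιN i) i.2.2 y
      show k₁ (heckeEnd (N * q) ℤ i.1 y) = heckeEnd N ℤ i.1 (k₁ y) ∧
        k₂ (heckeEnd (N * q) ℤ i.1 y) = heckeEnd N ℤ i.1 (k₂ y)
      rw [heckeEnd_of_not_dvd (N * q) ℤ i.2.2, heckeEnd_of_not_dvd N ℤ (hιN i),
        heckeEnd_of_not_dvd N ℤ (hιN i)]
      exact ⟨h1, h2⟩)
    j₀ ((ℓ₀ : ℤ) + 1)
    (by
      intro i y
      exact LinearMap.congr_fun (heckeEnd_comm (N * q) ℤ i.1 ℓ₀) y)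
    (eta N ℓ₀ hℓ₀N ℤ)
    (by
      intro y
      show eta N ℓ₀ hℓ₀N ℤ y = heckeEnd N ℤ ℓ₀ y - ((ℓ₀ : ℤ) + 1) • y
      rw [heckeEnd_of_not_dvd N ℤ hℓ₀N]
      rfl)
    (fun y z h => P.ihara_a y z h)
    (fun y z => P.ihara_b y z)
    hd x hx
    (by
      intro i
      have h := hxS i.1 (Set.mem_insert_of_mem q i.2.1)
      simp only [t', Function.update_of_ne (hιq i)] at h
      exact h)
    ε hε
    (by
      have h := hxS q (Set.mem_insert q S)
      simp only [t', Function.update_self, neg_smul, sub_neg_eq_add] at h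
      exact h)
  -- stability of `ker κ` under all Hecke operators, and `U_q² = 1` on it
  have hqNq : q ∣ N * q := Dvd.intro_left N rfl
  have hKq : ∀ y : Lam (N * q), k₁ y = 0 → k₂ y = 0 →
      k₁ (heckeEnd (N * q) ℤ q y) = 0 ∧ k₂ (heckeEnd (N * q) ℤ q y) = 0 ∧
      heckeEnd (N * q) ℤ q (heckeEnd (N * q) ℤ q y) = y := by
    intro y h1 h2
    simp only [heckeEnd_of_dvd (N * q) ℤ hqNq]
    exact P.new_U hqNq y h1 h2
  have hK : ∀ (l : ℕ) (y : Lam (N * q)), k₁ y = 0 → k₂ y = 0 →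
      k₁ (heckeEnd (N * q) ℤ l y) = 0 ∧ k₂ (heckeEnd (N * q) ℤ l y) = 0 := by
    intro l y h1 h2
    by_cases hl : l.Prime
    swap
    · rw [heckeEnd_of_not_prime (N * q) ℤ hl]
      simp
    haveI : Fact l.Prime := ⟨hl⟩
    haveI : NeZero l := ⟨hl.ne_zero⟩
    by_cases hlNq : l ∣ N * q
    · by_cases hlN : l ∣ N
      · rw [heckeEnd_of_dvd (N * q) ℤ hlNq]
        obtain ⟨e1, e2⟩ := P.k_U l hlN hlNq y
        rw [e1, e2, h1, h2]
        exact ⟨(corrU N l hlN).op_zero ℤ, (corrU N l hlN).op_zero ℤ⟩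
      · have hlq : l = q := by
          rcases (Nat.Prime.dvd_mul hl).mp hlNq with h | h
          · exact absurd h hlN
          · exact (Nat.prime_dvd_prime_iff_eq hl hq).mp h
        rw [hlq]
        exact ⟨(hKq y h1 h2).1, (hKq y h1 h2).2.1⟩
    · have hlN : ¬ l ∣ N := fun h => hlNq (Dvd.dvd.mul_right h q)
      rw [heckeEnd_of_not_dvd (N * q) ℤ hlNq]
      obtain ⟨e1, e2⟩ := P.k_T l hlN hlNq y
      rw [e1, e2, h1, h2]
      exact ⟨(corrT N l hlN).op_zero ℤ, (corrT N l hlN).op_zero ℤ⟩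
  -- (III) lifting to characteristic zero inside `ker κ ⊗ ℂ`
  let K : Submodule ℤ (Lam (N * q)) :=
    LinearMap.ker k₁.toIntLinearMap ⊓ LinearMap.ker k₂.toIntLinearMap
  let Lat : Submodule ℤ (Additive (Gamma0 (N * q)) →+ ℂ) := K.map (toC (N * q)).toIntLinearMap
  have hfg : Lat.FG := Submodule.FG.map _ (IsNoetherian.noetherian K)
  obtain ⟨v, a, 𝔪', hv0, hvspan, h𝔪', hp𝔪', hτv, hcong'⟩ :=
    exists_lift Lat hfg (heckeEndC (N * q))
      (fun l l' => LinearMap.ext fun φ =>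
        LinearMap.congr_fun (heckeEnd_comm (N * q) ℂ l l') φ)
      (by
        rintro l _ ⟨y, ⟨h1, h2⟩, rfl⟩
        exact ⟨heckeEnd (N * q) ℤ l y, hK l y h1 h2, toC_heckeEnd (N * q) l y⟩)
      p t {l | l ∈ S ∧ ¬ l ∣ N * q} (toC (N * q) w) ⟨w, ⟨hk₁w, hk₂w⟩, rfl⟩
      (by
        rintro ⟨_, ⟨y, -, rfl⟩, h⟩
        apply hw
        refine ⟨y, toC_injective (N * q) ?_⟩
        rw [map_zsmul]
        exact h)
      (by
        rintro l ⟨hlS, hlNq⟩
        obtain ⟨y, hy⟩ := hwA ⟨l, hlS, hlNq⟩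
        have hy' : heckeEnd (N * q) ℤ l w - t l • w = (p : ℤ) • y := hy
        have hyK : k₁ y = 0 ∧ k₂ y = 0 := by
          have e1 : k₁ (heckeEnd (N * q) ℤ l w - t l • w) = 0 := by
            rw [map_sub, map_zsmul, (hK l w hk₁w hk₂w).1, hk₁w, smul_zero, sub_zero]
          have e2 : k₂ (heckeEnd (N * q) ℤ l w - t l • w) = 0 := by
            rw [map_sub, map_zsmul, (hK l w hk₁w hk₂w).2, hk₂w, smul_zero, sub_zero]
          rw [hy', map_zsmul] at e1 e2
          exact ⟨eq_zero_of_smul_eq_zero hp.ne_zero _ e1, eq_zero_of_smul_eq_zero hp.ne_zero _ e2⟩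
        refine ⟨toC (N * q) y, ⟨y, hyK, rfl⟩, ?_⟩
        rw [← toC_heckeEnd, ← map_zsmul (toC (N * q)), ← map_sub, hy', map_zsmul])
  -- (IV) the eigenclass is parabolic, hence comes from an eigenform
  have hT : ∀ (l : ℕ) [Fact l.Prime] (hlL : ¬ l ∣ N * q),
      heckeHomT (N * q) l hlL ℂ v = (a l : ℂ) • v := by
    intro l _ hlL
    rw [← heckeEnd_of_not_dvd (N * q) ℂ hlL]
    exact hτv l
  have hU : ∀ (r : ℕ) [Fact r.Prime] [NeZero r] (hrL : r ∣ N * q),
      heckeHomU (N * q) r hrL ℂ v = (a r : ℂ) • v := by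
    intro r _ _ hrL
    rw [← heckeEnd_of_dvd (N * q) ℂ hrL]
    exact hτv r
  have hne : (a ℓ₀ : ℂ) - ((ℓ₀ : ℂ) + 1) ≠ 0 := by
    intro h
    have h1 : a ℓ₀ = (((ℓ₀ : ℤ) + 1 : ℤ) : integralClosure ℤ ℂ) := by
      apply Subtype.ext
      push_cast
      linear_combination h
    have h2 := hcong' ℓ₀ ⟨hℓ₀S, hℓ₀Nq⟩
    rw [h1, ← Int.cast_sub] at h2
    obtain ⟨u, v', huv⟩ := hd
    apply h𝔪'.ne_top
    rw [Ideal.eq_top_iff_one]
    have h3 : (1 : integralClosure ℤ ℂ)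
        = ((-u : ℤ) : integralClosure ℤ ℂ) * (((ℓ₀ : ℤ) + 1 - t ℓ₀ : ℤ) : integralClosure ℤ ℂ)
          + ((v' : ℤ) : integralClosure ℤ ℂ) * (p : integralClosure ℤ ℂ) := by
      have h4 := congrArg (Int.cast : ℤ → integralClosure ℤ ℂ) huv
      push_cast at h4 ⊢
      linear_combination -h4
    rw [h3]
    exact 𝔪'.add_mem (𝔪'.mul_mem_left _ h2) (𝔪'.mul_mem_left _ hp𝔪')
  have hvpar : v ∈ parabolicHoms ℂ (Gamma0 (N * q)) ℂ := by
    have h1 := hB (N * q) ℓ₀ hℓ₀Nq hNq h1Nq ℂ v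
    rw [hT ℓ₀ hℓ₀Nq] at h1
    have h2 : (a ℓ₀ : ℂ) • v - ((ℓ₀ : ℤ) + 1) • v = ((a ℓ₀ : ℂ) - ((ℓ₀ : ℂ) + 1)) • v := by
      rw [sub_smul, ← Int.cast_smul_eq_zsmul ℂ ((ℓ₀ : ℤ) + 1) v]
      push_cast
      rfl
    rw [h2] at h1
    have h3 : v = ((a ℓ₀ : ℂ) - ((ℓ₀ : ℂ) + 1))⁻¹ • (((a ℓ₀ : ℂ) - ((ℓ₀ : ℂ) + 1)) • v) := by
      rw [smul_smul, inv_mul_cancel₀ hne, one_smul]
    rw [h3]
    exact (parabolicHoms ℂ (Gamma0 (N * q)) ℂ).smul_mem _ h1
  have hq2 : (a q : ℂ) ^ 2 = 1 := by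
    have h1 : ∀ z ∈ Submodule.span ℂ (Lat : Set (Additive (Gamma0 (N * q)) →+ ℂ)),
        heckeEndC (N * q) q (heckeEndC (N * q) q z) = z := by
      intro z hz
      have hEq : Set.EqOn (heckeEndC (N * q) q * heckeEndC (N * q) q)
          (LinearMap.id : (Additive (Gamma0 (N * q)) →+ ℂ) →ₗ[ℂ] _)
          (Lat : Set (Additive (Gamma0 (N * q)) →+ ℂ)) := by
        rintro _ ⟨y, ⟨e1, e2⟩, rfl⟩
        show heckeEndC (N * q) q (heckeEndC (N * q) q (toC (N * q) y)) = toC (N * q) y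
        rw [← toC_heckeEnd, ← toC_heckeEnd, (hKq y e1 e2).2.2]
      exact LinearMap.eqOn_span hEq hz
    have h2 := h1 v hvspan
    rw [hτv q, map_smul, hτv q, smul_smul] at h2
    have h3 : ((a q : ℂ) * (a q : ℂ) - 1) • v = 0 := by
      rw [sub_smul, h2, one_smul, sub_self]
    rcases smul_eq_zero.mp h3 with h4 | h4
    · linear_combination h4
    · exact absurd h4 hv0
  obtain ⟨g, hg, hga⟩ :=
    exists_eigenform_of_eigenclass (N * q) v hv0 hvpar (fun l => (a l : ℂ)) hT hU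
  refine ⟨g, 𝔪', hg, h𝔪', hp𝔪', ?_, ?_⟩
  · intro l hl hlNq
    exact ⟨a l, (hga l (hS l hl).1).symm, hcong' l ⟨hl, hlNq⟩⟩
  · show ModularFormClass.qCoeff g q ^ 2 = 1
    rw [hga q hq]
    exact hq2

end Concrete

end Fermat.Agent.S41.helper5472
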