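/-
S41, module F-CONG (helper560): the abstract linear-algebra core of the witness prime.

`k` a field, `V` a `k`-vector space of dimension two, `ρ : G →* End_k V` an irreducible
representation (no stable submodule except `⊥`, `⊤`).

* `trivial_of_forall_fixed` : if `H` is a normal subgroup of `G` all of whose elements have a
  nonzero fixed vector, then `H` acts trivially.
* `false_of_comm_of_quad` : `ρ` cannot have commutative image if every `ρ g` satisfies a quadratic
  relation `R² - a R + u = 0` and `ρ (c g)` satisfies `R'² - a' R' - u = 0`, for a fixed `c` with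
  `ρ c ² = 1` (in the application: `u` = the mod `p` cyclotomic character of `g`, `c` an element
  acting as `-1` on roots of unity).

Mathlib only.
-/
import Mathlib

set_option autoImplicit false

namespace Fermat.Agent.S41.helper560

open Module

section Lines

variable {k : Type*} [Field k] {V : Type*} [AddCommGroup V] [Module k V]

/-- A submodule of dimension one is spanned by each of its nonzero elements. -/
theorem eq_span_of_finrank_eq_one {L : Submodule k V} (hL : finrank k L = 1) {w : V}
    (hw : w ∈ L) (hw0 : w ≠ 0) : L = Submodule.span k {w} := by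
  have : Module.Finite k L := Module.finite_of_finrank_pos (by omega)
  symm
  apply Submodule.eq_of_le_of_finrank_eq
  · rw [Submodule.span_singleton_le_iff_mem]
    exact hw
  · rw [finrank_span_singleton hw0, hL]

/-- In dimension two, a nonzero singular endomorphism has kernel and range of dimension one. -/
theorem finrank_ker_range_of_sing {f : V →ₗ[k] V} (hV : finrank k V = 2) (hf : f ≠ 0)
    (hker : LinearMap.ker f ≠ ⊥) :
    finrank k (LinearMap.ker f) = 1 ∧ finrank k (LinearMap.range f) = 1 := by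
  have : Module.Finite k V := Module.finite_of_finrank_pos (by omega)
  have h1 := LinearMap.finrank_range_add_finrank_ker f
  have h2 : finrank k (LinearMap.ker f) ≠ 0 := fun h => hker (Submodule.finrank_eq_zero.mp h)
  have h3 : finrank k (LinearMap.range f) ≠ 0 := fun h =>
    hf (LinearMap.range_eq_bot.mp (Submodule.finrank_eq_zero.mp h))
  omega

/-- Two nonzero singular endomorphisms `f₁, f₂` of a plane such that `f₁ + f₂ + f₁ f₂` is singular
have the same kernel or the same range. -/
theorem ker_eq_or_range_eq {f₁ f₂ : V →ₗ[k] V} (hV : finrank k V = 2) (h₁ : f₁ ≠ 0)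
    (h₂ : f₂ ≠ 0) (hk₁ : LinearMap.ker f₁ ≠ ⊥) (hk₂ : LinearMap.ker f₂ ≠ ⊥)
    (hk : LinearMap.ker (f₁ + f₂ + f₁ * f₂) ≠ ⊥) :
    LinearMap.ker f₁ = LinearMap.ker f₂ ∨ LinearMap.range f₁ = LinearMap.range f₂ := by
  by_contra hcon
  push Not at hcon
  obtain ⟨hne_ker, hne_range⟩ := hcon
  obtain ⟨hk1, hr1⟩ := finrank_ker_range_of_sing hV h₁ hk₁
  obtain ⟨hk2, hr2⟩ := finrank_ker_range_of_sing hV h₂ hk₂
  obtain ⟨x, hx, hx0⟩ := (Submodule.ne_bot_iff _).mp hk
  rw [LinearMap.mem_ker] at hx
  have hx' : f₁ x + f₂ x + f₁ (f₂ x) = 0 := by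
    simpa [LinearMap.add_apply, Module.End.mul_apply] using hx
  have hmem1 : f₂ x ∈ LinearMap.range f₁ := by
    refine ⟨-(x + f₂ x), ?_⟩
    rw [map_neg, map_add, neg_eq_iff_add_eq_zero]
    rw [← hx']
    abel
  have hf2x : f₂ x = 0 := by
    by_contra h0
    apply hne_range
    rw [eq_span_of_finrank_eq_one hr1 hmem1 h0,
      eq_span_of_finrank_eq_one hr2 (LinearMap.mem_range_self f₂ x) h0]
  have hf1x : f₁ x = 0 := by
    rw [hf2x, map_zero, add_zero, add_zero] at hx'
    exact hx'
  apply hne_ker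
  rw [eq_span_of_finrank_eq_one hk1 (LinearMap.mem_ker.mpr hf1x) hx0,
    eq_span_of_finrank_eq_one hk2 (LinearMap.mem_ker.mpr hf2x) hx0]

end Lines

section Rep

variable {k : Type*} [Field k] {V : Type*} [AddCommGroup V] [Module k V]
  {G : Type*} [Group G] (ρ : G →* Module.End k V)

/-- **Dimension-two lemma.**  `ρ` irreducible of dimension two, `H` a normal subgroup each of
whose elements has a nonzero fixed vector: then `H` acts trivially. -/
theorem trivial_of_forall_fixed (hV : finrank k V = 2)
    (hirr : ∀ N : Submodule k V, (∀ g : G, ∀ x ∈ N, ρ g x ∈ N) → N = ⊥ ∨ N = ⊤)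
    (H : Subgroup G) [hH : H.Normal]
    (hfix : ∀ h ∈ H, ∃ v : V, v ≠ 0 ∧ ρ h v = v) :
    ∀ h ∈ H, ρ h = 1 := by
  classical
  -- the fixed submodule
  let U : Submodule k V :=
    { carrier := {v | ∀ h ∈ H, ρ h v = v}
      add_mem' := fun {a b} ha hb h hh => by rw [map_add, ha h hh, hb h hh]
      zero_mem' := fun h _ => map_zero _
      smul_mem' := fun c v hv h hh => by rw [map_smul, hv h hh] }
  have hUmem : ∀ v, v ∈ U ↔ ∀ h ∈ H, ρ h v = v := fun v => Iff.rfl
  have hU : ∀ g : G, ∀ x ∈ U, ρ g x ∈ U := by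
    intro g x hx
    rw [hUmem] at hx ⊢
    intro h hh
    have hconj : g⁻¹ * h * g ∈ H := by
      have := hH.conj_mem h hh g⁻¹
      simpa using this
    have h1 := hx _ hconj
    have h2 : ρ h (ρ g x) = ρ g (ρ (g⁻¹ * h * g) x) := by
      rw [← Module.End.mul_apply, ← Module.End.mul_apply, ← map_mul, ← map_mul]
      congr 2
      group
    rw [h2, h1]
  -- the augmentation submodule
  let I : Submodule k V := Submodule.span k {w | ∃ h ∈ H, ∃ v : V, w = ρ h v - v}
  have hI : ∀ g : G, ∀ x ∈ I, ρ g x ∈ I := by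
    intro g x hx
    induction hx using Submodule.span_induction with
    | mem w hw =>
      obtain ⟨h, hh, v, rfl⟩ := hw
      apply Submodule.subset_span
      refine ⟨g * h * g⁻¹, hH.conj_mem h hh g, ρ g v, ?_⟩
      rw [map_sub]
      congr 1
      rw [← Module.End.mul_apply, ← Module.End.mul_apply, ← map_mul, ← map_mul]
      congr 2
      group
    | zero => rw [map_zero]; exact I.zero_mem
    | add a b _ _ ha hb => rw [map_add]; exact I.add_mem ha hb
    | smul c a _ ha => rw [map_smul]; exact I.smul_mem c ha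
  have hker : ∀ h ∈ H, LinearMap.ker (ρ h - 1) ≠ ⊥ := by
    intro h hh
    obtain ⟨v, hv0, hv⟩ := hfix h hh
    rw [Submodule.ne_bot_iff]
    exact ⟨v, by simp [LinearMap.mem_ker, hv], hv0⟩
  have hne0 : ∀ h : G, ρ h ≠ 1 → ρ h - 1 ≠ 0 := fun h hne h0 => hne (sub_eq_zero.mp h0)
  have hprod : ∀ h₁ h₂ : G, (ρ h₁ - 1) + (ρ h₂ - 1) + (ρ h₁ - 1) * (ρ h₂ - 1) = ρ (h₁ * h₂) - 1 := by
    intro h₁ h₂
    rw [map_mul]
    noncomm_ring
  have hpair : ∀ h₁ ∈ H, ∀ h₂ ∈ H, ρ h₁ ≠ 1 → ρ h₂ ≠ 1 →
      LinearMap.ker (ρ h₁ - 1) = LinearMap.ker (ρ h₂ - 1) ∨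
        LinearMap.range (ρ h₁ - 1) = LinearMap.range (ρ h₂ - 1) := by
    intro h₁ hh₁ h₂ hh₂ hn₁ hn₂
    refine ker_eq_or_range_eq hV (hne0 h₁ hn₁) (hne0 h₂ hn₂) (hker h₁ hh₁) (hker h₂ hh₂) ?_
    rw [hprod]
    exact hker _ (H.mul_mem hh₁ hh₂)
  intro h₀ hh₀
  by_contra hne
  -- `U = ⊥`
  have hUbot : U = ⊥ := by
    rcases hirr U hU with h | h
    · exact h
    · exfalso
      apply hne
      apply LinearMap.ext
      intro v
      have hv : v ∈ U := by rw [h]; exact Submodule.mem_top
      exact (hUmem v).mp hv h₀ hh₀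
  -- `I = ⊤`
  have hItop : I = ⊤ := by
    rcases hirr I hI with h | h
    · exfalso
      apply hne
      apply LinearMap.ext
      intro v
      have hv : ρ h₀ v - v ∈ I := Submodule.subset_span ⟨h₀, hh₀, v, rfl⟩
      rw [h, Submodule.mem_bot, sub_eq_zero] at hv
      exact hv
    · exact h
  by_cases hA : ∀ h ∈ H, ρ h ≠ 1 → LinearMap.ker (ρ h - 1) = LinearMap.ker (ρ h₀ - 1)
  · -- all kernels agree: a common fixed vector
    obtain ⟨v, hv0, hv⟩ := hfix h₀ hh₀
    have hvU : v ∈ U := by
      rw [hUmem]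
      intro h hh
      by_cases h1 : ρ h = 1
      · rw [h1]; rfl
      · have hmem : v ∈ LinearMap.ker (ρ h - 1) := by
          rw [hA h hh h1]
          simp [LinearMap.mem_ker, hv]
        rw [LinearMap.mem_ker, LinearMap.sub_apply, sub_eq_zero] at hmem
        exact hmem
    rw [hUbot, Submodule.mem_bot] at hvU
    exact hv0 hvU
  · -- all ranges agree: the augmentation submodule is a line
    push Not at hA
    obtain ⟨h₁, hh₁, hn₁, hk₁⟩ := hA
    have hR : LinearMap.range (ρ h₁ - 1) = LinearMap.range (ρ h₀ - 1) := by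
      rcases hpair h₁ hh₁ h₀ hh₀ hn₁ hne with h | h
      · exact absurd h hk₁
      · exact h
    have hall : ∀ h ∈ H, LinearMap.range (ρ h - 1) ≤ LinearMap.range (ρ h₀ - 1) := by
      intro h hh
      by_cases h1 : ρ h = 1
      · rw [h1, sub_self, LinearMap.range_zero]
        exact bot_le
      · rcases hpair h hh h₀ hh₀ h1 hne with h2 | h2
        · rcases hpair h hh h₁ hh₁ h1 hn₁ with h3 | h3
          · exact absurd (h3.symm.trans h2) hk₁
          · rw [h3, hR]
        · rw [h2]
    have hIle : I ≤ LinearMap.range (ρ h₀ - 1) := by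
      apply Submodule.span_le.mpr
      rintro w ⟨h, hh, v, rfl⟩
      apply hall h hh
      exact ⟨v, by simp⟩
    have hrange := (finrank_ker_range_of_sing hV (hne0 h₀ hne) (hker h₀ hh₀)).2
    have htop : LinearMap.range (ρ h₀ - 1) = ⊤ := by
      rw [hItop] at hIle
      exact top_le_iff.mp hIle
    rw [htop, finrank_top, hV] at hrange
    omega

/-- **Commutative image is impossible.**  `ρ` irreducible of dimension two, `2 ≠ 0` in `k`,
with commutative image; `c` with `ρ c ² = 1`; every `ρ g` satisfies `R² - a R + u = 0` and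
`ρ (c g)` satisfies `R'² - a' R' - u = 0` for some `a, a'` and `u ≠ 0`.  Contradiction. -/
theorem false_of_comm_of_quad (hV : finrank k V = 2) (h2 : (2 : k) ≠ 0)
    (hirr : ∀ N : Submodule k V, (∀ g : G, ∀ x ∈ N, ρ g x ∈ N) → N = ⊥ ∨ N = ⊤)
    (hcomm : ∀ g g' : G, ρ g * ρ g' = ρ g' * ρ g)
    (c : G) (hc : ρ c * ρ c = 1)
    (hquad : ∀ g : G, ∃ a a' u : k, u ≠ 0 ∧ ρ g * ρ g - a • ρ g + u • (1 : Module.End k V) = 0 ∧
      ρ (c * g) * ρ (c * g) - a' • ρ (c * g) - u • (1 : Module.End k V) = 0) : False := by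
  classical
  have hnt : Nontrivial V := Module.nontrivial_of_finrank_pos (R := k) (by omega)
  obtain ⟨v₀, hv₀⟩ := exists_ne (0 : V)
  -- `ρ c` is a scalar `ε = ± 1`
  have hstab : ∀ (s : k) (g : G), ∀ x ∈ LinearMap.ker (ρ c - s • (1 : Module.End k V)),
      ρ g x ∈ LinearMap.ker (ρ c - s • (1 : Module.End k V)) := by
    intro s g x hx
    rw [LinearMap.mem_ker] at hx ⊢
    have h1 : (ρ c - s • (1 : Module.End k V)) (ρ g x) = ρ g ((ρ c - s • (1 : Module.End k V)) x) := by
      simp only [LinearMap.sub_apply, LinearMap.smul_apply, Module.End.one_apply, map_sub, map_smul]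
      congr 1
      rw [← Module.End.mul_apply, ← Module.End.mul_apply, hcomm]
    rw [h1, hx, map_zero]
  have hcc : ∀ v, ρ c (ρ c v) = v := by
    intro v
    rw [← Module.End.mul_apply, hc, Module.End.one_apply]
  have hε : ∃ ε : k, ε * ε = 1 ∧ ρ c = ε • (1 : Module.End k V) := by
    rcases hirr _ (hstab 1) with hp | hp
    · rcases hirr _ (hstab (-1)) with hm | hm
      · exfalso
        have h1 : ρ c v₀ + v₀ ∈ LinearMap.ker (ρ c - (1 : k) • (1 : Module.End k V)) := by
          rw [LinearMap.mem_ker]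
          simp only [LinearMap.sub_apply, Module.End.one_apply, map_add, one_smul, hcc]
          abel
        rw [hp, Submodule.mem_bot] at h1
        have h2 : v₀ ∈ LinearMap.ker (ρ c - (-1 : k) • (1 : Module.End k V)) := by
          rw [LinearMap.mem_ker]
          simp only [neg_smul, one_smul, sub_neg_eq_add]
          exact h1
        rw [hm, Submodule.mem_bot] at h2
        exact hv₀ h2
      · refine ⟨-1, by ring, ?_⟩
        apply LinearMap.ext
        intro v
        have hv : v ∈ LinearMap.ker (ρ c - (-1 : k) • (1 : Module.End k V)) := by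
          rw [hm]; exact Submodule.mem_top
        rw [LinearMap.mem_ker, LinearMap.sub_apply, sub_eq_zero] at hv
        exact hv
    · refine ⟨1, by ring, ?_⟩
      apply LinearMap.ext
      intro v
      have hv : v ∈ LinearMap.ker (ρ c - (1 : k) • (1 : Module.End k V)) := by
        rw [hp]; exact Submodule.mem_top
      rw [LinearMap.mem_ker, LinearMap.sub_apply, sub_eq_zero] at hv
      exact hv
  obtain ⟨ε, hεε, hcε⟩ := hε
  -- every `ρ g` is a scalar
  have hscal : ∀ g : G, ∃ s : k, ρ g = s • (1 : Module.End k V) := by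
    intro g
    obtain ⟨a, a', u, hu, hr1, hr2⟩ := hquad g
    have hcg : ρ (c * g) = ε • ρ g := by
      rw [map_mul, hcε, smul_mul_assoc, one_mul]
    rw [hcg] at hr2
    have hr2' : ρ g * ρ g - (a' * ε) • ρ g - u • (1 : Module.End k V) = 0 := by
      have e : ε • ρ g * ε • ρ g - a' • ε • ρ g - u • (1 : Module.End k V) =
          (ε * ε) • (ρ g * ρ g) - (a' * ε) • ρ g - u • (1 : Module.End k V) := by
        rw [smul_mul_smul_comm, smul_smul]
      rw [e, hεε, one_smul] at hr2
      exact hr2
    have hdiff : (a' * ε - a) • ρ g + (2 * u) • (1 : Module.End k V) = 0 := by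
      have e : (a' * ε - a) • ρ g + (2 * u) • (1 : Module.End k V) =
          (ρ g * ρ g - a • ρ g + u • (1 : Module.End k V)) -
            (ρ g * ρ g - (a' * ε) • ρ g - u • (1 : Module.End k V)) := by
        rw [sub_smul, two_mul, add_smul]
        abel
      rw [e, hr1, hr2', sub_zero]
    by_cases hd : a' * ε - a = 0
    · exfalso
      rw [hd, zero_smul, zero_add] at hdiff
      have h3 := congrArg (fun f : Module.End k V => f v₀) hdiff
      simp only [LinearMap.smul_apply, Module.End.one_apply, LinearMap.zero_apply] at h3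
      rcases smul_eq_zero.mp h3 with h4 | h4
      · exact (mul_ne_zero h2 hu) h4
      · exact hv₀ h4
    · refine ⟨-(2 * u) / (a' * ε - a), ?_⟩
      have h3 : (a' * ε - a) • ρ g = (a' * ε - a) • ((-(2 * u) / (a' * ε - a)) • (1 : Module.End k V)) := by
        rw [smul_smul, mul_div_cancel₀ _ hd, neg_smul]
        exact eq_neg_of_add_eq_zero_left hdiff
      exact smul_right_injective _ hd h3
  -- hence the line spanned by `v₀` is stable
  have hline : ∀ g : G, ∀ x ∈ Submodule.span k {v₀}, ρ g x ∈ Submodule.span k {v₀} := by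
    intro g x hx
    obtain ⟨s, hs⟩ := hscal g
    rw [hs, LinearMap.smul_apply, Module.End.one_apply]
    exact Submodule.smul_mem _ s hx
  rcases hirr _ hline with h | h
  · have : v₀ ∈ Submodule.span k {v₀} := Submodule.mem_span_singleton_self v₀
    rw [h, Submodule.mem_bot] at this
    exact hv₀ this
  · have h1 := finrank_span_singleton (K := k) hv₀
    rw [h, finrank_top, hV] at h1
    omega

end Rep

end Fermat.Agent.S41.helper560
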