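/-
S41, module F-CONG (helper560): THE WITNESS PRIME WITH CONGRUENCE.

`E/ℚ` an elliptic curve with integral model `W`, `p` an odd prime with `E[p]` irreducible.

* `exists_good_prime_cong` : for every `M ≥ 1` and every finite set `S` there is a prime `ℓ`,
  good for `W`, `ℓ ∉ S`, `ℓ ≠ p`, `ℓ ≡ 1 mod p * M`, with `p ∤ ℓ + 1 - a_ℓ(W)`.
* `exists_witness_prime` : the same in the shape consumed by the level-raising endgame: for a
  cusp form `f` congruent to `E` modulo a maximal ideal `𝔪 ∋ p`, the prime `ℓ` can be chosen with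
  `ℓ ∤ N` and `a_ℓ(f) - (ℓ + 1) ∉ 𝔪` (so `η = T_ℓ - (ℓ + 1)` is a unit at the maximal ideal of
  `(f, 𝔪)`), still with `ℓ ≡ 1 mod p * M`.

Proof.  `m = p M`, `ζ` a primitive `m`-th root of unity, `H` its stabiliser in `Gal(ℚ̄/ℚ)`
(normal, abelian quotient), `V = E[p]` (a plane over `𝔽_p`, `Lib.helper1397`).
(A) `trivial_of_forall_fixed` (dimension-two lemma): if every element of `H` has a nonzero fixed
    vector, `H` acts trivially on `V`.
(B) If some `σ ∈ H` is fixed-point-free: generator-Chebotarev (S29 `helper2247`/`helper9726`) over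
    the Galois closure of `ℚ(E[p], ζ)` gives a Frobenius element `τ` at a good prime `ℓ ≥ 5`
    generating the same cyclic group there; so `τ ζ = ζ`, i.e. `ℓ ≡ 1 mod m`, and `τ` is
    fixed-point-free on `V`.  The Frobenius Cayley–Hamilton relation (S52 `helper2957`, transported
    to `E[p]` by S58 `helper5765`) reads `τ² - a_ℓ τ + 1 = 0` on `V`; if `p ∣ ℓ + 1 - a_ℓ` this is
    `(τ - 1)² = 0`, which produces a fixed vector.
(C) If `H` acts trivially: `ρ(g)` only depends on `g ζ`, the image is commutative, and by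
    Dirichlet every `ρ(g)` is `ρ` of a Frobenius element at a good prime `ℓ ≡ i mod m`
    (`g ζ = ζ ^ i`), so `ρ(g)² - a ρ(g) + i = 0`.  `false_of_comm_of_quad` (with `c` = a Frobenius
    element at a prime `≡ -1 mod m`) shows that every `ρ(g)` is a scalar: contradiction.
No Weil pairing, no oddness, no point counting beyond the definition of `a_ℓ`.
-/
import Fermat.Agent.S41.helper560_WitnessGroup
import Fermat.Agent.S52.helper2957_FrobCHFinal
import Fermat.Agent.S29.helper9726_GenChebAdapters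
import Fermat.Agent.S29.helper2247_GenCheb
import Fermat.Agent.S58.helper5765_FrobTors
import Fermat.Agent.Lib.helper822_TorsionGalois
import Fermat.Agent.Lib.helper1397_TorsionCard
import Fermat.Prelude.Def_FreyPackage_LevelRaising

set_option autoImplicit false

namespace Fermat.Agent.S41.helper560

open WeierstrassCurve WeierstrassCurve.Affine WeierstrassCurve.Affine.Point

local notation "Qb" => AlgebraicClosure ℚ
local notation "GQ" => (AlgebraicClosure ℚ ≃ₐ[ℚ] AlgebraicClosure ℚ)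

section CH

variable (E : WeierstrassCurve ℚ) (W : WeierstrassCurve ℤ) (p : ℕ)

/-- The `p`-torsion of `E(ℚ̄)` (Prelude shape). -/
abbrev Tor : Type := Submodule.torsionBy ℤ (E⁄Qb).Point p

/-- The Frobenius Cayley–Hamilton relation of S52 in the shape consumed by S58's transport. -/
theorem frobCH_of_good {ℓ : ℕ} [Fact ℓ.Prime] (hℓ5 : 5 ≤ ℓ) (hgood : W.IsGoodPrimeFor ℓ)
    (K : Type) [Field K] [DecidableEq K] [Algebra (ZMod ℓ) K] (hK : IsAlgClosed K) :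
    Fermat.Agent.S52.helper130.FrobCH ℓ W K := by
  intro P
  have hΔ : (W.reductionMod ℓ).Δ ≠ 0 := by
    show (W.map (Int.castRingHom (ZMod ℓ))).Δ ≠ 0
    rw [WeierstrassCurve.map_Δ]
    show ((W.Δ : ℤ) : ZMod ℓ) ≠ 0
    rw [Ne, ZMod.intCast_zmod_eq_zero_iff_dvd]
    exact hgood
  exact Fermat.Agent.S52.helper2957.frob_cayley_hamilton hℓ5 (W.reductionMod ℓ) hΔ
    (FiniteField.frobeniusAlgHom (ZMod ℓ) K)
    (fun x => by rw [FiniteField.frobeniusAlgHom_apply, ZMod.card]) P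

variable [Fact p.Prime]

/-- **Cayley–Hamilton for Frobenius elements on `E[p]`**, as a relation in `End (E[p])`. -/
theorem rho_quad (hW : W.IsIntegralModelOf E) {ℓ : ℕ} (hℓ : ℓ.Prime) (hℓ5 : 5 ≤ ℓ)
    (hgood : W.IsGoodPrimeFor ℓ) (hℓp : ℓ ≠ p)
    (A : ValuationSubring Qb) (hA : A.LiesOverPrime ℓ) (τ : GQ) (hτ : A.IsFrobeniusAt τ ℓ) :
    galoisRepModuleEnd ℚ E p τ * galoisRepModuleEnd ℚ E p τ
      - ((W.apOfModel ℓ : ℤ) : ZMod p) • galoisRepModuleEnd ℚ E p τ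
      + ((ℓ : ℕ) : ZMod p) • (1 : Module.End (ZMod p) (Tor E p)) = 0 := by
  have : Fact ℓ.Prime := ⟨hℓ⟩
  apply LinearMap.ext
  intro P
  have hcop : Nat.Coprime p ℓ := (Nat.coprime_primes (Fact.out) hℓ).mpr (Ne.symm hℓp)
  have hP : p • (P : (E⁄Qb).Point) = 0 := by
    have h := (Submodule.mem_torsionBy_iff _ _).mp P.2
    rwa [natCast_zsmul] at h
  have key := Fermat.Agent.S58.helper5765.frob_relation_of_isIntegralModelOf E W hW ℓ hgood
    (fun K _ _ _ hK => frobCH_of_good W hℓ5 hgood K hK) A hA τ hτ p hcop P.1 hP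
  apply Subtype.ext
  simp only [LinearMap.add_apply, LinearMap.sub_apply, LinearMap.smul_apply, Module.End.mul_apply,
    Module.End.one_apply, galoisRepModuleEnd_apply, LinearMap.zero_apply]
  rw [Int.cast_smul_eq_zsmul, Nat.cast_smul_eq_nsmul]
  rw [natCast_zsmul] at key
  exact key

end CH

/-! ### Roots of unity -/

section Cyclo

/-- Exponents of a primitive root of unity are determined modulo its order. -/
theorem modEq_of_pow_eq_pow {F : Type*} [Field F] {ζ : F} {m : ℕ} (hm : 0 < m)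
    (hζ : IsPrimitiveRoot ζ m) {a b : ℕ} (h : ζ ^ a = ζ ^ b) : a ≡ b [MOD m] := by
  have hζ0 : ζ ≠ 0 := hζ.ne_zero hm.ne'
  wlog hab : a ≤ b generalizing a b
  · exact (this h.symm (le_of_not_ge hab)).symm
  obtain ⟨c, rfl⟩ := Nat.exists_eq_add_of_le hab
  rw [pow_add] at h
  have h1 : ζ ^ c = 1 := by
    apply mul_left_cancel₀ (pow_ne_zero a hζ0)
    rw [mul_one]
    exact h.symm
  have h2 := (hζ.pow_eq_one_iff_dvd c).mp h1
  exact (Nat.modEq_iff_dvd' (Nat.le_add_right a c)).mpr (by simpa using h2)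

variable {m : ℕ} {ζ : Qb}

/-- Every automorphism maps a primitive root of unity to a power of it, with exponent prime to
the order. -/
theorem exists_pow_eq_apply (hm : 0 < m) (hζ : IsPrimitiveRoot ζ m) (g : GQ) :
    ∃ i : ℕ, i.Coprime m ∧ g ζ = ζ ^ i := by
  have : NeZero m := ⟨hm.ne'⟩
  have h1 : (g ζ) ^ m = 1 := by rw [← map_pow, hζ.pow_eq_one, map_one]
  obtain ⟨i, -, hi⟩ := hζ.eq_pow_of_pow_eq_one h1
  have h2 : IsPrimitiveRoot (g ζ) m := hζ.map_of_injective g.injective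
  rw [← hi] at h2
  exact ⟨i, (hζ.pow_iff_coprime hm i).mp h2, hi.symm⟩

/-- The stabiliser of a primitive root of unity is a normal subgroup. -/
theorem stabilizer_normal (hm : 0 < m) (hζ : IsPrimitiveRoot ζ m) :
    (MulAction.stabilizer GQ ζ).Normal := by
  constructor
  intro h hh g
  rw [MulAction.mem_stabilizer_iff] at hh ⊢
  obtain ⟨i, -, hi⟩ := exists_pow_eq_apply hm hζ g⁻¹
  have hh' : h ζ = ζ := hh
  show (g * h * g⁻¹) ζ = ζ
  rw [AlgEquiv.mul_apply, AlgEquiv.mul_apply, hi, map_pow, hh', ← hi]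
  exact AlgEquiv.apply_symm_apply g ζ

/-- Two automorphisms commute on a primitive root of unity. -/
theorem comm_apply_root (hm : 0 < m) (hζ : IsPrimitiveRoot ζ m) (g g' : GQ) :
    (g * g') ζ = (g' * g) ζ := by
  obtain ⟨i, -, hi⟩ := exists_pow_eq_apply hm hζ g
  obtain ⟨j, -, hj⟩ := exists_pow_eq_apply hm hζ g'
  rw [AlgEquiv.mul_apply, AlgEquiv.mul_apply, hi, hj, map_pow, map_pow, hi, hj, ← pow_mul,
    ← pow_mul, mul_comm]

/-- **Frobenius elements in a prescribed class modulo `m`** (Dirichlet + existence of Frobenius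
elements): for every `g` and every bound `B` there is a Frobenius element `τ` at a prime
`ℓ > B` with `τ ζ = g ζ = ζ ^ i`, `ℓ ≡ i mod m`. -/
theorem exists_frob_apply_eq (hm : 0 < m) (hζ : IsPrimitiveRoot ζ m) (g : GQ) (B : ℕ) :
    ∃ (ℓ : ℕ) (A : ValuationSubring Qb) (τ : GQ) (i : ℕ), ℓ.Prime ∧ B < ℓ ∧
      A.LiesOverPrime ℓ ∧ A.IsFrobeniusAt τ ℓ ∧ i.Coprime m ∧ g ζ = ζ ^ i ∧ τ ζ = ζ ^ i ∧
      ℓ ≡ i [MOD m] := by
  have : NeZero m := ⟨hm.ne'⟩
  obtain ⟨i, hcop, hi⟩ := exists_pow_eq_apply hm hζ g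
  obtain ⟨ℓ, hℓB, hℓ, hℓi⟩ := Nat.forall_exists_prime_gt_and_eq_mod
    ((ZMod.isUnit_iff_coprime i m).mpr hcop) (max B m)
  obtain ⟨A, τ, hA, hτ⟩ := Fermat.Agent.Lib.helper54.exists_liesOverPrime_isFrobeniusAt hℓ
  have hmod : ℓ ≡ i [MOD m] := (ZMod.natCast_eq_natCast_iff ℓ i m).mp hℓi
  have hcopℓ : m.Coprime ℓ := by
    rw [Nat.coprime_comm, Nat.Prime.coprime_iff_not_dvd hℓ]
    intro hdvd
    have := Nat.le_of_dvd hm hdvd
    have := lt_of_le_of_lt (le_max_right B m) hℓB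
    omega
  have hτζ : τ ζ = ζ ^ ℓ :=
    Fermat.Agent.S58.helper5765.isFrobeniusAt_apply_of_pow_eq_one A hA τ ℓ hτ m hm.ne' hcopℓ ζ
      hζ.pow_eq_one
  refine ⟨ℓ, A, τ, i, hℓ, lt_of_le_of_lt (le_max_left B m) hℓB, hA, hτ, hcop, hi, ?_, hmod⟩
  rw [hτζ]
  exact pow_eq_pow_of_modEq hmod hζ.pow_eq_one

end Cyclo

/-! ### The `p`-torsion as a plane -/

section Main

variable (E : WeierstrassCurve ℚ) [E.IsElliptic] {W : WeierstrassCurve ℤ} {p : ℕ} [hpF : Fact p.Prime]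

/-- `E[p](ℚ̄)` has dimension two over `𝔽_p` (`p` odd). -/
theorem finrank_tor (hp2 : p ≠ 2) : Module.finrank (ZMod p) (Tor E p) = 2 := by
  have hodd : Odd p := hpF.out.odd_of_ne_two hp2
  have : (E⁄Qb).IsElliptic := inferInstanceAs (E.map (algebraMap ℚ Qb)).IsElliptic
  have hcard : Nat.card (Tor E p) = p ^ 2 :=
    Fermat.Agent.Lib.helper1397.card_torsionBy (E⁄Qb) p hodd
  have hfin : Finite (Tor E p) :=
    Nat.finite_of_card_ne_zero (by rw [hcard]; exact pow_ne_zero _ hpF.out.ne_zero)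
  have h1 := Module.natCard_eq_pow_finrank (K := ZMod p) (V := Tor E p)
  rw [hcard, Nat.card_zmod] at h1
  exact (Nat.pow_right_injective hpF.out.two_le h1).symm

/-- The discriminant of an integral model of an elliptic curve is nonzero. -/
theorem Δ_ne_zero_of_isIntegralModelOf (hW : W.IsIntegralModelOf E) : W.Δ ≠ 0 := by
  obtain ⟨C, hC⟩ := hW
  intro h0
  have h1 : (W.map (Int.castRingHom ℚ)).Δ = 0 := by rw [WeierstrassCurve.map_Δ, h0, _root_.map_zero]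
  rw [← hC, WeierstrassCurve.variableChange_Δ] at h1
  have hE : E.Δ ≠ 0 := E.isUnit_Δ.ne_zero
  rcases mul_eq_zero.mp h1 with h | h
  · exact (pow_ne_zero 12 (Units.ne_zero _)) h
  · exact hE h

variable {E}

omit [E.IsElliptic] hpF in
/-- Elements of `Gal(ℚ̄/ℚ)` that agree on a primitive root `ζ` act in the same way on `E[p]`, when
the stabiliser of `ζ` acts trivially. -/
theorem rho_eq_of_apply_eq {ζ : Qb}
    (htriv : ∀ h ∈ MulAction.stabilizer GQ ζ, galoisRepModuleEnd ℚ E p h = 1)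
    {g τ : GQ} (h : τ ζ = g ζ) : galoisRepModuleEnd ℚ E p τ = galoisRepModuleEnd ℚ E p g := by
  have hmem : g⁻¹ * τ ∈ MulAction.stabilizer GQ ζ := by
    rw [MulAction.mem_stabilizer_iff]
    show (g⁻¹ * τ) ζ = ζ
    rw [AlgEquiv.mul_apply, h]
    exact AlgEquiv.symm_apply_apply g ζ
  have h1 := htriv _ hmem
  have h2 : τ = g * (g⁻¹ * τ) := by group
  rw [h2, map_mul, h1, mul_one]

/-- **Quadratic relation for every element**, when the stabiliser of a primitive `m`-th root of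
unity acts trivially on `E[p]` (`p ∣ m`): if `g ζ = ζ ^ i` then `ρ(g)² - a ρ(g) + i = 0`. -/
theorem rho_quad_of_trivial (hW : W.IsIntegralModelOf E) {m : ℕ} (hm : 0 < m) (hpm : p ∣ m)
    {ζ : Qb} (hζ : IsPrimitiveRoot ζ m)
    (htriv : ∀ h ∈ MulAction.stabilizer GQ ζ, galoisRepModuleEnd ℚ E p h = 1) (g : GQ) :
    ∃ (a : ZMod p) (i : ℕ), i.Coprime m ∧ g ζ = ζ ^ i ∧
      galoisRepModuleEnd ℚ E p g * galoisRepModuleEnd ℚ E p g - a • galoisRepModuleEnd ℚ E p g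
        + (i : ZMod p) • (1 : Module.End (ZMod p) (Tor E p)) = 0 := by
  have hΔ := Δ_ne_zero_of_isIntegralModelOf E hW
  obtain ⟨ℓ, A, τ, i, hℓ, hB, hA, hτ, hcop, hgi, hτi, hmod⟩ :=
    exists_frob_apply_eq hm hζ g (max (max 5 p) W.Δ.natAbs)
  have hℓ5 : 5 ≤ ℓ := by
    have := le_max_left 5 p
    have := le_max_left (max 5 p) W.Δ.natAbs
    omega
  have hℓp : ℓ ≠ p := by
    have := le_max_right 5 p
    have := le_max_left (max 5 p) W.Δ.natAbs
    omega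
  have hgood : W.IsGoodPrimeFor ℓ := by
    intro hdvd
    have h1 : ℓ ∣ W.Δ.natAbs := Int.natCast_dvd.mp hdvd
    have h2 := Nat.le_of_dvd (Int.natAbs_pos.mpr hΔ) h1
    have := le_max_right (max 5 p) W.Δ.natAbs
    omega
  have hq := rho_quad E W p hW hℓ hℓ5 hgood hℓp A hA τ hτ
  rw [rho_eq_of_apply_eq htriv (hτi.trans hgi.symm)] at hq
  have hcast : ((ℓ : ℕ) : ZMod p) = (i : ZMod p) :=
    (ZMod.natCast_eq_natCast_iff ℓ i p).mpr (hmod.of_dvd hpm)
  rw [hcast] at hq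
  exact ⟨_, i, hcop, hgi, hq⟩

/-- **The abelian case is impossible.**  The stabiliser of a primitive `m`-th root of unity
(`p ∣ m`) cannot act trivially on `E[p]` when `E[p]` is irreducible. -/
theorem not_trivial_of_irreducible (hW : W.IsIntegralModelOf E) (hp2 : p ≠ 2)
    (hirr : GaloisRepIsIrreducible (K := AlgebraicClosure ℚ) ℚ E p)
    {m : ℕ} (hm : 0 < m) (hpm : p ∣ m) {ζ : Qb} (hζ : IsPrimitiveRoot ζ m)
    (htriv : ∀ h ∈ MulAction.stabilizer GQ ζ, galoisRepModuleEnd ℚ E p h = 1) : False := by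
  have : NeZero m := ⟨hm.ne'⟩
  have hV := finrank_tor E hp2
  have h2 : (2 : ZMod p) ≠ 0 := by
    intro h
    have h1 : p ∣ 2 := (ZMod.natCast_eq_zero_iff 2 p).mp (by exact_mod_cast h)
    have h3 := Nat.le_of_dvd (by norm_num) h1
    have h4 := hpF.out.two_le
    omega
  -- an element acting as `-1` on `ζ`
  obtain ⟨ℓ₀, hℓ₀B, hℓ₀, hℓ₀m⟩ :=
    Nat.forall_exists_prime_gt_and_eq_mod (q := m) (a := -1) isUnit_one.neg m
  obtain ⟨A₀, c, hA₀, hc⟩ := Fermat.Agent.Lib.helper54.exists_liesOverPrime_isFrobeniusAt hℓ₀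
  have hcop₀ : m.Coprime ℓ₀ := by
    rw [Nat.coprime_comm, Nat.Prime.coprime_iff_not_dvd hℓ₀]
    intro hdvd
    have := Nat.le_of_dvd hm hdvd
    omega
  have hcζ : c ζ = ζ ^ ℓ₀ :=
    Fermat.Agent.S58.helper5765.isFrobeniusAt_apply_of_pow_eq_one A₀ hA₀ c ℓ₀ hc m hm.ne' hcop₀ ζ
      hζ.pow_eq_one
  have hsq : ℓ₀ * ℓ₀ ≡ 1 [MOD m] := by
    rw [← ZMod.natCast_eq_natCast_iff]
    push_cast
    rw [hℓ₀m]
    ring
  refine false_of_comm_of_quad (galoisRepModuleEnd ℚ E p) hV h2 (fun N hN => hirr.2 N hN) ?_ c ?_ ?_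
  · intro g g'
    rw [← map_mul, ← map_mul]
    exact rho_eq_of_apply_eq htriv (comm_apply_root hm hζ g g')
  · rw [← map_mul]
    apply htriv
    rw [MulAction.mem_stabilizer_iff]
    show (c * c) ζ = ζ
    rw [AlgEquiv.mul_apply, hcζ, map_pow, hcζ, ← pow_mul]
    have h5 := pow_eq_pow_of_modEq hsq hζ.pow_eq_one
    rw [h5, pow_one]
  · intro g
    obtain ⟨a, i, hcop, hgi, hq⟩ := rho_quad_of_trivial hW hm hpm hζ htriv g
    obtain ⟨a', i', -, hgi', hq'⟩ := rho_quad_of_trivial hW hm hpm hζ htriv (c * g)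
    refine ⟨a, a', (i : ZMod p), ?_, hq, ?_⟩
    · intro h0
      have hdvd : p ∣ i := (ZMod.natCast_eq_zero_iff i p).mp h0
      have h5 : p ∣ Nat.gcd i m := Nat.dvd_gcd hdvd hpm
      rw [Nat.Coprime] at hcop
      rw [hcop] at h5
      exact hpF.out.one_lt.ne' (Nat.dvd_one.mp h5)
    · have hcg : (c * g) ζ = ζ ^ (ℓ₀ * i) := by
        rw [AlgEquiv.mul_apply, hgi, map_pow, hcζ, ← pow_mul]
      have hmod : i' ≡ ℓ₀ * i [MOD m] := modEq_of_pow_eq_pow hm hζ (hgi'.symm.trans hcg)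
      have hcast : (i' : ZMod p) = -(i : ZMod p) := by
        have h1 : ((i' : ℕ) : ZMod p) = ((ℓ₀ * i : ℕ) : ZMod p) :=
          (ZMod.natCast_eq_natCast_iff _ _ p).mpr (hmod.of_dvd hpm)
        have h3 : ((ℓ₀ : ℕ) : ZMod p) = -1 := by
          have h4 := congrArg (ZMod.castHom hpm (ZMod p)) hℓ₀m
          rw [map_natCast, map_neg, map_one] at h4
          exact h4
        rw [h1, Nat.cast_mul, h3]
        ring
      rw [hcast, neg_smul, ← sub_eq_add_neg] at hq'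
      exact hq'

/-- **The generic case.**  If some element of the stabiliser of a primitive `m`-th root of unity
(`p ∣ m`) acts on `E[p]` without nonzero fixed vector, there is a good prime `ℓ ≡ 1 mod m` outside
any given finite set with `p ∤ ℓ + 1 - a_ℓ`. -/
theorem exists_prime_of_fixedPointFree (hW : W.IsIntegralModelOf E)
    {m : ℕ} (hm : 0 < m) (hpm : p ∣ m) {ζ : Qb} (hζ : IsPrimitiveRoot ζ m)
    (hnt : Nontrivial (Tor E p))
    {σ : GQ} (hσ : σ ∈ MulAction.stabilizer GQ ζ)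
    (hfree : ∀ v : Tor E p, v ≠ 0 → galoisRepModuleEnd ℚ E p σ v ≠ v) (S : Finset ℕ) :
    ∃ ℓ : ℕ, ℓ.Prime ∧ W.IsGoodPrimeFor ℓ ∧ ℓ ∉ S ∧ ℓ ≠ p ∧ ℓ ≡ 1 [MOD m] ∧
      ¬ ((p : ℤ) ∣ (ℓ : ℤ) + 1 - W.apOfModel ℓ) := by
  classical
  have hΔ := Δ_ne_zero_of_isIntegralModelOf E hW
  obtain ⟨L, hLfin, hL⟩ :=
    Fermat.Agent.Lib.helper822.galoisFactorsThroughFiniteLevel_torsion E p hpF.out.ne_zero
  -- the Galois closure of `L(ζ)`
  have hint : IsIntegral ℚ ζ := Fermat.Agent.Lib.helper54.isIntegral_Qbar.isIntegral ζ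
  have : FiniteDimensional ℚ (IntermediateField.adjoin ℚ {ζ}) :=
    IntermediateField.adjoin.finiteDimensional hint
  let L' : IntermediateField ℚ Qb := L ⊔ IntermediateField.adjoin ℚ {ζ}
  have : FiniteDimensional ℚ L' := IntermediateField.finiteDimensional_sup L _
  let K : IntermediateField ℚ Qb := IntermediateField.normalClosure ℚ ↥L' Qb
  have : Normal ℚ Qb := Fermat.Agent.Lib.helper54.isGalois_Qbar.to_normal
  have : FiniteDimensional ℚ ↥K := normalClosure.is_finiteDimensional _ _ _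
  have : Normal ℚ ↥K := normalClosure.normal _ _ _
  have : IsGalois ℚ ↥K := ⟨⟩
  have hle : L' ≤ K := IntermediateField.le_normalClosure L'
  have hLK : ∀ x ∈ L, x ∈ K := fun x hx => hle ((le_sup_left : L ≤ L') hx)
  have hζK : ζ ∈ K :=
    hle ((le_sup_right : IntermediateField.adjoin ℚ {ζ} ≤ L')
      (IntermediateField.mem_adjoin_simple_self ℚ ζ))
  let T : Finset ℕ := S ∪ {p, 2, 3} ∪ W.Δ.natAbs.primeFactors ∪ m.primeFactors
  obtain ⟨ℓ, A, τ, hℓ, hℓT, hA, hτ, hz⟩ := Fermat.Agent.S29.helper9726.genCheb_of_frobGenQ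
    (fun K _ _ _ g T => Fermat.Agent.S29.helper2247.exists_prime_frobenius_generator K g T) K σ T
  obtain ⟨n, hn⟩ := Fermat.Agent.S29.helper9726.exists_pow_eq_on K hz
  obtain ⟨n', hn'⟩ := Fermat.Agent.S29.helper9726.exists_pow_eq_on K hz.symm
  simp only [T, Finset.mem_union, Finset.mem_insert, Finset.mem_singleton, not_or] at hℓT
  obtain ⟨⟨⟨hℓS, hℓp, hℓ2, hℓ3⟩, hℓΔ⟩, hℓm⟩ := hℓT
  have hℓ5 : 5 ≤ ℓ := hℓ.five_le_of_ne_two_of_ne_three hℓ2 hℓ3
  have hgood : W.IsGoodPrimeFor ℓ := by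
    intro hdvd
    apply hℓΔ
    rw [Nat.mem_primeFactors]
    exact ⟨hℓ, Int.natCast_dvd.mp hdvd, Int.natAbs_ne_zero.mpr hΔ⟩
  have hcopℓ : m.Coprime ℓ := by
    rw [Nat.coprime_comm, Nat.Prime.coprime_iff_not_dvd hℓ]
    intro hdvd
    apply hℓm
    rw [Nat.mem_primeFactors]
    exact ⟨hℓ, hdvd, hm.ne'⟩
  -- `τ` fixes `ζ`, hence `ℓ ≡ 1 mod m`
  have hστ : (σ ^ n') ζ = τ ζ := hn' ζ hζK
  have hσn : (σ ^ n') ζ = ζ := by
    have h1 : σ ^ n' ∈ MulAction.stabilizer GQ ζ := Subgroup.pow_mem _ hσ n'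
    exact MulAction.mem_stabilizer_iff.mp h1
  have hτζ : τ ζ = ζ ^ ℓ :=
    Fermat.Agent.S58.helper5765.isFrobeniusAt_apply_of_pow_eq_one A hA τ ℓ hτ m hm.ne' hcopℓ ζ
      hζ.pow_eq_one
  have hmod : ℓ ≡ 1 [MOD m] := by
    apply modEq_of_pow_eq_pow hm hζ
    rw [pow_one, ← hτζ, ← hστ, hσn]
  -- `ρ σ` is a power of `ρ τ`
  have hρ : galoisRepModuleEnd ℚ E p σ = galoisRepModuleEnd ℚ E p τ ^ n := by
    have h1 : galoisRepModuleEnd ℚ E p (σ⁻¹ * τ ^ n) = 1 := by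
      apply hL
      intro x hx
      show (σ⁻¹ * τ ^ n) x = x
      rw [AlgEquiv.mul_apply, hn x (hLK x hx)]
      exact AlgEquiv.symm_apply_apply σ x
    have h2 : τ ^ n = σ * (σ⁻¹ * τ ^ n) := by group
    rw [← map_pow, h2, map_mul, h1, mul_one]
  refine ⟨ℓ, hℓ, hgood, hℓS, hℓp, hmod, ?_⟩
  intro hdvd
  have hq := rho_quad E W p hW hℓ hℓ5 hgood hℓp A hA τ hτ
  have hcast1 : ((ℓ : ℕ) : ZMod p) = 1 := by
    have h1 := (ZMod.natCast_eq_natCast_iff ℓ 1 p).mpr (hmod.of_dvd hpm)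
    simpa using h1
  have hcast2 : ((W.apOfModel ℓ : ℤ) : ZMod p) = 2 := by
    have h0 := (ZMod.intCast_zmod_eq_zero_iff_dvd _ p).mpr hdvd
    push_cast at h0
    rw [hcast1] at h0
    linear_combination (-1 : ZMod p) * h0
  rw [hcast1, hcast2] at hq
  generalize galoisRepModuleEnd ℚ E p τ = R at hq hρ
  have hsq : (R - 1) * (R - 1) = 0 := by
    have e : (R - 1) * (R - 1) =
        R * R - (2 : ZMod p) • R + (1 : ZMod p) • (1 : Module.End (ZMod p) (Tor E p)) := by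
      rw [one_smul, two_smul]
      noncomm_ring
    rw [e, hq]
  obtain ⟨v₀, hv₀⟩ := exists_ne (0 : Tor E p)
  have hfix : ∃ v : Tor E p, v ≠ 0 ∧ R v = v := by
    by_cases hw : (R - 1) v₀ = 0
    · exact ⟨v₀, hv₀, by rwa [LinearMap.sub_apply, Module.End.one_apply, sub_eq_zero] at hw⟩
    · refine ⟨(R - 1) v₀, hw, ?_⟩
      have h1 := congrArg (fun f : Module.End (ZMod p) (Tor E p) => f v₀) hsq
      simp only [Module.End.mul_apply, LinearMap.zero_apply] at h1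
      rwa [LinearMap.sub_apply, Module.End.one_apply, sub_eq_zero] at h1
  obtain ⟨v, hv0, hv⟩ := hfix
  apply hfree v hv0
  rw [hρ]
  have hpow : ∀ k : ℕ, (R ^ k) v = v := by
    intro k
    induction k with
    | zero => rw [pow_zero, Module.End.one_apply]
    | succ k ih => rw [pow_succ, Module.End.mul_apply, hv, ih]
  exact hpow n

end Main

/-- **S41-F-CONG: the witness prime with congruence.**  `E/ℚ` an elliptic curve with integral
model `W`, `p` an odd prime with `E[p]` irreducible.  For every `M ≥ 1` and every finite set `S`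
of primes there is a prime `ℓ`, good for `W`, `ℓ ∉ S`, `ℓ ≠ p`, `ℓ ≡ 1 mod p M`, with
`p ∤ ℓ + 1 - a_ℓ(W) = #W(𝔽_ℓ)`. -/
theorem exists_good_prime_cong (E : WeierstrassCurve ℚ) [E.IsElliptic] {W : WeierstrassCurve ℤ}
    (hW : W.IsIntegralModelOf E) {p : ℕ} (hp : p.Prime) (hp2 : p ≠ 2)
    (hirr : GaloisRepIsIrreducible (K := AlgebraicClosure ℚ) ℚ E p) (M : ℕ) (hM : 0 < M)
    (S : Finset ℕ) :
    ∃ ℓ : ℕ, ℓ.Prime ∧ W.IsGoodPrimeFor ℓ ∧ ℓ ∉ S ∧ ℓ ≠ p ∧ ℓ ≡ 1 [MOD p * M] ∧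
      ¬ ((p : ℤ) ∣ (ℓ : ℤ) + 1 - W.apOfModel ℓ) := by
  have : Fact p.Prime := ⟨hp⟩
  have hm : 0 < p * M := Nat.mul_pos hp.pos hM
  have : NeZero ((p * M : ℕ) : ℚ) := ⟨by exact_mod_cast hm.ne'⟩
  obtain ⟨ζ, hζ⟩ := HasEnoughRootsOfUnity.exists_primitiveRoot Qb (p * M)
  have hHn := stabilizer_normal hm hζ
  by_cases hcase : ∀ h ∈ MulAction.stabilizer GQ ζ,
      ∃ v : Tor E p, v ≠ 0 ∧ galoisRepModuleEnd ℚ E p h v = v
  · exfalso
    have htriv := trivial_of_forall_fixed (galoisRepModuleEnd ℚ E p) (finrank_tor E hp2)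
      (fun N hN => hirr.2 N hN) (MulAction.stabilizer GQ ζ) hcase
    exact not_trivial_of_irreducible hW hp2 hirr hm (dvd_mul_right p M) hζ htriv
  · push Not at hcase
    obtain ⟨σ, hσ, hfree⟩ := hcase
    exact exists_prime_of_fixedPointFree hW hm (dvd_mul_right p M) hζ hirr.1 hσ hfree S

/-- Variant of `exists_good_prime_cong` with the congruence modulo `M` only. -/
theorem exists_good_prime_cong' (E : WeierstrassCurve ℚ) [E.IsElliptic] {W : WeierstrassCurve ℤ}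
    (hW : W.IsIntegralModelOf E) {p : ℕ} (hp : p.Prime) (hp2 : p ≠ 2)
    (hirr : GaloisRepIsIrreducible (K := AlgebraicClosure ℚ) ℚ E p) (M : ℕ) (hM : 0 < M)
    (S : Finset ℕ) :
    ∃ ℓ : ℕ, ℓ.Prime ∧ W.IsGoodPrimeFor ℓ ∧ ℓ ∉ S ∧ ℓ ≠ p ∧ ℓ ≡ 1 [MOD M] ∧
      ¬ ((p : ℤ) ∣ (ℓ : ℤ) + 1 - W.apOfModel ℓ) := by
  obtain ⟨ℓ, hℓ, hgood, hℓS, hℓp, hmod, hnd⟩ := exists_good_prime_cong E hW hp hp2 hirr M hM S
  exact ⟨ℓ, hℓ, hgood, hℓS, hℓp, hmod.of_dvd (dvd_mul_left M p), hnd⟩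

/-- An integer prime to `p` is not in a proper ideal containing `p`. -/
theorem intCast_notMem_of_not_dvd {R : Type*} [CommRing R] {𝔪 : Ideal R} (h𝔪 : 𝔪 ≠ ⊤) {p : ℕ}
    (hp : p.Prime) (hpm : (p : R) ∈ 𝔪) {n : ℤ} (hn : ¬ (p : ℤ) ∣ n) : (n : R) ∉ 𝔪 := by
  intro hmem
  apply h𝔪
  rw [Ideal.eq_top_iff_one]
  have hcop : IsCoprime (p : ℤ) n :=
    (Nat.prime_iff_prime_int.mp hp).coprime_iff_not_dvd.mpr hn
  obtain ⟨x, y, hxy⟩ := hcop
  have h1 : (1 : R) = (x : R) * (p : R) + (y : R) * (n : R) := by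
    have := congrArg (Int.cast : ℤ → R) hxy
    push_cast at this
    exact this.symm
  rw [h1]
  exact 𝔪.add_mem (𝔪.mul_mem_left _ hpm) (𝔪.mul_mem_left _ hmem)

/-- **The witness prime in the shape of the level-raising endgame** (hypotheses of the frozen
S41).  There is a prime `ℓ ∤ N`, good for `W`, outside `S`, `ℓ ≠ p`, `ℓ ≡ 1 mod p * M`, such that
`a_ℓ(f) - (ℓ + 1) ∉ 𝔪`. -/
theorem exists_witness_prime (E : WeierstrassCurve ℚ) [E.IsElliptic] {W : WeierstrassCurve ℤ}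
    (hW : W.IsIntegralModelOf E) {p N : ℕ} (hp : p.Prime) (hp2 : p ≠ 2) (hN : 0 < N)
    (hirr : GaloisRepIsIrreducible (K := AlgebraicClosure ℚ) ℚ E p)
    (f : CuspForm (CongruenceSubgroup.Gamma0 N) 2) (𝔪 : Ideal (integralClosure ℤ ℂ))
    (hmax : 𝔪.IsMaximal) (hpm : (p : integralClosure ℤ ℂ) ∈ 𝔪)
    (hcong : ∀ ℓ : ℕ, ℓ.Prime → W.IsGoodPrimeFor ℓ → ¬ ℓ ∣ N → ℓ ≠ p →
      ∃ a : integralClosure ℤ ℂ, (a : ℂ) = ModularFormClass.qCoeff f ℓ ∧
        a - ((W.apOfModel ℓ : ℤ) : integralClosure ℤ ℂ) ∈ 𝔪)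
    (M : ℕ) (hM : 0 < M) (S : Finset ℕ) :
    ∃ ℓ : ℕ, ℓ.Prime ∧ W.IsGoodPrimeFor ℓ ∧ ℓ ∉ S ∧ ℓ ≠ p ∧ ¬ ℓ ∣ N ∧ ℓ ≡ 1 [MOD p * M] ∧
      ¬ ((p : ℤ) ∣ (ℓ : ℤ) + 1 - W.apOfModel ℓ) ∧
      ∃ a : integralClosure ℤ ℂ, (a : ℂ) = ModularFormClass.qCoeff f ℓ ∧
        a - ((W.apOfModel ℓ : ℤ) : integralClosure ℤ ℂ) ∈ 𝔪 ∧
        a - ((ℓ : integralClosure ℤ ℂ) + 1) ∉ 𝔪 := by
  classical
  obtain ⟨ℓ, hℓ, hgood, hℓS, hℓp, hmod, hnd⟩ :=
    exists_good_prime_cong E hW hp hp2 hirr M hM (S ∪ N.primeFactors)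
  rw [Finset.mem_union, not_or] at hℓS
  have hℓN : ¬ ℓ ∣ N := fun hdvd => hℓS.2 (Nat.mem_primeFactors.mpr ⟨hℓ, hdvd, hN.ne'⟩)
  obtain ⟨a, ha, ham⟩ := hcong ℓ hℓ hgood hℓN hℓp
  refine ⟨ℓ, hℓ, hgood, hℓS.1, hℓp, hℓN, hmod, hnd, a, ha, ham, ?_⟩
  intro hmem
  have h1 : (((ℓ : ℤ) + 1 - W.apOfModel ℓ : ℤ) : integralClosure ℤ ℂ) ∈ 𝔪 := by
    have h2 := 𝔪.sub_mem ham hmem
    have e : (((ℓ : ℤ) + 1 - W.apOfModel ℓ : ℤ) : integralClosure ℤ ℂ) =
        a - ((W.apOfModel ℓ : ℤ) : integralClosure ℤ ℂ) - (a - ((ℓ : integralClosure ℤ ℂ) + 1)) := by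
      push_cast
      ring
    rw [e]
    exact h2
  exact intCast_notMem_of_not_dvd hmax.ne_top hp hpm hnd h1

end Fermat.Agent.S41.helper560
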