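/-
S41, leaf L1 (helper560): `Stmt_Witness` of the captain's Spec (`helper123_Spec`), from
`exists_good_prime_cong'` (`helper560_WitnessCong`).
-/
import Fermat.Agent.S41.helper123_Spec
import Fermat.Agent.S41.helper560_WitnessCong

set_option autoImplicit false

namespace Fermat.Agent.S41.helper560

/-- **L1.**  The witness statement of the Spec: for every `M > 0` there is a prime `ℓ ≡ 1 mod M`,
good for `W`, `ℓ ≠ p`, with `p ∤ ℓ + 1 - a_ℓ(W)`. -/
theorem stmt_Witness : Fermat.Agent.S41.helper123.Stmt_Witness := by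
  intro E _ W hW p hp hp2 hirr M hM
  obtain ⟨ℓ, hℓ, hgood, -, hℓp, hmod, hnd⟩ := exists_good_prime_cong' E hW hp hp2 hirr M hM ∅
  refine ⟨ℓ, hℓ, hgood, hℓp, ?_, hnd⟩
  have h := (ZMod.natCast_eq_natCast_iff ℓ 1 M).mpr hmod
  rw [Nat.cast_one] at h
  exact h

end Fermat.Agent.S41.helper560
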