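/-
S41, module D (generation half) of the route in findings #2474.

`Gamma0(N)[1/q]` (matrices in `SL(2, ℚ)` with entries in `ℤ[1/q]` and lower-left entry in
`N ℤ[1/q]`) is generated by `Gamma0(N)` and its conjugate by `diag(q, 1)`.
Mathlib only.
-/
import Mathlib

set_option autoImplicit false

namespace Fermat.Agent.S41.helper5755

open Matrix MatrixGroups

/-! ### entries of products in `SL(2, R)` -/

section entries

variable {R : Type*} [CommRing R]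

theorem sl_mul_00 (g h : SL(2, R)) : (g * h) 0 0 = g 0 0 * h 0 0 + g 0 1 * h 1 0 := by
  simp [Matrix.mul_apply, Fin.sum_univ_two]

theorem sl_mul_01 (g h : SL(2, R)) : (g * h) 0 1 = g 0 0 * h 0 1 + g 0 1 * h 1 1 := by
  simp [Matrix.mul_apply, Fin.sum_univ_two]

theorem sl_mul_10 (g h : SL(2, R)) : (g * h) 1 0 = g 1 0 * h 0 0 + g 1 1 * h 1 0 := by
  simp [Matrix.mul_apply, Fin.sum_univ_two]

theorem sl_mul_11 (g h : SL(2, R)) : (g * h) 1 1 = g 1 0 * h 0 1 + g 1 1 * h 1 1 := by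
  simp [Matrix.mul_apply, Fin.sum_univ_two]

theorem sl_det (g : SL(2, R)) : g 0 0 * g 1 1 - g 0 1 * g 1 0 = 1 := by
  have h := g.det_coe
  rw [Matrix.det_fin_two] at h
  exact h

theorem sl_ext {g h : SL(2, R)} (h00 : g 0 0 = h 0 0) (h01 : g 0 1 = h 0 1)
    (h10 : g 1 0 = h 1 0) (h11 : g 1 1 = h 1 1) : g = h := by
  ext i j
  fin_cases i <;> fin_cases j <;> assumption

end entries

/-- The matrix `[[a, b], [c, d]]` of determinant one as an element of `SL(2, R)`. -/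
def mk2 {R : Type*} [CommRing R] (a b c d : R) (h : a * d - b * c = 1) : SL(2, R) :=
  ⟨!![a, b; c, d], by rw [Matrix.det_fin_two_of]; exact h⟩

section mk2

variable {R : Type*} [CommRing R] (a b c d : R) (h : a * d - b * c = 1)

@[simp] theorem mk2_00 : (mk2 a b c d h) 0 0 = a := rfl
@[simp] theorem mk2_01 : (mk2 a b c d h) 0 1 = b := rfl
@[simp] theorem mk2_10 : (mk2 a b c d h) 1 0 = c := rfl
@[simp] theorem mk2_11 : (mk2 a b c d h) 1 1 = d := rfl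

end mk2

/-! ### conjugation by `diag(q, 1)` -/

/-- Conjugation by `diag(q, 1)` on `SL(2, ℚ)`, as a function:
`[[a, b], [c, d]] ↦ [[a, q b], [c / q, d]]`. -/
def conjDFun (q : ℕ) (hq : q ≠ 0) (g : SL(2, ℚ)) : SL(2, ℚ) :=
  mk2 (g 0 0) (q * g 0 1) (g 1 0 / q) (g 1 1) (by
    have hq' : (q : ℚ) ≠ 0 := Nat.cast_ne_zero.2 hq
    have := sl_det g
    field_simp
    linarith)

section conjDFun

variable (q : ℕ) (hq : q ≠ 0) (g : SL(2, ℚ))

theorem conjDFun_00 : (conjDFun q hq g) 0 0 = g 0 0 := rfl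
theorem conjDFun_01 : (conjDFun q hq g) 0 1 = q * g 0 1 := rfl
theorem conjDFun_10 : (conjDFun q hq g) 1 0 = g 1 0 / q := rfl
theorem conjDFun_11 : (conjDFun q hq g) 1 1 = g 1 1 := rfl

end conjDFun

/-- Conjugation by `diag(q, 1)` on `SL(2, ℚ)`: `[[a, b], [c, d]] ↦ [[a, q b], [c / q, d]]`. -/
def conjD (q : ℕ) (hq : q ≠ 0) : SL(2, ℚ) →* SL(2, ℚ) where
  toFun := conjDFun q hq
  map_one' := by
    apply sl_ext
    · rw [conjDFun_00]
    · rw [conjDFun_01]; simp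
    · rw [conjDFun_10]; simp
    · rw [conjDFun_11]
  map_mul' g h := by
    have hq' : (q : ℚ) ≠ 0 := Nat.cast_ne_zero.2 hq
    apply sl_ext
    · rw [sl_mul_00, conjDFun_00, conjDFun_00, conjDFun_00, conjDFun_01, conjDFun_10, sl_mul_00]
      field_simp
    · rw [sl_mul_01, conjDFun_00, conjDFun_01, conjDFun_01, conjDFun_01, conjDFun_11, sl_mul_01]
      ring
    · rw [sl_mul_10, conjDFun_10, conjDFun_10, conjDFun_00, conjDFun_11, conjDFun_10, sl_mul_10]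
      field_simp
    · rw [sl_mul_11, conjDFun_10, conjDFun_01, conjDFun_11, conjDFun_11, conjDFun_11, sl_mul_11]
      field_simp

section conjD

variable (q : ℕ) (hq : q ≠ 0) (g : SL(2, ℚ))

@[simp] theorem conjD_00 : (conjD q hq g) 0 0 = g 0 0 := rfl
@[simp] theorem conjD_01 : (conjD q hq g) 0 1 = q * g 0 1 := rfl
@[simp] theorem conjD_10 : (conjD q hq g) 1 0 = g 1 0 / q := rfl
@[simp] theorem conjD_11 : (conjD q hq g) 1 1 = g 1 1 := rfl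

end conjD

/-! ### the two copies of `Gamma0(N)` and the group they generate -/

/-- `SL(2, ℤ) → SL(2, ℚ)`. -/
abbrev mapQ : SL(2, ℤ) →* SL(2, ℚ) := Matrix.SpecialLinearGroup.map (Int.castRingHom ℚ)

theorem mapQ_apply (γ : SL(2, ℤ)) (i j : Fin 2) : (mapQ γ) i j = ((γ i j : ℤ) : ℚ) := rfl

/-- The image of `Gamma0(N)` in `SL(2, ℚ)`. -/
def gammaQ (N : ℕ) : Subgroup SL(2, ℚ) := (CongruenceSubgroup.Gamma0 N).map mapQ

/-- The conjugate of (the image of) `Gamma0(N)` by `diag(q, 1)`. -/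
def gammaQc (N q : ℕ) (hq : q ≠ 0) : Subgroup SL(2, ℚ) := (gammaQ N).map (conjD q hq)

/-- The subgroup of `SL(2, ℚ)` generated by `Gamma0(N)` and its `diag(q, 1)`-conjugate. -/
def genSub (N q : ℕ) (hq : q ≠ 0) : Subgroup SL(2, ℚ) := gammaQ N ⊔ gammaQc N q hq

theorem mapQ_mem_genSub {N q : ℕ} (hq : q ≠ 0) {γ : SL(2, ℤ)}
    (hγ : γ ∈ CongruenceSubgroup.Gamma0 N) : mapQ γ ∈ genSub N q hq :=
  (le_sup_left : gammaQ N ≤ genSub N q hq) (Subgroup.mem_map_of_mem _ hγ)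

theorem conjD_mapQ_mem_genSub {N q : ℕ} (hq : q ≠ 0) {γ : SL(2, ℤ)}
    (hγ : γ ∈ CongruenceSubgroup.Gamma0 N) : conjD q hq (mapQ γ) ∈ genSub N q hq :=
  (le_sup_right : gammaQc N q hq ≤ genSub N q hq)
    (Subgroup.mem_map_of_mem _ (Subgroup.mem_map_of_mem _ hγ))

theorem gamma0_dvd {N : ℕ} {γ : SL(2, ℤ)} (hγ : γ ∈ CongruenceSubgroup.Gamma0 N) :
    (N : ℤ) ∣ γ 1 0 := by
  rw [CongruenceSubgroup.Gamma0_mem] at hγ
  exact (ZMod.intCast_zmod_eq_zero_iff_dvd _ _).1 hγ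

theorem gamma0_of_dvd {N : ℕ} {γ : SL(2, ℤ)} (h : (N : ℤ) ∣ γ 1 0) :
    γ ∈ CongruenceSubgroup.Gamma0 N := by
  rw [CongruenceSubgroup.Gamma0_mem]
  exact (ZMod.intCast_zmod_eq_zero_iff_dvd _ _).2 h

/-! ### arithmetic lemmas: killing a row modulo `q` -/

/-- If `[[a, b], [c, d]]` is singular modulo the prime `q`, its second row is nonzero modulo `q`,
and `u` is invertible modulo `q`, then some multiple `u * x` of the second row added to the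
first row kills the first row modulo `q`. -/
theorem exists_kill_row {q : ℕ} (hq : q.Prime) (a b c d u u' : ℤ)
    (hu : (q : ℤ) ∣ u * u' - 1) (hdet : (q : ℤ) ∣ a * d - b * c)
    (hcd : ¬ ((q : ℤ) ∣ c ∧ (q : ℤ) ∣ d)) :
    ∃ x : ℤ, (q : ℤ) ∣ a + u * x * c ∧ (q : ℤ) ∣ b + u * x * d := by
  have hqp : Prime (q : ℤ) := Nat.prime_iff_prime_int.1 hq
  by_cases hc : (q : ℤ) ∣ c
  · have hd : ¬ (q : ℤ) ∣ d := fun hd => hcd ⟨hc, hd⟩
    -- `d` is invertible modulo `q`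
    have hcop : IsCoprime d (q : ℤ) := by
      rw [isCoprime_comm]
      exact (Prime.coprime_iff_not_dvd hqp).2 hd
    obtain ⟨d', v, hd'⟩ := hcop
    refine ⟨-u' * b * d', ?_, ?_⟩
    · -- `q ∣ a` since `q ∣ a * d` and `q ∤ d`
      have ha : (q : ℤ) ∣ a := by
        have h1 : (q : ℤ) ∣ a * d := by
          have h2 : a * d = (a * d - b * c) + b * c := by ring
          rw [h2]
          exact dvd_add hdet (Dvd.dvd.mul_left hc b)
        exact (hqp.dvd_or_dvd h1).resolve_right hd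
      exact dvd_add ha (Dvd.dvd.mul_left hc _)
    · obtain ⟨w, hw⟩ := hu
      refine ⟨-b * d' * d * w + b * v, ?_⟩
      linear_combination (-b * d' * d) * hw - b * hd'
  · have hcop : IsCoprime c (q : ℤ) := by
      rw [isCoprime_comm]
      exact (Prime.coprime_iff_not_dvd hqp).2 hc
    obtain ⟨c', v, hc'⟩ := hcop
    obtain ⟨w, hw⟩ := hu
    have h1 : (q : ℤ) ∣ a + u * (-u' * a * c') * c := by
      refine ⟨-a * c' * c * w + a * v, ?_⟩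
      linear_combination (-a * c' * c) * hw - a * hc'
    refine ⟨-u' * a * c', h1, ?_⟩
    -- `c * (b + u x d) ≡ b c - a d ≡ 0`
    have h2 : (q : ℤ) ∣ c * (b + u * (-u' * a * c') * d) := by
      have h3 : c * (b + u * (-u' * a * c') * d)
          = d * (a + u * (-u' * a * c') * c) - (a * d - b * c) := by ring
      rw [h3]
      exact dvd_sub (Dvd.dvd.mul_left h1 d) hdet
    exact (hqp.dvd_or_dvd h2).resolve_left hc

theorem exists_bezout {N q : ℕ} (hNq : Nat.Coprime N q) : ∃ s t : ℤ, s * N + t * q = 1 :=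
  Nat.isCoprime_iff_coprime.2 hNq

/-- Some element of `Gamma0(N)` kills the first row of a matrix which is singular mod `q`. -/
theorem exists_gamma0_kill_row0 {N q : ℕ} (hq : q.Prime) (hNq : Nat.Coprime N q) (a b c d : ℤ)
    (hdet : (q : ℤ) ∣ a * d - b * c) :
    ∃ γ : SL(2, ℤ), γ ∈ CongruenceSubgroup.Gamma0 N ∧
      (q : ℤ) ∣ γ 0 0 * a + γ 0 1 * c ∧ (q : ℤ) ∣ γ 0 0 * b + γ 0 1 * d := by
  by_cases hcd : (q : ℤ) ∣ c ∧ (q : ℤ) ∣ d
  · obtain ⟨t, s, hst⟩ := exists_bezout hNq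
    refine ⟨mk2 (q : ℤ) t (-(N : ℤ)) s (by linear_combination hst), gamma0_of_dvd ?_, ?_, ?_⟩
    · rw [mk2_10]; exact (dvd_neg).2 dvd_rfl
    · rw [mk2_00, mk2_01]
      exact dvd_add (Dvd.intro _ rfl) (Dvd.dvd.mul_left hcd.1 t)
    · rw [mk2_00, mk2_01]
      exact dvd_add (Dvd.intro _ rfl) (Dvd.dvd.mul_left hcd.2 t)
  · obtain ⟨x, h1, h2⟩ := exists_kill_row hq a b c d 1 1 (by simp) hdet hcd
    refine ⟨mk2 1 x 0 1 (by ring), gamma0_of_dvd ?_, ?_, ?_⟩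
    · rw [mk2_10]; exact dvd_zero _
    · rw [mk2_00, mk2_01]
      have : (1 : ℤ) * a + x * c = a + 1 * x * c := by ring
      rw [this]; exact h1
    · rw [mk2_00, mk2_01]
      have : (1 : ℤ) * b + x * d = b + 1 * x * d := by ring
      rw [this]; exact h2

/-- Some element of `Gamma0(N)` kills the second row of a matrix which is singular mod `q`. -/
theorem exists_gamma0_kill_row1 {N q : ℕ} (hq : q.Prime) (hNq : Nat.Coprime N q) (a b c d : ℤ)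
    (hdet : (q : ℤ) ∣ a * d - b * c) :
    ∃ γ : SL(2, ℤ), γ ∈ CongruenceSubgroup.Gamma0 N ∧
      (q : ℤ) ∣ γ 1 0 * a + γ 1 1 * c ∧ (q : ℤ) ∣ γ 1 0 * b + γ 1 1 * d := by
  obtain ⟨N', s, hst⟩ := exists_bezout hNq
  by_cases hab : (q : ℤ) ∣ a ∧ (q : ℤ) ∣ b
  · refine ⟨mk2 s (-N') (N : ℤ) (q : ℤ) (by linear_combination hst), gamma0_of_dvd ?_, ?_, ?_⟩
    · rw [mk2_10]
    · rw [mk2_10, mk2_11]
      exact dvd_add (Dvd.dvd.mul_left hab.1 _) (Dvd.intro _ rfl)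
    · rw [mk2_10, mk2_11]
      exact dvd_add (Dvd.dvd.mul_left hab.2 _) (Dvd.intro _ rfl)
  · have hu : (q : ℤ) ∣ (N : ℤ) * N' - 1 := ⟨-s, by linear_combination hst⟩
    have hdet' : (q : ℤ) ∣ c * b - d * a := by
      have h : c * b - d * a = -(a * d - b * c) := by ring
      rw [h]; exact (dvd_neg).2 hdet
    obtain ⟨y, h1, h2⟩ := exists_kill_row hq c d a b (N : ℤ) N' hu hdet' hab
    refine ⟨mk2 1 0 ((N : ℤ) * y) 1 (by ring), gamma0_of_dvd ?_, ?_, ?_⟩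
    · rw [mk2_10]; exact Dvd.intro _ rfl
    · rw [mk2_10, mk2_11]
      have : (N : ℤ) * y * a + 1 * c = c + N * y * a := by ring
      rw [this]; exact h1
    · rw [mk2_10, mk2_11]
      have : (N : ℤ) * y * b + 1 * d = d + N * y * b := by ring
      rw [this]; exact h2

/-! ### the generation theorem -/

/-- **Core of the generation theorem.** An element `g` of `SL(2, ℚ)` such that `q ^ k • g` is an
integral matrix whose lower-left entry is divisible by `N` lies in the subgroup generated by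
`Gamma0(N)` and its `diag(q, 1)`-conjugate. -/
theorem mem_genSub_of_scaled {N q : ℕ} (hq : q.Prime) (hNq : Nat.Coprime N q) :
    ∀ (k : ℕ) (g : SL(2, ℚ)) (A B C D : ℤ), (N : ℤ) ∣ C →
      g 0 0 * (q : ℚ) ^ k = A → g 0 1 * (q : ℚ) ^ k = B →
      g 1 0 * (q : ℚ) ^ k = C → g 1 1 * (q : ℚ) ^ k = D →
      g ∈ genSub N q hq.ne_zero := by
  have hq0 : (q : ℚ) ≠ 0 := Nat.cast_ne_zero.2 hq.ne_zero
  have hq0' : (q : ℤ) ≠ 0 := Nat.cast_ne_zero.2 hq.ne_zero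
  intro k
  induction k with
  | zero =>
    intro g A B C D hNC hA hB hC hD
    rw [pow_zero, mul_one] at hA hB hC hD
    have hdet : A * D - B * C = 1 := by
      have h := sl_det g
      rw [hA, hB, hC, hD] at h
      exact_mod_cast h
    have hg : g = mapQ (mk2 A B C D hdet) := by
      apply sl_ext
      · rw [mapQ_apply, mk2_00, hA]
      · rw [mapQ_apply, mk2_01, hB]
      · rw [mapQ_apply, mk2_10, hC]
      · rw [mapQ_apply, mk2_11, hD]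
    rw [hg]
    exact mapQ_mem_genSub _ (gamma0_of_dvd (by rw [mk2_10]; exact hNC))
  | succ k ih =>
    intro g A B C D hNC hA hB hC hD
    -- the determinant of the integral matrix
    have hdet : A * D - B * C = (q : ℤ) ^ (k + 1) * (q : ℤ) ^ (k + 1) := by
      have h := sl_det g
      have h2 : ((A : ℚ) * D - B * C) = (q : ℚ) ^ (k + 1) * (q : ℚ) ^ (k + 1) := by
        rw [← hA, ← hB, ← hC, ← hD]
        linear_combination ((q : ℚ) ^ (k + 1) * (q : ℚ) ^ (k + 1)) * h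
      exact_mod_cast h2
    have hqdet : (q : ℤ) ∣ A * D - B * C := by
      rw [hdet]
      exact Dvd.dvd.mul_right (dvd_pow_self _ (Nat.succ_ne_zero k)) _
    -- first step: kill the first row modulo `q` with `γ1 ∈ Gamma0(N)`
    obtain ⟨γ1, hγ1, ⟨A1, hA1⟩, ⟨B1, hB1⟩⟩ := exists_gamma0_kill_row0 hq hNq A B C D hqdet
    obtain ⟨C1, hC1⟩ : ∃ C1 : ℤ, C1 = γ1 1 0 * A + γ1 1 1 * C := ⟨_, rfl⟩
    obtain ⟨D1, hD1⟩ : ∃ D1 : ℤ, D1 = γ1 1 0 * B + γ1 1 1 * D := ⟨_, rfl⟩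
    have hNC1 : (N : ℤ) ∣ C1 := by
      rw [hC1]
      exact dvd_add (Dvd.dvd.mul_right (gamma0_dvd hγ1) A) (Dvd.dvd.mul_left hNC _)
    have hγ1det := sl_det γ1
    have hdet1 : A1 * D1 - B1 * C1 = (q : ℤ) ^ k * (q : ℤ) ^ (k + 1) := by
      have h3 : (q : ℤ) * (A1 * D1 - B1 * C1) = (q : ℤ) * ((q : ℤ) ^ k * (q : ℤ) ^ (k + 1)) := by
        linear_combination (-D1) * hA1 + C1 * hB1 + (A * D - B * C) * hγ1det + hdet
          + (γ1 0 0 * A + γ1 0 1 * C) * hD1 - (γ1 0 0 * B + γ1 0 1 * D) * hC1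
      exact mul_left_cancel₀ hq0' h3
    have hqdet1 : (q : ℤ) ∣ A1 * D1 - B1 * C1 := by
      rw [hdet1]
      exact Dvd.dvd.mul_left (dvd_pow_self _ (Nat.succ_ne_zero k)) _
    -- second step: kill the second row modulo `q` with `γ2 ∈ Gamma0(N)`
    obtain ⟨γ2, hγ2, ⟨C3, hC3⟩, ⟨D3, hD3⟩⟩ :=
      exists_gamma0_kill_row1 hq hNq A1 B1 C1 D1 hqdet1
    obtain ⟨A3, hA3⟩ : ∃ A3 : ℤ, A3 = γ2 0 0 * A1 + γ2 0 1 * C1 := ⟨_, rfl⟩
    obtain ⟨B3, hB3⟩ : ∃ B3 : ℤ, B3 = γ2 0 0 * B1 + γ2 0 1 * D1 := ⟨_, rfl⟩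
    have hNC3 : (N : ℤ) ∣ C3 := by
      have hcop : IsCoprime (N : ℤ) (q : ℤ) := Nat.isCoprime_iff_coprime.2 hNq
      apply hcop.dvd_of_dvd_mul_left
      rw [← hC3]
      exact dvd_add (Dvd.dvd.mul_right (gamma0_dvd hγ2) A1) (Dvd.dvd.mul_left hNC1 _)
    -- casts to `ℚ`
    have hA1' : ((γ1 0 0 : ℤ) : ℚ) * A + ((γ1 0 1 : ℤ) : ℚ) * C = q * A1 := by exact_mod_cast hA1
    have hB1' : ((γ1 0 0 : ℤ) : ℚ) * B + ((γ1 0 1 : ℤ) : ℚ) * D = q * B1 := by exact_mod_cast hB1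
    have hC1' : (C1 : ℚ) = ((γ1 1 0 : ℤ) : ℚ) * A + ((γ1 1 1 : ℤ) : ℚ) * C := by exact_mod_cast hC1
    have hD1' : (D1 : ℚ) = ((γ1 1 0 : ℤ) : ℚ) * B + ((γ1 1 1 : ℤ) : ℚ) * D := by exact_mod_cast hD1
    have hC3' : ((γ2 1 0 : ℤ) : ℚ) * A1 + ((γ2 1 1 : ℤ) : ℚ) * C1 = q * C3 := by exact_mod_cast hC3
    have hD3' : ((γ2 1 0 : ℤ) : ℚ) * B1 + ((γ2 1 1 : ℤ) : ℚ) * D1 = q * D3 := by exact_mod_cast hD3
    have hA3' : (A3 : ℚ) = ((γ2 0 0 : ℤ) : ℚ) * A1 + ((γ2 0 1 : ℤ) : ℚ) * C1 := by exact_mod_cast hA3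
    have hB3' : (B3 : ℚ) = ((γ2 0 0 : ℤ) : ℚ) * B1 + ((γ2 0 1 : ℤ) : ℚ) * D1 := by exact_mod_cast hB3
    -- the entries of `m = γ1 * g`
    have hm00 : (mapQ γ1 * g) 0 0 * (q : ℚ) ^ k = A1 := by
      rw [sl_mul_00, mapQ_apply, mapQ_apply]
      apply mul_left_cancel₀ hq0
      linear_combination ((γ1 0 0 : ℤ) : ℚ) * hA + ((γ1 0 1 : ℤ) : ℚ) * hC + hA1'
    have hm01 : (mapQ γ1 * g) 0 1 * (q : ℚ) ^ k = B1 := by
      rw [sl_mul_01, mapQ_apply, mapQ_apply]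
      apply mul_left_cancel₀ hq0
      linear_combination ((γ1 0 0 : ℤ) : ℚ) * hB + ((γ1 0 1 : ℤ) : ℚ) * hD + hB1'
    have hm10 : (mapQ γ1 * g) 1 0 * (q : ℚ) ^ (k + 1) = C1 := by
      rw [sl_mul_10, mapQ_apply, mapQ_apply]
      linear_combination ((γ1 1 0 : ℤ) : ℚ) * hA + ((γ1 1 1 : ℤ) : ℚ) * hC - hC1'
    have hm11 : (mapQ γ1 * g) 1 1 * (q : ℚ) ^ (k + 1) = D1 := by
      rw [sl_mul_11, mapQ_apply, mapQ_apply]
      linear_combination ((γ1 1 0 : ℤ) : ℚ) * hB + ((γ1 1 1 : ℤ) : ℚ) * hD - hD1'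
    -- the element `g3 = γ2ᶜ * γ1 * g` has a smaller denominator
    have hmem : conjD q hq.ne_zero (mapQ γ2) * (mapQ γ1 * g) ∈ genSub N q hq.ne_zero := by
      have hz0 : ((γ2 1 0 : ℤ) : ℚ) / q * q = ((γ2 1 0 : ℤ) : ℚ) := div_mul_cancel₀ _ hq0
      refine ih _ A3 B3 C3 D3 hNC3 ?_ ?_ ?_ ?_
      · rw [sl_mul_00, conjD_00, conjD_01, mapQ_apply, mapQ_apply]
        linear_combination ((γ2 0 0 : ℤ) : ℚ) * hm00 + ((γ2 0 1 : ℤ) : ℚ) * hm10 - hA3'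
      · rw [sl_mul_01, conjD_00, conjD_01, mapQ_apply, mapQ_apply]
        linear_combination ((γ2 0 0 : ℤ) : ℚ) * hm01 + ((γ2 0 1 : ℤ) : ℚ) * hm11 - hB3'
      · rw [sl_mul_10, conjD_10, conjD_11, mapQ_apply, mapQ_apply]
        apply mul_left_cancel₀ hq0
        linear_combination ((mapQ γ1 * g) 0 0 * (q : ℚ) ^ k) * hz0
          + ((γ2 1 0 : ℤ) : ℚ) * hm00 + ((γ2 1 1 : ℤ) : ℚ) * hm10 + hC3'
      · rw [sl_mul_11, conjD_10, conjD_11, mapQ_apply, mapQ_apply]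
        apply mul_left_cancel₀ hq0
        linear_combination ((mapQ γ1 * g) 0 1 * (q : ℚ) ^ k) * hz0
          + ((γ2 1 0 : ℤ) : ℚ) * hm01 + ((γ2 1 1 : ℤ) : ℚ) * hm11 + hD3'
    have hg : g = (mapQ γ1)⁻¹ * ((conjD q hq.ne_zero (mapQ γ2))⁻¹ *
        (conjD q hq.ne_zero (mapQ γ2) * (mapQ γ1 * g))) := by
      group
    rw [hg]
    exact Subgroup.mul_mem _ (Subgroup.inv_mem _ (mapQ_mem_genSub _ hγ1))
      (Subgroup.mul_mem _ (Subgroup.inv_mem _ (conjD_mapQ_mem_genSub _ hγ2)) hmem)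

/-! ### `ℤ[1/q]` and `Gamma0(N)[1/q]` -/

/-- `ℤ[1/q]` as a subring of `ℚ`: the rationals `x` with `x * q ^ k ∈ ℤ` for some `k`. -/
def zInv (q : ℕ) : Subring ℚ where
  carrier := {x | ∃ (k : ℕ) (m : ℤ), x * (q : ℚ) ^ k = m}
  mul_mem' := by
    rintro x y ⟨k, m, hx⟩ ⟨l, n, hy⟩
    refine ⟨k + l, m * n, ?_⟩
    push_cast
    rw [← hx, ← hy]
    ring
  one_mem' := ⟨0, 1, by simp⟩
  add_mem' := by
    rintro x y ⟨k, m, hx⟩ ⟨l, n, hy⟩
    refine ⟨k + l, m * (q : ℤ) ^ l + n * (q : ℤ) ^ k, ?_⟩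
    push_cast
    rw [← hx, ← hy]
    ring
  zero_mem' := ⟨0, 0, by simp⟩
  neg_mem' := by
    rintro x ⟨k, m, hx⟩
    refine ⟨k, -m, ?_⟩
    push_cast
    rw [← hx]
    ring

theorem mem_zInv_iff {q : ℕ} {x : ℚ} :
    x ∈ zInv q ↔ ∃ (k : ℕ) (m : ℤ), x * (q : ℚ) ^ k = m := Iff.rfl

theorem intCast_mem_zInv (q : ℕ) (m : ℤ) : (m : ℚ) ∈ zInv q := ⟨0, m, by simp⟩

theorem natCast_mem_zInv (q : ℕ) (m : ℕ) : (m : ℚ) ∈ zInv q := ⟨0, m, by simp⟩

theorem div_mem_zInv {q : ℕ} (hq : q ≠ 0) {x : ℚ} (hx : x ∈ zInv q) : x / q ∈ zInv q := by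
  obtain ⟨k, m, hx⟩ := hx
  have hq0 : (q : ℚ) ≠ 0 := Nat.cast_ne_zero.2 hq
  refine ⟨k + 1, m, ?_⟩
  rw [← hx, pow_succ]
  field_simp

theorem inv_pow_mem_zInv {q : ℕ} (hq : q ≠ 0) (k : ℕ) : ((q : ℚ) ^ k)⁻¹ ∈ zInv q := by
  have hq0 : (q : ℚ) ≠ 0 := Nat.cast_ne_zero.2 hq
  exact ⟨k, 1, by rw [inv_mul_cancel₀ (pow_ne_zero k hq0)]; simp⟩

/-- `Gamma0(N)[1/q]`: the matrices in `SL(2, ℚ)` with entries in `ℤ[1/q]` whose lower-left
entry lies in `N ℤ[1/q]`. -/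
def deltaQ (N q : ℕ) : Subgroup SL(2, ℚ) where
  carrier := {g | (∀ i j, g i j ∈ zInv q) ∧ ∃ y ∈ zInv q, g 1 0 = N * y}
  mul_mem' := by
    rintro g h ⟨hg, y, hy, hgy⟩ ⟨hh, z, hz, hhz⟩
    refine ⟨fun i j => ?_, y * h 0 0 + g 1 1 * z, ?_, ?_⟩
    · rw [Matrix.SpecialLinearGroup.coe_mul, Matrix.mul_apply]
      exact Subring.sum_mem _ fun l _ => Subring.mul_mem _ (hg i l) (hh l j)
    · exact Subring.add_mem _ (Subring.mul_mem _ hy (hh 0 0)) (Subring.mul_mem _ (hg 1 1) hz)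
    · rw [sl_mul_10, hgy, hhz]; ring
  one_mem' := by
    refine ⟨fun i j => ?_, 0, Subring.zero_mem _, ?_⟩
    · rw [Matrix.SpecialLinearGroup.coe_one, Matrix.one_apply]
      split_ifs
      · exact Subring.one_mem _
      · exact Subring.zero_mem _
    · simp
  inv_mem' := by
    rintro g ⟨hg, y, hy, hgy⟩
    have hinv := Matrix.SpecialLinearGroup.SL2_inv_expl g
    refine ⟨fun i j => ?_, -y, Subring.neg_mem _ hy, ?_⟩
    · rw [hinv]
      fin_cases i <;> fin_cases j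
      · exact hg 1 1
      · exact Subring.neg_mem _ (hg 0 1)
      · exact Subring.neg_mem _ (hg 1 0)
      · exact hg 0 0
    · rw [hinv]
      show -(g 1 0) = N * -y
      rw [hgy]; ring

theorem mem_deltaQ_iff {N q : ℕ} {g : SL(2, ℚ)} :
    g ∈ deltaQ N q ↔ (∀ i j, g i j ∈ zInv q) ∧ ∃ y ∈ zInv q, g 1 0 = N * y := Iff.rfl

theorem mapQ_mem_deltaQ {N : ℕ} (q : ℕ) {γ : SL(2, ℤ)} (hγ : γ ∈ CongruenceSubgroup.Gamma0 N) :
    mapQ γ ∈ deltaQ N q := by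
  obtain ⟨c, hc⟩ := gamma0_dvd hγ
  refine ⟨fun i j => intCast_mem_zInv q _, c, intCast_mem_zInv q c, ?_⟩
  rw [mapQ_apply, hc]
  push_cast
  ring

theorem conjD_mapQ_mem_deltaQ {N q : ℕ} (hq : q ≠ 0) {γ : SL(2, ℤ)}
    (hγ : γ ∈ CongruenceSubgroup.Gamma0 N) : conjD q hq (mapQ γ) ∈ deltaQ N q := by
  obtain ⟨c, hc⟩ := gamma0_dvd hγ
  have hq0 : (q : ℚ) ≠ 0 := Nat.cast_ne_zero.2 hq
  refine ⟨fun i j => ?_, (c : ℚ) / q, div_mem_zInv hq (intCast_mem_zInv q c), ?_⟩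
  · fin_cases i <;> fin_cases j
    · exact intCast_mem_zInv q _
    · exact Subring.mul_mem _ (natCast_mem_zInv q q) (intCast_mem_zInv q _)
    · exact div_mem_zInv hq (intCast_mem_zInv q _)
    · exact intCast_mem_zInv q _
  · rw [conjD_10, mapQ_apply, hc]
    push_cast
    ring

theorem gammaQ_le_deltaQ (N q : ℕ) : gammaQ N ≤ deltaQ N q := by
  rintro _ ⟨γ, hγ, rfl⟩
  exact mapQ_mem_deltaQ q hγ

theorem gammaQc_le_deltaQ (N : ℕ) {q : ℕ} (hq : q ≠ 0) : gammaQc N q hq ≤ deltaQ N q := by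
  rintro _ ⟨_, ⟨γ, hγ, rfl⟩, rfl⟩
  exact conjD_mapQ_mem_deltaQ hq hγ

/-- **Generation theorem.** For a prime `q` not dividing `N`, the group `Gamma0(N)[1/q]` is
generated by `Gamma0(N)` and its conjugate by `diag(q, 1)`. -/
theorem deltaQ_eq_genSub {N q : ℕ} (hq : q.Prime) (hNq : Nat.Coprime N q) :
    deltaQ N q = genSub N q hq.ne_zero := by
  apply le_antisymm
  · rintro g ⟨hg, y, ⟨l, n, hy⟩, hgy⟩
    obtain ⟨k0, m0, h0⟩ := hg 0 0
    obtain ⟨k1, m1, h1⟩ := hg 0 1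
    obtain ⟨k3, m3, h3⟩ := hg 1 1
    refine mem_genSub_of_scaled hq hNq (k0 + k1 + l + k3) g
      (m0 * (q : ℤ) ^ (k1 + l + k3)) (m1 * (q : ℤ) ^ (k0 + l + k3))
      ((N : ℤ) * (n * (q : ℤ) ^ (k0 + k1 + k3))) (m3 * (q : ℤ) ^ (k0 + k1 + l))
      (Dvd.intro _ rfl) ?_ ?_ ?_ ?_
    · push_cast; rw [← h0]; ring
    · push_cast; rw [← h1]; ring
    · push_cast; rw [hgy, ← hy]; ring
    · push_cast; rw [← h3]; ring
  · exact sup_le (gammaQ_le_deltaQ N q) (gammaQc_le_deltaQ N hq.ne_zero)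

/-- The generation theorem in `sup` form. -/
theorem deltaQ_eq_sup {N q : ℕ} (hq : q.Prime) (hNq : Nat.Coprime N q) :
    deltaQ N q = gammaQ N ⊔ gammaQc N q hq.ne_zero :=
  deltaQ_eq_genSub hq hNq

/-- The generation theorem in `closure` form. -/
theorem deltaQ_eq_closure {N q : ℕ} (hq : q.Prime) (hNq : Nat.Coprime N q) :
    deltaQ N q = Subgroup.closure
      (mapQ '' (CongruenceSubgroup.Gamma0 N : Set SL(2, ℤ)) ∪
        (fun γ => conjD q hq.ne_zero (mapQ γ)) '' (CongruenceSubgroup.Gamma0 N : Set SL(2, ℤ))) := by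
  rw [deltaQ_eq_sup hq hNq, Subgroup.closure_union]
  congr 1
  · exact (Subgroup.closure_eq (gammaQ N)).symm
  · have h : ((fun γ => conjD q hq.ne_zero (mapQ γ)) ''
        (CongruenceSubgroup.Gamma0 N : Set SL(2, ℤ))) = (gammaQc N q hq.ne_zero : Set SL(2, ℚ)) := by
      ext g
      constructor
      · rintro ⟨γ, hγ, rfl⟩
        exact Subgroup.mem_map_of_mem _ (Subgroup.mem_map_of_mem _ hγ)
      · rintro ⟨_, ⟨γ, hγ, rfl⟩, rfl⟩
        exact ⟨γ, hγ, rfl⟩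
    rw [h]
    exact (Subgroup.closure_eq (gammaQc N q hq.ne_zero)).symm

/-- Induction principle for `Gamma0(N)[1/q]`: a property which holds on `Gamma0(N)` and on its
`diag(q, 1)`-conjugate and is stable under products (of elements of `Gamma0(N)[1/q]`) holds
on all of `Gamma0(N)[1/q]`. -/
theorem deltaQ_induction {N q : ℕ} (hq : q.Prime) (hNq : Nat.Coprime N q) {P : SL(2, ℚ) → Prop}
    (hΓ : ∀ γ ∈ CongruenceSubgroup.Gamma0 N, P (mapQ γ))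
    (hΓc : ∀ γ ∈ CongruenceSubgroup.Gamma0 N, P (conjD q hq.ne_zero (mapQ γ)))
    (hmul : ∀ x y, x ∈ deltaQ N q → y ∈ deltaQ N q → P x → P y → P (x * y))
    {g : SL(2, ℚ)} (hg : g ∈ deltaQ N q) : P g := by
  have key : ∀ g ∈ genSub N q hq.ne_zero, g ∈ deltaQ N q ∧ P g ∧ P g⁻¹ := by
    intro g hg
    rw [genSub, Subgroup.sup_eq_closure] at hg
    induction hg using Subgroup.closure_induction with
    | mem x hx =>
      rcases hx with hx | hx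
      · obtain ⟨γ, hγ, rfl⟩ := hx
        refine ⟨mapQ_mem_deltaQ q hγ, hΓ γ hγ, ?_⟩
        rw [← map_inv]
        exact hΓ _ (Subgroup.inv_mem _ hγ)
      · obtain ⟨_, ⟨γ, hγ, rfl⟩, rfl⟩ := hx
        refine ⟨conjD_mapQ_mem_deltaQ hq.ne_zero hγ, hΓc γ hγ, ?_⟩
        rw [← map_inv, ← map_inv]
        exact hΓc _ (Subgroup.inv_mem _ hγ)
    | one =>
      have h1 : P (mapQ 1) := hΓ 1 (Subgroup.one_mem _)
      rw [map_one] at h1
      exact ⟨Subgroup.one_mem _, h1, by rw [inv_one]; exact h1⟩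
    | mul x y _ _ hx hy =>
      refine ⟨Subgroup.mul_mem _ hx.1 hy.1, hmul x y hx.1 hy.1 hx.2.1 hy.2.1, ?_⟩
      rw [_root_.mul_inv_rev]
      exact hmul _ _ (Subgroup.inv_mem _ hy.1) (Subgroup.inv_mem _ hx.1) hy.2.2 hx.2.2
    | inv x _ hx =>
      exact ⟨Subgroup.inv_mem _ hx.1, hx.2.2, by rw [inv_inv]; exact hx.2.1⟩
  exact (key g (deltaQ_eq_genSub hq hNq ▸ hg)).2.1

/-- Two monoid homomorphisms on `Gamma0(N)[1/q]` which agree on `Gamma0(N)` and on its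
`diag(q, 1)`-conjugate are equal. -/
theorem hom_ext_deltaQ {N q : ℕ} (hq : q.Prime) (hNq : Nat.Coprime N q) {M : Type*} [Monoid M]
    (f₁ f₂ : deltaQ N q →* M)
    (hΓ : ∀ (γ : SL(2, ℤ)) (hγ : γ ∈ CongruenceSubgroup.Gamma0 N),
      f₁ ⟨mapQ γ, mapQ_mem_deltaQ q hγ⟩ = f₂ ⟨mapQ γ, mapQ_mem_deltaQ q hγ⟩)
    (hΓc : ∀ (γ : SL(2, ℤ)) (hγ : γ ∈ CongruenceSubgroup.Gamma0 N),
      f₁ ⟨conjD q hq.ne_zero (mapQ γ), conjD_mapQ_mem_deltaQ hq.ne_zero hγ⟩ =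
        f₂ ⟨conjD q hq.ne_zero (mapQ γ), conjD_mapQ_mem_deltaQ hq.ne_zero hγ⟩) :
    f₁ = f₂ := by
  have key : ∀ g : SL(2, ℚ), g ∈ deltaQ N q →
      ∀ hg : g ∈ deltaQ N q, f₁ ⟨g, hg⟩ = f₂ ⟨g, hg⟩ := by
    intro g hg
    refine deltaQ_induction hq hNq (P := fun g => ∀ hg : g ∈ deltaQ N q, f₁ ⟨g, hg⟩ = f₂ ⟨g, hg⟩)
      (fun γ hγ _ => hΓ γ hγ) (fun γ hγ _ => hΓc γ hγ) ?_ hg
    intro x y hx hy hPx hPy hxy
    have h : (⟨x * y, hxy⟩ : deltaQ N q) = ⟨x, hx⟩ * ⟨y, hy⟩ := rfl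
    rw [h, map_mul, map_mul, hPx hx, hPy hy]
  ext ⟨g, hg⟩
  exact key g hg hg

/-! ### integral points and unipotent elements of `Gamma0(N)[1/q]` -/

/-- The integral points of `Gamma0(N)[1/q]` are exactly `Gamma0(N)`. -/
theorem mapQ_mem_deltaQ_iff {N q : ℕ} (hNq : Nat.Coprime N q) {γ : SL(2, ℤ)} :
    mapQ γ ∈ deltaQ N q ↔ γ ∈ CongruenceSubgroup.Gamma0 N := by
  refine ⟨?_, mapQ_mem_deltaQ q⟩
  rintro ⟨-, y, ⟨l, n, hy⟩, hgy⟩
  apply gamma0_of_dvd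
  have hcop : IsCoprime (N : ℤ) ((q : ℤ) ^ l) :=
    IsCoprime.pow_right (Nat.isCoprime_iff_coprime.2 hNq)
  apply hcop.dvd_of_dvd_mul_right
  refine ⟨n, ?_⟩
  have h : (((γ 1 0 : ℤ) * (q : ℤ) ^ l : ℤ) : ℚ) = (((N : ℤ) * n : ℤ) : ℚ) := by
    push_cast
    rw [← hy, ← mapQ_apply, hgy]
    ring
  exact_mod_cast h

/-- The upper unipotent matrix `[[1, x], [0, 1]]`. -/
def e12 (x : ℚ) : SL(2, ℚ) := mk2 1 x 0 1 (by ring)

/-- The lower unipotent matrix `[[1, 0], [x, 1]]`. -/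
def e21 (x : ℚ) : SL(2, ℚ) := mk2 1 0 x 1 (by ring)

theorem e12_mem_deltaQ (N : ℕ) {q : ℕ} {x : ℚ} (hx : x ∈ zInv q) : e12 x ∈ deltaQ N q := by
  refine ⟨fun i j => ?_, 0, Subring.zero_mem _, ?_⟩
  · fin_cases i <;> fin_cases j
    · exact Subring.one_mem _
    · exact hx
    · exact Subring.zero_mem _
    · exact Subring.one_mem _
  · show (0 : ℚ) = N * 0
    ring

theorem e21_mem_deltaQ (N : ℕ) {q : ℕ} {y : ℚ} (hy : y ∈ zInv q) :
    e21 (N * y) ∈ deltaQ N q := by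
  refine ⟨fun i j => ?_, y, hy, rfl⟩
  fin_cases i <;> fin_cases j
  · exact Subring.one_mem _
  · exact Subring.zero_mem _
  · exact Subring.mul_mem _ (natCast_mem_zInv q N) hy
  · exact Subring.one_mem _

end Fermat.Agent.S41.helper5755
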