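/-
S41, module E (CSP core), half (I) of the proof in findings #2895 (interface: chat #45):
GROUP ⇒ SYMBOL.  From a function `Φ` on `SL(2, ℚ)` which is additive on `Γ₀(N)[1/q]` and kills
the unipotents, build the column symbol `S a c = Φ [[a, *], [c, *]]` and prove the formal rules
`helper389.SymbolRules`.  Consequence: `helper389.Stmt_SymbolVanish → helper123.Stmt_CSP`.
-/
import Mathlib
import Fermat.Agent.S41.helper123_Spec
import Fermat.Agent.S41.helper389_SymbolSpec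
import Fermat.Agent.S41.helper389_SymbolVanish
import Fermat.Agent.S41.helper5755_Generation

set_option autoImplicit false

namespace Fermat.Agent.S41.helper5755

open Matrix MatrixGroups
open Fermat.Agent.S41.helper389 (Adm SymbolRules)

/-! ### small matrices -/

theorem e12_00 (x : ℚ) : (e12 x) 0 0 = 1 := rfl
theorem e12_01 (x : ℚ) : (e12 x) 0 1 = x := rfl
theorem e12_10 (x : ℚ) : (e12 x) 1 0 = 0 := rfl
theorem e12_11 (x : ℚ) : (e12 x) 1 1 = 1 := rfl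
theorem e21_00 (x : ℚ) : (e21 x) 0 0 = 1 := rfl
theorem e21_01 (x : ℚ) : (e21 x) 0 1 = 0 := rfl
theorem e21_10 (x : ℚ) : (e21 x) 1 0 = x := rfl
theorem e21_11 (x : ℚ) : (e21 x) 1 1 = 1 := rfl

/-- The diagonal matrix `diag(u, v)`, `u v = 1`. -/
def dg (u v : ℚ) (h : u * v = 1) : SL(2, ℚ) := mk2 u 0 0 v (by rw [h]; ring)

theorem dg_00 (u v : ℚ) (h : u * v = 1) : (dg u v h) 0 0 = u := rfl
theorem dg_01 (u v : ℚ) (h : u * v = 1) : (dg u v h) 0 1 = 0 := rfl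
theorem dg_10 (u v : ℚ) (h : u * v = 1) : (dg u v h) 1 0 = 0 := rfl
theorem dg_11 (u v : ℚ) (h : u * v = 1) : (dg u v h) 1 1 = v := rfl

theorem dg_mem_deltaQ (N : ℕ) {q : ℕ} {u v : ℚ} (h : u * v = 1) (hu : u ∈ zInv q)
    (hv : v ∈ zInv q) : dg u v h ∈ deltaQ N q := by
  refine ⟨fun i j => ?_, 0, Subring.zero_mem _, ?_⟩
  · fin_cases i <;> fin_cases j
    · exact hu
    · exact Subring.zero_mem _
    · exact Subring.zero_mem _
    · exact hv
  · show (0 : ℚ) = N * 0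
    ring

/-- The matrix `-1`. -/
def negOne : SL(2, ℚ) := mk2 (-1) 0 0 (-1) (by ring)

theorem negOne_00 : negOne 0 0 = -1 := rfl
theorem negOne_01 : negOne 0 1 = 0 := rfl
theorem negOne_10 : negOne 1 0 = 0 := rfl
theorem negOne_11 : negOne 1 1 = -1 := rfl

theorem one_00 : (1 : SL(2, ℚ)) 0 0 = 1 := rfl
theorem one_01 : (1 : SL(2, ℚ)) 0 1 = 0 := rfl
theorem one_10 : (1 : SL(2, ℚ)) 1 0 = 0 := rfl
theorem one_11 : (1 : SL(2, ℚ)) 1 1 = 1 := rfl

theorem negOne_mul_negOne : negOne * negOne = 1 := by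
  apply sl_ext
  · rw [sl_mul_00, negOne_00, negOne_01, negOne_10, one_00]; ring
  · rw [sl_mul_01, negOne_00, negOne_01, negOne_11, one_01]; ring
  · rw [sl_mul_10, negOne_00, negOne_10, negOne_11, one_10]; ring
  · rw [sl_mul_11, negOne_01, negOne_10, negOne_11, one_11]; ring

theorem negOne_mem_deltaQ (N q : ℕ) : negOne ∈ deltaQ N q := by
  refine ⟨fun i j => ?_, 0, Subring.zero_mem _, ?_⟩
  · fin_cases i <;> fin_cases j
    · exact Subring.neg_mem _ (Subring.one_mem _)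
    · exact Subring.zero_mem _
    · exact Subring.zero_mem _
    · exact Subring.neg_mem _ (Subring.one_mem _)
  · show (0 : ℚ) = N * 0
    ring

/-- A Bezout completion of a coprime integer column `(a, c)` to a matrix in `SL(2, ℤ)`. -/
noncomputable def colZ (a c : ℤ) (h : IsCoprime a c) : SL(2, ℤ) :=
  mk2 a (-(Classical.choose (Classical.choose_spec h))) c (Classical.choose h) (by
    have := Classical.choose_spec (Classical.choose_spec h)
    linear_combination this)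

theorem colZ_00 (a c : ℤ) (h : IsCoprime a c) : (colZ a c h) 0 0 = a := rfl
theorem colZ_10 (a c : ℤ) (h : IsCoprime a c) : (colZ a c h) 1 0 = c := rfl

theorem mapQ_colZ_mem_deltaQ {N : ℕ} (q : ℕ) {a c : ℤ} (h : Adm N a c) :
    mapQ (colZ a c h.2) ∈ deltaQ N q :=
  mapQ_mem_deltaQ q (gamma0_of_dvd (by rw [colZ_10]; exact h.1))

/-! ### functions additive on `Γ₀(N)[1/q]` killing the unipotents -/

/-- `Φ` is additive on `Γ₀(N)[1/q]` and kills the unipotents `[[1, x], [0, 1]]` (`x ∈ ℤ[1/q]`)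
and `[[1, 0], [N y, 1]]` (`y ∈ ℤ[1/q]`). -/
structure IsUniHom (N q : ℕ) {V : Type*} [AddCommGroup V] (Φ : SL(2, ℚ) → V) : Prop where
  mul : ∀ g h : SL(2, ℚ), g ∈ deltaQ N q → h ∈ deltaQ N q → Φ (g * h) = Φ g + Φ h
  up : ∀ x : ℚ, x ∈ zInv q → Φ (e12 x) = 0
  low : ∀ y : ℚ, y ∈ zInv q → Φ (e21 ((N : ℚ) * y)) = 0

/-- The column symbol of `Φ`: `S a c = Φ [[a, *], [c, *]]` on admissible integer columns. -/
noncomputable def symb (N : ℕ) {V : Type*} [AddCommGroup V] (Φ : SL(2, ℚ) → V) (a c : ℤ) : V :=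
  open Classical in if h : Adm N a c then Φ (mapQ (colZ a c h.2)) else 0

section rules

variable {N q : ℕ} {V : Type*} [AddCommGroup V] {Φ : SL(2, ℚ) → V}

theorem IsUniHom.map_one (h : IsUniHom N q Φ) : Φ 1 = 0 := by
  have h1 := h.mul 1 1 (Subgroup.one_mem _) (Subgroup.one_mem _)
  rw [mul_one] at h1
  exact left_eq_add.1 h1

theorem IsUniHom.map_negOne (h : IsUniHom N q Φ) (h2 : ∀ v : V, v + v = 0 → v = 0) :
    Φ negOne = 0 := by
  have h1 := h.mul negOne negOne (negOne_mem_deltaQ N q) (negOne_mem_deltaQ N q)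
  rw [negOne_mul_negOne, h.map_one] at h1
  exact h2 _ h1.symm

/-- `Φ g` only depends on the first column of `g`, if it is an admissible integer column. -/
theorem IsUniHom.eq_symb (h : IsUniHom N q Φ) {g : SL(2, ℚ)} (hg : g ∈ deltaQ N q) {a c : ℤ}
    (hac : Adm N a c) (h0 : g 0 0 = a) (h1 : g 1 0 = c) : Φ g = symb N Φ a c := by
  rw [symb, dif_pos hac]
  have hdet0 : ((colZ a c hac.2 0 0 : ℤ) : ℚ) * ((colZ a c hac.2 1 1 : ℤ) : ℚ)
      - ((colZ a c hac.2 0 1 : ℤ) : ℚ) * ((colZ a c hac.2 1 0 : ℤ) : ℚ) = 1 := by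
    exact_mod_cast sl_det (colZ a c hac.2)
  rw [colZ_00, colZ_10] at hdet0
  have hdetg := sl_det g
  rw [h0, h1] at hdetg
  have hx : ((colZ a c hac.2 1 1 : ℤ) : ℚ) * g 0 1 - ((colZ a c hac.2 0 1 : ℤ) : ℚ) * g 1 1
      ∈ zInv q :=
    Subring.sub_mem _ (Subring.mul_mem _ (intCast_mem_zInv q _) (hg.1 0 1))
      (Subring.mul_mem _ (intCast_mem_zInv q _) (hg.1 1 1))
  have hgeq : g = mapQ (colZ a c hac.2) *
      e12 (((colZ a c hac.2 1 1 : ℤ) : ℚ) * g 0 1 - ((colZ a c hac.2 0 1 : ℤ) : ℚ) * g 1 1) := by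
    apply sl_ext
    · rw [sl_mul_00, mapQ_apply, mapQ_apply, e12_00, e12_10, colZ_00, h0]; ring
    · rw [sl_mul_01, mapQ_apply, mapQ_apply, e12_01, e12_11, colZ_00]
      linear_combination (-g 0 1) * hdet0 + ((colZ a c hac.2 0 1 : ℤ) : ℚ) * hdetg
    · rw [sl_mul_10, mapQ_apply, mapQ_apply, e12_00, e12_10, colZ_10, h1]; ring
    · rw [sl_mul_11, mapQ_apply, mapQ_apply, e12_01, e12_11, colZ_10]
      linear_combination (-g 1 1) * hdet0 + ((colZ a c hac.2 1 1 : ℤ) : ℚ) * hdetg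
  have h3 := h.mul _ _ (mapQ_colZ_mem_deltaQ q hac) (e12_mem_deltaQ N hx)
  rw [← hgeq, h.up _ hx, add_zero] at h3
  exact h3

theorem symb_eq (Φ : SL(2, ℚ) → V) {a c : ℤ} (hac : Adm N a c) :
    symb N Φ a c = Φ (mapQ (colZ a c hac.2)) := by
  rw [symb, dif_pos hac]

/-- `Φ` of an integral matrix of `Γ₀(N)` is the symbol of its first column. -/
theorem IsUniHom.mapQ_eq_symb (h : IsUniHom N q Φ) (γ : SL(2, ℤ)) (hγ : (N : ℤ) ∣ γ 1 0) :
    Φ (mapQ γ) = symb N Φ (γ 0 0) (γ 1 0) :=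
  h.eq_symb (mapQ_mem_deltaQ q (gamma0_of_dvd hγ))
    ⟨hγ, Matrix.SpecialLinearGroup.isCoprime_col γ 0⟩ (mapQ_apply γ 0 0) (mapQ_apply γ 1 0)

/-- Rule `r0`. -/
theorem IsUniHom.symb_one_zero (h : IsUniHom N q Φ) : symb N Φ 1 0 = 0 := by
  have hadm : Adm N 1 0 := ⟨dvd_zero _, isCoprime_one_left⟩
  have h1 := h.eq_symb (Subgroup.one_mem _) hadm (by rw [one_00]; simp) (by rw [one_10]; simp)
  rw [← h1, h.map_one]

/-- Rule `r1`. -/
theorem IsUniHom.symb_add_mul (h : IsUniHom N q Φ) (a c x : ℤ) (hac : Adm N a c) :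
    symb N Φ (a + x * c) c = symb N Φ a c := by
  have hadm : Adm N (a + x * c) c := ⟨hac.1, hac.2.add_mul_right_left x⟩
  have hx : (x : ℚ) ∈ zInv q := intCast_mem_zInv q x
  have hmem := Subgroup.mul_mem _ (e12_mem_deltaQ N hx) (mapQ_colZ_mem_deltaQ q hac)
  have h1 := h.eq_symb hmem hadm
    (by rw [sl_mul_00, e12_00, e12_01, mapQ_apply, mapQ_apply, colZ_00, colZ_10]; push_cast; ring)
    (by rw [sl_mul_10, e12_10, e12_11, mapQ_apply, mapQ_apply, colZ_00, colZ_10]; ring)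
  rw [← h1, h.mul _ _ (e12_mem_deltaQ N hx) (mapQ_colZ_mem_deltaQ q hac), h.up _ hx, zero_add,
    symb_eq Φ hac]

/-- Rule `r2`. -/
theorem IsUniHom.symb_add_mul_right (h : IsUniHom N q Φ) (a c y : ℤ) (hac : Adm N a c) :
    symb N Φ a (c + y * ((N : ℤ) * a)) = symb N Φ a c := by
  have hadm : Adm N a (c + y * ((N : ℤ) * a)) := by
    refine ⟨dvd_add hac.1 (Dvd.dvd.mul_left (Dvd.intro _ rfl) y), ?_⟩
    have h2 : c + y * ((N : ℤ) * a) = c + (y * N) * a := by ring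
    rw [h2]
    exact hac.2.add_mul_right_right (y * N)
  have hy : (y : ℚ) ∈ zInv q := intCast_mem_zInv q y
  have hmem := Subgroup.mul_mem _ (e21_mem_deltaQ N hy) (mapQ_colZ_mem_deltaQ q hac)
  have h1 := h.eq_symb hmem hadm
    (by rw [sl_mul_00, e21_00, e21_01, mapQ_apply, mapQ_apply, colZ_00, colZ_10]; ring)
    (by rw [sl_mul_10, e21_10, e21_11, mapQ_apply, mapQ_apply, colZ_00, colZ_10]; push_cast; ring)
  rw [← h1, h.mul _ _ (e21_mem_deltaQ N hy) (mapQ_colZ_mem_deltaQ q hac), h.low _ hy, zero_add,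
    symb_eq Φ hac]

/-- Conjugation by `diag(1, u)`: `[[a, b], [c, d]] ↦ [[a, b / u], [u c, d]]`. -/
def dconj (u : ℚ) (hu : u ≠ 0) (g : SL(2, ℚ)) : SL(2, ℚ) :=
  mk2 (g 0 0) (g 0 1 / u) (u * g 1 0) (g 1 1) (by
    have := sl_det g
    field_simp
    linear_combination this)

theorem dconj_00 (u : ℚ) (hu : u ≠ 0) (g : SL(2, ℚ)) : (dconj u hu g) 0 0 = g 0 0 := rfl
theorem dconj_01 (u : ℚ) (hu : u ≠ 0) (g : SL(2, ℚ)) : (dconj u hu g) 0 1 = g 0 1 / u := rfl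
theorem dconj_10 (u : ℚ) (hu : u ≠ 0) (g : SL(2, ℚ)) : (dconj u hu g) 1 0 = u * g 1 0 := rfl
theorem dconj_11 (u : ℚ) (hu : u ≠ 0) (g : SL(2, ℚ)) : (dconj u hu g) 1 1 = g 1 1 := rfl

theorem dconj_sq_mem_deltaQ {q : ℕ} (hq : q ≠ 0) {g : SL(2, ℚ)} (hg : g ∈ deltaQ N q) :
    dconj ((q : ℚ) ^ 2) (pow_ne_zero 2 (Nat.cast_ne_zero.2 hq)) g ∈ deltaQ N q := by
  obtain ⟨hg1, y, hy, hgy⟩ := hg
  have hqz : (q : ℚ) ^ 2 ∈ zInv q := Subring.pow_mem _ (natCast_mem_zInv q q) 2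
  refine ⟨fun i j => ?_, (q : ℚ) ^ 2 * y, Subring.mul_mem _ hqz hy, ?_⟩
  · fin_cases i <;> fin_cases j
    · exact hg1 0 0
    · show g 0 1 / (q : ℚ) ^ 2 ∈ zInv q
      rw [div_eq_mul_inv]
      exact Subring.mul_mem _ (hg1 0 1) (inv_pow_mem_zInv hq 2)
    · exact Subring.mul_mem _ hqz (hg1 1 0)
    · exact hg1 1 1
  · rw [dconj_10, hgy]; ring

/-- `Φ` is invariant under conjugation inside `Γ₀(N)[1/q]` (in the form `h g = g' h`). -/
theorem IsUniHom.eq_of_mul_eq_mul (h : IsUniHom N q Φ) {g g' k : SL(2, ℚ)} (hg : g ∈ deltaQ N q)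
    (hg' : g' ∈ deltaQ N q) (hk : k ∈ deltaQ N q) (hrel : k * g = g' * k) : Φ g' = Φ g := by
  have h1 := h.mul k g hk hg
  have h2 := h.mul g' k hg' hk
  rw [hrel, h2, add_comm] at h1
  exact add_left_cancel h1

/-- Rule `r3`. -/
theorem IsUniHom.symb_sq_mul (h : IsUniHom N q Φ) (hq : q.Prime) (a c : ℤ) (hac : Adm N a c)
    (hqa : ¬ (q : ℤ) ∣ a) : symb N Φ a ((q : ℤ) ^ 2 * c) = symb N Φ a c := by
  have hq0 : (q : ℚ) ≠ 0 := Nat.cast_ne_zero.2 hq.ne_zero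
  have hqp : Prime (q : ℤ) := Nat.prime_iff_prime_int.1 hq
  have hcop : IsCoprime a (q : ℤ) := ((Prime.coprime_iff_not_dvd hqp).2 hqa).symm
  have hadm : Adm N a ((q : ℤ) ^ 2 * c) :=
    ⟨Dvd.dvd.mul_left hac.1 _, IsCoprime.mul_right (IsCoprime.pow_right hcop) hac.2⟩
  have hg := mapQ_colZ_mem_deltaQ q hac
  have hg' := dconj_sq_mem_deltaQ hq.ne_zero hg
  have hk : dg ((q : ℚ)⁻¹) q (inv_mul_cancel₀ hq0) ∈ deltaQ N q := by
    refine dg_mem_deltaQ N _ ?_ (natCast_mem_zInv q q)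
    have := inv_pow_mem_zInv hq.ne_zero 1
    rwa [pow_one] at this
  have hrel : dg ((q : ℚ)⁻¹) q (inv_mul_cancel₀ hq0) * mapQ (colZ a c hac.2)
      = dconj ((q : ℚ) ^ 2) (pow_ne_zero 2 hq0) (mapQ (colZ a c hac.2))
        * dg ((q : ℚ)⁻¹) q (inv_mul_cancel₀ hq0) := by
    apply sl_ext
    · rw [sl_mul_00, sl_mul_00, dg_00, dg_01, dg_10, dconj_00, dconj_01]; ring
    · rw [sl_mul_01, sl_mul_01, dg_00, dg_01, dg_11, dconj_00, dconj_01]; field_simp; ring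
    · rw [sl_mul_10, sl_mul_10, dg_00, dg_10, dg_11, dconj_10, dconj_11]; field_simp; ring
    · rw [sl_mul_11, sl_mul_11, dg_01, dg_10, dg_11, dconj_10, dconj_11]; ring
  have h1 := h.eq_symb hg' hadm
    (by rw [dconj_00, mapQ_apply, colZ_00])
    (by rw [dconj_10, mapQ_apply, colZ_10]; push_cast; ring)
  rw [← h1, h.eq_of_mul_eq_mul hg hg' hk hrel, symb_eq Φ hac]

/-- `Φ` kills `diag(w, 1/w)` for `w ≡ 1 mod N` a unit of `ℤ[1/q]` (4-term factorisation). -/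
theorem IsUniHom.map_dg (h : IsUniHom N q Φ) {w : ℚ} (hw : w ≠ 0) (hwz : w⁻¹ ∈ zInv q) (m : ℤ)
    (hm : (N : ℚ) * m = w - 1) : Φ (dg w w⁻¹ (mul_inv_cancel₀ hw)) = 0 := by
  have hy1 : -w⁻¹ ∈ zInv q := Subring.neg_mem _ hwz
  have hx1 : (m : ℚ) ∈ zInv q := intCast_mem_zInv q m
  have hy2 : (1 : ℚ) ∈ zInv q := Subring.one_mem _
  have hx2 : -(m : ℚ) * w⁻¹ ∈ zInv q := Subring.mul_mem _ (Subring.neg_mem _ hx1) hwz
  have key : dg w w⁻¹ (mul_inv_cancel₀ hw)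
      = e21 ((N : ℚ) * (-w⁻¹)) * e12 m * e21 ((N : ℚ) * 1) * e12 (-(m : ℚ) * w⁻¹) := by
    apply sl_ext
    · simp only [sl_mul_00, sl_mul_01, e12_00, e12_01, e12_10, e12_11,
        e21_00, e21_01, e21_10, e21_11, dg_00]
      linear_combination (-1 : ℚ) * hm
    · simp only [sl_mul_00, sl_mul_01, e12_00, e12_01, e12_10, e12_11,
        e21_00, e21_01, e21_10, e21_11, dg_01]
      field_simp
      linear_combination (m : ℚ) * hm
    · simp only [sl_mul_10, sl_mul_11, e12_00, e12_01, e12_10, e12_11,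
        e21_00, e21_01, e21_10, e21_11, dg_10]
      field_simp
      linear_combination (N : ℚ) * hm
    · simp only [sl_mul_10, sl_mul_11, e12_00, e12_01, e12_10, e12_11,
        e21_00, e21_01, e21_10, e21_11, dg_11]
      field_simp
      linear_combination (w - (N : ℚ) * m) * hm
  have m1 := e21_mem_deltaQ N hy1
  have m2 := e12_mem_deltaQ N hx1
  have m3 := e21_mem_deltaQ N hy2
  have m4 := e12_mem_deltaQ N hx2
  rw [key, h.mul _ _ (Subgroup.mul_mem _ (Subgroup.mul_mem _ m1 m2) m3) m4,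
    h.mul _ _ (Subgroup.mul_mem _ m1 m2) m3, h.mul _ _ m1 m2,
    h.low _ hy1, h.up _ hx1, h.low _ hy2, h.up _ hx2]
  simp

/-- Rule `r6`. -/
theorem IsUniHom.symb_pow_mul (h : IsUniHom N q Φ) (hq : q.Prime) {J : ℕ}
    (hJ : (q : ℤ) ^ J ≡ 1 [ZMOD (N : ℤ)]) (a c : ℤ) (hac : Adm N a c) (hqc : ¬ (q : ℤ) ∣ c) :
    symb N Φ ((q : ℤ) ^ (2 * J) * a) c = symb N Φ a c := by
  have hq0 : (q : ℚ) ≠ 0 := Nat.cast_ne_zero.2 hq.ne_zero
  have hqp : Prime (q : ℤ) := Nat.prime_iff_prime_int.1 hq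
  have hcop : IsCoprime (q : ℤ) c := (Prime.coprime_iff_not_dvd hqp).2 hqc
  have hadm : Adm N ((q : ℤ) ^ (2 * J) * a) c :=
    ⟨hac.1, IsCoprime.mul_left (IsCoprime.pow_left hcop) hac.2⟩
  have hu0 : (q : ℚ) ^ J ≠ 0 := pow_ne_zero J hq0
  have hw0 : (q : ℚ) ^ J * (q : ℚ) ^ J ≠ 0 := mul_ne_zero hu0 hu0
  -- the diagonal element `k = diag(q^J, q^-J)`
  have hk : dg ((q : ℚ) ^ J) ((q : ℚ) ^ J)⁻¹ (mul_inv_cancel₀ hu0) ∈ deltaQ N q :=
    dg_mem_deltaQ N _ (Subring.pow_mem _ (natCast_mem_zInv q q) J) (inv_pow_mem_zInv hq.ne_zero J)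
  have hg := mapQ_colZ_mem_deltaQ q hac
  -- `Φ (k * k) = 0`
  have hkk' : dg ((q : ℚ) ^ J) ((q : ℚ) ^ J)⁻¹ (mul_inv_cancel₀ hu0)
      * dg ((q : ℚ) ^ J) ((q : ℚ) ^ J)⁻¹ (mul_inv_cancel₀ hu0)
      = dg ((q : ℚ) ^ J * (q : ℚ) ^ J) ((q : ℚ) ^ J * (q : ℚ) ^ J)⁻¹ (mul_inv_cancel₀ hw0) := by
    apply sl_ext
    · simp only [sl_mul_00, dg_00, dg_01, dg_10]; ring
    · simp only [sl_mul_01, dg_00, dg_01, dg_11]; ring
    · simp only [sl_mul_10, dg_00, dg_10, dg_11]; ring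
    · simp only [sl_mul_11, dg_01, dg_10, dg_11, _root_.mul_inv]; ring
  have hkk : Φ (dg ((q : ℚ) ^ J) ((q : ℚ) ^ J)⁻¹ (mul_inv_cancel₀ hu0)) +
      Φ (dg ((q : ℚ) ^ J) ((q : ℚ) ^ J)⁻¹ (mul_inv_cancel₀ hu0)) = 0 := by
    rw [← h.mul _ _ hk hk, hkk']
    obtain ⟨m', hm'⟩ := (hJ.mul hJ).dvd
    refine h.map_dg hw0 ?_ (-m') ?_
    · have h3 := inv_pow_mem_zInv hq.ne_zero (J + J)
      rwa [pow_add] at h3
    · have h3 : ((1 * 1 - (q : ℤ) ^ J * (q : ℤ) ^ J : ℤ) : ℚ) = (((N : ℤ) * m' : ℤ) : ℚ) := by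
        rw [hm']
      push_cast at h3 ⊢
      linear_combination h3
  have hmem := Subgroup.mul_mem _ (Subgroup.mul_mem _ hk hg) hk
  have h1 := h.eq_symb hmem hadm
    (by
      simp only [sl_mul_00, sl_mul_01, dg_00, dg_01, dg_10, mapQ_apply, colZ_00]
      push_cast; ring)
    (by
      simp only [sl_mul_10, sl_mul_11, dg_00, dg_10, dg_11, mapQ_apply, colZ_10]
      field_simp
      ring)
  rw [← h1, h.mul _ _ (Subgroup.mul_mem _ hk hg) hk, h.mul _ _ hk hg, symb_eq Φ hac,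
    add_comm (Φ (dg _ _ _)) (Φ (mapQ _)), add_assoc, hkk, add_zero]

/-- Rule `m2`. -/
theorem IsUniHom.symb_m2 (h : IsUniHom N q Φ) (h2 : ∀ v : V, v + v = 0 → v = 0)
    (d c₁ c₂ b : ℤ) (h₁ : Adm N d c₁) (h₂ : Adm N d c₂) (hb : d ∣ b * c₁ + 1) :
    symb N Φ d c₂ - symb N Φ d c₁ = symb N Φ (1 + b * (c₁ - c₂)) (d * (c₂ - c₁)) := by
  obtain ⟨k, hk⟩ := hb
  obtain ⟨u, v, huv⟩ := h₂.2
  have hkQ : (b : ℚ) * c₁ + 1 = d * k := by exact_mod_cast hk
  have hγ1 : (-k) * (-d) - b * c₁ = 1 := by linear_combination -hk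
  have hδ1 : d * k - b * c₁ = 1 := by linear_combination -hk
  have hδ2 : d * u - (-v) * c₂ = 1 := by linear_combination huv
  have mγ1 : mapQ (mk2 (-k) b c₁ (-d) hγ1) ∈ deltaQ N q :=
    mapQ_mem_deltaQ q (gamma0_of_dvd h₁.1)
  have mδ1 : mapQ (mk2 d b c₁ k hδ1) ∈ deltaQ N q := mapQ_mem_deltaQ q (gamma0_of_dvd h₁.1)
  have mδ2 : mapQ (mk2 d (-v) c₂ u hδ2) ∈ deltaQ N q := mapQ_mem_deltaQ q (gamma0_of_dvd h₂.1)
  have e1 : Φ (mapQ (mk2 d b c₁ k hδ1)) = symb N Φ d c₁ := h.mapQ_eq_symb _ h₁.1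
  have e2 : Φ (mapQ (mk2 d (-v) c₂ u hδ2)) = symb N Φ d c₂ := h.mapQ_eq_symb _ h₂.1
  -- `γ1 * δ1 = -1`
  have hrel : mapQ (mk2 (-k) b c₁ (-d) hγ1) * mapQ (mk2 d b c₁ k hδ1) = negOne := by
    apply sl_ext
    · simp only [sl_mul_00, mapQ_apply, mk2_00, mk2_01, mk2_10, negOne_00]
      push_cast; linear_combination hkQ
    · simp only [sl_mul_01, mapQ_apply, mk2_00, mk2_01, mk2_11, negOne_01]
      push_cast; ring
    · simp only [sl_mul_10, mapQ_apply, mk2_00, mk2_10, mk2_11, negOne_10]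
      push_cast; ring
    · simp only [sl_mul_11, mapQ_apply, mk2_01, mk2_10, mk2_11, negOne_11]
      push_cast; linear_combination hkQ
  have e3 : Φ (mapQ (mk2 (-k) b c₁ (-d) hγ1)) = -symb N Φ d c₁ := by
    have h3 := h.mul _ _ mγ1 mδ1
    rw [hrel, h.map_negOne h2, e1] at h3
    exact eq_neg_of_add_eq_zero_left h3.symm
  -- the product `-(γ1 * δ2)`
  have hadm : Adm N (1 + b * (c₁ - c₂)) (d * (c₂ - c₁)) :=
    ⟨Dvd.dvd.mul_left (dvd_sub h₂.1 h₁.1) d,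
      ⟨c₁ * v + d * u, k * v + b * u, by linear_combination huv + (v * c₁ - v * c₂) * hk⟩⟩
  have hmem := Subgroup.mul_mem _ (negOne_mem_deltaQ N q) (Subgroup.mul_mem _ mγ1 mδ2)
  have h4 := h.eq_symb hmem hadm
    (by
      simp only [sl_mul_00, sl_mul_10, negOne_00, negOne_01, mapQ_apply, mk2_00, mk2_01, mk2_10,
        mk2_11]
      push_cast; linear_combination (-1 : ℚ) * hkQ)
    (by
      simp only [sl_mul_00, sl_mul_10, negOne_10, negOne_11, mapQ_apply, mk2_00, mk2_01, mk2_10,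
        mk2_11]
      push_cast; ring)
  rw [← h4, h.mul _ _ (negOne_mem_deltaQ N q) (Subgroup.mul_mem _ mγ1 mδ2), h.map_negOne h2,
    zero_add, h.mul _ _ mγ1 mδ2, e2, e3]
  abel

/-- All the rules of `helper389.SymbolRules` for the column symbol of `Φ`. -/
theorem IsUniHom.symbolRules (h : IsUniHom N q Φ) (h2 : ∀ v : V, v + v = 0 → v = 0)
    (hq : q.Prime) {J : ℕ} (hJ : (q : ℤ) ^ J ≡ 1 [ZMOD (N : ℤ)]) :
    SymbolRules N q J (symb N Φ) where
  r0 := h.symb_one_zero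
  r1 := h.symb_add_mul
  r2 := h.symb_add_mul_right
  r3 := h.symb_sq_mul hq
  r6 := h.symb_pow_mul hq hJ
  m2 := h.symb_m2 h2

end rules

/-! ### the congruence subgroup property from the vanishing of symbols -/

/-- **Half (I) of the CSP core**: the symbol-vanishing statement of `helper389` implies the
congruence subgroup property `Stmt_CSP` of the captain's Spec (with `M = N`). -/
theorem stmt_CSP_of (hSV : Fermat.Agent.S41.helper389.Stmt_SymbolVanish) :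
    Fermat.Agent.S41.helper123.Stmt_CSP := by
  intro N q p hN hq hqN hp hp2 _
  refine ⟨N, hN, ?_⟩
  intro Φ hmul hup hlow γ hγ
  have hU : IsUniHom N q Φ := ⟨hmul, fun x hx => hup x hx, fun y hy => hlow y hy⟩
  have : Fact p.Prime := ⟨hp⟩
  have h2 : ∀ v : ZMod p, v + v = 0 → v = 0 := by
    intro v hv
    have h3 : (2 : ZMod p) * v = 0 := by rw [two_mul]; exact hv
    rcases mul_eq_zero.1 h3 with h4 | h4
    · exfalso
      have h5 : ((2 : ℕ) : ZMod p) = 0 := by exact_mod_cast h4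
      rw [ZMod.natCast_eq_zero_iff] at h5
      exact hp2 ((Nat.prime_dvd_prime_iff_eq hp Nat.prime_two).1 h5)
    · exact h4
  have hcop : Nat.Coprime q N := (Nat.Prime.coprime_iff_not_dvd hq).2 hqN
  have hJ : (q : ℤ) ^ (Nat.totient N) ≡ 1 [ZMOD (N : ℤ)] := by
    have h3 := Nat.ModEq.pow_totient hcop
    have h4 := (Int.natCast_modEq_iff).2 h3
    push_cast at h4
    exact h4
  have hrules := hU.symbolRules h2 hq hJ
  rw [CongruenceSubgroup.Gamma_mem] at hγ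
  have hNγ : (N : ℤ) ∣ γ 1 0 := (ZMod.intCast_zmod_eq_zero_iff_dvd _ _).1 hγ.2.2.1
  have ha : γ 0 0 ≡ 1 [ZMOD (N : ℤ)] := by
    apply (ZMod.intCast_eq_intCast_iff _ _ _).1
    rw [hγ.1]; simp
  have h5 := hSV N q (Nat.totient N) p hN hq hqN (Nat.totient_pos.2 hN) hJ hp hp2 (symb N Φ) hrules
    (γ 0 0) (γ 1 0) ⟨hNγ, Matrix.SpecialLinearGroup.isCoprime_col γ 0⟩ ha
  have h6 := hU.mapQ_eq_symb γ hNγ
  rw [h5] at h6
  exact h6

/-- **The congruence subgroup property `Stmt_CSP`** (leaf L3 of the captain's Spec), with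
`M = N`: half (I) above applied to half (II), `helper389.stmt_SymbolVanish`. -/
theorem stmt_CSP : Fermat.Agent.S41.helper123.Stmt_CSP :=
  stmt_CSP_of Fermat.Agent.S41.helper389.stmt_SymbolVanish

end Fermat.Agent.S41.helper5755
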