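/-
S41 (level raising) -- captain wiring, helper123.

`S41_of_ihara` : the frozen statement S41 follows from the single remaining Spec Prop `Stmt_Ihara`
(leaf L4), using the landed leaves
* L1 `helper560.stmt_Witness : Stmt_Witness`,
* L2 `helper1763.stmt_Boundary : Stmt_Boundary`,
* L5 `helper5472.core_of_ihara : Stmt_Ihara → Stmt_Boundary → Stmt_Core`.

`stmt_CSP` : leaf L3, from `helper389.stmt_SymbolVanish` and `helper5755.stmt_CSP_of`.
-/
import Fermat.Agent.S41.helper123_Spec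
import Fermat.Agent.S41.helper560_Witness
import Fermat.Agent.S41.helper1763_BoundarySpec
import Fermat.Agent.S41.helper5472_Endgame
import Fermat.Agent.S41.helper389_SymbolVanish
import Fermat.Agent.S41.helper5755_SymbolOfHom

set_option autoImplicit false
open WeierstrassCurve WeierstrassCurve.Affine WeierstrassCurve.Affine.Point
open scoped CongruenceSubgroup MatrixGroups
open WeierstrassCurve

namespace Fermat.Agent.S41.helper123

/-- Leaf L3: the congruence subgroup property of `Γ₀(N)[1/q]` for `𝔽_p`-valued homs. -/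
theorem stmt_CSP : Stmt_CSP :=
  Fermat.Agent.S41.helper5755.stmt_CSP_of Fermat.Agent.S41.helper389.stmt_SymbolVanish

/-- The modular-form core from the Ihara package (L5 + L2). -/
theorem stmt_Core_of_ihara (hI : Stmt_Ihara) : Stmt_Core :=
  Fermat.Agent.S41.helper5472.core_of_ihara hI Fermat.Agent.S41.helper1763.stmt_Boundary

/-- The frozen statement S41 from the Ihara package alone (L1, L2, L5 are landed). -/
theorem S41_of_ihara (hI : Stmt_Ihara)
    (E : WeierstrassCurve ℚ) [E.IsElliptic] {W : WeierstrassCurve ℤ} (hW : W.IsIntegralModelOf E)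
    {p N q' : ℕ} (hp : p.Prime) (hp2 : p ≠ 2) (hN : 0 < N) (hq' : q'.Prime) (hq'N : ¬ q' ∣ N) (hq'p : q' ≠ p)
    (hirr : GaloisRepIsIrreducible (K := AlgebraicClosure ℚ) ℚ E p)
    (f : CuspForm (CongruenceSubgroup.Gamma0 N) 2) (𝔪 : Ideal (integralClosure ℤ ℂ))
    (hf : f.IsNormalizedEigenform) (hmax : 𝔪.IsMaximal) (hpm : (p : integralClosure ℤ ℂ) ∈ 𝔪)
    (hcong : ∀ ℓ : ℕ, ℓ.Prime → W.IsGoodPrimeFor ℓ → ¬ ℓ ∣ N → ℓ ≠ p →
      ∃ a : integralClosure ℤ ℂ, (a : ℂ) = ModularFormClass.qCoeff f ℓ ∧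
        a - ((W.apOfModel ℓ : ℤ) : integralClosure ℤ ℂ) ∈ 𝔪)
    (hLR : ∃ a : integralClosure ℤ ℂ, (a : ℂ) = ModularFormClass.qCoeff f q' ∧
      a ^ 2 - ((q' : integralClosure ℤ ℂ) + 1) ^ 2 ∈ 𝔪) :
    ∃ (g : CuspForm (CongruenceSubgroup.Gamma0 (N * q')) 2) (𝔪' : Ideal (integralClosure ℤ ℂ)),
      g.IsNormalizedEigenform ∧ 𝔪'.IsMaximal ∧ (p : integralClosure ℤ ℂ) ∈ 𝔪' ∧
      (∀ ℓ : ℕ, ℓ.Prime → W.IsGoodPrimeFor ℓ → ¬ ℓ ∣ N * q' → ℓ ≠ p →
        ∃ a : integralClosure ℤ ℂ, (a : ℂ) = ModularFormClass.qCoeff g ℓ ∧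
          a - ((W.apOfModel ℓ : ℤ) : integralClosure ℤ ℂ) ∈ 𝔪') ∧
      g.IsNewAt q' :=
  S41_of_core_witness (stmt_Core_of_ihara hI) Fermat.Agent.S41.helper560.stmt_Witness
    E hW hp hp2 hN hq' hq'N hq'p hirr f 𝔪 hf hmax hpm hcong hLR

end Fermat.Agent.S41.helper123
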