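/-
helper8689 — S41 (level raising), module C: cusps `ℙ¹(ℚ) = OnePoint ℚ` and symbols.

* `pt u w` : the point `[u : w]`; `smul_pt` (linear action of `GL₂(ℚ)` on ratios).
* `trace_sq_of_smul_eq` (STAB) : an element of `SL(2,ℤ)` fixing a cusp has `trace² = 4`.
* `repTQ l` : the rational copy of `helper2138.repT l`, with `repTQ_map`, `repTQ_rel`.
* `exists_potential`, `exists_symbol_of_parabolic` (C2) : a parabolic hom on any
  `Γ ≤ SL(2,ℤ)` is the restriction of a `Γ`-invariant additive symbol on cusps.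
* `repTQ_conj_diag` (P4), `sum_repTQ_conj` (S6) : the Hecke sum commutes with `diag(q,1)`.
* `exists_Gamma_mulVec` (PRIM), `repTQ_smul_eq` (CUSP-MOVE), `sum_repTQ_of_invariant` (C4).
-/
import Mathlib
import Fermat.Prelude.Def_ModularCurve_PeriodMap
import Fermat.Agent.S16.helper2138_HeckeHom

set_option autoImplicit false
open CongruenceSubgroup Matrix.SpecialLinearGroup OnePoint
open scoped MatrixGroups
open Fermat.Agent.S16.helper2138

namespace Fermat.Agent.S41.helper8689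

/-! ### Points of `ℙ¹(ℚ)` as ratios -/

/-- The point `[u : w]` of `ℙ¹(ℚ) = OnePoint ℚ`. -/
noncomputable def pt (u w : ℚ) : OnePoint ℚ := if w = 0 then ∞ else ((u / w : ℚ) : OnePoint ℚ)

theorem pt_zero_right (u : ℚ) : pt u 0 = ∞ := by simp [pt]

theorem pt_of_ne {u w : ℚ} (hw : w ≠ 0) : pt u w = ((u / w : ℚ) : OnePoint ℚ) := by simp [pt, hw]

/-- The action of `GL₂(ℚ)` on `OnePoint ℚ` is the linear action on ratios. -/
theorem smul_pt (g : GL (Fin 2) ℚ) (u w : ℚ) (h : u ≠ 0 ∨ w ≠ 0) :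
    g • pt u w = pt (g 0 0 * u + g 0 1 * w) (g 1 0 * u + g 1 1 * w) := by
  by_cases hw : w = 0
  · subst hw
    have hu : u ≠ 0 := by simpa using h
    rw [pt_zero_right, smul_infty_eq_ite]
    by_cases hc : (g : Matrix (Fin 2) (Fin 2) ℚ) 1 0 = 0
    · simp [hc, pt]
    · have : (g : Matrix (Fin 2) (Fin 2) ℚ) 1 0 * u + g 1 1 * 0 ≠ 0 := by simpa using ⟨hc, hu⟩
      rw [if_neg hc, pt_of_ne this]
      congr 1
      field_simp
      ring
  · rw [pt_of_ne hw, smul_some_eq_ite]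
    have e : (g : Matrix (Fin 2) (Fin 2) ℚ) 1 0 * (u / w) + g 1 1 = (g 1 0 * u + g 1 1 * w) / w := by
      field_simp
    by_cases hd : (g : Matrix (Fin 2) (Fin 2) ℚ) 1 0 * u + g 1 1 * w = 0
    · rw [if_pos (by rw [e, hd, zero_div]), hd, pt_zero_right]
    · rw [if_neg (by rw [e]; exact div_ne_zero hd hw), pt_of_ne hd]
      congr 1
      field_simp

theorem pt_mul_left (t u w : ℚ) (ht : t ≠ 0) : pt (t * u) (t * w) = pt u w := by
  by_cases hw : w = 0
  · subst hw; simp [pt]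
  · rw [pt_of_ne hw, pt_of_ne (mul_ne_zero ht hw)]
    congr 1
    field_simp

theorem pt_eq_pt_iff {u w u' w' : ℚ} (h : u ≠ 0 ∨ w ≠ 0) (h' : u' ≠ 0 ∨ w' ≠ 0) :
    pt u w = pt u' w' ↔ u * w' = u' * w := by
  by_cases hw : w = 0
  · subst hw
    have hu : u ≠ 0 := by simpa using h
    by_cases hw' : w' = 0
    · subst hw'; simp [pt]
    · rw [pt_zero_right, pt_of_ne hw']
      simp [hu, hw']
  · by_cases hw' : w' = 0
    · subst hw'
      have hu' : u' ≠ 0 := by simpa using h'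
      rw [pt_zero_right, pt_of_ne hw]
      simp [hu', hw]
    · rw [pt_of_ne hw, pt_of_ne hw', OnePoint.coe_eq_coe, div_eq_div_iff hw hw']

/-- Every point of `ℙ¹(ℚ)` is `[m : n]` with coprime integers `m, n`. -/
theorem exists_pt_coprime (x : OnePoint ℚ) : ∃ m n : ℤ, IsCoprime m n ∧ x = pt m n := by
  induction x using OnePoint.rec with
  | infty => exact ⟨1, 0, isCoprime_one_left, by simp [pt]⟩
  | coe r =>
    refine ⟨r.num, r.den, ?_, ?_⟩
    · exact Int.isCoprime_iff_gcd_eq_one.mpr r.reduced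
    · rw [pt_of_ne (by exact_mod_cast r.den_ne_zero)]
      congr 1
      exact_mod_cast (Rat.num_div_den r).symm

theorem ne_zero_of_isCoprime {m n : ℤ} (h : IsCoprime m n) : (m : ℚ) ≠ 0 ∨ (n : ℚ) ≠ 0 := by
  by_contra hcon
  rw [not_or, not_not, not_not] at hcon
  obtain ⟨h1, h2⟩ := hcon
  have hm : m = 0 := by exact_mod_cast h1
  have hn : n = 0 := by exact_mod_cast h2
  subst hm hn
  obtain ⟨a, b, hab⟩ := h
  simp at hab

/-- `SL(2,ℤ)` acts on ratios of integers linearly. -/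
theorem mapGL_smul_pt (γ : SL(2, ℤ)) (m n : ℤ) (h : (m : ℚ) ≠ 0 ∨ (n : ℚ) ≠ 0) :
    mapGL ℚ γ • pt m n = pt ((γ 0 0 * m + γ 0 1 * n : ℤ)) ((γ 1 0 * m + γ 1 1 * n : ℤ)) := by
  rw [smul_pt _ _ _ h]
  simp [mapGL_coe_matrix]

/-! ### Stabilisers of cusps are parabolic -/

/-- (STAB) An element of `SL(2,ℤ)` fixing a point of `ℙ¹(ℚ)` has `trace² = 4`. -/
theorem trace_sq_of_smul_eq (γ : SL(2, ℤ)) (x : OnePoint ℚ) (h : mapGL ℚ γ • x = x) :
    (γ : Matrix (Fin 2) (Fin 2) ℤ).trace ^ 2 = 4 := by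
  obtain ⟨m, n, hmn, rfl⟩ := exists_pt_coprime x
  have hne := ne_zero_of_isCoprime hmn
  rw [mapGL_smul_pt γ m n hne] at h
  have hdet := det_SL γ
  obtain ⟨s, t, hst⟩ := hmn
  set a := γ 0 0 with ha
  set b := γ 0 1 with hb
  set c := γ 1 0 with hc
  set d := γ 1 1 with hd
  have hne' : ((a * m + b * n : ℤ) : ℚ) ≠ 0 ∨ ((c * m + d * n : ℤ) : ℚ) ≠ 0 := by
    by_contra hcon
    rw [not_or, not_not, not_not] at hcon
    obtain ⟨h1, h2⟩ := hcon
    have h1' : a * m + b * n = 0 := by exact_mod_cast h1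
    have h2' : c * m + d * n = 0 := by exact_mod_cast h2
    have hm : m = 0 := by linear_combination d * h1' - b * h2' - m * hdet
    have hn : n = 0 := by linear_combination a * h2' - c * h1' - n * hdet
    subst hm hn
    simp at hst
  have key := (pt_eq_pt_iff hne' hne).mp h
  have key' : (a * m + b * n) * n = m * (c * m + d * n) := by exact_mod_cast key
  set lam := s * (a * m + b * n) + t * (c * m + d * n) with hlam
  have e1 : a * m + b * n = lam * m := by
    linear_combination (a * m + b * n) * hst * (-1) + t * key'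
  have e2 : c * m + d * n = lam * n := by
    linear_combination (c * m + d * n) * hst * (-1) - s * key'
  have hP : (a - lam) * (d - lam) - b * c = 0 := by
    have hPm : ((a - lam) * (d - lam) - b * c) * m = 0 := by
      linear_combination (d - lam) * e1 - b * e2
    have hPn : ((a - lam) * (d - lam) - b * c) * n = 0 := by
      linear_combination (a - lam) * e2 - c * e1
    linear_combination (-1 : ℤ) * ((a - lam) * (d - lam) - b * c) * hst + s * hPm + t * hPn
  have hlt : lam * (a + d - lam) = 1 := by linear_combination -hP + hdet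
  rw [Matrix.trace_fin_two]
  rcases Int.eq_one_or_neg_one_of_mul_eq_one' hlt with ⟨h1, h2⟩ | ⟨h1, h2⟩
  · have : γ.1 0 0 + γ.1 1 1 = 2 := by
      show a + d = 2
      omega
    rw [this]; norm_num
  · have : γ.1 0 0 + γ.1 1 1 = -2 := by
      show a + d = -2
      omega
    rw [this]; norm_num

/-! ### Rational Hecke representatives -/

/-- Rational upper triangular matrix `!![a, b; 0, d]`. -/
noncomputable def upperQ (a b d : ℚ) (had : a * d ≠ 0) : GL (Fin 2) ℚ :=
  Matrix.GeneralLinearGroup.mkOfDetNeZero !![a, b; 0, d]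
    (by rwa [Matrix.det_fin_two_of, mul_zero, sub_zero])

@[simp] theorem val_upperQ (a b d : ℚ) (had : a * d ≠ 0) :
    ((upperQ a b d had : GL (Fin 2) ℚ) : Matrix (Fin 2) (Fin 2) ℚ) = !![a, b; 0, d] := rfl

/-- `diag(q, 1)` in `GL₂(ℚ)`. -/
noncomputable def diagQ (q : ℕ) [NeZero q] : GL (Fin 2) ℚ :=
  upperQ q 0 1 (by rw [mul_one]; exact_mod_cast NeZero.ne q)

@[simp] theorem val_diagQ (q : ℕ) [NeZero q] :
    ((diagQ q : GL (Fin 2) ℚ) : Matrix (Fin 2) (Fin 2) ℚ) = !![(q : ℚ), 0; 0, 1] := rfl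

/-- The rational copy of `helper2138.repT`: `!![1, j; 0, l]` at `j`, `!![l, 0; 0, 1]` at `∞`. -/
noncomputable def repTQ (l : ℕ) [NeZero l] (x : OnePoint (ZMod l)) : GL (Fin 2) ℚ :=
  x.elim (diagQ l) (fun j => upperQ 1 j.val l (by rw [one_mul]; exact_mod_cast NeZero.ne l))

@[simp] theorem repTQ_infty (l : ℕ) [NeZero l] : repTQ l ∞ = diagQ l := rfl

@[simp] theorem val_repTQ_infty (l : ℕ) [NeZero l] :
    ((repTQ l ∞ : GL (Fin 2) ℚ) : Matrix (Fin 2) (Fin 2) ℚ) = !![(l : ℚ), 0; 0, 1] := rfl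

@[simp] theorem val_repTQ_coe (l : ℕ) [NeZero l] (j : ZMod l) :
    ((repTQ l (j : OnePoint (ZMod l)) : GL (Fin 2) ℚ) : Matrix (Fin 2) (Fin 2) ℚ) =
      !![(1 : ℚ), (j.val : ℚ); 0, (l : ℚ)] := rfl

theorem repTQ_map (l : ℕ) [NeZero l] (x : OnePoint (ZMod l)) :
    (repTQ l x).map (algebraMap ℚ ℝ) = repT l x := by
  have hl : l ≠ 0 := NeZero.ne l
  induction x using OnePoint.rec with
  | infty =>
    ext i j
    rw [Matrix.GeneralLinearGroup.map_apply, repT_infty,
      ModularForm.val_heckeDiagMatrix hl]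
    show (algebraMap ℚ ℝ) ((!![(l : ℚ), 0; 0, 1] : Matrix (Fin 2) (Fin 2) ℚ) i j) = _
    fin_cases i <;> fin_cases j <;> simp
  | coe k =>
    ext i j
    rw [Matrix.GeneralLinearGroup.map_apply, repT_coe,
      ModularForm.val_heckeMatrix hl]
    show (algebraMap ℚ ℝ) ((!![(1 : ℚ), (k.val : ℚ); 0, (l : ℚ)] : Matrix (Fin 2) (Fin 2) ℚ) i j) = _
    fin_cases i <;> fin_cases j <;> simp [-ZMod.natCast_val]

theorem map_algebraMap_injective :
    Function.Injective (Matrix.GeneralLinearGroup.map (n := Fin 2) (algebraMap ℚ ℝ)) := by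
  intro g h hgh
  ext i j
  have := congrArg (fun M : GL (Fin 2) ℝ => (M : Matrix (Fin 2) (Fin 2) ℝ) i j) hgh
  simp only [Matrix.GeneralLinearGroup.map_apply] at this
  exact (algebraMap ℚ ℝ).injective this

/-- The rational form of `Corr.rel` for `T_l`. -/
theorem repTQ_rel (N l : ℕ) [Fact l.Prime] (hlN : ¬ l ∣ N) (i : OnePoint (ZMod l))
    (γ : Gamma0 N) :
    repTQ l i * mapGL ℚ (γ : SL(2, ℤ)) =
      mapGL ℚ (((corrT N l hlN).g i γ : Gamma0 N) : SL(2, ℤ)) *
        repTQ l ((corrT N l hlN).σ γ i) := by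
  apply map_algebraMap_injective
  rw [map_mul, map_mul, repTQ_map, repTQ_map, map_mapGL, map_mapGL]
  exact (corrT N l hlN).rel i γ

/-! ### (C2) Potentials and symbols of parabolic homomorphisms -/

/-- (C2) A parabolic homomorphism `φ` on `Γ ≤ SL(2,ℤ)` has a potential on the cusps:
`u (γ • x) = u x + φ γ`. -/
theorem exists_potential {A : Type*} [AddCommGroup A] (Γ : Subgroup SL(2, ℤ))
    (φ : Additive Γ →+ A) (hφ : ModularCurve.Period.IsParabolicHom Γ φ) :
    ∃ u : OnePoint ℚ → A, ∀ (γ : Γ) (x : OnePoint ℚ),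
      u (mapGL ℚ (γ : SL(2, ℤ)) • x) = u x + φ (Additive.ofMul γ) := by
  classical
  let act : Γ → OnePoint ℚ → OnePoint ℚ := fun γ x => mapGL ℚ (γ : SL(2, ℤ)) • x
  have act_one : ∀ x, act 1 x = x := by intro x; simp [act]
  have act_mul : ∀ γ δ x, act (γ * δ) x = act γ (act δ x) := by
    intro γ δ x; simp [act, mul_smul]
  let s : Setoid (OnePoint ℚ) :=
    { r := fun x y => ∃ γ : Γ, act γ x = y
      iseqv := ⟨fun x => ⟨1, act_one x⟩,
        fun {x y} ⟨γ, h⟩ => ⟨γ⁻¹, by rw [← h, ← act_mul, inv_mul_cancel, act_one]⟩,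
        fun {x y z} ⟨γ, h⟩ ⟨δ, h'⟩ => ⟨δ * γ, by rw [act_mul, h, h']⟩⟩ }
  have hrep : ∀ x, ∃ γ : Γ, act γ (Quotient.out (Quotient.mk s x)) = x :=
    fun x => Quotient.mk_out (s := s) x
  choose c hc using hrep
  refine ⟨fun x => φ (Additive.ofMul (c x)), fun γ x => ?_⟩
  have hq : Quotient.mk s (act γ x) = Quotient.mk s x :=
    Quotient.sound (s := s) ⟨γ⁻¹, by rw [← act_mul, inv_mul_cancel, act_one]⟩
  set r := Quotient.out (Quotient.mk s x) with hr
  have h1 : act (c (act γ x)) r = act γ x := by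
    have := hc (act γ x)
    rwa [hq] at this
  have h2 : ∀ a : Γ, act a r = act γ x → act (a⁻¹ * γ * c x) r = r := by
    intro a ha
    rw [act_mul, act_mul, hc x, ← ha, ← act_mul, inv_mul_cancel, act_one]
  have h3 := hφ ((c (act γ x))⁻¹ * γ * c x) (trace_sq_of_smul_eq _ _ (h2 _ h1))
  rw [ofMul_mul, ofMul_mul, ofMul_inv, map_add, map_add, map_neg] at h3
  show φ (Additive.ofMul (c (act γ x))) = φ (Additive.ofMul (c x)) + φ (Additive.ofMul γ)
  have h4 : φ (Additive.ofMul (c (act γ x))) =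
      φ (Additive.ofMul γ) + φ (Additive.ofMul (c x)) := by
    rw [← sub_eq_zero, ← neg_eq_zero, ← h3]
    abel
  rw [h4, add_comm]

/-- (C2) A parabolic homomorphism is the restriction of a `Γ`-invariant additive symbol. -/
theorem exists_symbol_of_parabolic {A : Type*} [AddCommGroup A] (Γ : Subgroup SL(2, ℤ))
    (φ : Additive Γ →+ A) (hφ : ModularCurve.Period.IsParabolicHom Γ φ) :
    ∃ ψ : OnePoint ℚ → OnePoint ℚ → A,
      (∀ a b c, ψ a b + ψ b c = ψ a c) ∧
      (∀ (γ : Γ) (a b : OnePoint ℚ),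
        ψ (mapGL ℚ (γ : SL(2, ℤ)) • a) (mapGL ℚ (γ : SL(2, ℤ)) • b) = ψ a b) ∧
      ∀ (γ : Γ) (x : OnePoint ℚ), ψ x (mapGL ℚ (γ : SL(2, ℤ)) • x) = φ (Additive.ofMul γ) := by
  obtain ⟨u, hu⟩ := exists_potential Γ φ hφ
  refine ⟨fun a b => u b - u a, fun a b c => ?_, fun γ a b => ?_, fun γ x => ?_⟩
  · show u b - u a + (u c - u b) = u c - u a
    abel
  · show u _ - u _ = u b - u a
    rw [hu, hu]; abel
  · show u _ - u x = _
    rw [hu]; abel

/-! ### (P4) Conjugating the Hecke representatives by `diag(q, 1)` -/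

theorem val_mapGL_T_zpow (t : ℤ) :
    ((mapGL ℚ (ModularGroup.T ^ t) : GL (Fin 2) ℚ) : Matrix (Fin 2) (Fin 2) ℚ) =
      !![1, (t : ℚ); 0, 1] := by
  rw [mapGL_coe_matrix]
  ext i j
  rw [Matrix.SpecialLinearGroup.map_apply_coe, RingHom.mapMatrix_apply, Matrix.map_apply,
    ModularGroup.coe_T_zpow]
  fin_cases i <;> fin_cases j <;> simp

/-- (P4) `diag(q,1) * α_i = T^t * α_{q·i} * diag(q,1)`. -/
theorem repTQ_conj_diag (l q : ℕ) [NeZero l] [NeZero q] (i : OnePoint (ZMod l)) :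
    ∃ t : ℤ, diagQ q * repTQ l i =
      mapGL ℚ (ModularGroup.T ^ t) * repTQ l (i.map (fun j => (q : ZMod l) * j)) * diagQ q := by
  induction i using OnePoint.rec with
  | infty =>
    refine ⟨0, ?_⟩
    rw [zpow_zero, map_one, one_mul, OnePoint.map_infty]
    ext a b
    simp only [Matrix.GeneralLinearGroup.coe_mul, val_repTQ_infty, val_diagQ]
    fin_cases a <;> fin_cases b <;> simp [Matrix.mul_apply, Fin.sum_univ_two, mul_comm]
  | coe j =>
    have hval : ∃ t : ℕ, (((q : ZMod l) * j).val : ℚ) + (l : ℚ) * (t : ℚ) =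
        (q : ℚ) * (j.val : ℚ) := by
      refine ⟨q * j.val / l, ?_⟩
      have h1 : ((q : ZMod l) * j) = ((q * j.val : ℕ) : ZMod l) := by
        rw [Nat.cast_mul, ZMod.natCast_zmod_val]
      rw [h1, ZMod.val_natCast]
      exact_mod_cast Nat.mod_add_div (q * j.val) l
    obtain ⟨t, ht⟩ := hval
    refine ⟨(t : ℤ), ?_⟩
    rw [OnePoint.map_some]
    ext a b
    simp only [Matrix.GeneralLinearGroup.coe_mul, val_repTQ_coe, val_diagQ, val_mapGL_T_zpow]
    fin_cases a <;> fin_cases b <;>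
      simp [Matrix.mul_apply, Fin.sum_univ_two, -ZMod.natCast_val]
    · linear_combination -ht

/-- (S6/C7) The Hecke sum over the representatives commutes with `diag(q,1)` on pair functions
invariant under the translations `T^t`. -/
theorem sum_repTQ_conj {A : Type*} [AddCommGroup A] (l q : ℕ) [Fact l.Prime] [NeZero q]
    (hlq : ¬ l ∣ q) (ψ : OnePoint ℚ → OnePoint ℚ → A)
    (hψ : ∀ (t : ℤ) (a b : OnePoint ℚ),
      ψ (mapGL ℚ (ModularGroup.T ^ t) • a) (mapGL ℚ (ModularGroup.T ^ t) • b) = ψ a b)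
    (a b : OnePoint ℚ) :
    ∑ i, ψ (diagQ q • repTQ l i • a) (diagQ q • repTQ l i • b) =
      ∑ i, ψ (repTQ l i • diagQ q • a) (repTQ l i • diagQ q • b) := by
  have hq0 : (q : ZMod l) ≠ 0 := by
    rw [Ne, ZMod.natCast_eq_zero_iff]
    exact hlq
  have hinj : Function.Injective (OnePoint.map (fun j : ZMod l => (q : ZMod l) * j)) :=
    Option.map_injective (mul_right_injective₀ hq0)
  have hbij := Finite.injective_iff_bijective.mp hinj
  rw [← hbij.sum_comp (fun i => ψ (repTQ l i • diagQ q • a) (repTQ l i • diagQ q • b))]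
  refine Finset.sum_congr rfl fun i _ => ?_
  obtain ⟨t, ht⟩ := repTQ_conj_diag l q i
  rw [← mul_smul, ← mul_smul, ht, mul_smul, mul_smul, mul_smul, mul_smul, hψ]

/-! ### (PRIM) Primitive vectors congruent mod `M` are `Γ(M)`-equivalent -/

/-- (PRIM) Two primitive integer vectors congruent mod `M` differ by an element of `Γ(M)`. -/
theorem exists_Gamma_mulVec (M : ℕ) {m n m' n' : ℤ} (h : IsCoprime m n) (h' : IsCoprime m' n')
    (hm : (M : ℤ) ∣ m' - m) (hn : (M : ℤ) ∣ n' - n) :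
    ∃ ε : SL(2, ℤ), ε ∈ Gamma M ∧ ε 0 0 * m + ε 0 1 * n = m' ∧ ε 1 0 * m + ε 1 1 * n = n' := by
  obtain ⟨t, s1, hts⟩ := h
  -- `t * m + s1 * n = 1`; put `s = -s1` so that `m * t - n * s = 1`
  obtain ⟨t0, s01, hts0⟩ := h'
  set s : ℤ := -s1 with hs
  set s0 : ℤ := -s01 with hs0
  have e1 : m * t - n * s = 1 := by rw [hs]; linear_combination hts
  have e2 : m' * t0 - n' * s0 = 1 := by rw [hs0]; linear_combination hts0
  set k : ℤ := s * t0 - t * s0 with hk
  set s' : ℤ := s0 + k * m' with hs'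
  set t' : ℤ := t0 + k * n' with ht'
  have e3 : m' * t' - n' * s' = 1 := by rw [hs', ht']; linear_combination e2
  have hdet : (!![m' * t - s' * n, s' * m - m' * s; n' * t - t' * n, t' * m - n' * s] :
      Matrix (Fin 2) (Fin 2) ℤ).det = 1 := by
    rw [Matrix.det_fin_two_of]
    linear_combination (m * t - n * s) * e3 + e1
  obtain ⟨ε, hε⟩ : ∃ ε : SL(2, ℤ), (ε : Matrix (Fin 2) (Fin 2) ℤ) =
      !![m' * t - s' * n, s' * m - m' * s; n' * t - t' * n, t' * m - n' * s] := ⟨⟨_, hdet⟩, rfl⟩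
  have h00 : ε 0 0 = m' * t - s' * n := congrFun (congrFun hε 0) 0
  have h01 : ε 0 1 = s' * m - m' * s := congrFun (congrFun hε 0) 1
  have h10 : ε 1 0 = n' * t - t' * n := congrFun (congrFun hε 1) 0
  have h11 : ε 1 1 = t' * m - n' * s := congrFun (congrFun hε 1) 1
  refine ⟨ε, ?_, ?_, ?_⟩
  · rw [Gamma_mem, h00, h01, h10, h11]
    have cm : ((m' : ℤ) : ZMod M) = (m : ZMod M) :=
      ((ZMod.intCast_eq_intCast_iff_dvd_sub m m' M).mpr hm).symm
    have cn : ((n' : ℤ) : ZMod M) = (n : ZMod M) :=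
      ((ZMod.intCast_eq_intCast_iff_dvd_sub n n' M).mpr hn).symm
    have c1 : (m : ZMod M) * t - n * s = 1 := by
      exact_mod_cast congrArg (Int.cast : ℤ → ZMod M) e1
    have c2 : (m : ZMod M) * t0 - n * s0 = 1 := by
      have := congrArg (Int.cast : ℤ → ZMod M) e2
      push_cast at this
      rw [cm, cn] at this
      exact this
    have cs : ((s' : ℤ) : ZMod M) = (s : ZMod M) := by
      rw [hs', hk]; push_cast; rw [cm]
      linear_combination (s : ZMod M) * c2 - (s0 : ZMod M) * c1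
    have ct : ((t' : ℤ) : ZMod M) = (t : ZMod M) := by
      rw [ht', hk]; push_cast; rw [cn]
      linear_combination (t : ZMod M) * c2 - (t0 : ZMod M) * c1
    refine ⟨?_, ?_, ?_, ?_⟩
    · push_cast; rw [cm, cs]; linear_combination c1
    · push_cast; rw [cm, cs]; ring
    · push_cast; rw [cn, ct]; ring
    · push_cast; rw [cn, ct]; linear_combination c1
  · rw [h00, h01]
    linear_combination m' * e1
  · rw [h10, h11]
    linear_combination n' * e1

/-- An integer matrix `≡ 1 mod M` of prime determinant `l ≡ 1 mod M` maps a primitive vector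
to a nonzero multiple of a `Γ(M)`-translate of it. -/
theorem exists_Gamma_of_det_prime (M l : ℕ) (hl : l.Prime) (hlM : (M : ℤ) ∣ (l : ℤ) - 1)
    (a b c d : ℤ) (hdet : a * d - b * c = l)
    (ha : (M : ℤ) ∣ a - 1) (hb : (M : ℤ) ∣ b) (hc : (M : ℤ) ∣ c) (hd : (M : ℤ) ∣ d - 1)
    {m n : ℤ} (h : IsCoprime m n) :
    ∃ ε : SL(2, ℤ), ε ∈ Gamma M ∧ ∃ g : ℤ, g ≠ 0 ∧
      a * m + b * n = g * (ε 0 0 * m + ε 0 1 * n) ∧
      c * m + d * n = g * (ε 1 0 * m + ε 1 1 * n) := by
  have hl0 : (l : ℤ) ≠ 0 := by exact_mod_cast hl.ne_zero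
  set u : ℤ := a * m + b * n with hu
  set w : ℤ := c * m + d * n with hw
  have hum : d * u - b * w = l * m := by rw [hu, hw]; linear_combination m * hdet
  have hwn : a * w - c * u = l * n := by rw [hu, hw]; linear_combination n * hdet
  obtain ⟨s, t, hst⟩ := h
  set G : ℕ := Int.gcd u w with hG
  have hGu : (G : ℤ) ∣ u := Int.gcd_dvd_left u w
  have hGw : (G : ℤ) ∣ w := Int.gcd_dvd_right u w
  have hGl : (G : ℤ) ∣ (l : ℤ) := by
    have h1 : (G : ℤ) ∣ l * m := hum ▸ dvd_sub (hGu.mul_left d) (hGw.mul_left b)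
    have h2 : (G : ℤ) ∣ l * n := hwn ▸ dvd_sub (hGw.mul_left a) (hGu.mul_left c)
    have h3 : (l : ℤ) = s * (l * m) + t * (l * n) := by linear_combination (-(l : ℤ)) * hst
    rw [h3]
    exact dvd_add (h1.mul_left s) (h2.mul_left t)
  have hGl' : G ∣ l := Int.natCast_dvd_natCast.mp hGl
  have hGpos : 0 < G := Nat.pos_of_dvd_of_pos hGl' hl.pos
  have hG1 : (M : ℤ) ∣ (G : ℤ) - 1 := by
    rcases (Nat.dvd_prime hl).mp hGl' with h | h
    · rw [h]; simp
    · rw [h]; exact hlM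
  obtain ⟨m', n', hcop, hum', hwn'⟩ := Int.exists_gcd_one hGpos
  rw [← hG] at hum' hwn'
  have hcop' : IsCoprime m' n' := Int.isCoprime_iff_gcd_eq_one.mpr hcop
  obtain ⟨kG, hkG⟩ := hG1
  obtain ⟨ka, hka⟩ := ha
  obtain ⟨kb, hkb⟩ := hb
  obtain ⟨kc, hkc⟩ := hc
  obtain ⟨kd, hkd⟩ := hd
  have hm' : (M : ℤ) ∣ m' - m :=
    ⟨-(m' * kG) + ka * m + kb * n, by
      rw [hu] at hum'
      linear_combination (-m') * hkG + m * hka + n * hkb - hum'⟩
  have hn' : (M : ℤ) ∣ n' - n :=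
    ⟨-(n' * kG) + kc * m + kd * n, by
      rw [hw] at hwn'
      linear_combination (-n') * hkG + m * hkc + n * hkd - hwn'⟩
  obtain ⟨ε, hε, e1, e2⟩ := exists_Gamma_mulVec M ⟨s, t, hst⟩ hcop' hm' hn'
  refine ⟨ε, hε, (G : ℤ), by exact_mod_cast hGpos.ne', ?_, ?_⟩
  · rw [e1, hum', mul_comm]
  · rw [e2, hwn', mul_comm]

/-- (CUSP-MOVE) For `l ≡ 1 mod M`, every Hecke representative moves a cusp `x` inside
`T^k • Γ(M) • x`. -/
theorem repTQ_smul_eq (M l : ℕ) [Fact l.Prime] (h1 : (l : ZMod M) = 1) (i : OnePoint (ZMod l))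
    (x : OnePoint ℚ) :
    ∃ k : ℤ, ∃ ε ∈ Gamma M,
      repTQ l i • x = mapGL ℚ (ModularGroup.T ^ k) • mapGL ℚ ε • x := by
  have hl : l.Prime := Fact.out
  have hlM : (M : ℤ) ∣ (l : ℤ) - 1 := by
    rw [← ZMod.intCast_zmod_eq_zero_iff_dvd]
    push_cast
    rw [h1, sub_self]
  obtain ⟨m, n, hmn, rfl⟩ := exists_pt_coprime x
  have hne := ne_zero_of_isCoprime hmn
  induction i using OnePoint.rec with
  | infty =>
    obtain ⟨ε, hε, g, hg, e1, e2⟩ := exists_Gamma_of_det_prime M l hl hlM l 0 0 1 (by ring)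
      hlM (dvd_zero _) (dvd_zero _) (by simp) hmn
    refine ⟨0, ε, hε, ?_⟩
    rw [zpow_zero, map_one, one_smul, mapGL_smul_pt ε m n hne, smul_pt _ _ _ hne]
    have hg' : (g : ℚ) ≠ 0 := by exact_mod_cast hg
    rw [eq_comm, ← pt_mul_left (g : ℚ) _ _ hg']
    have e1' := congrArg (Int.cast : ℤ → ℚ) e1
    have e2' := congrArg (Int.cast : ℤ → ℚ) e2
    push_cast at e1' e2'
    congr 1
    · simp only [val_repTQ_infty, Matrix.of_apply, Matrix.cons_val_zero, Matrix.cons_val_one,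
        Matrix.cons_val', Matrix.cons_val_fin_one]
      push_cast
      linear_combination -e1'
    · simp only [val_repTQ_infty, Matrix.of_apply, Matrix.cons_val_zero, Matrix.cons_val_one,
        Matrix.cons_val', Matrix.cons_val_fin_one]
      push_cast
      linear_combination -e2'
  | coe j =>
    obtain ⟨kM, hkM⟩ := hlM
    obtain ⟨ε, hε, g, hg, e1, e2⟩ := exists_Gamma_of_det_prime M l hl ⟨kM, hkM⟩ 1
      ((j.val : ℤ) * (1 - l)) 0 l (by ring) (by simp)
      ⟨-(j.val : ℤ) * kM, by linear_combination (-(j.val : ℤ)) * hkM⟩ (dvd_zero _) ⟨kM, hkM⟩ hmn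
    refine ⟨(j.val : ℤ), ε, hε, ?_⟩
    have hg' : (g : ℚ) ≠ 0 := by exact_mod_cast hg
    set m' : ℤ := ε 0 0 * m + ε 0 1 * n with hm'
    set n' : ℤ := ε 1 0 * m + ε 1 1 * n with hn'
    have hne' : ((m' : ℤ) : ℚ) ≠ 0 ∨ ((n' : ℤ) : ℚ) ≠ 0 := by
      by_contra hcon
      rw [not_or, not_not, not_not] at hcon
      obtain ⟨z1, z2⟩ := hcon
      have z1' : m' = 0 := by exact_mod_cast z1
      have z2' : n' = 0 := by exact_mod_cast z2
      rw [z1', mul_zero] at e1
      rw [z2', mul_zero] at e2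
      have hl0 : (l : ℤ) ≠ 0 := by exact_mod_cast hl.ne_zero
      have hn0 : n = 0 := by
        have : (l : ℤ) * n = 0 := by linear_combination e2
        rcases mul_eq_zero.mp this with h | h
        · exact absurd h hl0
        · exact h
      have hm0 : m = 0 := by rw [hn0] at e1; linear_combination e1
      rw [hm0, hn0] at hmn
      obtain ⟨a, b, hab⟩ := hmn
      simp at hab
    rw [mapGL_smul_pt ε m n hne, smul_pt _ _ _ hne, smul_pt _ _ _ hne', val_mapGL_T_zpow]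
    rw [eq_comm, ← pt_mul_left (g : ℚ) _ _ hg']
    have e1' := congrArg (Int.cast : ℤ → ℚ) e1
    have e2' := congrArg (Int.cast : ℤ → ℚ) e2
    push_cast at e1' e2'
    congr 1
    · simp only [val_repTQ_coe, Matrix.of_apply, Matrix.cons_val_zero, Matrix.cons_val_one,
        Matrix.cons_val', Matrix.cons_val_fin_one]
      push_cast
      linear_combination -e1' - (j.val : ℚ) * e2'
    · simp only [val_repTQ_coe, Matrix.of_apply, Matrix.cons_val_zero, Matrix.cons_val_one,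
        Matrix.cons_val', Matrix.cons_val_fin_one]
      linear_combination -e2'

/-- (CM) `repTQ_smul_eq` under the name and binders requested by the L4 assembly. -/
theorem cusp_move (M l : ℕ) [NeZero M] [Fact l.Prime] (h1 : (l : ZMod M) = 1)
    (i : OnePoint (ZMod l)) (x : OnePoint ℚ) :
    ∃ k : ℤ, ∃ ε ∈ CongruenceSubgroup.Gamma M,
      repTQ l i • x = mapGL ℚ (ModularGroup.T ^ k) • mapGL ℚ ε • x :=
  repTQ_smul_eq M l h1 i x

/-- (C4) A `Γ₀(M)`-invariant function on cusps is a `T_l`-eigenfunction with eigenvalue `l + 1`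
when `l ≡ 1 mod M`. -/
theorem sum_repTQ_of_invariant {A : Type*} [AddCommGroup A] (M l : ℕ) [Fact l.Prime]
    (h1 : (l : ZMod M) = 1) (β : OnePoint ℚ → A)
    (hβ : ∀ γ ∈ Gamma0 M, ∀ x : OnePoint ℚ, β (mapGL ℚ γ • x) = β x) (x : OnePoint ℚ) :
    ∑ i, β (repTQ l i • x) = (l + 1) • β x := by
  have hT : ∀ k : ℤ, ModularGroup.T ^ k ∈ Gamma0 M := by
    intro k
    rw [Gamma0_mem, ModularGroup.coe_T_zpow]
    simp
  have hterm : ∀ i : OnePoint (ZMod l), β (repTQ l i • x) = β x := by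
    intro i
    obtain ⟨k, ε, hε, e⟩ := repTQ_smul_eq M l h1 i x
    rw [e, hβ _ (hT k), hβ _ (Gamma0_mem.mpr (Gamma_mem.mp hε).2.2.1)]
  rw [Finset.sum_congr rfl (fun i _ => hterm i), Finset.sum_const, Finset.card_univ]
  congr 1
  show Fintype.card (Option (ZMod l)) = l + 1
  rw [Fintype.card_option, ZMod.card]

end Fermat.Agent.S41.helper8689
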