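/-
helper1763 — S41 module C, symbol side (route #2474; captain chat #26, split of chat #81/#95):
CUSP-MOVE, C4 and its strong form S4, plus the formal C2'/C5 on the concrete carriers.

Carriers: cusps = `OnePoint ℚ` with Mathlib's action of `GL (Fin 2) ℚ`; `SL(2,ℤ)` acts through
`mapGL ℚ`; "symbols" are additive pair functions `ψ : OnePoint ℚ → OnePoint ℚ → A`; the rational
Hecke representatives are `helper8689.repTQ` (landed `helper8689_Cusps.lean`).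

* `cusp_move` : for `ℓ ≡ 1 (mod M)`, `repTQ ℓ i • x = T^k • ε • x` with `ε ∈ Γ(M)`.
* `symb_repTQ_smul_eq_zero`, `symT_eq_smul_of_vanish` (S4) : on `Γ₀(N)`-invariant additive pair
  functions killing `T` and `Γ(M)` (`N ∣ M`), `ψ c (αᵢ c) = 0` and `T_ℓ ψ = (ℓ + 1) ψ`.
* `sum_repTQ_smul_eq` (C4) : `∑ᵢ β (αᵢ x) = (ℓ + 1) β x` for `Γ₀(M)`-invariant `β`.
* `isInv_symT`, `symT_apply_smul` (C5) ; `exists_boundary_of_vanish` (C2').
-/
import Mathlib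
import Fermat.Agent.S41.helper1763_Boundary
import Fermat.Agent.S41.helper8689_Cusps

set_option autoImplicit false

open CongruenceSubgroup Matrix.SpecialLinearGroup
open scoped MatrixGroups

namespace Fermat.Agent.S41.helper1763

open Fermat.Agent.S16.helper2138
open Fermat.Agent.S41.helper8689 (repTQ)

/-! ### Additive pair functions -/

/-- An additive pair function ("symbol functional"): `ψ a b + ψ b c = ψ a c`. -/
def IsSymb {X : Type*} {A : Type*} [AddCommGroup A] (ψ : X → X → A) : Prop :=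
  ∀ a b c, ψ a b + ψ b c = ψ a c

section General

variable {X : Type*} {A : Type*} [AddCommGroup A] {ψ : X → X → A}

theorem IsSymb.self (hψ : IsSymb ψ) (a : X) : ψ a a = 0 := by
  have h := hψ a a a
  exact add_eq_right.mp h

theorem IsSymb.symm (hψ : IsSymb ψ) (a b : X) : ψ b a = -ψ a b := by
  have h := hψ a b a
  rw [hψ.self] at h
  exact eq_neg_of_add_eq_zero_right h

theorem IsSymb.sub (hψ : IsSymb ψ) (x a b : X) : ψ a b = ψ x b - ψ x a := by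
  rw [← hψ x a b]; abel

theorem IsSymb.add {ψ' : X → X → A} (hψ : IsSymb ψ) (hψ' : IsSymb ψ') :
    IsSymb (fun a b => ψ a b + ψ' a b) := by
  intro a b c
  beta_reduce
  rw [← hψ a b c, ← hψ' a b c]; abel

theorem IsSymb.neg (hψ : IsSymb ψ) : IsSymb (fun a b => -ψ a b) := by
  intro a b c
  beta_reduce
  rw [← hψ a b c]; abel

theorem IsSymb.sub' {ψ' : X → X → A} (hψ : IsSymb ψ) (hψ' : IsSymb ψ') :
    IsSymb (fun a b => ψ a b - ψ' a b) := by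
  intro a b c
  beta_reduce
  rw [← hψ a b c, ← hψ' a b c]; abel

theorem IsSymb.nsmul (hψ : IsSymb ψ) (n : ℕ) : IsSymb (fun a b => n • ψ a b) := by
  intro a b c
  beta_reduce
  rw [← hψ a b c, smul_add]

theorem IsSymb.comp (hψ : IsSymb ψ) {Y : Type*} (f : Y → X) :
    IsSymb (fun a b => ψ (f a) (f b)) := fun a b c => hψ (f a) (f b) (f c)

theorem IsSymb.map (hψ : IsSymb ψ) {B : Type*} [AddCommGroup B] (f : A →+ B) :
    IsSymb (fun a b => f (ψ a b)) := by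
  intro a b c
  beta_reduce
  rw [← map_add, hψ a b c]

theorem IsSymb.sum {ι : Type*} (s : Finset ι) {Ψ : ι → X → X → A} (h : ∀ i, IsSymb (Ψ i)) :
    IsSymb (fun a b => ∑ i ∈ s, Ψ i a b) := by
  intro a b c
  beta_reduce
  rw [← Finset.sum_add_distrib]
  exact Finset.sum_congr rfl (fun i _ => h i a b c)

/-- **(G0)** For an additive pair function invariant under a group action, `ψ x (g • x)` does not
depend on `x`. -/
theorem IsSymb.smul_indep {G : Type*} [Group G] [MulAction G X] (hψ : IsSymb ψ)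
    (hinv : ∀ (g : G) (a b : X), ψ (g • a) (g • b) = ψ a b) (g : G) (x y : X) :
    ψ x (g • x) = ψ y (g • y) := by
  have h1 : ψ x (g • x) = ψ x y + ψ y (g • y) + ψ (g • y) (g • x) := by
    rw [hψ x y (g • y), hψ x (g • y) (g • x)]
  rw [h1, hinv g y x, hψ.symm x y]; abel

/-- **(G0)** ... and is additive in `g`. -/
theorem IsSymb.smul_mul {G : Type*} [Group G] [MulAction G X] (hψ : IsSymb ψ)
    (hinv : ∀ (g : G) (a b : X), ψ (g • a) (g • b) = ψ a b) (g h : G) (x : X) :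
    ψ x ((g * h) • x) = ψ x (g • x) + ψ x (h • x) := by
  rw [mul_smul, ← hψ x (g • x) (g • h • x), hinv g x (h • x)]

/-- The hom `g ↦ ψ x (g • x)` attached to an invariant additive pair function. -/
def IsSymb.toHom {G : Type*} [Group G] [MulAction G X] (hψ : IsSymb ψ)
    (hinv : ∀ (g : G) (a b : X), ψ (g • a) (g • b) = ψ a b) (x : X) : Additive G →+ A where
  toFun g := ψ x (Additive.toMul g • x)
  map_zero' := by simp [hψ.self]
  map_add' g h := by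
    rw [toMul_add]
    exact hψ.smul_mul hinv _ _ x

theorem IsSymb.smul_inv {G : Type*} [Group G] [MulAction G X] (hψ : IsSymb ψ)
    (hinv : ∀ (g : G) (a b : X), ψ (g • a) (g • b) = ψ a b) (g : G) (x : X) :
    ψ x (g⁻¹ • x) = -ψ x (g • x) := by
  have h := hψ.smul_mul hinv g g⁻¹ x
  rw [mul_inv_cancel, one_smul, hψ.self] at h
  exact (neg_eq_of_add_eq_zero_right h.symm).symm

theorem IsSymb.smul_zpow {G : Type*} [Group G] [MulAction G X] (hψ : IsSymb ψ)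
    (hinv : ∀ (g : G) (a b : X), ψ (g • a) (g • b) = ψ a b) (g : G) (k : ℤ) (x : X) :
    ψ x ((g ^ k) • x) = k • ψ x (g • x) := by
  have h := map_zsmul (hψ.toHom hinv x) k (Additive.ofMul g)
  rw [← ofMul_zpow] at h
  exact h

end General

/-! ### Integer matrices inside `GL (Fin 2) ℚ`, cusps -/

/-- An integer `2 × 2` matrix with nonzero determinant as an element of `GL (Fin 2) ℚ`
(junk value `1` when the determinant vanishes). -/
noncomputable def intGLQ (m : Matrix (Fin 2) (Fin 2) ℤ) : GL (Fin 2) ℚ :=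
  if h : m.det ≠ 0 then
    Matrix.GeneralLinearGroup.mkOfDetNeZero ((Int.castRingHom ℚ).mapMatrix m) (by
      rw [← RingHom.map_det, eq_intCast]
      exact_mod_cast h)
  else 1

theorem val_intGLQ {m : Matrix (Fin 2) (Fin 2) ℤ} (h : m.det ≠ 0) :
    ((intGLQ m : GL (Fin 2) ℚ) : Matrix (Fin 2) (Fin 2) ℚ) = (Int.castRingHom ℚ).mapMatrix m := by
  rw [intGLQ, dif_pos h]
  rfl

theorem intGLQ_apply {m : Matrix (Fin 2) (Fin 2) ℤ} (h : m.det ≠ 0) (i j : Fin 2) :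
    (intGLQ m : GL (Fin 2) ℚ) i j = ((m i j : ℤ) : ℚ) := by
  have := congrFun (congrFun (val_intGLQ h) i) j
  simpa using this

theorem intGLQ_mul {m₁ m₂ : Matrix (Fin 2) (Fin 2) ℤ} (h₁ : m₁.det ≠ 0) (h₂ : m₂.det ≠ 0) :
    intGLQ (m₁ * m₂) = intGLQ m₁ * intGLQ m₂ := by
  have h : (m₁ * m₂).det ≠ 0 := by rw [Matrix.det_mul]; exact mul_ne_zero h₁ h₂
  apply Matrix.GeneralLinearGroup.ext
  intro i j
  rw [Matrix.GeneralLinearGroup.coe_mul, val_intGLQ h, val_intGLQ h₁, val_intGLQ h₂, map_mul]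

theorem mapGL_eq_intGLQ (g : SL(2, ℤ)) : mapGL ℚ g = intGLQ (g : Matrix (Fin 2) (Fin 2) ℤ) := by
  apply Matrix.GeneralLinearGroup.ext
  intro i j
  rw [val_intGLQ (det_coe_SL g)]
  simp

/-- Upper triangular integer matrices fix the cusp `∞`. -/
theorem intGLQ_smul_infty {m : Matrix (Fin 2) (Fin 2) ℤ} (h : m.det ≠ 0) (h10 : m 1 0 = 0) :
    intGLQ m • (OnePoint.infty : OnePoint ℚ) = OnePoint.infty := by
  rw [OnePoint.smul_infty_eq_self_iff, intGLQ_apply h, h10, Int.cast_zero]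

/-- Invariance of a pair function on cusps under a subgroup of `SL(2,ℤ)`. -/
def IsInv (Γ : Subgroup SL(2, ℤ)) {A : Type*} (ψ : OnePoint ℚ → OnePoint ℚ → A) : Prop :=
  ∀ γ ∈ Γ, ∀ a b, ψ (mapGL ℚ γ • a) (mapGL ℚ γ • b) = ψ a b

theorem IsInv.mono {Γ Γ' : Subgroup SL(2, ℤ)} (h : Γ' ≤ Γ) {A : Type*}
    {ψ : OnePoint ℚ → OnePoint ℚ → A} (hψ : IsInv Γ ψ) : IsInv Γ' ψ :=
  fun γ hγ a b => hψ γ (h hγ) a b

section SubgroupAction

variable (Γ : Subgroup SL(2, ℤ)) {A : Type*} [AddCommGroup A]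

/-- For a `Γ`-invariant additive pair function, `ψ x (γ • x)` is independent of `x`. -/
theorem IsInv.indep {ψ : OnePoint ℚ → OnePoint ℚ → A} (hψ : IsSymb ψ) (hinv : IsInv Γ ψ)
    {γ : SL(2, ℤ)} (hγ : γ ∈ Γ) (x y : OnePoint ℚ) :
    ψ x (mapGL ℚ γ • x) = ψ y (mapGL ℚ γ • y) := by
  let _ : MulAction Γ (OnePoint ℚ) := MulAction.compHom (OnePoint ℚ) ((mapGL ℚ).comp Γ.subtype)
  exact hψ.smul_indep (G := Γ) (fun g a b => hinv g g.2 a b) ⟨γ, hγ⟩ x y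

/-- For a `Γ`-invariant additive pair function, `γ ↦ ψ x (γ • x)` is additive on `Γ`. -/
theorem IsInv.mul {ψ : OnePoint ℚ → OnePoint ℚ → A} (hψ : IsSymb ψ) (hinv : IsInv Γ ψ)
    {γ γ' : SL(2, ℤ)} (hγ : γ ∈ Γ) (hγ' : γ' ∈ Γ) (x : OnePoint ℚ) :
    ψ x (mapGL ℚ (γ * γ') • x) = ψ x (mapGL ℚ γ • x) + ψ x (mapGL ℚ γ' • x) := by
  let _ : MulAction Γ (OnePoint ℚ) := MulAction.compHom (OnePoint ℚ) ((mapGL ℚ).comp Γ.subtype)
  exact hψ.smul_mul (G := Γ) (fun g a b => hinv g g.2 a b) ⟨γ, hγ⟩ ⟨γ', hγ'⟩ x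

theorem IsInv.zpow {ψ : OnePoint ℚ → OnePoint ℚ → A} (hψ : IsSymb ψ) (hinv : IsInv Γ ψ)
    {γ : SL(2, ℤ)} (hγ : γ ∈ Γ) (k : ℤ) (x : OnePoint ℚ) :
    ψ x (mapGL ℚ (γ ^ k) • x) = k • ψ x (mapGL ℚ γ • x) := by
  let _ : MulAction Γ (OnePoint ℚ) := MulAction.compHom (OnePoint ℚ) ((mapGL ℚ).comp Γ.subtype)
  exact hψ.smul_zpow (G := Γ) (fun g a b => hinv g g.2 a b) ⟨γ, hγ⟩ k x

/-- **(S2 = C2').** An additive pair function with `ψ x (γ • x) = 0` on `Γ` is a boundary: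
`ψ a b = β b - β a` with `β` `Γ`-invariant. -/
theorem exists_boundary_of_vanish {ψ : OnePoint ℚ → OnePoint ℚ → A} (hψ : IsSymb ψ)
    (h0 : ∀ γ ∈ Γ, ∀ x : OnePoint ℚ, ψ x (mapGL ℚ γ • x) = 0) :
    ∃ β : OnePoint ℚ → A, (∀ γ ∈ Γ, ∀ x, β (mapGL ℚ γ • x) = β x) ∧ ∀ a b, ψ a b = β b - β a := by
  refine ⟨fun x => ψ OnePoint.infty x, fun γ hγ x => ?_, fun a b => hψ.sub OnePoint.infty a b⟩
  beta_reduce
  rw [← hψ OnePoint.infty x (mapGL ℚ γ • x), h0 γ hγ x, add_zero]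

end SubgroupAction

/-! ### The Hecke operator `T_ℓ` on pair functions -/

theorem det_Arep_ne_zero (ℓ : ℕ) [Fact ℓ.Prime] (x : OnePoint (ZMod ℓ)) : (Arep ℓ x).det ≠ 0 := by
  rw [det_Arep]
  exact_mod_cast (Fact.out : ℓ.Prime).ne_zero

/-- The landed rational representatives `helper8689.repTQ` are the integer matrices `Arep`. -/
theorem repTQ_eq_intGLQ (ℓ : ℕ) [Fact ℓ.Prime] (x : OnePoint (ZMod ℓ)) :
    repTQ ℓ x = intGLQ (Arep ℓ x) := by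
  apply Matrix.GeneralLinearGroup.ext
  intro a b
  rw [intGLQ_apply (det_Arep_ne_zero ℓ x)]
  induction x using OnePoint.rec with
  | infty =>
    rw [Fermat.Agent.S41.helper8689.val_repTQ_infty, Arep_infty]
    fin_cases a <;> fin_cases b <;> simp
  | coe j =>
    rw [Fermat.Agent.S41.helper8689.val_repTQ_coe, Arep_coe]
    fin_cases a <;> fin_cases b <;> simp

/-- The coset relation of `corrT` inside `GL (Fin 2) ℚ` (= `helper8689.repTQ_rel`). -/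
theorem repTQ_rel' (N ℓ : ℕ) [Fact ℓ.Prime] (hℓN : ¬ ℓ ∣ N) (i : OnePoint (ZMod ℓ))
    (γ : Gamma0 N) :
    repTQ ℓ i * mapGL ℚ (γ : SL(2, ℤ)) =
      mapGL ℚ ((corrT N ℓ hℓN).g i γ : SL(2, ℤ)) * repTQ ℓ ((corrT N ℓ hℓN).σ γ i) :=
  Fermat.Agent.S41.helper8689.repTQ_rel N ℓ hℓN i γ

section SymT

variable {A : Type*} [AddCommGroup A]

/-- `T_ℓ` on pair functions: `(T_ℓ ψ)(a, b) = ∑ᵢ ψ(αᵢ a, αᵢ b)` over the standard
representatives. -/
noncomputable def symT (ℓ : ℕ) [Fact ℓ.Prime] (ψ : OnePoint ℚ → OnePoint ℚ → A) :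
    OnePoint ℚ → OnePoint ℚ → A :=
  fun a b => ∑ x : OnePoint (ZMod ℓ), ψ (repTQ ℓ x • a) (repTQ ℓ x • b)

theorem symT_apply (ℓ : ℕ) [Fact ℓ.Prime] (ψ : OnePoint ℚ → OnePoint ℚ → A) (a b : OnePoint ℚ) :
    symT ℓ ψ a b = ∑ x : OnePoint (ZMod ℓ), ψ (repTQ ℓ x • a) (repTQ ℓ x • b) := rfl

theorem isSymb_symT (ℓ : ℕ) [Fact ℓ.Prime] {ψ : OnePoint ℚ → OnePoint ℚ → A} (hψ : IsSymb ψ) :
    IsSymb (symT ℓ ψ) :=
  IsSymb.sum Finset.univ (fun x => hψ.comp (fun a => repTQ ℓ x • a))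

/-- **(S3 = C5, invariance).** `T_ℓ` preserves `Γ₀(M)`-invariance (`ℓ ∤ M`). -/
theorem isInv_symT (M ℓ : ℕ) [Fact ℓ.Prime] (hℓM : ¬ ℓ ∣ M)
    {ψ : OnePoint ℚ → OnePoint ℚ → A} (hinv : IsInv (Gamma0 M) ψ) :
    IsInv (Gamma0 M) (symT ℓ ψ) := by
  intro γ hγ a b
  rw [symT_apply, symT_apply]
  have hterm : ∀ x : OnePoint (ZMod ℓ),
      ψ (repTQ ℓ x • mapGL ℚ γ • a) (repTQ ℓ x • mapGL ℚ γ • b) =
        ψ (repTQ ℓ ((corrT M ℓ hℓM).σEquiv ⟨γ, hγ⟩ x) • a)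
          (repTQ ℓ ((corrT M ℓ hℓM).σEquiv ⟨γ, hγ⟩ x) • b) := by
    intro x
    have hrel := repTQ_rel' M ℓ hℓM x ⟨γ, hγ⟩
    rw [← mul_smul, ← mul_smul, hrel, mul_smul, mul_smul,
      hinv _ ((corrT M ℓ hℓM).g x ⟨γ, hγ⟩).2]
    rfl
  rw [Finset.sum_congr rfl (fun x _ => hterm x)]
  exact Equiv.sum_comp ((corrT M ℓ hℓM).σEquiv ⟨γ, hγ⟩) (fun y => ψ (repTQ ℓ y • a) (repTQ ℓ y • b))

/-- **(S3 = C5, compatibility with `heckeHomT`).** If `ψ` induces `φ` on `Γ₀(M)`, then `T_ℓ ψ`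
induces `heckeHomT M ℓ φ`. -/
theorem symT_apply_smul (M ℓ : ℕ) [Fact ℓ.Prime] (hℓM : ¬ ℓ ∣ M)
    {ψ : OnePoint ℚ → OnePoint ℚ → A} (hψ : IsSymb ψ)
    (φ : Additive (Gamma0 M) →+ A)
    (hφ : ∀ (γ : Gamma0 M) (x : OnePoint ℚ),
      ψ x (mapGL ℚ (γ : SL(2, ℤ)) • x) = φ (Additive.ofMul γ))
    (γ : Gamma0 M) (x : OnePoint ℚ) :
    symT ℓ ψ x (mapGL ℚ (γ : SL(2, ℤ)) • x) = heckeHomT M ℓ hℓM A φ (Additive.ofMul γ) := by
  rw [symT_apply, heckeHomT_apply]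
  have hterm : ∀ i : OnePoint (ZMod ℓ),
      ψ (repTQ ℓ i • x) (repTQ ℓ i • mapGL ℚ (γ : SL(2, ℤ)) • x) =
        φ (Additive.ofMul ((corrT M ℓ hℓM).g i γ)) +
          (ψ OnePoint.infty (repTQ ℓ ((corrT M ℓ hℓM).σEquiv γ i) • x) -
            ψ OnePoint.infty (repTQ ℓ i • x)) := by
    intro i
    have hrel := repTQ_rel' M ℓ hℓM i γ
    rw [← mul_smul (repTQ ℓ i) (mapGL ℚ (γ : SL(2, ℤ))) x, hrel, mul_smul,
      ← hψ (repTQ ℓ i • x) (repTQ ℓ ((corrT M ℓ hℓM).σ γ i) • x) _,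
      hφ ((corrT M ℓ hℓM).g i γ) _,
      hψ.sub OnePoint.infty (repTQ ℓ i • x) (repTQ ℓ ((corrT M ℓ hℓM).σ γ i) • x)]
    rw [Corr.σEquiv_apply]
    abel
  rw [Finset.sum_congr rfl (fun i _ => hterm i), Finset.sum_add_distrib, Finset.sum_sub_distrib,
    Equiv.sum_comp ((corrT M ℓ hℓM).σEquiv γ) (fun y => ψ OnePoint.infty (repTQ ℓ y • x)),
    sub_self, add_zero]

end SymT

/-! ### The cusp lemma: Hecke representatives move a cusp inside its `⟨T⟩ Γ(M)`-orbit -/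

/-- Modulo `M`, for `ℓ ≡ 1 (mod M)`, the standard representative `Arep ℓ x` is the translation
`T ^ bT ℓ x`. -/
theorem mapMatrix_Arep (M ℓ : ℕ) (hℓ : (ℓ : ZMod M) = 1) (x : OnePoint (ZMod ℓ)) :
    (Int.castRingHom (ZMod M)).mapMatrix (Arep ℓ x) =
      (Int.castRingHom (ZMod M)).mapMatrix
        ((ModularGroup.T ^ (bT ℓ x) : SL(2, ℤ)) : Matrix (Fin 2) (Fin 2) ℤ) := by
  rw [ModularGroup.coe_T_zpow]
  induction x using OnePoint.rec with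
  | infty =>
    ext a b
    fin_cases a <;> fin_cases b <;> simp [bT, hℓ]
  | coe j =>
    ext a b
    fin_cases a <;> fin_cases b <;> simp [bT, hℓ]

/-- **Cusp lemma.** For `ℓ ≡ 1 (mod M)`, every standard Hecke representative moves the cusp
`γ₀ ∞` to `T ^ k ε (γ₀ ∞)` with `ε ∈ Γ(M)`. -/
theorem exists_repTQ_smul_eq (M ℓ : ℕ) [Fact ℓ.Prime] (h1 : (ℓ : ZMod M) = 1)
    (γ₀ : SL(2, ℤ)) (i : OnePoint (ZMod ℓ)) :
    ∃ (k : ℤ) (ε : SL(2, ℤ)), ε ∈ Gamma M ∧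
      repTQ ℓ i • (mapGL ℚ γ₀ • (OnePoint.infty : OnePoint ℚ)) =
        mapGL ℚ (ModularGroup.T ^ k * ε) • (mapGL ℚ γ₀ • (OnePoint.infty : OnePoint ℚ)) := by
  have hℓp : ℓ.Prime := Fact.out
  have hℓ1 : ¬ ℓ ∣ 1 := by
    intro h
    exact hℓp.one_lt.ne' (Nat.dvd_one.mp h)
  -- the conjugate `γ₀⁻¹ α_i γ₀` lies in `SL(2,ℤ) · α_y`
  obtain ⟨y, τ, hτ⟩ := exists_gamma0_mul_Arep 1 ℓ hℓ1 (cj γ₀⁻¹ (Arep ℓ i))
    (by rw [det_cj, det_Arep]) (by simp)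
  have hE : Arep ℓ i * (γ₀ : Matrix (Fin 2) (Fin 2) ℤ) =
      (γ₀ : Matrix (Fin 2) (Fin 2) ℤ) * ((τ : SL(2, ℤ)) : Matrix (Fin 2) (Fin 2) ℤ) *
        Arep ℓ y := by
    rw [Matrix.mul_assoc, ← hτ, cj, inv_inv, ← Matrix.mul_assoc, ← Matrix.mul_assoc,
      coe_mul_coe_inv, Matrix.one_mul]
  set k : ℤ := bT ℓ i with hk
  set k' : ℤ := bT ℓ y with hk'
  set ε : SL(2, ℤ) := ModularGroup.T ^ (-k) * γ₀ * (τ : SL(2, ℤ)) * ModularGroup.T ^ k' * γ₀⁻¹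
    with hε
  refine ⟨k, ε, ?_, ?_⟩
  · -- `ε ≡ 1 (mod M)`
    have hmap : (Int.castRingHom (ZMod M)).mapMatrix (ε : Matrix (Fin 2) (Fin 2) ℤ) = 1 := by
      have hE' := congrArg (Int.castRingHom (ZMod M)).mapMatrix hE
      rw [map_mul, map_mul, map_mul, mapMatrix_Arep M ℓ h1 i, mapMatrix_Arep M ℓ h1 y] at hE'
      rw [hε]
      simp only [Matrix.SpecialLinearGroup.coe_mul, map_mul]
      rw [Matrix.mul_assoc ((Int.castRingHom (ZMod M)).mapMatrix _)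
          ((Int.castRingHom (ZMod M)).mapMatrix _) ((Int.castRingHom (ZMod M)).mapMatrix _),
        Matrix.mul_assoc ((Int.castRingHom (ZMod M)).mapMatrix _)
          (((Int.castRingHom (ZMod M)).mapMatrix _) * ((Int.castRingHom (ZMod M)).mapMatrix _))
          ((Int.castRingHom (ZMod M)).mapMatrix _), ← hE', ← Matrix.mul_assoc,
        ← map_mul, ← map_mul, ← map_mul, ← Matrix.SpecialLinearGroup.coe_mul,
        ← Matrix.SpecialLinearGroup.coe_mul, ← Matrix.SpecialLinearGroup.coe_mul]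
      have : ModularGroup.T ^ (-k) * ModularGroup.T ^ k * γ₀ * γ₀⁻¹ = (1 : SL(2, ℤ)) := by
        rw [zpow_neg]; group
      rw [this, Matrix.SpecialLinearGroup.coe_one, map_one]
    rw [Gamma_mem]
    have hent : ∀ a b : Fin 2, (((ε a b : ℤ)) : ZMod M) = (1 : Matrix (Fin 2) (Fin 2) (ZMod M)) a b := by
      intro a b
      rw [← hmap]
      simp
    refine ⟨?_, ?_, ?_, ?_⟩
    · simpa using hent 0 0
    · simpa using hent 0 1
    · simpa using hent 1 0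
    · simpa using hent 1 1
  · -- both sides are `γ₀ τ ∞`
    have hTε : ModularGroup.T ^ k * ε * γ₀ = γ₀ * (τ : SL(2, ℤ)) * ModularGroup.T ^ k' := by
      rw [hε, zpow_neg]; group
    have hL : repTQ ℓ i • (mapGL ℚ γ₀ • (OnePoint.infty : OnePoint ℚ)) =
        mapGL ℚ (γ₀ * (τ : SL(2, ℤ))) • (OnePoint.infty : OnePoint ℚ) := by
      rw [repTQ_eq_intGLQ, mapGL_eq_intGLQ γ₀, ← mul_smul, ← intGLQ_mul (det_Arep_ne_zero ℓ _) (det_coe_SL _),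
        hE, ← Matrix.SpecialLinearGroup.coe_mul,
        intGLQ_mul (det_coe_SL _) (det_Arep_ne_zero ℓ _), mul_smul, ← mapGL_eq_intGLQ]
      congr 1
      apply intGLQ_smul_infty (det_Arep_ne_zero ℓ _)
      induction y using OnePoint.rec with
      | infty => simp
      | coe j => simp
    have hR : mapGL ℚ (ModularGroup.T ^ k * ε) • (mapGL ℚ γ₀ • (OnePoint.infty : OnePoint ℚ)) =
        mapGL ℚ (γ₀ * (τ : SL(2, ℤ))) • (OnePoint.infty : OnePoint ℚ) := by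
      rw [← mul_smul, ← map_mul, hTε, map_mul, mul_smul]
      congr 1
      rw [mapGL_eq_intGLQ]
      apply intGLQ_smul_infty (det_coe_SL _)
      rw [ModularGroup.coe_T_zpow]
      simp
    rw [hL, hR]

/-- **CUSP-MOVE** (shape of chat #68/#81). For `ℓ ≡ 1 (mod M)`, every standard Hecke
representative moves every cusp `x` to `T^k ε x` with `ε ∈ Γ(M)`. -/
theorem cusp_move (M ℓ : ℕ) [Fact ℓ.Prime] (h1 : (ℓ : ZMod M) = 1) (i : OnePoint (ZMod ℓ))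
    (x : OnePoint ℚ) :
    ∃ k : ℤ, ∃ ε ∈ Gamma M, repTQ ℓ i • x = mapGL ℚ (ModularGroup.T ^ k) • mapGL ℚ ε • x := by
  obtain ⟨γ₀, rfl⟩ := x.exists_mem_SL2 ℤ
  obtain ⟨k, ε, hε, h⟩ := exists_repTQ_smul_eq M ℓ h1 γ₀ i
  exact ⟨k, ε, hε, by rw [h, map_mul, mul_smul]⟩

/-- CUSP-MOVE, weak form: every standard Hecke representative moves a cusp inside its
`Γ₀(M)`-orbit when `ℓ ≡ 1 (mod M)`. -/
theorem exists_Gamma0_smul_eq (M ℓ : ℕ) [Fact ℓ.Prime] (h1 : (ℓ : ZMod M) = 1)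
    (i : OnePoint (ZMod ℓ)) (x : OnePoint ℚ) :
    ∃ γ ∈ Gamma0 M, repTQ ℓ i • x = mapGL ℚ γ • x := by
  obtain ⟨k, ε, hε, h⟩ := cusp_move M ℓ h1 i x
  refine ⟨ModularGroup.T ^ k * ε, ?_, by rw [h, map_mul, mul_smul]⟩
  refine (Gamma0 M).mul_mem (T_zpow_mem_Gamma0 M k) ?_
  rw [Gamma_mem] at hε
  rw [mem_Gamma0_iff_dvd]
  exact (ZMod.intCast_zmod_eq_zero_iff_dvd _ _).mp hε.2.2.1

theorem Gamma_le_Gamma0_of_dvd {N M : ℕ} (hNM : N ∣ M) : Gamma M ≤ Gamma0 N := by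
  intro ε hε
  rw [Gamma_mem] at hε
  rw [mem_Gamma0_iff_dvd]
  exact (Int.natCast_dvd_natCast.mpr hNM).trans ((ZMod.intCast_zmod_eq_zero_iff_dvd _ _).mp hε.2.2.1)

section Vanish

variable {A : Type*} [AddCommGroup A]

/-- For `ℓ ≡ 1 (mod M)`, `N ∣ M`: a `Γ₀(N)`-invariant additive pair function killing
(the classes of) `T` and `Γ(M)` also kills every `(c, αᵢ c)`. -/
theorem symb_repTQ_smul_eq_zero (N M ℓ : ℕ) [Fact ℓ.Prime] (hNM : N ∣ M)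
    (h1 : (ℓ : ZMod M) = 1) {ψ : OnePoint ℚ → OnePoint ℚ → A} (hψ : IsSymb ψ)
    (hinv : IsInv (Gamma0 N) ψ)
    (hT : ∀ x : OnePoint ℚ, ψ x (mapGL ℚ ModularGroup.T • x) = 0)
    (hΓ : ∀ ε ∈ Gamma M, ∀ x : OnePoint ℚ, ψ x (mapGL ℚ ε • x) = 0)
    (c : OnePoint ℚ) (i : OnePoint (ZMod ℓ)) : ψ c (repTQ ℓ i • c) = 0 := by
  obtain ⟨γ₀, rfl⟩ := c.exists_mem_SL2 ℤ
  obtain ⟨k, ε, hε, hkε⟩ := exists_repTQ_smul_eq M ℓ h1 γ₀ i
  have hTk : ModularGroup.T ^ k ∈ Gamma0 N := T_zpow_mem_Gamma0 N k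
  have hT1 : ModularGroup.T ∈ Gamma0 N := by
    have := T_zpow_mem_Gamma0 N 1
    rwa [zpow_one] at this
  rw [hkε, IsInv.mul (Gamma0 N) hψ hinv hTk (Gamma_le_Gamma0_of_dvd hNM hε),
    IsInv.zpow (Gamma0 N) hψ hinv hT1, hT, hΓ ε hε, smul_zero, add_zero]

/-- **(S4 = C4, strong form).** For `ℓ ≡ 1 (mod M)`, `N ∣ M`: on `Γ₀(N)`-invariant additive pair
functions killing `T` and `Γ(M)`, the Hecke operator `T_ℓ` acts as `ℓ + 1`. -/
theorem symT_eq_smul_of_vanish (N M ℓ : ℕ) [Fact ℓ.Prime] (hNM : N ∣ M)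
    (h1 : (ℓ : ZMod M) = 1) {ψ : OnePoint ℚ → OnePoint ℚ → A} (hψ : IsSymb ψ)
    (hinv : IsInv (Gamma0 N) ψ)
    (hT : ∀ x : OnePoint ℚ, ψ x (mapGL ℚ ModularGroup.T • x) = 0)
    (hΓ : ∀ ε ∈ Gamma M, ∀ x : OnePoint ℚ, ψ x (mapGL ℚ ε • x) = 0) (a b : OnePoint ℚ) :
    symT ℓ ψ a b = (ℓ + 1) • ψ a b := by
  have hℓp : ℓ.Prime := Fact.out
  have key := symb_repTQ_smul_eq_zero N M ℓ hNM h1 hψ hinv hT hΓ
  rw [symT_apply]
  have hterm : ∀ i : OnePoint (ZMod ℓ), ψ (repTQ ℓ i • a) (repTQ ℓ i • b) = ψ a b := by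
    intro i
    rw [← hψ (repTQ ℓ i • a) a (repTQ ℓ i • b), ← hψ a b (repTQ ℓ i • b), key b i,
      hψ.symm a (repTQ ℓ i • a), key a i]
    simp
  rw [Finset.sum_congr rfl (fun i _ => hterm i), Finset.sum_const, Finset.card_univ,
    card_onePoint_zmod]

/-- **(C4).** For `ℓ ≡ 1 (mod M)` and a `Γ₀(M)`-invariant function `β` on cusps,
`∑ᵢ β (αᵢ x) = (ℓ + 1) β x`. -/
theorem sum_repTQ_smul_eq (M ℓ : ℕ) [Fact ℓ.Prime] (h1 : (ℓ : ZMod M) = 1)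
    (β : OnePoint ℚ → A) (hβ : ∀ γ ∈ Gamma0 M, ∀ x : OnePoint ℚ, β (mapGL ℚ γ • x) = β x)
    (x : OnePoint ℚ) :
    ∑ i : OnePoint (ZMod ℓ), β (repTQ ℓ i • x) = (ℓ + 1) • β x := by
  have hψ : IsSymb (fun a b : OnePoint ℚ => β b - β a) := fun a b c => by beta_reduce; abel
  have hinv : IsInv (Gamma0 M) (fun a b : OnePoint ℚ => β b - β a) := by
    intro γ hγ a b
    beta_reduce
    rw [hβ γ hγ a, hβ γ hγ b]
  have hT1 : ModularGroup.T ∈ Gamma0 M := by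
    have := T_zpow_mem_Gamma0 M 1
    rwa [zpow_one] at this
  have key := fun i => symb_repTQ_smul_eq_zero M M ℓ dvd_rfl h1 hψ hinv
    (fun x => by rw [hβ _ hT1 x, sub_self])
    (fun ε hε x => by
      rw [hβ _ (Gamma_le_Gamma0_of_dvd dvd_rfl hε) x, sub_self]) x i
  have hterm : ∀ i : OnePoint (ZMod ℓ), β (repTQ ℓ i • x) = β x := by
    intro i
    have := key i
    beta_reduce at this
    exact sub_eq_zero.mp this
  rw [Finset.sum_congr rfl (fun i _ => hterm i), Finset.sum_const, Finset.card_univ,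
    card_onePoint_zmod]

end Vanish

end Fermat.Agent.S41.helper1763
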