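/-
helper1763 — S41, leaf L4 input (CSPP of chat #131): the CSP application on pair functions.

From the captain's `Stmt_CSP`: an additive pair function `U : OnePoint ℚ → OnePoint ℚ → ZMod p`
which is invariant under `Γ₀(N)` and under its `diag(q,1)`-conjugate satisfies
`U x (γ • x) = 0` for all `γ ∈ Γ(M)` (`M` the modulus provided by `Stmt_CSP`).
-/
import Mathlib
import Fermat.Agent.S41.helper123_Spec
import Fermat.Agent.S41.helper5755_Generation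
import Fermat.Agent.S41.helper8689_Cusps
import Fermat.Agent.S41.helper1763_Symbols

set_option autoImplicit false

open CongruenceSubgroup Matrix.SpecialLinearGroup OnePoint
open scoped MatrixGroups

namespace Fermat.Agent.S41.helper1763

open Fermat.Agent.S41.helper8689 (diagQ repTQ)
open Fermat.Agent.S41.helper5755 (deltaQ conjD mapQ zInv)
open Fermat.Agent.S41.helper123 (Stmt_CSP InDelta IsZq upperUni lowerUni)

/-- Base-point independence for a single invariance element. -/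
theorem pair_indep {A : Type*} [AddCommGroup A] {U : OnePoint ℚ → OnePoint ℚ → A}
    (hU : ∀ a b c, U a b + U b c = U a c) {g : GL (Fin 2) ℚ}
    (hg : ∀ a b, U (g • a) (g • b) = U a b) (x y : OnePoint ℚ) :
    U x (g • x) = U y (g • y) := by
  have h1 : U x (g • x) = U x y + U y (g • y) + U (g • y) (g • x) := by
    rw [hU x y (g • y), hU x (g • y) (g • x)]
  have h2 : U x y + U y x = 0 := by
    have h3 := hU x y x
    have h4 := hU x x x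
    rw [h3]
    exact add_eq_right.mp h4
  rw [h1, hg y x]
  calc U x y + U y (g • y) + U y x = U y (g • y) + (U x y + U y x) := by abel
    _ = U y (g • y) := by rw [h2, add_zero]

theorem toGL_mapQ (γ : SL(2, ℤ)) : (toGL (mapQ γ) : GL (Fin 2) ℚ) = mapGL ℚ γ := by
  apply Matrix.GeneralLinearGroup.ext
  intro i j
  simp [mapQ]

theorem toGL_conjD_mapQ (q : ℕ) [NeZero q] (γ : SL(2, ℤ)) :
    (toGL (conjD q (NeZero.ne q) (mapQ γ)) : GL (Fin 2) ℚ) =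
      diagQ q * mapGL ℚ γ * (diagQ q)⁻¹ := by
  have hq0 : (q : ℚ) ≠ 0 := Nat.cast_ne_zero.mpr (NeZero.ne q)
  rw [eq_mul_inv_iff_mul_eq]
  apply Matrix.GeneralLinearGroup.ext
  intro i j
  rw [Matrix.GeneralLinearGroup.coe_mul, Matrix.GeneralLinearGroup.coe_mul,
    Matrix.mul_apply, Matrix.mul_apply, Fin.sum_univ_two, Fin.sum_univ_two,
    Fermat.Agent.S41.helper8689.val_diagQ]
  fin_cases i <;> fin_cases j <;> simp [Fermat.Agent.S41.helper5755.mapQ_apply]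
  field_simp

theorem mem_deltaQ_of_inDelta {N q : ℕ} {g : SL(2, ℚ)} (hg : InDelta N q g) : g ∈ deltaQ N q :=
  hg

theorem upperUni_mem_deltaQ (N : ℕ) {q : ℕ} {t : ℚ} (ht : IsZq q t) : upperUni t ∈ deltaQ N q := by
  have ht' : t ∈ zInv q := ht
  refine ⟨fun i j => ?_, 0, Subring.zero_mem _, ?_⟩
  · fin_cases i <;> fin_cases j
    · exact Subring.one_mem _
    · exact ht'
    · exact Subring.zero_mem _
    · exact Subring.one_mem _
  · simp [upperUni]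

theorem lowerUni_mem_deltaQ (N : ℕ) {q : ℕ} {y : ℚ} (hy : IsZq q y) :
    lowerUni ((N : ℚ) * y) ∈ deltaQ N q := by
  have hy' : y ∈ zInv q := hy
  have hN : ((N : ℚ)) ∈ zInv q := Fermat.Agent.S41.helper5755.natCast_mem_zInv q N
  refine ⟨fun i j => ?_, y, hy', ?_⟩
  · fin_cases i <;> fin_cases j
    · exact Subring.one_mem _
    · exact Subring.zero_mem _
    · exact Subring.mul_mem _ hN hy'
    · exact Subring.one_mem _
  · simp [lowerUni]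

theorem toGL_upperUni_smul_infty (t : ℚ) :
    (toGL (upperUni t) : GL (Fin 2) ℚ) • (∞ : OnePoint ℚ) = ∞ := by
  rw [OnePoint.smul_infty_eq_self_iff]
  rfl

theorem toGL_lowerUni_smul_zero (t : ℚ) :
    (toGL (lowerUni t) : GL (Fin 2) ℚ) • ((0 : ℚ) : OnePoint ℚ) = ((0 : ℚ) : OnePoint ℚ) := by
  have h11 : ((toGL (lowerUni t) : GL (Fin 2) ℚ) : Matrix (Fin 2) (Fin 2) ℚ) 1 1 = 1 := rfl
  have h01 : ((toGL (lowerUni t) : GL (Fin 2) ℚ) : Matrix (Fin 2) (Fin 2) ℚ) 0 1 = 0 := rfl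
  rw [OnePoint.smul_some_eq_ite, h11, h01]
  simp

/-- `toGL` of the `diag(q,1)`-conjugate of any `g ∈ SL(2, ℚ)`. -/
theorem toGL_conjD (q : ℕ) [NeZero q] (g : SL(2, ℚ)) :
    (toGL (conjD q (NeZero.ne q) g) : GL (Fin 2) ℚ) = diagQ q * toGL g * (diagQ q)⁻¹ := by
  have hq0 : (q : ℚ) ≠ 0 := Nat.cast_ne_zero.mpr (NeZero.ne q)
  rw [eq_mul_inv_iff_mul_eq]
  apply Matrix.GeneralLinearGroup.ext
  intro i j
  rw [Matrix.GeneralLinearGroup.coe_mul, Matrix.GeneralLinearGroup.coe_mul,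
    Matrix.mul_apply, Matrix.mul_apply, Fin.sum_univ_two, Fin.sum_univ_two,
    Fermat.Agent.S41.helper8689.val_diagQ]
  fin_cases i <;> fin_cases j <;> simp
  field_simp

/-- `Δ = Γ₀(N)[1/q]` is stable under conjugation by `diag(q,1)`. -/
theorem conjD_mem_deltaQ {N q : ℕ} (hq : q ≠ 0) {g : SL(2, ℚ)} (hg : g ∈ deltaQ N q) :
    conjD q hq g ∈ deltaQ N q := by
  obtain ⟨hent, y, hy, hgy⟩ := hg
  refine ⟨fun i j => ?_, y / q, Fermat.Agent.S41.helper5755.div_mem_zInv hq hy, ?_⟩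
  · fin_cases i <;> fin_cases j
    · exact hent 0 0
    · exact Subring.mul_mem _ (Fermat.Agent.S41.helper5755.natCast_mem_zInv q q) (hent 0 1)
    · exact Fermat.Agent.S41.helper5755.div_mem_zInv hq (hent 1 0)
    · exact hent 1 1
  · show g 1 0 / q = N * (y / q)
    rw [hgy]; ring

section DeltaInv

variable {A : Type*}

/-- Invariance under `Γ₀(N)` and its conjugate `diag(q,1) Γ₀(N) diag(q,1)⁻¹` implies invariance
under `Δ = Γ₀(N)[1/q]` (generation theorem of helper5755). -/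
theorem delta_inv_of_conj (N q : ℕ) [Fact q.Prime] (hqN : ¬ q ∣ N)
    (U : OnePoint ℚ → OnePoint ℚ → A)
    (hΓ : ∀ γ ∈ Gamma0 N, ∀ a b, U (mapGL ℚ γ • a) (mapGL ℚ γ • b) = U a b)
    (hΓc : ∀ γ ∈ Gamma0 N, ∀ a b,
      U ((diagQ q * mapGL ℚ γ * (diagQ q)⁻¹) • a) ((diagQ q * mapGL ℚ γ * (diagQ q)⁻¹) • b) =
        U a b) :
    ∀ g : SL(2, ℚ), g ∈ deltaQ N q →
      ∀ a b, U ((toGL g : GL (Fin 2) ℚ) • a) ((toGL g : GL (Fin 2) ℚ) • b) = U a b := by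
  have hq : q.Prime := Fact.out
  have hNq : Nat.Coprime N q := ((Nat.Prime.coprime_iff_not_dvd hq).mpr hqN).symm
  intro g hg
  refine Fermat.Agent.S41.helper5755.deltaQ_induction hq hNq
    (P := fun g => ∀ a b, U ((toGL g : GL (Fin 2) ℚ) • a) ((toGL g : GL (Fin 2) ℚ) • b) = U a b)
    ?_ ?_ ?_ hg
  · intro γ hγ a b
    rw [toGL_mapQ]
    exact hΓ γ hγ a b
  · intro γ hγ a b
    have := toGL_conjD_mapQ q γ
    rw [this]
    exact hΓc γ hγ a b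
  · intro g₁ g₂ _ _ h₁ h₂ a b
    rw [map_mul, mul_smul, mul_smul, h₁, h₂]

/-- Invariance under `Γ₀(N)` and its OTHER conjugate `diag(q,1)⁻¹ Γ₀(N) diag(q,1)` also implies
invariance under `Δ = Γ₀(N)[1/q]` (`Δ` is stable under conjugation by `diag(q,1)`). -/
theorem delta_inv_of_conj' (N q : ℕ) [Fact q.Prime] (hqN : ¬ q ∣ N)
    (U : OnePoint ℚ → OnePoint ℚ → A)
    (hΓ : ∀ γ ∈ Gamma0 N, ∀ a b, U (mapGL ℚ γ • a) (mapGL ℚ γ • b) = U a b)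
    (hΓc : ∀ γ ∈ Gamma0 N, ∀ a b,
      U (((diagQ q)⁻¹ * mapGL ℚ γ * diagQ q) • a) (((diagQ q)⁻¹ * mapGL ℚ γ * diagQ q) • b) =
        U a b) :
    ∀ g : SL(2, ℚ), g ∈ deltaQ N q →
      ∀ a b, U ((toGL g : GL (Fin 2) ℚ) • a) ((toGL g : GL (Fin 2) ℚ) • b) = U a b := by
  -- the shifted pair function `U' = U ∘ diag(q,1)⁻¹`
  have h' := delta_inv_of_conj N q hqN
    (fun a b => U ((diagQ q)⁻¹ • a) ((diagQ q)⁻¹ • b))
    (fun γ hγ a b => by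
      have h := hΓc γ hγ ((diagQ q)⁻¹ • a) ((diagQ q)⁻¹ • b)
      rw [← mul_smul, ← mul_smul] at h
      rw [← mul_smul, ← mul_smul]
      have e : (diagQ q)⁻¹ * mapGL ℚ γ * diagQ q * (diagQ q)⁻¹ = (diagQ q)⁻¹ * mapGL ℚ γ := by
        group
      rw [e] at h
      exact h)
    (fun γ hγ a b => by
      have h := hΓ γ hγ ((diagQ q)⁻¹ • a) ((diagQ q)⁻¹ • b)
      rw [← mul_smul, ← mul_smul] at h
      rw [← mul_smul, ← mul_smul]
      have e : (diagQ q)⁻¹ * (diagQ q * mapGL ℚ γ * (diagQ q)⁻¹) = mapGL ℚ γ * (diagQ q)⁻¹ := by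
        group
      rw [e]
      exact h)
  intro g hg a b
  have hq0 : q ≠ 0 := NeZero.ne q
  have h := h' (conjD q hq0 g) (conjD_mem_deltaQ hq0 hg) (diagQ q • a) (diagQ q • b)
  beta_reduce at h
  rw [toGL_conjD q g, ← mul_smul, ← mul_smul, ← mul_smul, ← mul_smul] at h
  have e : (diagQ q)⁻¹ * (diagQ q * toGL g * (diagQ q)⁻¹) * diagQ q = (toGL g : GL (Fin 2) ℚ) := by
    group
  rw [e, inv_smul_smul, inv_smul_smul] at h
  exact h

end DeltaInv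

/-- The CSP application for `Δ`-invariant additive pair functions with values in `ZMod p`. -/
theorem csp_of_delta_inv {N q p M : ℕ}
    (hcsp : ∀ (Φ : SL(2, ℚ) → ZMod p),
      (∀ g h : SL(2, ℚ), InDelta N q g → InDelta N q h → Φ (g * h) = Φ g + Φ h) →
      (∀ x : ℚ, IsZq q x → Φ (upperUni x) = 0) →
      (∀ y : ℚ, IsZq q y → Φ (lowerUni ((N : ℚ) * y)) = 0) →
      ∀ γ : SL(2, ℤ), γ ∈ CongruenceSubgroup.Gamma M →
        Φ (Matrix.SpecialLinearGroup.map (Int.castRingHom ℚ) γ) = 0)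
    (U : OnePoint ℚ → OnePoint ℚ → ZMod p) (hU : ∀ a b c, U a b + U b c = U a c)
    (hΔ : ∀ g : SL(2, ℚ), g ∈ deltaQ N q →
      ∀ a b, U ((toGL g : GL (Fin 2) ℚ) • a) ((toGL g : GL (Fin 2) ℚ) • b) = U a b)
    (γ : SL(2, ℤ)) (hγ : γ ∈ CongruenceSubgroup.Gamma M) (x : OnePoint ℚ) :
    U x (mapGL ℚ γ • x) = 0 := by
  have hself : ∀ a, U a a = 0 := fun a => add_eq_right.mp (hU a a a)
  have key := hcsp (fun g => U x ((toGL g : GL (Fin 2) ℚ) • x)) ?_ ?_ ?_ γ hγ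
  · have h := toGL_mapQ γ
    rw [← h]
    exact key
  · intro g h hg _
    rw [map_mul, mul_smul, ← hU x ((toGL g : GL (Fin 2) ℚ) • x) _,
      hΔ g (mem_deltaQ_of_inDelta hg)]
  · intro t ht
    rw [pair_indep hU (hΔ _ (upperUni_mem_deltaQ N ht)) x ∞, toGL_upperUni_smul_infty, hself]
  · intro y hy
    rw [pair_indep hU (hΔ _ (lowerUni_mem_deltaQ N hy)) x ((0 : ℚ) : OnePoint ℚ),
      toGL_lowerUni_smul_zero, hself]

/-- **(CSPP)**, statement of chat #131 verbatim. -/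
theorem csp_pair (hCSP : Stmt_CSP) (N q p : ℕ) [Fact q.Prime] (hN : 0 < N) (hqN : ¬ q ∣ N)
    (hp : p.Prime) (hp2 : p ≠ 2) (hqp : q ≠ p) :
    ∃ M, 0 < M ∧ ∀ U : OnePoint ℚ → OnePoint ℚ → ZMod p,
      (∀ a b c, U a b + U b c = U a c) →
      (∀ γ ∈ Gamma0 N, ∀ a b, U (mapGL ℚ γ • a) (mapGL ℚ γ • b) = U a b) →
      (∀ γ ∈ Gamma0 N, ∀ a b,
        U ((diagQ q * mapGL ℚ γ * (diagQ q)⁻¹) • a) ((diagQ q * mapGL ℚ γ * (diagQ q)⁻¹) • b) =
          U a b) →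
      ∀ γ ∈ CongruenceSubgroup.Gamma M, ∀ x, U x (mapGL ℚ γ • x) = 0 := by
  have hq : q.Prime := Fact.out
  obtain ⟨M, hM, hcsp⟩ := hCSP N q p hN hq hqN hp hp2 hqp
  exact ⟨M, hM, fun U hU hΓ hΓc γ hγ x =>
    csp_of_delta_inv hcsp U hU (delta_inv_of_conj N q hqN U hΓ hΓc) γ hγ x⟩

/-- (CSPP) for the OTHER conjugate `diag(q,1)⁻¹ Γ₀(N) diag(q,1)` (the set
`{g | ∃ s ∈ ρ(Γ₀(N)), g = b⁻¹ * s * b}`, `b = diagQ q`, of `helper7223.ihara_a_core`), with the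
same modulus `M` as `csp_pair`. -/
theorem csp_pair' (hCSP : Stmt_CSP) (N q p : ℕ) [Fact q.Prime] (hN : 0 < N) (hqN : ¬ q ∣ N)
    (hp : p.Prime) (hp2 : p ≠ 2) (hqp : q ≠ p) :
    ∃ M, 0 < M ∧ ∀ U : OnePoint ℚ → OnePoint ℚ → ZMod p,
      (∀ a b c, U a b + U b c = U a c) →
      (∀ γ ∈ Gamma0 N, ∀ a b, U (mapGL ℚ γ • a) (mapGL ℚ γ • b) = U a b) →
      (∀ γ ∈ Gamma0 N, ∀ a b,
        U (((diagQ q)⁻¹ * mapGL ℚ γ * diagQ q) • a) (((diagQ q)⁻¹ * mapGL ℚ γ * diagQ q) • b) =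
          U a b) →
      ∀ γ ∈ CongruenceSubgroup.Gamma M, ∀ x, U x (mapGL ℚ γ • x) = 0 := by
  have hq : q.Prime := Fact.out
  obtain ⟨M, hM, hcsp⟩ := hCSP N q p hN hq hqN hp hp2 hqp
  exact ⟨M, hM, fun U hU hΓ hΓc γ hγ x =>
    csp_of_delta_inv hcsp U hU (delta_inv_of_conj' N q hqN U hΓ hΓc) γ hγ x⟩

/-! ### Closed form: `U x (αᵢ x) = 0` for the Hecke representatives -/

theorem Gamma_le_Gamma_of_dvd {M K : ℕ} (h : M ∣ K) :
    CongruenceSubgroup.Gamma K ≤ CongruenceSubgroup.Gamma M := by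
  intro ε hε
  rw [Gamma_mem] at hε ⊢
  obtain ⟨h00, h01, h10, h11⟩ := hε
  have e00 := congrArg (ZMod.castHom h (ZMod M)) h00
  have e01 := congrArg (ZMod.castHom h (ZMod M)) h01
  have e10 := congrArg (ZMod.castHom h (ZMod M)) h10
  have e11 := congrArg (ZMod.castHom h (ZMod M)) h11
  rw [map_intCast] at e00 e01 e10 e11
  rw [map_one] at e00 e11
  rw [map_zero] at e01 e10
  exact ⟨e00, e01, e10, e11⟩

theorem mapGL_T_smul_infty :
    mapGL ℚ ModularGroup.T • (∞ : OnePoint ℚ) = ∞ := by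
  rw [mapGL_eq_intGLQ]
  apply intGLQ_smul_infty (det_coe_SL _)
  rw [ModularGroup.coe_T]
  rfl

/-- Final step shared by both conjugates. -/
theorem pair_repTQ_eq_zero_aux {N M₀ p : ℕ} (ℓ : ℕ) [Fact ℓ.Prime]
    (h1 : (ℓ : ZMod (N * M₀)) = 1) (U : OnePoint ℚ → OnePoint ℚ → ZMod p)
    (hU : ∀ a b c, U a b + U b c = U a c)
    (hΓ : ∀ γ ∈ Gamma0 N, ∀ a b, U (mapGL ℚ γ • a) (mapGL ℚ γ • b) = U a b)
    (hvan : ∀ γ ∈ CongruenceSubgroup.Gamma M₀, ∀ x, U x (mapGL ℚ γ • x) = 0)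
    (i : OnePoint (ZMod ℓ)) (x : OnePoint ℚ) : U x (repTQ ℓ i • x) = 0 := by
  have hsymb : IsSymb U := hU
  have hinv : IsInv (Gamma0 N) U := hΓ
  have hT1 : ModularGroup.T ∈ Gamma0 N := by
    have := Fermat.Agent.S16.helper2138.T_zpow_mem_Gamma0 N 1
    rwa [zpow_one] at this
  refine symb_repTQ_smul_eq_zero N (N * M₀) ℓ (dvd_mul_right N M₀) h1 hsymb hinv ?_ ?_ x i
  · intro y
    rw [IsInv.indep (Gamma0 N) hsymb hinv hT1 y ∞, mapGL_T_smul_infty, hsymb.self]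
  · intro ε hε y
    exact hvan ε (Gamma_le_Gamma_of_dvd (dvd_mul_left M₀ N) hε) y

/-- **Closed form of `hCSP`** (conjugate `diag(q,1) Γ₀(N) diag(q,1)⁻¹`): there is a modulus `M`
(a multiple of `N`) such that for every prime `ℓ ≡ 1 (mod M)`, every additive `ZMod p`-valued pair
function invariant under `Γ₀(N)` and its conjugate kills all `(x, αᵢ x)`, `αᵢ = repTQ ℓ i`. -/
theorem pair_repTQ_eq_zero_of_csp (hCSP : Stmt_CSP) (N q p : ℕ) [Fact q.Prime] (hN : 0 < N)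
    (hqN : ¬ q ∣ N) (hp : p.Prime) (hp2 : p ≠ 2) (hqp : q ≠ p) :
    ∃ M, 0 < M ∧ N ∣ M ∧ ∀ (ℓ : ℕ) [Fact ℓ.Prime], (ℓ : ZMod M) = 1 →
      ∀ U : OnePoint ℚ → OnePoint ℚ → ZMod p,
      (∀ a b c, U a b + U b c = U a c) →
      (∀ γ ∈ Gamma0 N, ∀ a b, U (mapGL ℚ γ • a) (mapGL ℚ γ • b) = U a b) →
      (∀ γ ∈ Gamma0 N, ∀ a b,
        U ((diagQ q * mapGL ℚ γ * (diagQ q)⁻¹) • a) ((diagQ q * mapGL ℚ γ * (diagQ q)⁻¹) • b) =
          U a b) →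
      ∀ (i : OnePoint (ZMod ℓ)) (x : OnePoint ℚ), U x (repTQ ℓ i • x) = 0 := by
  obtain ⟨M₀, hM₀, h⟩ := csp_pair hCSP N q p hN hqN hp hp2 hqp
  refine ⟨N * M₀, Nat.mul_pos hN hM₀, dvd_mul_right N M₀, ?_⟩
  intro ℓ _ h1 U hU hΓ hΓc i x
  exact pair_repTQ_eq_zero_aux ℓ h1 U hU hΓ (h U hU hΓ hΓc) i x

/-- **Closed form of `hCSP`** for the conjugate `diag(q,1)⁻¹ Γ₀(N) diag(q,1)`
(= `{g | ∃ s ∈ ρ(Γ₀(N)), g = b⁻¹ * s * b}` with `b = diagQ q`). -/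
theorem pair_repTQ_eq_zero_of_csp' (hCSP : Stmt_CSP) (N q p : ℕ) [Fact q.Prime] (hN : 0 < N)
    (hqN : ¬ q ∣ N) (hp : p.Prime) (hp2 : p ≠ 2) (hqp : q ≠ p) :
    ∃ M, 0 < M ∧ N ∣ M ∧ ∀ (ℓ : ℕ) [Fact ℓ.Prime], (ℓ : ZMod M) = 1 →
      ∀ U : OnePoint ℚ → OnePoint ℚ → ZMod p,
      (∀ a b c, U a b + U b c = U a c) →
      (∀ γ ∈ Gamma0 N, ∀ a b, U (mapGL ℚ γ • a) (mapGL ℚ γ • b) = U a b) →
      (∀ γ ∈ Gamma0 N, ∀ a b,
        U (((diagQ q)⁻¹ * mapGL ℚ γ * diagQ q) • a) (((diagQ q)⁻¹ * mapGL ℚ γ * diagQ q) • b) =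
          U a b) →
      ∀ (i : OnePoint (ZMod ℓ)) (x : OnePoint ℚ), U x (repTQ ℓ i • x) = 0 := by
  obtain ⟨M₀, hM₀, h⟩ := csp_pair' hCSP N q p hN hqN hp hp2 hqp
  refine ⟨N * M₀, Nat.mul_pos hN hM₀, dvd_mul_right N M₀, ?_⟩
  intro ℓ _ h1 U hU hΓ hΓc i x
  exact pair_repTQ_eq_zero_aux ℓ h1 U hU hΓ (h U hU hΓ hΓc) i x

end Fermat.Agent.S41.helper1763
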