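/-
S41, module B consumers (Θ-Hecke / Θ-deg): a definition-agnostic REINDEXING ENGINE for
orbit-summed crossing kernels.  helper3777.  Mathlib only.

Setting: a group `𝔾` acting on a set `E` ("symbols", e.g. pairs of cusps) and on a set `X`
("points", e.g. the upper half plane), a kernel `c : E → X → X → A` (crossing number of the
symbol `e` along a path from `z` to `w`) which is additive in the path and invariant under the
relevant elements of `𝔾`, and for a subgroup `K ≤ 𝔾` the orbit sum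
`summed c K e z w = ∑ᶠ e' ∈ K • e, c e' z w`.

* `summed_smul`, `summed_add`, `summed_basepoint` : invariance, path additivity and base point
  independence of the orbit sum (from invariance, additivity and finiteness of the kernel).
* `sum_summed_smul_eq` : the transfer identity
  `∑ i, I_{H'} e (a i • z) (a i • w) = ∑ j, I_H (b j • e) z w` from a counting hypothesis.
* `sum_summed_eq` : THE ENGINE.  If `a i * γ = g i * a (σ i)` with `g i ∈ H'` (the cocycle of a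
  coset system, e.g. `Corr.rel` / `Sys.rel`), then
  `∑ i, I_{H'} e z₀ (g i • z₀) = ∑ j, I_H (b j • e) z₀ (γ • z₀)`,
  i.e. `op (Θ_{H'} e) γ = ∑ j, Θ_H (b j • e) γ`.
* `count_equiv` : the counting hypothesis from coset data (decompositions up to a central
  subgroup acting trivially, distinctness of cosets, triviality of stabilisers).
-/
import Mathlib

set_option autoImplicit false

namespace Fermat.Agent.S41.helper3777

open Function

section Engine

variable {𝔾 : Type*} [Group 𝔾] {E X : Type*} [MulAction 𝔾 E] [MulAction 𝔾 X]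
variable {A : Type*} [AddCommGroup A]

/-- The orbit of `e` under a subgroup `K` of `𝔾`, as a plain set. -/
def orb (K : Subgroup 𝔾) (e : E) : Set E := {e' | ∃ d ∈ K, d • e = e'}

theorem mem_orb {K : Subgroup 𝔾} {e e' : E} : e' ∈ orb K e ↔ ∃ d ∈ K, d • e = e' := Iff.rfl

theorem orb_eq_orbit (K : Subgroup 𝔾) (e : E) : orb K e = MulAction.orbit K e := by
  ext e'
  constructor
  · rintro ⟨d, hd, rfl⟩
    exact ⟨⟨d, hd⟩, rfl⟩
  · rintro ⟨⟨d, hd⟩, rfl⟩
    exact ⟨d, hd, rfl⟩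

theorem mem_orb_self (K : Subgroup 𝔾) (e : E) : e ∈ orb K e := ⟨1, K.one_mem, one_smul _ _⟩

theorem smul_mem_orb {K : Subgroup 𝔾} {h : 𝔾} (hh : h ∈ K) {e e' : E} (he : e' ∈ orb K e) :
    h • e' ∈ orb K e := by
  obtain ⟨d, hd, rfl⟩ := he
  exact ⟨h * d, K.mul_mem hh hd, mul_smul _ _ _⟩

theorem smul_mem_orb_iff {K : Subgroup 𝔾} {h : 𝔾} (hh : h ∈ K) {e e' : E} :
    h • e' ∈ orb K e ↔ e' ∈ orb K e := by
  refine ⟨fun he => ?_, smul_mem_orb hh⟩
  have := smul_mem_orb (K.inv_mem hh) he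
  rwa [inv_smul_smul] at this

theorem orb_smul_of_mem {K : Subgroup 𝔾} {h : 𝔾} (hh : h ∈ K) (e : E) :
    orb K (h • e) = orb K e := by
  ext e'
  constructor
  · rintro ⟨d, hd, rfl⟩
    exact ⟨d * h, K.mul_mem hd hh, mul_smul _ _ _⟩
  · rintro ⟨d, hd, rfl⟩
    exact ⟨d * h⁻¹, K.mul_mem hd (K.inv_mem hh), by rw [mul_smul, inv_smul_smul]⟩

/-- The `K`-summed kernel `I_K e z w = ∑ᶠ e' ∈ K • e, c e' z w`. -/
noncomputable def summed (c : E → X → X → A) (K : Subgroup 𝔾) (e : E) (z w : X) : A :=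
  ∑ᶠ e' ∈ orb K e, c e' z w

omit [MulAction 𝔾 X] in
theorem summed_def (c : E → X → X → A) (K : Subgroup 𝔾) (e : E) (z w : X) :
    summed c K e z w = ∑ᶠ e' ∈ orb K e, c e' z w := rfl

omit [MulAction 𝔾 X] in
theorem summed_eq_orbit (c : E → X → X → A) (K : Subgroup 𝔾) (e : E) (z w : X) :
    summed c K e z w = ∑ᶠ e' ∈ MulAction.orbit K e, c e' z w := by
  rw [summed_def, orb_eq_orbit]

omit [MulAction 𝔾 X] in
/-- The orbit sum only depends on the orbit of the symbol. -/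
theorem summed_smul_symbol (c : E → X → X → A) {K : Subgroup 𝔾} {h : 𝔾} (hh : h ∈ K) (e : E)
    (z w : X) : summed c K (h • e) z w = summed c K e z w := by
  rw [summed_def, summed_def, orb_smul_of_mem hh]

variable {c : E → X → X → A} {K : Subgroup 𝔾} {e : E}

/-- Translating the symbols of an orbit sum by an element `t` for which the kernel is
invariant. -/
theorem finsum_mem_orb_smul (t : 𝔾) (ht : ∀ e z w, c (t • e) (t • z) (t • w) = c e z w)
    (K : Subgroup 𝔾) (e : E) (z w : X) :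
    ∑ᶠ e' ∈ orb K e, c e' (t • z) (t • w) = ∑ᶠ e'' ∈ {e'' | t • e'' ∈ orb K e}, c e'' z w := by
  refine finsum_mem_eq_of_bijOn (fun e' => t⁻¹ • e') ⟨?_, ?_, ?_⟩ ?_
  · intro e' he'
    show t • t⁻¹ • e' ∈ orb K e
    rwa [smul_inv_smul]
  · intro x _ y _ hxy
    exact (MulAction.injective t⁻¹) hxy
  · intro e'' he''
    exact ⟨t • e'', he'', inv_smul_smul _ _⟩
  · intro e' _
    have := ht (t⁻¹ • e') z w
    rw [smul_inv_smul] at this
    exact this

/-- `K`-invariance of the orbit sum in the pair of points. -/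
theorem summed_smul (hinv : ∀ h ∈ K, ∀ e z w, c (h • e) (h • z) (h • w) = c e z w)
    {h : 𝔾} (hh : h ∈ K) (z w : X) :
    summed c K e (h • z) (h • w) = summed c K e z w := by
  rw [summed_def, finsum_mem_orb_smul h (hinv h hh) K e z w, summed_def]
  refine finsum_mem_congr ?_ (fun _ _ => rfl)
  ext e''
  exact smul_mem_orb_iff hh

omit [MulAction 𝔾 X] in
/-- Path additivity of the orbit sum. -/
theorem summed_add (hadd : ∀ e z w u, c e z w + c e w u = c e z u)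
    (hfin : ∀ z w, (orb K e ∩ support fun e' => c e' z w).Finite) (z w u : X) :
    summed c K e z w + summed c K e w u = summed c K e z u := by
  rw [summed_def, summed_def, summed_def, ← finsum_mem_add_distrib' (hfin z w) (hfin w u)]
  exact finsum_mem_congr rfl (fun e' _ => hadd e' z w u)

theorem kernel_self (hadd : ∀ e z w u, c e z w + c e w u = c e z u) (e : E) (z : X) :
    c e z z = 0 := by
  have := hadd e z z z
  exact add_eq_left.mp this

omit [MulAction 𝔾 X] in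
theorem summed_self (hadd : ∀ e z w u, c e z w + c e w u = c e z u) (z : X) :
    summed c K e z z = 0 := by
  rw [summed_def]
  exact finsum_mem_eq_zero_of_forall_eq_zero (fun e' _ => kernel_self hadd e' z)

omit [MulAction 𝔾 X] in
theorem summed_symm (hadd : ∀ e z w u, c e z w + c e w u = c e z u)
    (hfin : ∀ z w, (orb K e ∩ support fun e' => c e' z w).Finite) (z w : X) :
    summed c K e w z = - summed c K e z w := by
  have h := summed_add hadd hfin z w z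
  rw [summed_self hadd] at h
  exact eq_neg_of_add_eq_zero_right h

/-- Base point independence: `I e z₀ (h • z₀)` does not depend on `z₀` (for `h ∈ K`). -/
theorem summed_basepoint (hadd : ∀ e z w u, c e z w + c e w u = c e z u)
    (hinv : ∀ h ∈ K, ∀ e z w, c (h • e) (h • z) (h • w) = c e z w)
    (hfin : ∀ z w, (orb K e ∩ support fun e' => c e' z w).Finite)
    {h : 𝔾} (hh : h ∈ K) (z₀ z₁ : X) :
    summed c K e z₀ (h • z₀) = summed c K e z₁ (h • z₁) := by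
  have h1 := summed_add hadd hfin z₀ z₁ (h • z₀)
  have h2 := summed_add hadd hfin z₁ (h • z₁) (h • z₀)
  have h3 : summed c K e (h • z₁) (h • z₀) = summed c K e z₁ z₀ := summed_smul hinv hh z₁ z₀
  have h4 := summed_symm hadd hfin z₀ z₁
  rw [← h1, ← h2, h3, h4]
  abel

/-- The orbit sum `γ ↦ I e z₀ (γ • z₀)` is additive on `K`. -/
theorem summed_mul (hadd : ∀ e z w u, c e z w + c e w u = c e z u)
    (hinv : ∀ h ∈ K, ∀ e z w, c (h • e) (h • z) (h • w) = c e z w)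
    (hfin : ∀ z w, (orb K e ∩ support fun e' => c e' z w).Finite)
    {h h' : 𝔾} (hh : h ∈ K) (z₀ : X) :
    summed c K e z₀ ((h * h') • z₀) = summed c K e z₀ (h • z₀) + summed c K e z₀ (h' • z₀) := by
  rw [← summed_add hadd hfin z₀ (h • z₀) ((h * h') • z₀), mul_smul, summed_smul hinv hh]

end Engine

section Transfer

variable {𝔾 : Type*} [Group 𝔾] {E X : Type*} [MulAction 𝔾 E] [MulAction 𝔾 X]
variable {A : Type*} [AddCommGroup A]

theorem sum_ite_const_eq_of_equiv {ι κ : Type*} [Fintype ι] [Fintype κ] (P : ι → Prop)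
    (Q : κ → Prop) [DecidablePred P] [DecidablePred Q]
    (h : Nonempty ({i // P i} ≃ {j // Q j})) (x : A) :
    (∑ i, if P i then x else 0) = ∑ j, if Q j then x else 0 := by
  obtain ⟨φ⟩ := h
  rw [← Finset.sum_filter, ← Finset.sum_filter, Finset.sum_const, Finset.sum_const]
  congr 1
  rw [← Fintype.card_subtype, ← Fintype.card_subtype]
  exact Fintype.card_congr φ

variable {c : E → X → X → A}

/-- **Transfer identity.**  If for every symbol `e''` the number of `i` with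
`a i • e'' ∈ H' • e` equals the number of `j` with `e'' ∈ H • (b j • e)`, then
`∑ i, I_{H'} e (a i • z) (a i • w) = ∑ j, I_H (b j • e) z w`. -/
theorem sum_summed_smul_eq (H H' : Subgroup 𝔾) {ι κ : Type*} [Fintype ι] [Fintype κ]
    (a : ι → 𝔾) (b : κ → 𝔾) (e : E)
    (ha : ∀ i e z w, c (a i • e) (a i • z) (a i • w) = c e z w)
    (hfin' : ∀ z w, (orb H' e ∩ support fun e' => c e' z w).Finite)
    (hcount : ∀ e'' : E,
      Nonempty ({i // a i • e'' ∈ orb H' e} ≃ {j // e'' ∈ orb H (b j • e)}))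
    (z w : X) :
    ∑ i, summed c H' e (a i • z) (a i • w) = ∑ j, summed c H (b j • e) z w := by
  classical
  set f : E → A := fun e'' => c e'' z w with hf
  set S : ι → Set E := fun i => {e'' | a i • e'' ∈ orb H' e} with hS
  set T : κ → Set E := fun j => orb H (b j • e) with hT
  -- finiteness of the translated supports
  have hSfin : ∀ i, (S i ∩ support f).Finite := by
    intro i
    refine ((hfin' (a i • z) (a i • w)).image (fun e' => (a i)⁻¹ • e')).subset ?_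
    rintro e'' ⟨he'', hne⟩
    refine ⟨a i • e'', ⟨he'', ?_⟩, inv_smul_smul _ _⟩
    rw [mem_support, ha]
    exact hne
  have hcard : ∀ e'' : E, (∑ i, (S i).indicator f e'') = ∑ j, (T j).indicator f e'' := by
    intro e''
    simp only [Set.indicator_apply]
    exact sum_ite_const_eq_of_equiv _ _ (hcount e'') (f e'')
  have hTfin : ∀ j, (T j ∩ support f).Finite := by
    intro j
    refine (Set.finite_iUnion hSfin).subset ?_
    rintro e'' ⟨he'', hne⟩
    obtain ⟨φ⟩ := hcount e''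
    obtain ⟨i, hi⟩ := φ.symm ⟨j, he''⟩
    exact Set.mem_iUnion.mpr ⟨i, hi, hne⟩
  have hL : ∀ i, summed c H' e (a i • z) (a i • w) = ∑ᶠ e'', (S i).indicator f e'' := by
    intro i
    rw [summed_def, finsum_mem_orb_smul (a i) (ha i) H' e z w, finsum_mem_def]
  have hR : ∀ j, summed c H (b j • e) z w = ∑ᶠ e'', (T j).indicator f e'' := by
    intro j
    rw [summed_def, finsum_mem_def]
  rw [Finset.sum_congr rfl (fun i _ => hL i), Finset.sum_congr rfl (fun j _ => hR j),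
    sum_finsum_comm, sum_finsum_comm]
  · exact finsum_congr hcard
  · intro j _
    show (support ((T j).indicator f)).Finite
    rw [Set.support_indicator]
    exact hTfin j
  · intro i _
    show (support ((S i).indicator f)).Finite
    rw [Set.support_indicator]
    exact hSfin i

/-- **The reindexing engine.**  `H`, `H'` subgroups of `𝔾`; `a : ι → 𝔾` a finite system with
`a i * γ = g i * a (σ i)`, `g i ∈ H'`, `σ` a permutation (the cocycle data of a coset system at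
one element `γ`); `b : κ → 𝔾` the transposed representatives, related to `a` by the counting
hypothesis.  Then `∑ i, I_{H'} e z₀ (g i • z₀) = ∑ j, I_H (b j • e) z₀ (γ • z₀)`. -/
theorem sum_summed_eq (H H' : Subgroup 𝔾) {ι κ : Type*} [Fintype ι] [Fintype κ]
    (a : ι → 𝔾) (b : κ → 𝔾) (e : E)
    (hadd : ∀ e z w u, c e z w + c e w u = c e z u)
    (hinv' : ∀ h ∈ H', ∀ e z w, c (h • e) (h • z) (h • w) = c e z w)
    (ha : ∀ i e z w, c (a i • e) (a i • z) (a i • w) = c e z w)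
    (hfin' : ∀ z w, (orb H' e ∩ support fun e' => c e' z w).Finite)
    (hcount : ∀ e'' : E,
      Nonempty ({i // a i • e'' ∈ orb H' e} ≃ {j // e'' ∈ orb H (b j • e)}))
    (γ : 𝔾) (g : ι → 𝔾) (hg : ∀ i, g i ∈ H') (σ : ι ≃ ι)
    (hrel : ∀ i, a i * γ = g i * a (σ i)) (z₀ : X) :
    ∑ i, summed c H' e z₀ (g i • z₀) = ∑ j, summed c H (b j • e) z₀ (γ • z₀) := by
  rw [← sum_summed_smul_eq H H' a b e ha hfin' hcount z₀ (γ • z₀)]
  have key : ∀ i, summed c H' e z₀ (g i • z₀) =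
      (summed c H' e z₀ (a i • z₀) - summed c H' e z₀ (a (σ i) • z₀)) +
        summed c H' e (a i • z₀) (a i • γ • z₀) := by
    intro i
    rw [summed_basepoint hadd hinv' hfin' (hg i) z₀ (a (σ i) • z₀)]
    have e1 : g i • a (σ i) • z₀ = a i • γ • z₀ := by
      rw [← mul_smul, ← mul_smul, hrel i]
    rw [e1]
    have h1 := summed_add (K := H') (e := e) hadd hfin' (a (σ i) • z₀) z₀ (a i • γ • z₀)
    have h2 := summed_add (K := H') (e := e) hadd hfin' z₀ (a i • z₀) (a i • γ • z₀)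
    have h3 := summed_symm (K := H') (e := e) hadd hfin' z₀ (a (σ i) • z₀)
    rw [← h1, ← h2, h3]
    abel
  rw [Finset.sum_congr rfl (fun i _ => key i), Finset.sum_add_distrib, Finset.sum_sub_distrib,
    Equiv.sum_comp σ (fun i => summed c H' e z₀ (a i • z₀)), sub_self, zero_add]

end Transfer

section Count

variable {𝔾 : Type*} [Group 𝔾] {E : Type*} [MulAction 𝔾 E]

/-- **Counting lemma.**  `Z` a central subgroup of `𝔾` acting trivially on `E`.  If
`⋃ i, (a i)⁻¹ H'` and `⋃ j, H (b j)` agree up to `Z` ((D1), (D2)), the cosets `H' (a i)` resp.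
`H (b j)` are distinct up to `Z` ((Da), (Db)) and the stabilisers of `e₀` in `H'` and of
`b j • e₀` in `H` lie in `Z`, then for every symbol `e''` the sets
`{i | a i • e'' ∈ H' • e₀}` and `{j | e'' ∈ H • (b j • e₀)}` are in bijection. -/
theorem count_equiv (H H' Z : Subgroup 𝔾) {ι κ : Type*} (a : ι → 𝔾) (b : κ → 𝔾) (e₀ : E)
    (hZc : ∀ ζ ∈ Z, ∀ x : 𝔾, ζ * x = x * ζ)
    (hZt : ∀ ζ ∈ Z, ∀ e : E, ζ • e = e)
    (D1 : ∀ i, ∀ d' ∈ H', ∃ j, ∃ d ∈ H, ∃ ζ ∈ Z, (a i)⁻¹ * d' = ζ * (d * b j))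
    (D2 : ∀ j, ∀ d ∈ H, ∃ i, ∃ d' ∈ H', ∃ ζ ∈ Z, d * b j = ζ * ((a i)⁻¹ * d'))
    (Da : ∀ i i', ∀ d' ∈ H', ∀ ζ ∈ Z, a i = ζ * (d' * a i') → i = i')
    (Db : ∀ j j', ∀ d ∈ H, ∀ ζ ∈ Z, b j = ζ * (d * b j') → j = j')
    (St' : ∀ d' ∈ H', d' • e₀ = e₀ → d' ∈ Z)
    (St : ∀ j, ∀ d ∈ H, d • b j • e₀ = b j • e₀ → d ∈ Z)
    (e'' : E) :
    Nonempty ({i // a i • e'' ∈ orb H' e₀} ≃ {j // e'' ∈ orb H (b j • e₀)}) := by
  classical
  -- the relation between indices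
  let Rel : ι → κ → Prop := fun i j =>
    ∃ d' ∈ H', ∃ d ∈ H, ∃ ζ ∈ Z, (a i)⁻¹ * d' = ζ * (d * b j) ∧ (a i)⁻¹ • d' • e₀ = e''
  have hRelB : ∀ i j, Rel i j → e'' ∈ orb H (b j • e₀) := by
    rintro i j ⟨d', -, d, hd, ζ, hζ, hmat, he⟩
    refine ⟨d, hd, ?_⟩
    rw [← he, ← mul_smul (a i)⁻¹, hmat, mul_smul ζ, hZt ζ hζ, mul_smul]
  have hRelA : ∀ i j, Rel i j → a i • e'' ∈ orb H' e₀ := by
    rintro i j ⟨d', hd', d, -, ζ, -, -, he⟩
    exact ⟨d', hd', by rw [← he, smul_inv_smul]⟩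
  have htotal : ∀ i, a i • e'' ∈ orb H' e₀ → ∃ j, Rel i j := by
    rintro i ⟨d', hd', he⟩
    obtain ⟨j, d, hd, ζ, hζ, hmat⟩ := D1 i d' hd'
    exact ⟨j, d', hd', d, hd, ζ, hζ, hmat, by rw [he, inv_smul_smul]⟩
  have hsurj : ∀ j, e'' ∈ orb H (b j • e₀) → ∃ i, Rel i j := by
    rintro j ⟨d, hd, he⟩
    obtain ⟨i, d', hd', ζ, hζ, hmat⟩ := D2 j d hd
    have hζ' : ζ⁻¹ ∈ Z := Z.inv_mem hζ
    refine ⟨i, d', hd', d, hd, ζ⁻¹, hζ', ?_, ?_⟩
    · rw [hmat, ← mul_assoc, inv_mul_cancel, one_mul]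
    · have h1 : (a i)⁻¹ • d' • e₀ = ζ⁻¹ • (d * b j) • e₀ := by
        rw [hmat, mul_smul ζ, inv_smul_smul, mul_smul]
      rw [h1, hZt _ hζ', mul_smul, he]
  have hfun : ∀ i j₁ j₂, Rel i j₁ → Rel i j₂ → j₁ = j₂ := by
    rintro i j₁ j₂ ⟨d₁', hd₁', d₁, hd₁, ζ₁, hζ₁, hm₁, he₁⟩ ⟨d₂', hd₂', d₂, hd₂, ζ₂, hζ₂, hm₂, he₂⟩
    -- `s = d₁'⁻¹ d₂'` fixes `e₀`
    have hs : (d₁'⁻¹ * d₂') ∈ Z := by
      refine St' _ (H'.mul_mem (H'.inv_mem hd₁') hd₂') ?_
      have : d₁' • e₀ = d₂' • e₀ := (MulAction.injective (a i)⁻¹) (he₁.trans he₂.symm)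
      rw [mul_smul, ← this, inv_smul_smul]
    obtain ⟨s, hs_def⟩ : ∃ s, s = d₁'⁻¹ * d₂' := ⟨_, rfl⟩
    rw [← hs_def] at hs
    have hd₂'eq : d₂' = d₁' * s := by rw [hs_def]; group
    obtain ⟨ζ, hζ_def⟩ : ∃ ζ, ζ = ζ₁⁻¹ * s⁻¹ * ζ₂ := ⟨_, rfl⟩
    have hζ : ζ ∈ Z := by
      rw [hζ_def]
      exact Z.mul_mem (Z.mul_mem (Z.inv_mem hζ₁) (Z.inv_mem hs)) hζ₂
    have E : s * (ζ₁ * (d₁ * b j₁)) = ζ₂ * (d₂ * b j₂) := by
      rw [hZc s hs, ← hm₁, ← hm₂, hd₂'eq]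
      group
    have E1 : d₁ * b j₁ = ζ * (d₂ * b j₂) := by
      rw [hζ_def, mul_assoc, mul_assoc, ← E]
      group
    refine Db j₁ j₂ (d₁⁻¹ * d₂) (H.mul_mem (H.inv_mem hd₁) hd₂) ζ hζ ?_
    calc b j₁ = d₁⁻¹ * (d₁ * b j₁) := by group
      _ = d₁⁻¹ * (ζ * (d₂ * b j₂)) := by rw [E1]
      _ = (d₁⁻¹ * ζ) * (d₂ * b j₂) := by group
      _ = (ζ * d₁⁻¹) * (d₂ * b j₂) := by rw [hZc ζ hζ d₁⁻¹]
      _ = ζ * (d₁⁻¹ * d₂ * b j₂) := by group
  have hinj : ∀ i₁ i₂ j, Rel i₁ j → Rel i₂ j → i₁ = i₂ := by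
    rintro i₁ i₂ j ⟨d₁', hd₁', d₁, hd₁, ζ₁, hζ₁, hm₁, he₁⟩ ⟨d₂', hd₂', d₂, hd₂, ζ₂, hζ₂, hm₂, he₂⟩
    -- `s = d₁⁻¹ d₂` fixes `b j • e₀`
    have h1 : d₁ • b j • e₀ = e'' := by
      rw [← he₁, ← mul_smul (a i₁)⁻¹, hm₁, mul_smul ζ₁, hZt ζ₁ hζ₁, mul_smul]
    have h2 : d₂ • b j • e₀ = e'' := by
      rw [← he₂, ← mul_smul (a i₂)⁻¹, hm₂, mul_smul ζ₂, hZt ζ₂ hζ₂, mul_smul]
    have hs : (d₁⁻¹ * d₂) ∈ Z := by
      refine St j _ (H.mul_mem (H.inv_mem hd₁) hd₂) ?_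
      rw [mul_smul, h2, ← h1, inv_smul_smul]
    obtain ⟨s, hs_def⟩ : ∃ s, s = d₁⁻¹ * d₂ := ⟨_, rfl⟩
    rw [← hs_def] at hs
    have hd₂eq : d₂ = d₁ * s := by rw [hs_def]; group
    obtain ⟨ζ, hζ_def⟩ : ∃ ζ, ζ = ζ₂ * s * ζ₁⁻¹ := ⟨_, rfl⟩
    have hζ : ζ ∈ Z := by
      rw [hζ_def]
      exact Z.mul_mem (Z.mul_mem hζ₂ hs) (Z.inv_mem hζ₁)
    have E1 : d₁ * b j = ζ₁⁻¹ * ((a i₁)⁻¹ * d₁') := by
      rw [hm₁]
      group
    have E2 : (a i₂)⁻¹ * d₂' = ζ * ((a i₁)⁻¹ * d₁') := by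
      rw [hm₂, hd₂eq]
      calc ζ₂ * (d₁ * s * b j) = ζ₂ * ((d₁ * s) * b j) := by group
        _ = ζ₂ * ((s * d₁) * b j) := by rw [hZc s hs d₁]
        _ = ζ₂ * s * (d₁ * b j) := by group
        _ = ζ₂ * s * (ζ₁⁻¹ * ((a i₁)⁻¹ * d₁')) := by rw [E1]
        _ = ζ * ((a i₁)⁻¹ * d₁') := by rw [hζ_def]; group
    have E3 : (a i₁)⁻¹ = ζ⁻¹ * ((a i₂)⁻¹ * d₂') * d₁'⁻¹ := by
      rw [E2]
      group
    have E4 : a i₁ = d₁' * d₂'⁻¹ * a i₂ * ζ := by
      calc a i₁ = ((a i₁)⁻¹)⁻¹ := by group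
        _ = (ζ⁻¹ * ((a i₂)⁻¹ * d₂') * d₁'⁻¹)⁻¹ := by rw [← E3]
        _ = d₁' * d₂'⁻¹ * a i₂ * ζ := by group
    refine Da i₁ i₂ (d₁' * d₂'⁻¹) (H'.mul_mem hd₁' (H'.inv_mem hd₂')) ζ hζ ?_
    rw [hZc ζ hζ]
    rw [E4]
  -- build the equivalence
  have hex : ∀ x : {i // a i • e'' ∈ orb H' e₀}, ∃ j, Rel x.1 j := fun x => htotal x.1 x.2
  choose F hF using hex
  refine ⟨Equiv.ofBijective (fun x => ⟨F x, hRelB _ _ (hF x)⟩) ⟨?_, ?_⟩⟩
  · intro x y hxy
    have hxy' : F x = F y := congrArg Subtype.val hxy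
    have := hF y
    rw [← hxy'] at this
    exact Subtype.ext (hinj _ _ _ (hF x) this)
  · rintro ⟨j, hj⟩
    obtain ⟨i, hi⟩ := hsurj j hj
    refine ⟨⟨i, hRelA _ _ hi⟩, Subtype.ext ?_⟩
    exact hfun i _ _ (hF ⟨i, hRelA _ _ hi⟩) hi

end Count

end Fermat.Agent.S41.helper3777
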