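/-
S41, (Θ-Hecke): Hecke equivariance of orbit-summed crossing kernels on `Γ₀(N)`.  helper3777.

Concrete instantiation of the reindexing engine `helper3777_Reindex` for `T_ℓ` on `Γ₀(N)`:
`𝔾 = GL (Fin 2) ℚ` acting on pairs of rational cusps `OnePoint ℚ × OnePoint ℚ` (Mathlib action)
and on `ℍ` through `GL (Fin 2) ℝ`.
-/
import Mathlib
import Fermat.Agent.S41.helper3777_Reindex
import Fermat.Agent.S41.helper1763_Boundary

set_option autoImplicit false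

open CongruenceSubgroup Matrix.SpecialLinearGroup
open scoped MatrixGroups

namespace Fermat.Agent.S41.helper3777

open Fermat.Agent.S16.helper2138 Fermat.Agent.S41.helper1763

/-! ### Integer matrices inside `GL (Fin 2) ℚ` -/

/-- An integer `2 × 2` matrix with nonzero determinant as an element of `GL (Fin 2) ℚ`
(junk value `1` when the determinant vanishes). -/
noncomputable def glQ (m : Matrix (Fin 2) (Fin 2) ℤ) : GL (Fin 2) ℚ :=
  if h : m.det ≠ 0 then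
    Matrix.GeneralLinearGroup.mkOfDetNeZero ((Int.castRingHom ℚ).mapMatrix m) (by
      rw [← RingHom.map_det, eq_intCast]
      exact_mod_cast h)
  else 1

theorem val_glQ {m : Matrix (Fin 2) (Fin 2) ℤ} (h : m.det ≠ 0) :
    ((glQ m : GL (Fin 2) ℚ) : Matrix (Fin 2) (Fin 2) ℚ) = (Int.castRingHom ℚ).mapMatrix m := by
  rw [glQ, dif_pos h]
  rfl

theorem glQ_mul {m₁ m₂ : Matrix (Fin 2) (Fin 2) ℤ} (h₁ : m₁.det ≠ 0) (h₂ : m₂.det ≠ 0) :
    glQ (m₁ * m₂) = glQ m₁ * glQ m₂ := by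
  have h : (m₁ * m₂).det ≠ 0 := by rw [Matrix.det_mul]; exact mul_ne_zero h₁ h₂
  apply Matrix.GeneralLinearGroup.ext
  intro i j
  rw [Matrix.GeneralLinearGroup.coe_mul, val_glQ h, val_glQ h₁, val_glQ h₂, map_mul]

theorem glQ_inj {m₁ m₂ : Matrix (Fin 2) (Fin 2) ℤ} (h₁ : m₁.det ≠ 0) (h₂ : m₂.det ≠ 0)
    (h : glQ m₁ = glQ m₂) : m₁ = m₂ := by
  have h' := congrArg (fun g : GL (Fin 2) ℚ => (g : Matrix (Fin 2) (Fin 2) ℚ)) h
  simp only [val_glQ h₁, val_glQ h₂] at h'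
  ext i j
  have := congrFun (congrFun h' i) j
  simpa using this

theorem mapGL_eq_glQ (g : SL(2, ℤ)) : mapGL ℚ g = glQ (g : Matrix (Fin 2) (Fin 2) ℤ) := by
  apply Matrix.GeneralLinearGroup.ext
  intro i j
  rw [val_glQ (det_coe_SL g)]
  simp

/-- `GL (Fin 2) ℚ → GL (Fin 2) ℝ`. -/
noncomputable def toR : GL (Fin 2) ℚ →* GL (Fin 2) ℝ :=
  Matrix.GeneralLinearGroup.map (algebraMap ℚ ℝ)

theorem toR_val (g : GL (Fin 2) ℚ) (i j : Fin 2) :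
    ((toR g : GL (Fin 2) ℝ) : Matrix (Fin 2) (Fin 2) ℝ) i j =
      (((g : Matrix (Fin 2) (Fin 2) ℚ) i j : ℚ) : ℝ) := rfl

theorem toR_injective : Function.Injective toR := by
  intro g h hgh
  apply Matrix.GeneralLinearGroup.ext
  intro i j
  have := congrArg (fun x : GL (Fin 2) ℝ => (x : Matrix (Fin 2) (Fin 2) ℝ) i j) hgh
  simp only [toR_val] at this
  exact_mod_cast this

theorem toR_mapGL (g : SL(2, ℤ)) : toR (mapGL ℚ g) = mapGL ℝ g :=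
  Matrix.SpecialLinearGroup.map_mapGL g

theorem toR_glQ {m : Matrix (Fin 2) (Fin 2) ℤ} (h : m.det ≠ 0) : toR (glQ m) = intGL m := by
  apply Matrix.GeneralLinearGroup.ext
  intro i j
  rw [toR_val, val_glQ h, val_intGL h]
  simp

theorem det_glQ {m : Matrix (Fin 2) (Fin 2) ℤ} (h : m.det ≠ 0) :
    ((Matrix.GeneralLinearGroup.det (glQ m) : ℚˣ) : ℚ) = ((m.det : ℤ) : ℚ) := by
  rw [Matrix.GeneralLinearGroup.val_det_apply, val_glQ h, ← RingHom.map_det]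
  simp

/-! ### Scalars, the image of `Γ₀(N)`, the rational representatives of `T_ℓ` -/

/-- The image of `Γ₀(N)` in `GL (Fin 2) ℚ`. -/
def gammaQ (N : ℕ) : Subgroup (GL (Fin 2) ℚ) := (Gamma0 N).map (mapGL ℚ)

theorem mapGL_mem_gammaQ {N : ℕ} {δ : SL(2, ℤ)} (h : δ ∈ Gamma0 N) : mapGL ℚ δ ∈ gammaQ N :=
  ⟨δ, h, rfl⟩

/-- The scalar matrices in `GL (Fin 2) ℚ`. -/
def scalQ : Subgroup (GL (Fin 2) ℚ) := (Matrix.GeneralLinearGroup.scalar (Fin 2)).range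

theorem scalar_mem_scalQ (u : ℚˣ) : Matrix.GeneralLinearGroup.scalar (Fin 2) u ∈ scalQ :=
  ⟨u, rfl⟩

theorem scalQ_comm {ζ : GL (Fin 2) ℚ} (hζ : ζ ∈ scalQ) (x : GL (Fin 2) ℚ) : ζ * x = x * ζ := by
  obtain ⟨u, rfl⟩ := hζ
  exact Matrix.GeneralLinearGroup.scalar_commute u x

theorem scalar_val (u : ℚˣ) (i j : Fin 2) :
    ((Matrix.GeneralLinearGroup.scalar (Fin 2) u : GL (Fin 2) ℚ) : Matrix (Fin 2) (Fin 2) ℚ) i j =
      if i = j then (u : ℚ) else 0 := by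
  rw [Matrix.GeneralLinearGroup.coe_scalar, Matrix.scalar_apply, Matrix.diagonal_apply]

/-- Scalar matrices act trivially on `OnePoint ℚ`. -/
theorem scalar_smul_onePoint (u : ℚˣ) (c : OnePoint ℚ) :
    Matrix.GeneralLinearGroup.scalar (Fin 2) u • c = c := by
  have h10 : ((Matrix.GeneralLinearGroup.scalar (Fin 2) u : GL (Fin 2) ℚ) :
      Matrix (Fin 2) (Fin 2) ℚ) 1 0 = 0 := by rw [scalar_val]; simp
  have h01 : ((Matrix.GeneralLinearGroup.scalar (Fin 2) u : GL (Fin 2) ℚ) :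
      Matrix (Fin 2) (Fin 2) ℚ) 0 1 = 0 := by rw [scalar_val]; simp
  have h00 : ((Matrix.GeneralLinearGroup.scalar (Fin 2) u : GL (Fin 2) ℚ) :
      Matrix (Fin 2) (Fin 2) ℚ) 0 0 = u := by rw [scalar_val]; simp
  have h11 : ((Matrix.GeneralLinearGroup.scalar (Fin 2) u : GL (Fin 2) ℚ) :
      Matrix (Fin 2) (Fin 2) ℚ) 1 1 = u := by rw [scalar_val]; simp
  induction c using OnePoint.rec with
  | infty => rw [OnePoint.smul_infty_eq_self_iff]; exact h10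
  | coe t =>
    rw [OnePoint.smul_some_eq_ite, h10, h01, h00, h11, zero_mul, zero_add, add_zero,
      if_neg u.ne_zero, mul_div_cancel_left₀ _ u.ne_zero]

theorem scalQ_smul {ζ : GL (Fin 2) ℚ} (hζ : ζ ∈ scalQ) (e : OnePoint ℚ × OnePoint ℚ) :
    ζ • e = e := by
  obtain ⟨u, rfl⟩ := hζ
  rw [Prod.smul_def, scalar_smul_onePoint, scalar_smul_onePoint]

theorem glQ_smul_one {c : ℤ} (hc : c ≠ 0) :
    glQ (c • (1 : Matrix (Fin 2) (Fin 2) ℤ)) =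
      Matrix.GeneralLinearGroup.scalar (Fin 2) (Units.mk0 (c : ℚ) (by exact_mod_cast hc)) := by
  have hdet : (c • (1 : Matrix (Fin 2) (Fin 2) ℤ)).det ≠ 0 := by
    rw [Matrix.det_smul, Matrix.det_one, mul_one]
    exact pow_ne_zero _ hc
  apply Matrix.GeneralLinearGroup.ext
  intro i j
  rw [val_glQ hdet, scalar_val, RingHom.mapMatrix_apply, Matrix.map_apply, Matrix.smul_apply,
    Matrix.one_apply]
  by_cases hij : i = j
  · simp [hij]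
  · simp [hij]

theorem mapGL_neg_one :
    mapGL ℚ (-1 : SL(2, ℤ)) = Matrix.GeneralLinearGroup.scalar (Fin 2) (-1 : ℚˣ) := by
  apply Matrix.GeneralLinearGroup.ext
  intro i j
  rw [scalar_val]
  fin_cases i <;> fin_cases j <;> simp

/-- The representatives of `T_ℓ` in `GL (Fin 2) ℚ`: `!![ℓ, 0; 0, 1]` at `∞`, `!![1, j; 0, ℓ]`. -/
noncomputable def repTQ (ℓ : ℕ) (x : OnePoint (ZMod ℓ)) : GL (Fin 2) ℚ := glQ (Arep ℓ x)

theorem det_Arep_ne_zero {ℓ : ℕ} (hℓ : ℓ ≠ 0) (x : OnePoint (ZMod ℓ)) : (Arep ℓ x).det ≠ 0 := by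
  rw [det_Arep]
  exact_mod_cast hℓ

theorem toR_repTQ {ℓ : ℕ} (hℓ : ℓ ≠ 0) (x : OnePoint (ZMod ℓ)) : toR (repTQ ℓ x) = repT ℓ x := by
  rw [repTQ, toR_glQ (det_Arep_ne_zero hℓ x), repT_eq_intGL hℓ]

theorem det_repTQ {ℓ : ℕ} (hℓ : ℓ ≠ 0) (x : OnePoint (ZMod ℓ)) :
    ((Matrix.GeneralLinearGroup.det (repTQ ℓ x) : ℚˣ) : ℚ) = (ℓ : ℚ) := by
  rw [repTQ, det_glQ (det_Arep_ne_zero hℓ x), det_Arep]
  simp

theorem det_mapGL (δ : SL(2, ℤ)) : Matrix.GeneralLinearGroup.det (mapGL ℚ δ) = 1 := by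
  apply Units.ext
  rw [mapGL_eq_glQ, det_glQ (det_coe_SL δ), δ.det_coe]
  simp

/-! ### Stabilisers of pairs of distinct cusps -/

theorem mapGLQ_val (g : SL(2, ℤ)) (i j : Fin 2) :
    ((mapGL ℚ g : GL (Fin 2) ℚ) : Matrix (Fin 2) (Fin 2) ℚ) i j = ((g i j : ℤ) : ℚ) := by
  simp

theorem eq_one_or_neg_one_of_fix_infty_coe (g : SL(2, ℤ)) (t : ℚ)
    (h1 : mapGL ℚ g • (OnePoint.infty : OnePoint ℚ) = OnePoint.infty)
    (h2 : mapGL ℚ g • ((t : ℚ) : OnePoint ℚ) = ((t : ℚ) : OnePoint ℚ)) : g = 1 ∨ g = -1 := by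
  rw [OnePoint.smul_infty_eq_self_iff, mapGLQ_val] at h1
  have h10 : g 1 0 = 0 := by exact_mod_cast h1
  have hdet := det_SL g
  rw [h10, mul_zero, sub_zero] at hdet
  rw [OnePoint.smul_some_eq_ite, mapGLQ_val, mapGLQ_val, mapGLQ_val, mapGLQ_val, h10] at h2
  have h11ne : ((g 1 1 : ℤ) : ℚ) ≠ 0 := by
    intro h
    have : g 1 1 = 0 := by exact_mod_cast h
    rw [this, mul_zero] at hdet
    exact zero_ne_one hdet
  have hden : ((0 : ℤ) : ℚ) * t + ((g 1 1 : ℤ) : ℚ) ≠ 0 := by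
    rw [Int.cast_zero, zero_mul, zero_add]; exact h11ne
  rw [if_neg hden, OnePoint.coe_eq_coe, Int.cast_zero, zero_mul, zero_add,
    div_eq_iff h11ne] at h2
  rcases Int.eq_one_or_neg_one_of_mul_eq_one' hdet with ⟨h00, h11⟩ | ⟨h00, h11⟩
  · left
    have h01 : g 0 1 = 0 := by
      rw [h00, h11] at h2
      have : ((g 0 1 : ℤ) : ℚ) = 0 := by push_cast at h2; linarith
      exact_mod_cast this
    ext i j
    fin_cases i <;> fin_cases j <;> simp [h00, h01, h10, h11]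
  · right
    have h01 : g 0 1 = 0 := by
      rw [h00, h11] at h2
      have : ((g 0 1 : ℤ) : ℚ) = 0 := by push_cast at h2; linarith
      exact_mod_cast this
    ext i j
    fin_cases i <;> fin_cases j <;> simp [h00, h01, h10, h11]

/-- An element of `SL(2, ℤ)` fixing two distinct points of `ℙ¹(ℚ)` is `± 1`. -/
theorem eq_one_or_neg_one_of_fix_pair (g : SL(2, ℤ)) {a b : OnePoint ℚ} (hab : a ≠ b)
    (ha : mapGL ℚ g • a = a) (hb : mapGL ℚ g • b = b) : g = 1 ∨ g = -1 := by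
  obtain ⟨h, rfl⟩ := OnePoint.exists_mem_SL2 ℤ a
  have h1 : mapGL ℚ (h⁻¹ * g * h) • (OnePoint.infty : OnePoint ℚ) = OnePoint.infty := by
    rw [map_mul, map_mul, mul_smul, mul_smul, ha, ← mul_smul, ← map_mul, inv_mul_cancel,
      map_one, one_smul]
  have hb' : mapGL ℚ h⁻¹ • b ≠ OnePoint.infty := by
    intro hh
    apply hab
    rw [← hh, ← mul_smul, ← map_mul, mul_inv_cancel, map_one, one_smul]
  obtain ⟨t, ht⟩ := OnePoint.ne_infty_iff_exists.mp hb'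
  have h2 : mapGL ℚ (h⁻¹ * g * h) • ((t : ℚ) : OnePoint ℚ) = ((t : ℚ) : OnePoint ℚ) := by
    rw [ht, map_mul, map_mul, mul_smul, mul_smul, ← mul_smul (mapGL ℚ h), ← map_mul,
      mul_inv_cancel, map_one, one_smul, hb]
  rcases eq_one_or_neg_one_of_fix_infty_coe _ t h1 h2 with h3 | h3
  · left
    have : g = h * (h⁻¹ * g * h) * h⁻¹ := by group
    rw [this, h3]
    group
  · right
    have : g = h * (h⁻¹ * g * h) * h⁻¹ := by group
    rw [this, h3]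
    simp

theorem stab_mem_scalQ (N : ℕ) {a b : OnePoint ℚ} (hab : a ≠ b) {d : GL (Fin 2) ℚ}
    (hd : d ∈ gammaQ N) (h : d • ((a, b) : OnePoint ℚ × OnePoint ℚ) = (a, b)) : d ∈ scalQ := by
  obtain ⟨δ, -, rfl⟩ := hd
  rw [Prod.smul_mk, Prod.mk.injEq] at h
  rcases eq_one_or_neg_one_of_fix_pair δ hab h.1 h.2 with rfl | rfl
  · rw [map_one]; exact scalQ.one_mem
  · rw [mapGL_neg_one]; exact scalar_mem_scalQ _

/-! ### The coset data of `T_ℓ` -/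

theorem inv_mul_eq_of_central {G : Type*} [Group G] {a x y ζ : G} (hc : ∀ g : G, ζ * g = g * ζ)
    (h : a * x = ζ * y) : a⁻¹ * y = ζ⁻¹ * x := by
  have h1 : a⁻¹ * ζ⁻¹ = ζ⁻¹ * a⁻¹ := by rw [← mul_inv_rev, ← mul_inv_rev, hc]
  calc a⁻¹ * y = a⁻¹ * (ζ⁻¹ * (ζ * y)) := by group
    _ = a⁻¹ * (ζ⁻¹ * (a * x)) := by rw [h]
    _ = (a⁻¹ * ζ⁻¹) * (a * x) := by group
    _ = (ζ⁻¹ * a⁻¹) * (a * x) := by rw [h1]
    _ = ζ⁻¹ * x := by group

theorem Arep_one_zero (ℓ : ℕ) (x : OnePoint (ZMod ℓ)) : Arep ℓ x 1 0 = 0 := by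
  induction x using OnePoint.rec with
  | infty => simp
  | coe j => simp

section Cosets

variable (N ℓ : ℕ) [Fact ℓ.Prime] (hℓN : ¬ ℓ ∣ N)

include hℓN

/-- (D1): `(repTQ x)⁻¹ * d' = ζ * (d * repTQ y)`. -/
theorem repTQ_D1 (x : OnePoint (ZMod ℓ)) {d' : GL (Fin 2) ℚ} (hd' : d' ∈ gammaQ N) :
    ∃ y, ∃ d ∈ gammaQ N, ∃ ζ ∈ scalQ, (repTQ ℓ x)⁻¹ * d' = ζ * (d * repTQ ℓ y) := by
  have hℓ0 : ℓ ≠ 0 := (Fact.out : ℓ.Prime).ne_zero
  have hℓZ : (ℓ : ℤ) ≠ 0 := by exact_mod_cast hℓ0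
  obtain ⟨δ, hδ, rfl⟩ := hd'
  have hdetA : (Arep ℓ x).det = ℓ := det_Arep ℓ x
  have hadj10 : (Arep ℓ x).adjugate 1 0 = 0 := by
    rw [Matrix.adjugate_fin_two]
    simp [Arep_one_zero]
  have hdetadj : (Arep ℓ x).adjugate.det = ℓ := by
    rw [Matrix.det_adjugate, hdetA]
    simp
  have hdet : ((Arep ℓ x).adjugate * (δ : Matrix (Fin 2) (Fin 2) ℤ)).det = ℓ := by
    rw [Matrix.det_mul, hdetadj, δ.det_coe, mul_one]
  have hN : (N : ℤ) ∣ ((Arep ℓ x).adjugate * (δ : Matrix (Fin 2) (Fin 2) ℤ)) 1 0 := by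
    rw [Matrix.mul_apply, Fin.sum_univ_two, hadj10, zero_mul, zero_add]
    exact Dvd.dvd.mul_left (mem_Gamma0_iff_dvd.mp hδ) _
  obtain ⟨y, τ, hm⟩ := exists_gamma0_mul_Arep N ℓ hℓN _ hdet hN
  refine ⟨y, mapGL ℚ (τ : SL(2, ℤ)), mapGL_mem_gammaQ τ.2,
    (Matrix.GeneralLinearGroup.scalar (Fin 2) (Units.mk0 ((ℓ : ℤ) : ℚ) (by exact_mod_cast hℓZ)))⁻¹,
    scalQ.inv_mem (scalar_mem_scalQ _), ?_⟩
  have key : repTQ ℓ x * (mapGL ℚ (τ : SL(2, ℤ)) * repTQ ℓ y) =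
      Matrix.GeneralLinearGroup.scalar (Fin 2) (Units.mk0 ((ℓ : ℤ) : ℚ) (by exact_mod_cast hℓZ)) *
        mapGL ℚ δ := by
    rw [mapGL_eq_glQ, mapGL_eq_glQ, repTQ, repTQ, ← glQ_smul_one hℓZ,
      ← glQ_mul (det_coe_SL _) (det_Arep_ne_zero hℓ0 y), ← hm,
      ← glQ_mul (det_Arep_ne_zero hℓ0 x) (by rw [hdet]; exact hℓZ),
      ← glQ_mul (by rw [Matrix.det_smul, Matrix.det_one, mul_one]; exact pow_ne_zero _ hℓZ)
        (det_coe_SL _)]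
    congr 1
    rw [← Matrix.mul_assoc, Matrix.mul_adjugate, hdetA]
  exact inv_mul_eq_of_central (fun g => scalQ_comm (scalar_mem_scalQ _) g) key

/-- (D2): `d * repTQ y = ζ * ((repTQ x)⁻¹ * d')`. -/
theorem repTQ_D2 (y : OnePoint (ZMod ℓ)) {d : GL (Fin 2) ℚ} (hd : d ∈ gammaQ N) :
    ∃ x, ∃ d' ∈ gammaQ N, ∃ ζ ∈ scalQ, d * repTQ ℓ y = ζ * ((repTQ ℓ x)⁻¹ * d') := by
  have hℓ0 : ℓ ≠ 0 := (Fact.out : ℓ.Prime).ne_zero
  have hℓZ : (ℓ : ℤ) ≠ 0 := by exact_mod_cast hℓ0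
  obtain ⟨δ, hδ, rfl⟩ := hd
  set m : Matrix (Fin 2) (Fin 2) ℤ := (δ : Matrix (Fin 2) (Fin 2) ℤ) * Arep ℓ y with hm_def
  have hdetm : m.det = ℓ := by
    rw [hm_def, Matrix.det_mul, δ.det_coe, one_mul, det_Arep]
  have hdetadj : m.adjugate.det = ℓ := by
    rw [Matrix.det_adjugate, hdetm]
    simp
  have hN : (N : ℤ) ∣ m.adjugate 1 0 := by
    rw [Matrix.adjugate_fin_two]
    simp only [Matrix.of_apply, Matrix.cons_val_one, Matrix.cons_val_zero]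
    rw [hm_def, Matrix.mul_apply, Fin.sum_univ_two, Arep_one_zero, mul_zero, add_zero]
    exact (Dvd.dvd.mul_right (mem_Gamma0_iff_dvd.mp hδ) _).neg_right
  obtain ⟨x, τ, hτ⟩ := exists_gamma0_mul_Arep N ℓ hℓN _ hdetadj hN
  refine ⟨x, mapGL ℚ ((τ : SL(2, ℤ))⁻¹), mapGL_mem_gammaQ ((Gamma0 N).inv_mem τ.2),
    Matrix.GeneralLinearGroup.scalar (Fin 2) (Units.mk0 ((ℓ : ℤ) : ℚ) (by exact_mod_cast hℓZ)),
    scalar_mem_scalQ _, ?_⟩
  have key : (mapGL ℚ δ * repTQ ℓ y) * (mapGL ℚ (τ : SL(2, ℤ)) * repTQ ℓ x) =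
      Matrix.GeneralLinearGroup.scalar (Fin 2)
        (Units.mk0 ((ℓ : ℤ) : ℚ) (by exact_mod_cast hℓZ)) := by
    rw [mapGL_eq_glQ, mapGL_eq_glQ, repTQ, repTQ, ← glQ_smul_one hℓZ,
      ← glQ_mul (det_coe_SL _) (det_Arep_ne_zero hℓ0 y),
      ← glQ_mul (det_coe_SL _) (det_Arep_ne_zero hℓ0 x), ← hτ,
      ← glQ_mul (by rw [← hm_def, hdetm]; exact hℓZ) (by rw [hdetadj]; exact hℓZ)]
    congr 1
    rw [← hm_def, Matrix.mul_adjugate, hdetm]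
  rw [map_inv, ← mul_inv_rev]
  exact eq_mul_inv_of_mul_eq key

omit hℓN in
/-- (Da) = (Db): the cosets `Γ₀(N) (repTQ x)` are distinct, even up to scalars. -/
theorem repTQ_distinct (x x' : OnePoint (ZMod ℓ)) {d : GL (Fin 2) ℚ} (hd : d ∈ gammaQ N)
    {ζ : GL (Fin 2) ℚ} (hζ : ζ ∈ scalQ) (h : repTQ ℓ x = ζ * (d * repTQ ℓ x')) : x = x' := by
  have hℓ0 : ℓ ≠ 0 := (Fact.out : ℓ.Prime).ne_zero
  obtain ⟨δ, -, rfl⟩ := hd
  obtain ⟨u, rfl⟩ := hζ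
  -- determinants: `u ^ 2 = 1`
  have hdet := congrArg (fun g : GL (Fin 2) ℚ => ((Matrix.GeneralLinearGroup.det g : ℚˣ) : ℚ)) h
  simp only [map_mul, Units.val_mul, Matrix.GeneralLinearGroup.det_scalar, det_mapGL,
    one_mul, det_repTQ hℓ0, Units.val_pow_eq_pow_val, Fintype.card_fin] at hdet
  have hℓQ : (ℓ : ℚ) ≠ 0 := by exact_mod_cast hℓ0
  have hu2 : (u : ℚ) ^ 2 = 1 := by
    have : (u : ℚ) ^ 2 * (ℓ : ℚ) = 1 * (ℓ : ℚ) := by rw [one_mul]; exact hdet.symm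
    exact mul_right_cancel₀ hℓQ this
  have hu : u = 1 ∨ u = -1 := by
    have hfac : ((u : ℚ) - 1) * ((u : ℚ) + 1) = 0 := by ring_nf; linarith
    rcases mul_eq_zero.mp hfac with h1 | h1
    · left; exact Units.ext (by simpa using sub_eq_zero.mp h1)
    · right; exact Units.ext (by simpa using eq_neg_of_add_eq_zero_left h1)
  -- in both cases `repTQ x = mapGL δ₁ * repTQ x'`
  obtain ⟨δ₁, hδ₁⟩ : ∃ δ₁ : SL(2, ℤ), repTQ ℓ x = mapGL ℚ δ₁ * repTQ ℓ x' := by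
    rcases hu with rfl | rfl
    · exact ⟨δ, by rw [h, map_one, one_mul]⟩
    · exact ⟨-1 * δ, by rw [h, map_mul, mapGL_neg_one, mul_assoc]⟩
  have hR := congrArg toR hδ₁
  rw [map_mul, toR_repTQ hℓ0, toR_repTQ hℓ0, toR_mapGL] at hR
  exact (repT_inj x' x δ₁ hR.symm).symm

end Cosets

/-! ### The action on `ℍ` and the Hecke equivariance of orbit sums -/

/-- `GL (Fin 2) ℚ` acts on `ℍ` through `GL (Fin 2) ℝ` (not a global instance). -/
@[reducible] noncomputable def glQAction : MulAction (GL (Fin 2) ℚ) UpperHalfPlane :=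
  MulAction.compHom UpperHalfPlane toR

section Final

open UpperHalfPlane

attribute [local instance] glQAction

theorem glQ_smul_def (g : GL (Fin 2) ℚ) (z : ℍ) : g • z = toR g • z := rfl

variable (N ℓ : ℕ) [Fact ℓ.Prime] (hℓN : ¬ ℓ ∣ N)

include hℓN in
/-- The counting hypothesis of the engine for `T_ℓ` on `Γ₀(N)` and a pair of distinct cusps. -/
theorem hecke_count {a b : OnePoint ℚ} (hab : a ≠ b) (e'' : OnePoint ℚ × OnePoint ℚ) :
    Nonempty ({x // repTQ ℓ x • e'' ∈ orb (gammaQ N) ((a, b) : OnePoint ℚ × OnePoint ℚ)} ≃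
      {y // e'' ∈ orb (gammaQ N) (repTQ ℓ y • ((a, b) : OnePoint ℚ × OnePoint ℚ))}) :=
  count_equiv (gammaQ N) (gammaQ N) scalQ (repTQ ℓ) (repTQ ℓ) (a, b)
    (fun _ hζ x => scalQ_comm hζ x) (fun _ hζ e => scalQ_smul hζ e)
    (fun x _ hd' => repTQ_D1 N ℓ hℓN x hd')
    (fun y _ hd => repTQ_D2 N ℓ hℓN y hd)
    (fun x x' _ hd' _ hζ h => repTQ_distinct N ℓ x x' hd' hζ h)
    (fun x x' _ hd _ hζ h => repTQ_distinct N ℓ x x' hd hζ h)
    (fun _ hd' h => stab_mem_scalQ N hab hd' h)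
    (fun y _ hd h => stab_mem_scalQ N (a := repTQ ℓ y • a) (b := repTQ ℓ y • b)
      (fun hh => hab (MulAction.injective _ hh)) hd h) e''

variable {A : Type*} [AddCommGroup A] (c : OnePoint ℚ × OnePoint ℚ → ℍ → ℍ → A)

/-- **Hecke equivariance of orbit sums** (two-point form).  `c` a kernel on pairs of rational
cusps, additive in the path and invariant under `GL₂⁺(ℚ)`; then for `γ ∈ Γ₀(N)` with Hecke
cocycle `g x γ` (`repT x * γ = g x γ * repT (σ γ x)`),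
`∑ x, I (a,b) z₀ (g x γ • z₀) = ∑ x, I (repTQ x • (a,b)) z₀ (γ • z₀)`. -/
theorem hecke_summed (hadd : ∀ e z w u, c e z w + c e w u = c e z u)
    (hinv : ∀ g : GL (Fin 2) ℚ, 0 < ((Matrix.GeneralLinearGroup.det g : ℚˣ) : ℚ) →
      ∀ e z w, c (g • e) (toR g • z) (toR g • w) = c e z w)
    {a b : OnePoint ℚ} (hab : a ≠ b)
    (hfin : ∀ z w, (orb (gammaQ N) ((a, b) : OnePoint ℚ × OnePoint ℚ) ∩
      Function.support fun e' => c e' z w).Finite)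
    (γ : Gamma0 N) (z₀ : ℍ) :
    ∑ x, summed c (gammaQ N) (a, b) z₀
        (mapGL ℝ (((corrT N ℓ hℓN).g x γ : Gamma0 N) : SL(2, ℤ)) • z₀) =
      ∑ x, summed c (gammaQ N) (repTQ ℓ x • ((a, b) : OnePoint ℚ × OnePoint ℚ)) z₀
        (mapGL ℝ (γ : SL(2, ℤ)) • z₀) := by
  have hℓ0 : ℓ ≠ 0 := (Fact.out : ℓ.Prime).ne_zero
  have hrel : ∀ x, repTQ ℓ x * mapGL ℚ (γ : SL(2, ℤ)) =
      mapGL ℚ (((corrT N ℓ hℓN).g x γ : Gamma0 N) : SL(2, ℤ)) *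
        repTQ ℓ ((corrT N ℓ hℓN).σEquiv γ x) := by
    intro x
    apply toR_injective
    rw [map_mul, map_mul, toR_repTQ hℓ0, toR_repTQ hℓ0, toR_mapGL, toR_mapGL]
    exact (corrT N ℓ hℓN).rel x γ
  have h := sum_summed_eq (c := c) (gammaQ N) (gammaQ N) (repTQ ℓ) (repTQ ℓ) (a, b) hadd
    (fun h hh e z w => by
      obtain ⟨δ, -, rfl⟩ := hh
      exact hinv _ (by rw [det_mapGL]; simp) e z w)
    (fun x e z w => hinv _ (by rw [det_repTQ hℓ0]; exact_mod_cast Nat.pos_of_ne_zero hℓ0) e z w)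
    hfin (hecke_count N ℓ hℓN hab) (mapGL ℚ (γ : SL(2, ℤ)))
    (fun x => mapGL ℚ (((corrT N ℓ hℓN).g x γ : Gamma0 N) : SL(2, ℤ)))
    (fun x => mapGL_mem_gammaQ ((corrT N ℓ hℓN).g x γ).2) ((corrT N ℓ hℓN).σEquiv γ) hrel z₀
  simp only [glQ_smul_def, toR_mapGL] at h
  exact h

/-- **Θ-Hecke** (hypothesis-passing form).  If `Θ e : Hom(Γ₀(N), A)` is given by the orbit sum
`Θ e γ = ∑ᶠ e' ∈ Γ₀(N) • e, c e' z₀ (γ • z₀)` of a kernel `c` which is additive in the path,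
`GL₂⁺(ℚ)`-invariant and has finite crossing sets, then for distinct cusps `a ≠ b`
`T_ℓ (Θ (a, b)) = ∑ x, Θ (repTQ ℓ x • (a, b))`. -/
theorem heckeHomT_theta (hadd : ∀ e z w u, c e z w + c e w u = c e z u)
    (hinv : ∀ g : GL (Fin 2) ℚ, 0 < ((Matrix.GeneralLinearGroup.det g : ℚˣ) : ℚ) →
      ∀ e z w, c (g • e) (toR g • z) (toR g • w) = c e z w)
    (z₀ : ℍ) (Θ : OnePoint ℚ × OnePoint ℚ → (Additive (Gamma0 N) →+ A))
    (hΘ : ∀ e (γ : Gamma0 N), Θ e (Additive.ofMul γ) =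
      summed c (gammaQ N) e z₀ (mapGL ℝ (γ : SL(2, ℤ)) • z₀))
    {a b : OnePoint ℚ} (hab : a ≠ b)
    (hfin : ∀ z w, (orb (gammaQ N) ((a, b) : OnePoint ℚ × OnePoint ℚ) ∩
      Function.support fun e' => c e' z w).Finite) :
    heckeHomT N ℓ hℓN A (Θ (a, b)) =
      ∑ x, Θ (repTQ ℓ x • ((a, b) : OnePoint ℚ × OnePoint ℚ)) := by
  refine AddMonoidHom.ext fun γ => ?_
  obtain ⟨γ, rfl⟩ := Additive.ofMul.surjective γ
  rw [heckeHomT_apply, AddMonoidHom.finsetSum_apply]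
  simp only [hΘ]
  exact hecke_summed N ℓ hℓN c hadd hinv hab hfin γ z₀

end Final

end Fermat.Agent.S41.helper3777
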