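/-
helper3777 — S41 (level raising), module B: **Θ-Hecke**, final form.

`heckeHomT N ℓ hℓN ℤ (Theta (Gamma0 N) a b) = ∑ x, Theta (Gamma0 N) (repTQ ℓ x • a) (repTQ ℓ x • b)`
for helper6553's crossing map `Theta` and helper8689's rational Hecke representatives `repTQ`.
It is the instance of the reindexing engine (`helper3777_Reindex`, `helper3777_ThetaHecke`)
for the kernel `c e z w = cr e w z`.
-/
import Mathlib
import Fermat.Agent.S41.helper3777_ThetaHecke
import Fermat.Agent.S41.helper6553_Crossing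
import Fermat.Agent.S41.helper8689_Cusps

set_option autoImplicit false

open CongruenceSubgroup Matrix.SpecialLinearGroup
open scoped MatrixGroups

namespace Fermat.Agent.S41.helper3777

open Fermat.Agent.S16.helper2138 UpperHalfPlane

/-- helper8689's rational Hecke representatives are the ones used by the engine. -/
theorem repTQ_eq (ℓ : ℕ) [NeZero ℓ] (x : OnePoint (ZMod ℓ)) :
    helper8689.repTQ ℓ x = repTQ ℓ x := by
  apply toR_injective
  rw [toR_repTQ (NeZero.ne ℓ)]
  exact helper8689.repTQ_map ℓ x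

/-- The side indicator of a degenerate edge vanishes. -/
theorem R_self (a : OnePoint ℚ) (z : ℍ) : helper6553.R a a z = 0 := by
  unfold helper6553.R helper6553.side helper6553.sideR
  rw [if_neg]
  rw [mul_comm (helper6553.castV (helper6553.vecQ a) 0), sub_self, zero_mul]
  exact lt_irrefl 0

/-- The crossing map of a degenerate edge vanishes. -/
theorem Theta_self (Γ : Subgroup SL(2, ℤ)) (a : OnePoint ℚ) : helper6553.Theta Γ a a = 0 := by
  refine AddMonoidHom.ext fun γ => ?_
  obtain ⟨γ, rfl⟩ := Additive.ofMul.surjective γ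
  rw [helper6553.Theta_apply, AddMonoidHom.zero_apply]
  refine finsum_mem_eq_zero_of_forall_eq_zero fun e he => ?_
  obtain ⟨δ, -, rfl⟩ := he
  rw [Prod.smul_fst, Prod.smul_snd, R_self, R_self, sub_self]

/-- helper6553's `Theta` is the orbit sum of the kernel `c e z w = cr e w z`. -/
theorem Theta_eq_summed (N : ℕ) (e : OnePoint ℚ × OnePoint ℚ) (γ : Gamma0 N) (z₀ : ℍ) :
    helper6553.Theta (Gamma0 N) e.1 e.2 (Additive.ofMul γ) =
      summed (fun e z w => helper6553.cr e w z) (gammaQ N) e z₀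
        (mapGL ℝ (γ : SL(2, ℤ)) • z₀) := by
  rw [helper6553.Theta_apply_base (Gamma0 N) e.1 e.2 γ z₀, summed_eq_orbit,
    helper6553.orbS_eq_orbit]
  rfl

/-- **Θ-Hecke**: `T_ℓ (Θ_N a b) = ∑ x, Θ_N (α_x • a) (α_x • b)` with `α_x = repTQ ℓ x` the
rational copies of `helper2138.repT ℓ x` (`[[1, j], [0, ℓ]]` and `[[ℓ, 0], [0, 1]]`). -/
theorem heckeHomT_Theta (N ℓ : ℕ) [Fact ℓ.Prime] (hℓN : ¬ ℓ ∣ N) (a b : OnePoint ℚ) :
    heckeHomT N ℓ hℓN ℤ (helper6553.Theta (Gamma0 N) a b) =
      ∑ x : OnePoint (ZMod ℓ),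
        helper6553.Theta (Gamma0 N) (helper8689.repTQ ℓ x • a) (helper8689.repTQ ℓ x • b) := by
  by_cases hab : a = b
  · subst hab
    rw [Theta_self]
    exact ((corrT N ℓ hℓN).op_zero ℤ).trans
      (Finset.sum_eq_zero fun x _ => Theta_self _ _).symm
  · have h := heckeHomT_theta N ℓ hℓN (A := ℤ) (fun e z w => helper6553.cr e w z)
      (fun e z w u => by rw [add_comm]; exact helper6553.cr_add e u w z)
      (fun g hg e z w => helper6553.cr_smul g hg e w z)
      UpperHalfPlane.I (fun e => helper6553.Theta (Gamma0 N) e.1 e.2)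
      (fun e γ => Theta_eq_summed N e γ _) hab
      (fun z w => by
        refine (helper6553.tame_orbS (Gamma0 N) (a, b) w z).subset ?_
        rintro e ⟨he1, he2⟩
        refine ⟨?_, (helper6553.cr_ne_zero_iff e w z).mp he2⟩
        obtain ⟨d, ⟨δ, hδ, rfl⟩, rfl⟩ := he1
        exact ⟨δ, hδ, rfl⟩)
    simp only [repTQ_eq]
    exact h

end Fermat.Agent.S41.helper3777
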