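/-
helper2138 — S41 module A (core): two-group coset calculus on `Hom(Γ, A)`.

* `Sys Γ Γ' ι` : a coset system from `Γ` to `Γ'` (both `≤ SL(2,ℤ)`): matrices `α i : GL (Fin 2) ℝ`,
  a right action `σ` of `Γ` on the index set and a cocycle `g : ι → Γ → Γ'` with
  `α i * γ = g i γ * α (σ γ i)`.  Cosets may repeat (multiplicities are allowed).
* `Sys.op A : (Additive Γ' →+ A) →+ (Additive Γ →+ A)`, `(op φ) γ = ∑ i, φ (g i γ)`; natural in `A`.
* `Sys.comp`, `Sys.op_comp'` (composition), `Sys.sum`, `Sys.op_sum`, `Sys.one`, `Sys.one_op`.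
* `Sys.IsDistinct` (cosets distinct up to positive scalars), `Sys.compare`,
  `Sys.op_eq_of_bijective`, `Sys.op_eq_nsmul`, `Sys.op_eq_of_card` : comparison of operators of
  systems whose representatives agree up to left multiplication by `Γ'` and positive scalars.
* Constructors: `Sys.ofEx` (existence + distinctness), `Sys.ofCorr` (the single-group
  correspondences of S16), `Sys.res`, `Sys.conj`, `Sys.cores` (transfer for a right transversal).
* `Sys.cores_res` : `cores ∘ res = index • id`; `Sys.op_res_comm`, `Sys.op_cores_comm` : abstract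
  Hecke-equivariance of restriction and corestriction.
* `sysT`, `sysU` : the Hecke systems of `heckeHomT`, `heckeHomU`, with `sysT_op`, `sysU_op`,
  `sysT_isDistinct`, `sysU_isDistinct`.
-/
import Mathlib
import Fermat.Agent.S16.helper2138_HeckeHom

set_option autoImplicit false

open Matrix.SpecialLinearGroup
open scoped MatrixGroups

namespace Fermat.Agent.S41.helper2138

/-- Scalar matrices in `GL (Fin 2) ℝ`. -/
noncomputable abbrev sc (c : ℝˣ) : GL (Fin 2) ℝ := Matrix.GeneralLinearGroup.scalar (Fin 2) c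

theorem sc_comm (c : ℝˣ) (M : GL (Fin 2) ℝ) : sc c * M = M * sc c :=
  Matrix.GeneralLinearGroup.scalar_commute c M

theorem sc_one : sc 1 = 1 := map_one _

theorem sc_mul (c d : ℝˣ) : sc (c * d) = sc c * sc d := map_mul _ _ _

theorem sc_inv (c : ℝˣ) : sc c⁻¹ = (sc c)⁻¹ := map_inv _ _

theorem det_sc (c : ℝˣ) : Matrix.GeneralLinearGroup.det (sc c) = c ^ 2 := by
  rw [sc, Matrix.GeneralLinearGroup.det_scalar, Fintype.card_fin]

theorem det_mapGL (x : SL(2, ℤ)) : Matrix.GeneralLinearGroup.det (mapGL ℝ x) = 1 := by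
  ext
  simp

/-- A positive scalar matrix which is integral unimodular is trivial. -/
theorem sc_eq_mapGL {c : ℝˣ} (hc : 0 < (c : ℝ)) {x : SL(2, ℤ)} (h : sc c = mapGL ℝ x) :
    c = 1 ∧ x = 1 := by
  have hdet := congrArg Matrix.GeneralLinearGroup.det h
  rw [det_sc, det_mapGL] at hdet
  have hc1 : c = 1 := by
    apply Units.ext
    have h2 : (c : ℝ) ^ 2 = 1 := by
      have := congrArg Units.val hdet
      simpa using this
    have h3 : ((c : ℝ) - 1) * ((c : ℝ) + 1) = 0 := by ring_nf; linarith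
    rcases mul_eq_zero.mp h3 with h4 | h4
    · simpa using sub_eq_zero.mp h4
    · exfalso; linarith
  refine ⟨hc1, ?_⟩
  rw [hc1, sc_one] at h
  exact mapGL_injective (R := ℤ) (S := ℝ) (by rw [← h, map_one])

/-- group bookkeeping for `Sys.compare` (index part) -/
theorem grp_aux1 {G : Type*} [Group G] (A B X Y P Q D : G) (hD : D = B⁻¹ * A)
    (hc : ∀ M, D * M = M * D) (h : A * X * P = B * Y * Q) : D * (Y⁻¹ * X) * P = Q := by
  calc D * (Y⁻¹ * X) * P = Y⁻¹ * (D * (X * P)) := by rw [← mul_assoc D, hc Y⁻¹]; group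
    _ = Y⁻¹ * (B⁻¹ * (A * X * P)) := by rw [hD]; group
    _ = Q := by rw [h]; group

/-- group bookkeeping for `Sys.compare` (cocycle part) -/
theorem grp_aux2 {G : Type*} [Group G] (A B X Y D : G) (hD : D = B⁻¹ * A)
    (h : A * X = B * Y) : D = Y * X⁻¹ := by
  have hA : A = B * Y * X⁻¹ := by rw [← h]; group
  rw [hD, hA]; group

/-- group bookkeeping for `Sys.op_cores_comm` -/
theorem grp_aux4 {G : Type*} [Group G] (C Y T T' R R' : G) (hc : ∀ M, C * M = M * C)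
    (H : C * Y * (T * R) = T' * R') : C * (T'⁻¹ * Y * T) * R = R' := by
  symm
  calc R' = T'⁻¹ * (T' * R') := by group
    _ = T'⁻¹ * (C * Y * (T * R)) := by rw [H]
    _ = (T'⁻¹ * C) * (Y * (T * R)) := by group
    _ = (C * T'⁻¹) * (Y * (T * R)) := by rw [hc T'⁻¹]
    _ = C * (T'⁻¹ * Y * T) * R := by group

/-- group bookkeeping for `Sys.op_cores_comm` -/
theorem grp_aux5 {G : Type*} [Group G] (C Y T T' R : G) (H : C * Y * (T * R) = T' * R) :
    C = T' * (Y * T)⁻¹ := by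
  have h1 : C * Y * T = T' := mul_right_cancel (b := R) (by rw [← H]; group)
  rw [← h1]; group

/-- group bookkeeping for `Sys.op_eq_of_card` -/
theorem grp_aux3 {G : Type*} [Group G] (A A' X X' P D : G) (hD : D = A' * A⁻¹)
    (hc : ∀ M, A * M = M * A) : D * (X' * X⁻¹) * (A * X * P) = A' * X' * P := by
  rw [hc X, hD]
  calc A' * A⁻¹ * (X' * X⁻¹) * (X * A * P) = A' * A⁻¹ * (X' * A) * P := by group
    _ = A' * X' * P := by rw [← hc X']; group

/-- A coset system from `Γ` to `Γ'`. -/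
structure Sys (Γ Γ' : Subgroup SL(2, ℤ)) (ι : Type) [Fintype ι] where
  /-- the representatives -/
  α : ι → GL (Fin 2) ℝ
  /-- the action of `Γ` on the index set -/
  σ : Γ → ι → ι
  /-- the cocycle -/
  g : ι → Γ → Γ'
  rel : ∀ (i : ι) (γ : Γ),
    α i * mapGL ℝ (γ : SL(2, ℤ)) = mapGL ℝ ((g i γ : Γ') : SL(2, ℤ)) * α (σ γ i)
  σ_one : ∀ i, σ 1 i = i
  σ_mul : ∀ (γ δ : Γ) (i : ι), σ (γ * δ) i = σ δ (σ γ i)

namespace Sys

section Basic

variable {Γ Γ' : Subgroup SL(2, ℤ)} {ι : Type} [Fintype ι] (S : Sys Γ Γ' ι)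

theorem g_one (i : ι) : S.g i 1 = 1 := by
  have h := S.rel i 1
  rw [S.σ_one, Subgroup.coe_one, map_one, mul_one] at h
  have h2 : mapGL ℝ ((S.g i 1 : Γ') : SL(2, ℤ)) = 1 := by
    have := mul_right_cancel (a := (1 : GL (Fin 2) ℝ)) (b := S.α i)
      (c := mapGL ℝ ((S.g i 1 : Γ') : SL(2, ℤ))) (by rw [one_mul]; exact h)
    exact this.symm
  apply Subtype.ext
  apply mapGL_injective (R := ℤ) (S := ℝ)
  rw [h2, Subgroup.coe_one, map_one]

theorem g_mul (γ δ : Γ) (i : ι) : S.g i (γ * δ) = S.g i γ * S.g (S.σ γ i) δ := by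
  have h1 := S.rel i (γ * δ)
  have h2 : S.α i * mapGL ℝ ((γ * δ : Γ) : SL(2, ℤ)) =
      mapGL ℝ ((S.g i γ * S.g (S.σ γ i) δ : Γ') : SL(2, ℤ)) * S.α (S.σ δ (S.σ γ i)) := by
    rw [Subgroup.coe_mul, map_mul, ← mul_assoc, S.rel i γ, mul_assoc, S.rel (S.σ γ i) δ,
      ← mul_assoc, Subgroup.coe_mul, map_mul]
  rw [h2, S.σ_mul] at h1
  have h3 := mul_right_cancel h1
  exact (Subtype.ext (mapGL_injective (R := ℤ) (S := ℝ) h3)).symm

/-- `σ γ` as a permutation. -/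
def σEquiv (γ : Γ) : ι ≃ ι where
  toFun := S.σ γ
  invFun := S.σ γ⁻¹
  left_inv i := by rw [← S.σ_mul, mul_inv_cancel, S.σ_one]
  right_inv i := by rw [← S.σ_mul, inv_mul_cancel, S.σ_one]

@[simp] theorem σEquiv_apply (γ : Γ) (i : ι) : S.σEquiv γ i = S.σ γ i := rfl

/-- The operator `Hom(Γ', A) → Hom(Γ, A)` of a coset system, on a single homomorphism. -/
def opFun (A : Type*) [AddCommGroup A] (φ : Additive Γ' →+ A) : Additive Γ →+ A where
  toFun γ := ∑ i, φ (Additive.ofMul (S.g i (Additive.toMul γ)))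
  map_zero' := by simp [g_one]
  map_add' γ δ := by
    simp only [toMul_add, g_mul, ofMul_mul, map_add, Finset.sum_add_distrib]
    congr 1
    exact Equiv.sum_comp (S.σEquiv (Additive.toMul γ))
      (fun i => φ (Additive.ofMul (S.g i (Additive.toMul δ))))

/-- The operator `Hom(Γ', A) →+ Hom(Γ, A)` of a coset system. -/
def op (A : Type*) [AddCommGroup A] : (Additive Γ' →+ A) →+ (Additive Γ →+ A) where
  toFun := S.opFun A
  map_zero' := by
    refine AddMonoidHom.ext fun γ => ?_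
    simp [opFun]
  map_add' φ ψ := by
    refine AddMonoidHom.ext fun γ => ?_
    simp [opFun, Finset.sum_add_distrib]

theorem op_apply (A : Type*) [AddCommGroup A] (φ : Additive Γ' →+ A) (γ : Γ) :
    S.op A φ (Additive.ofMul γ) = ∑ i, φ (Additive.ofMul (S.g i γ)) := rfl

/-- Naturality in the coefficient group. -/
theorem op_natural {A B : Type*} [AddCommGroup A] [AddCommGroup B] (f : A →+ B)
    (φ : Additive Γ' →+ A) : S.op B (f.comp φ) = f.comp (S.op A φ) := by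
  refine AddMonoidHom.ext fun γ => ?_
  obtain ⟨γ, rfl⟩ := Additive.ofMul.surjective γ
  simp [op_apply]

/-- The cosets `Γ' α i` are pairwise distinct, even up to positive scalars. -/
def IsDistinct : Prop :=
  ∀ (i j : ι) (h : Γ') (c : ℝˣ), 0 < (c : ℝ) →
    sc c * mapGL ℝ ((h : Γ') : SL(2, ℤ)) * S.α i = S.α j → i = j

end Basic

/-! ### Composition -/

section Comp

variable {Γ₁ Γ₂ Γ₃ : Subgroup SL(2, ℤ)} {ι κ : Type} [Fintype ι] [Fintype κ]

/-- Composition of coset systems: representatives `S₂.α k * S₁.α i`. -/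
def comp (S₁ : Sys Γ₁ Γ₂ ι) (S₂ : Sys Γ₂ Γ₃ κ) : Sys Γ₁ Γ₃ (ι × κ) where
  α x := S₂.α x.2 * S₁.α x.1
  σ γ x := (S₁.σ γ x.1, S₂.σ (S₁.g x.1 γ) x.2)
  g x γ := S₂.g x.2 (S₁.g x.1 γ)
  rel x γ := by
    rw [mul_assoc, S₁.rel x.1 γ, ← mul_assoc, S₂.rel x.2 (S₁.g x.1 γ), mul_assoc]
  σ_one x := by
    rw [S₁.σ_one, S₁.g_one, S₂.σ_one]
  σ_mul γ δ x := by
    rw [S₁.σ_mul, S₁.g_mul, S₂.σ_mul]

@[simp] theorem comp_α (S₁ : Sys Γ₁ Γ₂ ι) (S₂ : Sys Γ₂ Γ₃ κ) (x : ι × κ) :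
    (S₁.comp S₂).α x = S₂.α x.2 * S₁.α x.1 := rfl

@[simp] theorem comp_g (S₁ : Sys Γ₁ Γ₂ ι) (S₂ : Sys Γ₂ Γ₃ κ) (x : ι × κ) (γ : Γ₁) :
    (S₁.comp S₂).g x γ = S₂.g x.2 (S₁.g x.1 γ) := rfl

/-- The operator of a composite system is the composite of the operators. -/
theorem op_comp' (S₁ : Sys Γ₁ Γ₂ ι) (S₂ : Sys Γ₂ Γ₃ κ) (A : Type*) [AddCommGroup A]
    (φ : Additive Γ₃ →+ A) : (S₁.comp S₂).op A φ = S₁.op A (S₂.op A φ) := by
  refine AddMonoidHom.ext fun γ => ?_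
  obtain ⟨γ, rfl⟩ := Additive.ofMul.surjective γ
  rw [op_apply, op_apply, Fintype.sum_prod_type]
  refine Finset.sum_congr rfl fun i _ => ?_
  rw [op_apply]
  rfl

end Comp


/-! ### Sums -/

section Sum

variable {Γ Γ' : Subgroup SL(2, ℤ)} {ι κ : Type} [Fintype ι] [Fintype κ]

/-- Disjoint union of two coset systems: the operator is the sum. -/
def sum (S₁ : Sys Γ Γ' ι) (S₂ : Sys Γ Γ' κ) : Sys Γ Γ' (ι ⊕ κ) where
  α := Sum.elim S₁.α S₂.α
  σ γ := Sum.map (S₁.σ γ) (S₂.σ γ)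
  g x γ := Sum.elim (fun i => S₁.g i γ) (fun k => S₂.g k γ) x
  rel x γ := by
    cases x with
    | inl i => exact S₁.rel i γ
    | inr k => exact S₂.rel k γ
  σ_one x := by
    cases x with
    | inl i => simp [S₁.σ_one]
    | inr k => simp [S₂.σ_one]
  σ_mul γ δ x := by
    cases x with
    | inl i => simp [S₁.σ_mul]
    | inr k => simp [S₂.σ_mul]

theorem op_sum (S₁ : Sys Γ Γ' ι) (S₂ : Sys Γ Γ' κ) (A : Type*) [AddCommGroup A]
    (φ : Additive Γ' →+ A) : (S₁.sum S₂).op A φ = S₁.op A φ + S₂.op A φ := by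
  refine AddMonoidHom.ext fun γ => ?_
  obtain ⟨γ, rfl⟩ := Additive.ofMul.surjective γ
  rw [AddMonoidHom.add_apply, op_apply, op_apply, op_apply, Fintype.sum_sum_type]
  rfl

end Sum

/-! ### Comparison with a system with distinct cosets -/

section Compare

variable {Γ Γ' : Subgroup SL(2, ℤ)} {ι ι' : Type} [Fintype ι] [Fintype ι']

/-- Distinctness from plain distinctness when all representatives have the same determinant. -/
theorem isDistinct_of_det (S : Sys Γ Γ' ι)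
    (hdet : ∀ i j, Matrix.GeneralLinearGroup.det (S.α i) = Matrix.GeneralLinearGroup.det (S.α j))
    (hplain : ∀ (i j : ι) (h : Γ'), mapGL ℝ ((h : Γ') : SL(2, ℤ)) * S.α i = S.α j → i = j) :
    S.IsDistinct := by
  intro i j h c hc H
  have hd := congrArg Matrix.GeneralLinearGroup.det H
  rw [map_mul, map_mul, det_sc, det_mapGL, mul_one, hdet i j] at hd
  have hc2 : c ^ 2 = 1 := mul_right_cancel (b := Matrix.GeneralLinearGroup.det (S.α j))
    (by rw [hd, one_mul])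
  have hc1 : c = 1 := by
    apply Units.ext
    have h2 : (c : ℝ) ^ 2 = 1 := by
      have := congrArg Units.val hc2
      simpa using this
    have h3 : ((c : ℝ) - 1) * ((c : ℝ) + 1) = 0 := by ring_nf; linarith
    rcases mul_eq_zero.mp h3 with h4 | h4
    · simpa using sub_eq_zero.mp h4
    · exfalso; linarith
  rw [hc1, sc_one, one_mul] at H
  exact hplain i j h H

/-- If every representative of `S` lies, up to a positive scalar, in a coset of `S'`
(`S.α i = c i • τ i * S'.α (π i)`) and `S'` has distinct cosets, then `π` intertwines the actions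
and the cocycles are cohomologous. -/
theorem compare (S : Sys Γ Γ' ι) (S' : Sys Γ Γ' ι') (hS' : S'.IsDistinct) (π : ι → ι')
    (τ : ι → Γ') (c : ι → ℝˣ) (hc : ∀ i, 0 < (c i : ℝ))
    (h : ∀ i, S.α i = sc (c i) * mapGL ℝ ((τ i : Γ') : SL(2, ℤ)) * S'.α (π i))
    (i : ι) (γ : Γ) :
    π (S.σ γ i) = S'.σ γ (π i) ∧ S.g i γ * τ (S.σ γ i) = τ i * S'.g (π i) γ := by
  have h1 := S.rel i γ
  rw [h i, h (S.σ γ i), mul_assoc, S'.rel (π i) γ] at h1
  -- h1 : sc (c i) * mapGL (τ i) * (mapGL g' * α' (σ' γ (π i)))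
  --        = mapGL (g i γ) * (sc (c (σ γ i)) * mapGL (τ (σ γ i)) * α' (π (σ γ i)))
  have h1' : sc (c i) * mapGL ℝ (((τ i * S'.g (π i) γ : Γ')) : SL(2, ℤ)) * S'.α (S'.σ γ (π i)) =
      sc (c (S.σ γ i)) * mapGL ℝ (((S.g i γ * τ (S.σ γ i) : Γ')) : SL(2, ℤ)) *
        S'.α (π (S.σ γ i)) := by
    rw [Subgroup.coe_mul, map_mul, Subgroup.coe_mul, map_mul]
    calc sc (c i) * (mapGL ℝ ((τ i : Γ') : SL(2, ℤ)) * mapGL ℝ ((S'.g (π i) γ : Γ') : SL(2, ℤ))) *
          S'.α (S'.σ γ (π i))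
        = sc (c i) * mapGL ℝ ((τ i : Γ') : SL(2, ℤ)) *
          (mapGL ℝ ((S'.g (π i) γ : Γ') : SL(2, ℤ)) * S'.α (S'.σ γ (π i))) := by
          simp only [mul_assoc]
      _ = mapGL ℝ ((S.g i γ : Γ') : SL(2, ℤ)) * (sc (c (S.σ γ i)) *
          mapGL ℝ ((τ (S.σ γ i) : Γ') : SL(2, ℤ)) * S'.α (π (S.σ γ i))) := h1
      _ = sc (c (S.σ γ i)) * (mapGL ℝ ((S.g i γ : Γ') : SL(2, ℤ)) *
          mapGL ℝ ((τ (S.σ γ i) : Γ') : SL(2, ℤ))) * S'.α (π (S.σ γ i)) := by
          rw [sc_comm (c (S.σ γ i)) (mapGL ℝ ((S.g i γ : Γ') : SL(2, ℤ)) *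
            mapGL ℝ ((τ (S.σ γ i) : Γ') : SL(2, ℤ))), sc_comm (c (S.σ γ i))]
          simp only [mul_assoc]
  have hD : sc ((c (S.σ γ i))⁻¹ * c i) = (sc (c (S.σ γ i)))⁻¹ * sc (c i) := by
    rw [sc_mul, sc_inv]
  have h2 : sc ((c (S.σ γ i))⁻¹ * c i) *
      mapGL ℝ ((((S.g i γ * τ (S.σ γ i))⁻¹ * (τ i * S'.g (π i) γ) : Γ')) : SL(2, ℤ)) *
      S'.α (S'.σ γ (π i)) = S'.α (π (S.σ γ i)) := by
    rw [Subgroup.coe_mul, map_mul, Subgroup.coe_inv, map_inv]
    exact grp_aux1 _ _ _ _ _ _ _ hD (sc_comm _) h1'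
  have hpos : 0 < (((c (S.σ γ i))⁻¹ * c i : ℝˣ) : ℝ) := by
    rw [Units.val_mul, Units.val_inv_eq_inv_val]
    exact mul_pos (inv_pos.mpr (hc _)) (hc _)
  have hidx := hS' _ _ _ _ hpos h2
  refine ⟨hidx.symm, ?_⟩
  rw [← hidx] at h1'
  have h3 := mul_right_cancel h1'
  -- h3 : sc (c i) * mapGL (τ i * g') = sc (c (σ γ i)) * mapGL (g i γ * τ (σ γ i))
  have h4 : sc ((c (S.σ γ i))⁻¹ * c i) =
      mapGL ℝ ((((S.g i γ * τ (S.σ γ i)) * (τ i * S'.g (π i) γ)⁻¹ : Γ')) : SL(2, ℤ)) := by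
    rw [Subgroup.coe_mul, map_mul, Subgroup.coe_inv, map_inv]
    exact grp_aux2 _ _ _ _ _ hD h3
  have h5 := (sc_eq_mapGL hpos h4).2
  have h6 : (S.g i γ * τ (S.σ γ i)) * (τ i * S'.g (π i) γ)⁻¹ = 1 := Subtype.ext h5
  exact mul_inv_eq_one.mp h6

/-- Under the hypotheses of `compare`: `∑ i, φ (g i γ) = ∑ i, φ (g' (π i) γ)`. -/
theorem sum_eq_sum_comp (S : Sys Γ Γ' ι) (S' : Sys Γ Γ' ι') (hS' : S'.IsDistinct) (π : ι → ι')
    (τ : ι → Γ') (c : ι → ℝˣ) (hc : ∀ i, 0 < (c i : ℝ))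
    (h : ∀ i, S.α i = sc (c i) * mapGL ℝ ((τ i : Γ') : SL(2, ℤ)) * S'.α (π i))
    (A : Type*) [AddCommGroup A] (φ : Additive Γ' →+ A) (γ : Γ) :
    ∑ i, φ (Additive.ofMul (S.g i γ)) = ∑ i, φ (Additive.ofMul (S'.g (π i) γ)) := by
  have hterm : ∀ i, φ (Additive.ofMul (S.g i γ)) =
      φ (Additive.ofMul (S'.g (π i) γ)) + (φ (Additive.ofMul (τ i))
        - φ (Additive.ofMul (τ (S.σ γ i)))) := by
    intro i
    have hcmp := (compare S S' hS' π τ c hc h i γ).2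
    have e : S.g i γ = τ i * S'.g (π i) γ * (τ (S.σ γ i))⁻¹ := by
      rw [← hcmp, mul_inv_cancel_right]
    rw [e, ofMul_mul, ofMul_mul, ofMul_inv, map_add, map_add, map_neg]
    abel
  rw [Finset.sum_congr rfl (fun i _ => hterm i), Finset.sum_add_distrib,
    Finset.sum_sub_distrib]
  have hperm : ∑ i, φ (Additive.ofMul (τ (S.σ γ i))) = ∑ i, φ (Additive.ofMul (τ i)) :=
    Equiv.sum_comp (S.σEquiv γ) (fun i => φ (Additive.ofMul (τ i)))
  rw [hperm, sub_self, add_zero]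

/-- **Equivalence.** If `π` is a bijection, the two systems have the same operator. -/
theorem op_eq_of_bijective (S : Sys Γ Γ' ι) (S' : Sys Γ Γ' ι') (hS' : S'.IsDistinct) (π : ι → ι')
    (hπ : Function.Bijective π)
    (τ : ι → Γ') (c : ι → ℝˣ) (hc : ∀ i, 0 < (c i : ℝ))
    (h : ∀ i, S.α i = sc (c i) * mapGL ℝ ((τ i : Γ') : SL(2, ℤ)) * S'.α (π i))
    (A : Type*) [AddCommGroup A] (φ : Additive Γ' →+ A) : S.op A φ = S'.op A φ := by
  refine AddMonoidHom.ext fun γ => ?_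
  obtain ⟨γ, rfl⟩ := Additive.ofMul.surjective γ
  rw [op_apply, op_apply, sum_eq_sum_comp S S' hS' π τ c hc h A φ γ]
  exact Equiv.sum_comp (Equiv.ofBijective π hπ) (fun j => φ (Additive.ofMul (S'.g j γ)))

/-- **Multiplicities.** If all fibres of `π` have cardinality `m`, then `S.op = m • S'.op`. -/
theorem op_eq_nsmul [DecidableEq ι'] (S : Sys Γ Γ' ι) (S' : Sys Γ Γ' ι') (hS' : S'.IsDistinct)
    (π : ι → ι') (m : ℕ) (hπ : ∀ j, (Finset.univ.filter fun i => π i = j).card = m)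
    (τ : ι → Γ') (c : ι → ℝˣ) (hc : ∀ i, 0 < (c i : ℝ))
    (h : ∀ i, S.α i = sc (c i) * mapGL ℝ ((τ i : Γ') : SL(2, ℤ)) * S'.α (π i))
    (A : Type*) [AddCommGroup A] (φ : Additive Γ' →+ A) : S.op A φ = m • S'.op A φ := by
  refine AddMonoidHom.ext fun γ => ?_
  obtain ⟨γ, rfl⟩ := Additive.ofMul.surjective γ
  rw [AddMonoidHom.smul_apply, op_apply, op_apply, sum_eq_sum_comp S S' hS' π τ c hc h A φ γ,
    ← Finset.sum_fiberwise (s := Finset.univ) (g := π)
      (f := fun i => φ (Additive.ofMul (S'.g (π i) γ))), Finset.smul_sum]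
  refine Finset.sum_congr rfl fun j _ => ?_
  rw [Finset.sum_congr rfl (fun i hi => by rw [(Finset.mem_filter.mp hi).2]),
    Finset.sum_const, hπ j]

/-- **Criterion.** Two systems with distinct cosets and index sets of the same cardinality such
that every representative of the first lies (up to a positive scalar) in a coset of the second
have the same operator. -/
theorem op_eq_of_card (S : Sys Γ Γ' ι) (S' : Sys Γ Γ' ι') (hS : S.IsDistinct)
    (hS' : S'.IsDistinct) (hcard : Fintype.card ι = Fintype.card ι')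
    (hex : ∀ i, ∃ (j : ι') (τ : Γ') (c : ℝˣ), 0 < (c : ℝ) ∧
      S.α i = sc c * mapGL ℝ ((τ : Γ') : SL(2, ℤ)) * S'.α j)
    (A : Type*) [AddCommGroup A] (φ : Additive Γ' →+ A) : S.op A φ = S'.op A φ := by
  choose π τ c hc h using hex
  have hinj : Function.Injective π := by
    intro i i' hii
    have e1 := h i
    have e2 := h i'
    rw [← hii] at e2
    -- α i' = sc (c i' / c i) * mapGL (τ i' * (τ i)⁻¹) * α i
    have e3 : sc (c i' * (c i)⁻¹) * mapGL ℝ (((τ i' * (τ i)⁻¹ : Γ')) : SL(2, ℤ)) * S.α i =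
        S.α i' := by
      rw [e2, e1, Subgroup.coe_mul, map_mul, Subgroup.coe_inv, map_inv]
      exact grp_aux3 _ _ _ _ _ _ (by rw [sc_mul, sc_inv]) (sc_comm _)
    have hpos : 0 < ((c i' * (c i)⁻¹ : ℝˣ) : ℝ) := by
      rw [Units.val_mul, Units.val_inv_eq_inv_val]
      exact mul_pos (hc _) (inv_pos.mpr (hc _))
    exact hS _ _ _ _ hpos e3
  have hbij : Function.Bijective π :=
    (Fintype.bijective_iff_injective_and_card π).mpr ⟨hinj, hcard⟩
  exact op_eq_of_bijective S S' hS' π hbij τ c hc h A φ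

end Compare

/-! ### Constructors -/

section Constructors

variable {Γ Γ' : Subgroup SL(2, ℤ)} {ι : Type} [Fintype ι]

omit [Fintype ι] in
/-- Uniqueness of decompositions from plain distinctness. -/
theorem uniq_of_inj (α : ι → GL (Fin 2) ℝ)
    (inj : ∀ (i j : ι) (h : Γ'), mapGL ℝ ((h : Γ') : SL(2, ℤ)) * α i = α j → i = j)
    {j j' : ι} {h h' : Γ'}
    (H : mapGL ℝ ((h : Γ') : SL(2, ℤ)) * α j = mapGL ℝ ((h' : Γ') : SL(2, ℤ)) * α j') :
    j = j' ∧ h = h' := by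
  have h2 : mapGL ℝ (((h'⁻¹ * h : Γ')) : SL(2, ℤ)) * α j = α j' := by
    rw [Subgroup.coe_mul, map_mul, mul_assoc, H, ← mul_assoc, ← map_mul, Subgroup.coe_inv,
      inv_mul_cancel, map_one, one_mul]
  have hj := inj _ _ _ h2
  refine ⟨hj, ?_⟩
  subst hj
  have h3 := mul_right_cancel H
  exact Subtype.ext (mapGL_injective (R := ℤ) (S := ℝ) h3)

omit [Fintype ι] in
theorem ofEx_aux1 (α : ι → GL (Fin 2) ℝ)
    (inj : ∀ (i j : ι) (h : Γ'), mapGL ℝ ((h : Γ') : SL(2, ℤ)) * α i = α j → i = j)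
    {i j : ι} {g : Γ'}
    (h1 : α i * mapGL ℝ (((1 : Γ) : SL(2, ℤ))) = mapGL ℝ ((g : Γ') : SL(2, ℤ)) * α j) : j = i := by
  have h2 : mapGL ℝ (((1 : Γ') : SL(2, ℤ))) * α i = mapGL ℝ ((g : Γ') : SL(2, ℤ)) * α j := by
    rw [← h1]
    simp
  exact (uniq_of_inj α inj h2).1.symm

omit [Fintype ι] in
theorem ofEx_aux2 (α : ι → GL (Fin 2) ℝ)
    (inj : ∀ (i j : ι) (h : Γ'), mapGL ℝ ((h : Γ') : SL(2, ℤ)) * α i = α j → i = j)
    {i j₁ j₂ j₃ : ι} {γ δ : Γ} {g₁ g₂ g₃ : Γ'}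
    (h2 : α i * mapGL ℝ ((γ : Γ) : SL(2, ℤ)) = mapGL ℝ ((g₁ : Γ') : SL(2, ℤ)) * α j₁)
    (h3 : α j₁ * mapGL ℝ ((δ : Γ) : SL(2, ℤ)) = mapGL ℝ ((g₂ : Γ') : SL(2, ℤ)) * α j₂)
    (h1 : α i * mapGL ℝ (((γ * δ : Γ)) : SL(2, ℤ)) = mapGL ℝ ((g₃ : Γ') : SL(2, ℤ)) * α j₃) :
    j₃ = j₂ := by
  have h4 : mapGL ℝ ((g₃ : Γ') : SL(2, ℤ)) * α j₃ =
      mapGL ℝ (((g₁ * g₂ : Γ')) : SL(2, ℤ)) * α j₂ := by
    rw [← h1, Subgroup.coe_mul, map_mul, ← mul_assoc, h2, mul_assoc, h3, ← mul_assoc,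
      Subgroup.coe_mul, map_mul]
  exact (uniq_of_inj α inj h4).1

/-- Build a system from existence of decompositions and (plain) distinctness of the cosets. -/
noncomputable def ofEx (α : ι → GL (Fin 2) ℝ)
    (ex : ∀ (i : ι) (γ : Γ), ∃ (j : ι) (h : Γ'),
      α i * mapGL ℝ (γ : SL(2, ℤ)) = mapGL ℝ ((h : Γ') : SL(2, ℤ)) * α j)
    (inj : ∀ (i j : ι) (h : Γ'), mapGL ℝ ((h : Γ') : SL(2, ℤ)) * α i = α j → i = j) :
    Sys Γ Γ' ι where
  α := α
  σ γ i := (ex i γ).choose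
  g i γ := (ex i γ).choose_spec.choose
  rel i γ := (ex i γ).choose_spec.choose_spec
  σ_one i := ofEx_aux1 α inj (ex i 1).choose_spec.choose_spec
  σ_mul γ δ i := ofEx_aux2 α inj (ex i γ).choose_spec.choose_spec
    (ex (ex i γ).choose δ).choose_spec.choose_spec (ex i (γ * δ)).choose_spec.choose_spec

@[simp] theorem ofEx_α (α : ι → GL (Fin 2) ℝ)
    (ex : ∀ (i : ι) (γ : Γ), ∃ (j : ι) (h : Γ'),
      α i * mapGL ℝ (γ : SL(2, ℤ)) = mapGL ℝ ((h : Γ') : SL(2, ℤ)) * α j)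
    (inj : ∀ (i j : ι) (h : Γ'), mapGL ℝ ((h : Γ') : SL(2, ℤ)) * α i = α j → i = j) (i : ι) :
    (ofEx α ex inj).α i = α i := rfl

/-- In a system with plainly distinct cosets, decompositions are unique. -/
theorem uniq (S : Sys Γ Γ' ι)
    (inj : ∀ (i j : ι) (h : Γ'), mapGL ℝ ((h : Γ') : SL(2, ℤ)) * S.α i = S.α j → i = j)
    {i j : ι} {γ : Γ} {h : Γ'}
    (H : S.α i * mapGL ℝ (γ : SL(2, ℤ)) = mapGL ℝ ((h : Γ') : SL(2, ℤ)) * S.α j) :
    j = S.σ γ i ∧ h = S.g i γ := by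
  have h1 := S.rel i γ
  rw [H] at h1
  exact uniq_of_inj S.α inj h1

/-- The system of a single-group correspondence of `Fermat.Agent.S16.helper2138`. -/
noncomputable def ofCorr {Γ : Subgroup SL(2, ℤ)} (C : Fermat.Agent.S16.helper2138.Corr Γ ι) :
    Sys Γ Γ ι where
  α := C.α
  σ := C.σ
  g := C.g
  rel := C.rel
  σ_one := C.σ_one
  σ_mul := C.σ_mul

@[simp] theorem ofCorr_α {Γ : Subgroup SL(2, ℤ)} (C : Fermat.Agent.S16.helper2138.Corr Γ ι)
    (i : ι) : (ofCorr C).α i = C.α i := rfl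

theorem ofCorr_op {Γ : Subgroup SL(2, ℤ)} (C : Fermat.Agent.S16.helper2138.Corr Γ ι)
    (A : Type*) [AddCommGroup A] (φ : Additive Γ →+ A) : (ofCorr C).op A φ = C.op A φ :=
  AddMonoidHom.ext fun _ => rfl

/-- Restriction along `Γ ≤ Γ'`. -/
def res (h : Γ ≤ Γ') : Sys Γ Γ' Unit where
  α _ := 1
  σ _ i := i
  g _ γ := Subgroup.inclusion h γ
  rel _ γ := by simp
  σ_one _ := rfl
  σ_mul _ _ _ := rfl

@[simp] theorem res_α (h : Γ ≤ Γ') (i : Unit) : (res h).α i = 1 := rfl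

theorem res_op_apply (h : Γ ≤ Γ') (A : Type*) [AddCommGroup A] (φ : Additive Γ' →+ A) (γ : Γ) :
    (res h).op A φ (Additive.ofMul γ) = φ (Additive.ofMul (Subgroup.inclusion h γ)) := by
  rw [op_apply, Fintype.sum_unique]
  rfl

/-- The identity system. -/
def one (Γ : Subgroup SL(2, ℤ)) : Sys Γ Γ Unit := res (le_refl Γ)

theorem one_op (Γ : Subgroup SL(2, ℤ)) (A : Type*) [AddCommGroup A] (φ : Additive Γ →+ A) :
    (one Γ).op A φ = φ := by
  refine AddMonoidHom.ext fun γ => ?_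
  obtain ⟨γ, rfl⟩ := Additive.ofMul.surjective γ
  rw [one, res_op_apply]
  rfl

/-- Conjugation by `β`: `β γ = c(γ) β`. -/
def conj (β : GL (Fin 2) ℝ) (c : Γ → Γ')
    (hc : ∀ γ : Γ, β * mapGL ℝ (γ : SL(2, ℤ)) = mapGL ℝ ((c γ : Γ') : SL(2, ℤ)) * β) :
    Sys Γ Γ' Unit where
  α _ := β
  σ _ i := i
  g _ γ := c γ
  rel _ γ := hc γ
  σ_one _ := rfl
  σ_mul _ _ _ := rfl

@[simp] theorem conj_α (β : GL (Fin 2) ℝ) (c : Γ → Γ')
    (hc : ∀ γ : Γ, β * mapGL ℝ (γ : SL(2, ℤ)) = mapGL ℝ ((c γ : Γ') : SL(2, ℤ)) * β) (i : Unit) :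
    (conj β c hc).α i = β := rfl

theorem conj_op_apply (β : GL (Fin 2) ℝ) (c : Γ → Γ')
    (hc : ∀ γ : Γ, β * mapGL ℝ (γ : SL(2, ℤ)) = mapGL ℝ ((c γ : Γ') : SL(2, ℤ)) * β)
    (A : Type*) [AddCommGroup A] (φ : Additive Γ' →+ A) (γ : Γ) :
    (conj β c hc).op A φ (Additive.ofMul γ) = φ (Additive.ofMul (c γ)) := by
  rw [op_apply, Fintype.sum_unique]
  rfl

/-- A system indexed by `Unit` has distinct cosets. -/
theorem isDistinct_unit (S : Sys Γ Γ' Unit) : S.IsDistinct := fun _ _ _ _ _ _ => rfl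

/-- Corestriction (transfer) along `Γ' ≤ Γ` for a right transversal `t` of `Γ'` in `Γ`. -/
noncomputable def cores (h : Γ' ≤ Γ) (t : ι → Γ)
    (ex : ∀ x : Γ, ∃ (i : ι) (y : Γ'), x = Subgroup.inclusion h y * t i)
    (inj : ∀ (i j : ι) (y : Γ'), Subgroup.inclusion h y * t i = t j → i = j) : Sys Γ Γ' ι :=
  ofEx (fun i => mapGL ℝ ((t i : Γ) : SL(2, ℤ)))
    (fun i γ => by
      obtain ⟨j, y, hy⟩ := ex (t i * γ)
      refine ⟨j, y, ?_⟩
      rw [← map_mul, ← map_mul, ← Subgroup.coe_mul, hy]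
      rfl)
    (fun i j y H => by
      apply inj i j y
      apply Subtype.ext
      apply mapGL_injective (R := ℤ) (S := ℝ)
      rw [← H, Subgroup.coe_mul, map_mul]
      rfl)

@[simp] theorem cores_α (h : Γ' ≤ Γ) (t : ι → Γ)
    (ex : ∀ x : Γ, ∃ (i : ι) (y : Γ'), x = Subgroup.inclusion h y * t i)
    (inj : ∀ (i j : ι) (y : Γ'), Subgroup.inclusion h y * t i = t j → i = j) (i : ι) :
    (cores h t ex inj).α i = mapGL ℝ ((t i : Γ) : SL(2, ℤ)) := rfl

/-- The defining relation of the transfer: `t i * γ = g i γ * t (σ γ i)`. -/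
theorem cores_rel (h : Γ' ≤ Γ) (t : ι → Γ)
    (ex : ∀ x : Γ, ∃ (i : ι) (y : Γ'), x = Subgroup.inclusion h y * t i)
    (inj : ∀ (i j : ι) (y : Γ'), Subgroup.inclusion h y * t i = t j → i = j) (i : ι) (γ : Γ) :
    t i * γ = Subgroup.inclusion h ((cores h t ex inj).g i γ) * t ((cores h t ex inj).σ γ i) := by
  have h1 := (cores h t ex inj).rel i γ
  rw [cores_α, cores_α, ← map_mul, ← map_mul] at h1
  exact Subtype.ext (mapGL_injective (R := ℤ) (S := ℝ) h1)

/-- `cores ∘ res = index • id`. -/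
theorem cores_res (h : Γ' ≤ Γ) (t : ι → Γ)
    (ex : ∀ x : Γ, ∃ (i : ι) (y : Γ'), x = Subgroup.inclusion h y * t i)
    (inj : ∀ (i j : ι) (y : Γ'), Subgroup.inclusion h y * t i = t j → i = j)
    (A : Type*) [AddCommGroup A] (φ : Additive Γ →+ A) :
    (cores h t ex inj).op A ((res h).op A φ) = Fintype.card ι • φ := by
  refine AddMonoidHom.ext fun γ => ?_
  obtain ⟨γ, rfl⟩ := Additive.ofMul.surjective γ
  rw [op_apply, AddMonoidHom.smul_apply]
  have hterm : ∀ i, (res h).op A φ (Additive.ofMul ((cores h t ex inj).g i γ)) =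
      φ (Additive.ofMul γ) + (φ (Additive.ofMul (t i)) -
        φ (Additive.ofMul (t ((cores h t ex inj).σ γ i)))) := by
    intro i
    rw [res_op_apply]
    have e : Subgroup.inclusion h ((cores h t ex inj).g i γ) =
        t i * γ * (t ((cores h t ex inj).σ γ i))⁻¹ := by
      rw [cores_rel h t ex inj i γ, mul_inv_cancel_right]
    rw [e, ofMul_mul, ofMul_mul, ofMul_inv, map_add, map_add, map_neg]
    abel
  rw [Finset.sum_congr rfl (fun i _ => hterm i), Finset.sum_add_distrib, Finset.sum_sub_distrib,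
    Finset.sum_const, Finset.card_univ]
  have hperm : ∑ i, φ (Additive.ofMul (t ((cores h t ex inj).σ γ i))) =
      ∑ i, φ (Additive.ofMul (t i)) :=
    Equiv.sum_comp ((cores h t ex inj).σEquiv γ) (fun i => φ (Additive.ofMul (t i)))
  rw [hperm, sub_self, add_zero]

end Constructors

/-! ### Abstract equivariance of `res` and `cores` -/

section Equivariance

variable {Γ Γ' : Subgroup SL(2, ℤ)} {ι κ : Type} [Fintype ι] [Fintype κ]

/-- A Hecke system with the same representatives at both levels commutes with restriction. -/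
theorem op_res_comm (h : Γ ≤ Γ') (S : Sys Γ Γ κ) (S' : Sys Γ' Γ' κ) (hα : ∀ k, S.α k = S'.α k)
    (hS' : S'.IsDistinct) (A : Type*) [AddCommGroup A] (φ : Additive Γ' →+ A) :
    S.op A ((res h).op A φ) = (res h).op A (S'.op A φ) := by
  rw [← op_comp', ← op_comp']
  refine op_eq_of_bijective (S.comp (res h)) ((res h).comp S') ?_ (fun x => ((), x.1))
    ⟨fun x y hxy => Prod.ext (congrArg Prod.snd hxy) rfl, fun y => ⟨(y.2, ()), rfl⟩⟩
    (fun _ => 1) (fun _ => 1) (fun _ => by simp) ?_ A φ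
  · intro x y y' c hc H
    rw [comp_α, comp_α, res_α, mul_one, mul_one] at H
    exact Prod.ext rfl (hS' _ _ _ _ hc H)
  · intro x
    show (res h).α x.2 * S.α x.1 =
      sc 1 * mapGL ℝ (((1 : Γ') : SL(2, ℤ))) * (S'.α x.1 * (res h).α ())
    rw [res_α, sc_one, Subgroup.coe_one, map_one, one_mul, one_mul, one_mul, mul_one, hα]

/-- A Hecke system with the same representatives at both levels commutes with corestriction,
provided `S.α i'⁻¹ Γ' S.α i ∩ Γ ⊆ Γ'`. -/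
theorem op_cores_comm (h : Γ' ≤ Γ) (t : ι → Γ)
    (ex : ∀ x : Γ, ∃ (i : ι) (y : Γ'), x = Subgroup.inclusion h y * t i)
    (inj : ∀ (i j : ι) (y : Γ'), Subgroup.inclusion h y * t i = t j → i = j)
    (S : Sys Γ Γ κ) (S' : Sys Γ' Γ' κ) (hα : ∀ k, S'.α k = S.α k) (hS : S.IsDistinct)
    (hP : ∀ (k k' : κ) (y : Γ') (x : Γ) (c : ℝˣ), 0 < (c : ℝ) →
      sc c * mapGL ℝ ((y : Γ') : SL(2, ℤ)) * S.α k = S.α k' * mapGL ℝ ((x : Γ) : SL(2, ℤ)) →
      (x : SL(2, ℤ)) ∈ Γ')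
    (A : Type*) [AddCommGroup A] (φ : Additive Γ' →+ A) :
    (cores h t ex inj).op A (S'.op A φ) = S.op A ((cores h t ex inj).op A φ) := by
  rw [← op_comp', ← op_comp']
  refine op_eq_of_card ((cores h t ex inj).comp S') (S.comp (cores h t ex inj)) ?_ ?_
    (by rw [Fintype.card_prod, Fintype.card_prod, mul_comm]) ?_ A φ
  · -- the left system is distinct
    intro x x' y c hc H
    rw [comp_α, comp_α, cores_α, cores_α, hα, hα] at H
    -- sc c * mapGL y * (R_k * t_i) = R_k' * t_i'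
    have H2 : sc c * mapGL ℝ ((y : Γ') : SL(2, ℤ)) * S.α x.2 =
        S.α x'.2 * mapGL ℝ (((t x'.1 * (t x.1)⁻¹ : Γ)) : SL(2, ℤ)) := by
      rw [Subgroup.coe_mul, map_mul, Subgroup.coe_inv, map_inv, ← mul_assoc, ← H]
      group
    have hx := hP _ _ _ _ _ hc H2
    have hi : x.1 = x'.1 := by
      apply inj x.1 x'.1 ⟨_, hx⟩
      apply Subtype.ext
      simp
    have H3 : sc c * mapGL ℝ ((Subgroup.inclusion h y : Γ) : SL(2, ℤ)) * S.α x.2 = S.α x'.2 := by
      show sc c * mapGL ℝ ((y : Γ') : SL(2, ℤ)) * S.α x.2 = S.α x'.2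
      rw [H2, ← hi]
      simp
    exact Prod.ext hi (hS _ _ _ _ hc H3)
  · -- the right system is distinct
    intro x x' y c hc H
    rw [comp_α, comp_α, cores_α, cores_α] at H
    -- H : sc c * mapGL y * (t_i * R_k) = t_i' * R_k'
    have H2 : sc c * mapGL ℝ ((((t x'.2)⁻¹ * Subgroup.inclusion h y * t x.2 : Γ)) : SL(2, ℤ)) *
        S.α x.1 = S.α x'.1 := by
      rw [Subgroup.coe_mul, Subgroup.coe_mul, map_mul, map_mul, Subgroup.coe_inv, map_inv]
      exact grp_aux4 _ _ _ _ _ _ (sc_comm c) H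
    have hk : x.1 = x'.1 := hS _ _ _ _ hc H2
    rw [← hk] at H
    have H3 : sc c = mapGL ℝ (((t x'.2 * (Subgroup.inclusion h y * t x.2)⁻¹ : Γ)) : SL(2, ℤ)) := by
      rw [Subgroup.coe_mul, Subgroup.coe_inv, Subgroup.coe_mul, map_mul, map_inv, map_mul]
      exact grp_aux5 _ _ _ _ _ H
    have H4 : t x'.2 * (Subgroup.inclusion h y * t x.2)⁻¹ = 1 :=
      Subtype.ext (sc_eq_mapGL hc H3).2
    have hi : x.2 = x'.2 := inj _ _ y (mul_inv_eq_one.mp H4).symm
    exact Prod.ext hk hi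
  · -- containment
    intro x
    obtain ⟨i', y, hy⟩ := ex (S.g x.2 (t x.1))
    refine ⟨(S.σ (t x.1) x.2, i'), y, 1, by simp, ?_⟩
    rw [comp_α, comp_α, cores_α, cores_α, hα, S.rel x.2 (t x.1), hy, sc_one, one_mul,
      Subgroup.coe_mul, map_mul, mul_assoc]
    rfl

end Equivariance

end Sys

/-! ### The Hecke systems on `Γ₀(N)` (the operators `heckeHomT`, `heckeHomU` of S16) -/

section Hecke

open CongruenceSubgroup
open Fermat.Agent.S16.helper2138 (corrT corrU repT heckeHomT heckeHomU repT_inj heckeMatrix_inj)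
open ModularForm (heckeMatrix heckeDiagMatrix)

/-- `T_l` (`l ∤ N`) as a coset system on `Γ₀(N)`: representatives `repT l x`. -/
noncomputable def sysT (N l : ℕ) [Fact l.Prime] (hlN : ¬ l ∣ N) :
    Sys (Gamma0 N) (Gamma0 N) (OnePoint (ZMod l)) := Sys.ofCorr (corrT N l hlN)

/-- `U_q` (`q ∣ N`) as a coset system on `Γ₀(N)`: representatives `heckeMatrix q j.val`. -/
noncomputable def sysU (N q : ℕ) [NeZero q] (hqN : q ∣ N) :
    Sys (Gamma0 N) (Gamma0 N) (ZMod q) := Sys.ofCorr (corrU N q hqN)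

@[simp] theorem sysT_α (N l : ℕ) [Fact l.Prime] (hlN : ¬ l ∣ N) (x : OnePoint (ZMod l)) :
    (sysT N l hlN).α x = repT l x := rfl

@[simp] theorem sysU_α (N q : ℕ) [NeZero q] (hqN : q ∣ N) (j : ZMod q) :
    (sysU N q hqN).α j = heckeMatrix q j.val := rfl

theorem sysT_op (N l : ℕ) [Fact l.Prime] (hlN : ¬ l ∣ N) (A : Type*) [AddCommGroup A]
    (φ : Additive (Gamma0 N) →+ A) : (sysT N l hlN).op A φ = heckeHomT N l hlN A φ :=
  Sys.ofCorr_op _ A φ

theorem sysU_op (N q : ℕ) [NeZero q] (hqN : q ∣ N) (A : Type*) [AddCommGroup A]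
    (φ : Additive (Gamma0 N) →+ A) : (sysU N q hqN).op A φ = heckeHomU N q hqN A φ :=
  Sys.ofCorr_op _ A φ

theorem det_repT (l : ℕ) [Fact l.Prime] (x : OnePoint (ZMod l)) :
    ((Matrix.GeneralLinearGroup.det (repT l x) : ℝˣ) : ℝ) = l := by
  have hl : l ≠ 0 := (Fact.out : l.Prime).ne_zero
  induction x using OnePoint.rec with
  | infty => exact ModularForm.det_heckeDiagMatrix hl
  | coe j => exact ModularForm.det_heckeMatrix hl _

theorem sysT_isDistinct (N l : ℕ) [Fact l.Prime] (hlN : ¬ l ∣ N) : (sysT N l hlN).IsDistinct :=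
  Sys.isDistinct_of_det _ (fun i j => Units.ext (by rw [sysT_α, sysT_α, det_repT, det_repT]))
    (fun i j h H => repT_inj i j h H)

theorem sysU_isDistinct (N q : ℕ) [NeZero q] (hqN : q ∣ N) : (sysU N q hqN).IsDistinct :=
  Sys.isDistinct_of_det _
    (fun i j => Units.ext (by
      rw [sysU_α, sysU_α, ModularForm.det_heckeMatrix (NeZero.ne q),
        ModularForm.det_heckeMatrix (NeZero.ne q)]))
    (fun i j h H => heckeMatrix_inj i j h H)

end Hecke

end Fermat.Agent.S41.helper2138
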