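/-
helper2138 — S41 module A (concrete): the level-raising package `Γ₀(N) ⇄ Γ₀(N q)` on `Hom(Γ, A)`.
-/
import Mathlib
import Fermat.Agent.S41.helper2138_CosetCalc

set_option autoImplicit false

open CongruenceSubgroup Matrix.SpecialLinearGroup
open scoped MatrixGroups
open Fermat.Agent.S16.helper2138 (repT heckeHomT heckeHomU mapGL_val mem_Gamma0_iff_dvd det_SL
  eT bT)
open ModularForm (heckeMatrix heckeDiagMatrix val_heckeMatrix val_heckeDiagMatrix)

namespace Fermat.Agent.S41.helper2138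

/-! ### Integer matrices in `GL (Fin 2) ℝ` -/

/-- `SL(2,ℤ)` matrix from its entries. -/
def mkSL (a b c d : ℤ) (h : a * d - b * c = 1) : SL(2, ℤ) :=
  ⟨!![a, b; c, d], by rw [Matrix.det_fin_two_of]; exact h⟩

@[simp] theorem mkSL_00 (a b c d : ℤ) (h : a * d - b * c = 1) : (mkSL a b c d h) 0 0 = a := rfl
@[simp] theorem mkSL_01 (a b c d : ℤ) (h : a * d - b * c = 1) : (mkSL a b c d h) 0 1 = b := rfl
@[simp] theorem mkSL_10 (a b c d : ℤ) (h : a * d - b * c = 1) : (mkSL a b c d h) 1 0 = c := rfl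
@[simp] theorem mkSL_11 (a b c d : ℤ) (h : a * d - b * c = 1) : (mkSL a b c d h) 1 1 = d := rfl

/-- `GL(2,ℝ)` matrix from integer entries with nonzero determinant. -/
noncomputable def glInt (a b c d : ℤ) (h : a * d - b * c ≠ 0) : GL (Fin 2) ℝ :=
  Matrix.GeneralLinearGroup.mkOfDetNeZero !![(a : ℝ), (b : ℝ); (c : ℝ), (d : ℝ)]
    (by rw [Matrix.det_fin_two_of]; exact_mod_cast h)

theorem glInt_val (a b c d : ℤ) (h : a * d - b * c ≠ 0) :
    ((glInt a b c d h : GL (Fin 2) ℝ) : Matrix (Fin 2) (Fin 2) ℝ) =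
      !![(a : ℝ), (b : ℝ); (c : ℝ), (d : ℝ)] := rfl

theorem glInt_congr {a b c d a' b' c' d' : ℤ} {h : a * d - b * c ≠ 0}
    {h' : a' * d' - b' * c' ≠ 0} (ha : a = a') (hb : b = b') (hc : c = c') (hd : d = d') :
    glInt a b c d h = glInt a' b' c' d' h' := by
  subst ha hb hc hd
  rfl

theorem glInt_inj {a b c d a' b' c' d' : ℤ} {h : a * d - b * c ≠ 0}
    {h' : a' * d' - b' * c' ≠ 0} (H : glInt a b c d h = glInt a' b' c' d' h') :
    a = a' ∧ b = b' ∧ c = c' ∧ d = d' := by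
  have e : ∀ i j, ((glInt a b c d h : GL (Fin 2) ℝ) : Matrix (Fin 2) (Fin 2) ℝ) i j =
      ((glInt a' b' c' d' h' : GL (Fin 2) ℝ) : Matrix (Fin 2) (Fin 2) ℝ) i j := by
    intro i j; rw [H]
  have e00 := e 0 0
  have e01 := e 0 1
  have e10 := e 1 0
  have e11 := e 1 1
  simp only [glInt_val, Matrix.of_apply, Matrix.cons_val_zero, Matrix.cons_val_one,
    Matrix.cons_val', Matrix.cons_val_fin_one] at e00 e01 e10 e11
  exact ⟨by exact_mod_cast e00, by exact_mod_cast e01, by exact_mod_cast e10,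
    by exact_mod_cast e11⟩

theorem glInt_mul_ne {a b c d a' b' c' d' : ℤ} (h : a * d - b * c ≠ 0)
    (h' : a' * d' - b' * c' ≠ 0) :
    (a * a' + b * c') * (c * b' + d * d') - (a * b' + b * d') * (c * a' + d * c') ≠ 0 := by
  have e : (a * a' + b * c') * (c * b' + d * d') - (a * b' + b * d') * (c * a' + d * c') =
      (a * d - b * c) * (a' * d' - b' * c') := by ring
  rw [e]
  exact mul_ne_zero h h'

theorem glInt_mul (a b c d a' b' c' d' : ℤ) (h : a * d - b * c ≠ 0)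
    (h' : a' * d' - b' * c' ≠ 0) :
    glInt a b c d h * glInt a' b' c' d' h' =
      glInt (a * a' + b * c') (a * b' + b * d') (c * a' + d * c') (c * b' + d * d')
        (glInt_mul_ne h h') := by
  apply Matrix.GeneralLinearGroup.ext
  intro i j
  fin_cases i <;> fin_cases j <;>
    simp [glInt_val, Matrix.mul_apply, Fin.sum_univ_two]

theorem mapGL_eq_glInt (g : SL(2, ℤ)) :
    mapGL ℝ g = glInt (g 0 0) (g 0 1) (g 1 0) (g 1 1) (by rw [det_SL]; exact one_ne_zero) := by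
  apply Matrix.GeneralLinearGroup.ext
  intro i j
  fin_cases i <;> fin_cases j <;> simp [glInt_val]

theorem heckeDiagMatrix_eq_glInt (q : ℕ) (hq : q ≠ 0) :
    heckeDiagMatrix q = glInt q 0 0 1 (by simpa using hq) := by
  apply Matrix.GeneralLinearGroup.ext
  intro i j
  fin_cases i <;> fin_cases j <;> simp [glInt_val, val_heckeDiagMatrix hq]

theorem heckeMatrix_eq_glInt (q j : ℕ) (hq : q ≠ 0) :
    heckeMatrix q j = glInt 1 j 0 q (by simpa using hq) := by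
  apply Matrix.GeneralLinearGroup.ext
  intro i j
  fin_cases i <;> fin_cases j <;> simp [glInt_val, val_heckeMatrix hq]

/-- the positive unit `q` of `ℝ` -/
noncomputable def qUnit (q : ℕ) (hq : q ≠ 0) : ℝˣ := Units.mk0 (q : ℝ) (by exact_mod_cast hq)

theorem qUnit_pos (q : ℕ) (hq : q ≠ 0) : 0 < ((qUnit q hq : ℝˣ) : ℝ) := by
  show (0 : ℝ) < (q : ℝ)
  exact_mod_cast Nat.pos_of_ne_zero hq

theorem sc_qUnit_eq_glInt (q : ℕ) (hq : q ≠ 0) :
    sc (qUnit q hq) = glInt q 0 0 q (by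
      have : (q : ℤ) ≠ 0 := by exact_mod_cast hq
      simpa using this) := by
  apply Matrix.GeneralLinearGroup.ext
  intro i j
  fin_cases i <;> fin_cases j <;>
    simp [glInt_val, sc, qUnit, Matrix.GeneralLinearGroup.coe_scalar, Matrix.natCast_apply]

theorem SL_mul_apply (g h : SL(2, ℤ)) (i j : Fin 2) :
    (g * h) i j = g i 0 * h 0 j + g i 1 * h 1 j := by
  rw [Matrix.SpecialLinearGroup.coe_mul, Matrix.mul_apply, Fin.sum_univ_two]

/-- The translation `!![1, m; 0, 1]`. -/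
def Tm (m : ℤ) : SL(2, ℤ) := mkSL 1 m 0 1 (by ring)

theorem Tm_mem (N : ℕ) (m : ℤ) : Tm m ∈ Gamma0 N :=
  mem_Gamma0_iff_dvd.mpr (by simp [Tm])

/-- `!![1, 0; 0, q] * !![1, m; 0, 1] = !![1, m; 0, q]`. -/
theorem heckeMatrix_zero_mul_Tm (q : ℕ) (hq : q ≠ 0) (j : ℕ) :
    heckeMatrix q 0 * mapGL ℝ (Tm j) = heckeMatrix q j := by
  rw [heckeMatrix_eq_glInt q 0 hq, heckeMatrix_eq_glInt q j hq, mapGL_eq_glInt, glInt_mul]
  apply glInt_congr <;> simp [Tm]

theorem heckeMatrix_zero_mul_diag (q : ℕ) (hq : q ≠ 0) :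
    heckeMatrix q 0 * heckeDiagMatrix q = sc (qUnit q hq) := by
  rw [heckeMatrix_eq_glInt q 0 hq, heckeDiagMatrix_eq_glInt q hq, sc_qUnit_eq_glInt, glInt_mul]
  apply glInt_congr <;> simp

theorem heckeDiag_mul_heckeMatrix_zero (q : ℕ) (hq : q ≠ 0) :
    heckeDiagMatrix q * heckeMatrix q 0 = sc (qUnit q hq) := by
  rw [heckeMatrix_eq_glInt q 0 hq, heckeDiagMatrix_eq_glInt q hq, sc_qUnit_eq_glInt, glInt_mul]
  apply glInt_congr <;> simp

/-! ### Conjugation by `diag(q, 1)` -/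

theorem Gamma0_mul_le (N q : ℕ) : Gamma0 (N * q) ≤ Gamma0 N := by
  intro g hg
  rw [mem_Gamma0_iff_dvd] at hg ⊢
  exact (Int.natCast_dvd_natCast.mpr (Dvd.intro q rfl)).trans hg

theorem q_dvd_of_mem (N q : ℕ) (h : Gamma0 (N * q)) : (q : ℤ) ∣ (h : SL(2, ℤ)) 1 0 :=
  (Int.natCast_dvd_natCast.mpr (Dvd.intro_left N rfl)).trans (mem_Gamma0_iff_dvd.mp h.2)

/-- Conjugation by `diag(q,1)`: `Γ₀(N q) → Γ₀(N)`, `!![a, b; c, d] ↦ !![a, q b; c / q, d]`. -/
def conjB (N q : ℕ) [NeZero q] (h : Gamma0 (N * q)) : Gamma0 N :=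
  ⟨mkSL ((h : SL(2, ℤ)) 0 0) (q * (h : SL(2, ℤ)) 0 1) ((h : SL(2, ℤ)) 1 0 / q)
      ((h : SL(2, ℤ)) 1 1) (by
        have e : (q : ℤ) * ((h : SL(2, ℤ)) 1 0 / q) = (h : SL(2, ℤ)) 1 0 :=
          Int.mul_ediv_cancel' (q_dvd_of_mem N q h)
        linear_combination det_SL (h : SL(2, ℤ)) - (h : SL(2, ℤ)) 0 1 * e),
    mem_Gamma0_iff_dvd.mpr (by
      obtain ⟨m, hm⟩ := mem_Gamma0_iff_dvd.mp h.2
      rw [mkSL_10, hm]
      have hq : (q : ℤ) ≠ 0 := by exact_mod_cast NeZero.ne q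
      refine ⟨m, ?_⟩
      push_cast
      rw [mul_comm (N : ℤ) (q : ℤ), mul_assoc, Int.mul_ediv_cancel_left _ hq])⟩

theorem conjB_rel (N q : ℕ) [NeZero q] (h : Gamma0 (N * q)) :
    heckeDiagMatrix q * mapGL ℝ (h : SL(2, ℤ)) =
      mapGL ℝ ((conjB N q h : Gamma0 N) : SL(2, ℤ)) * heckeDiagMatrix q := by
  have e : ((h : SL(2, ℤ)) 1 0 / q) * (q : ℤ) = (h : SL(2, ℤ)) 1 0 :=
    Int.ediv_mul_cancel (q_dvd_of_mem N q h)
  rw [heckeDiagMatrix_eq_glInt q (NeZero.ne q), mapGL_eq_glInt, mapGL_eq_glInt, glInt_mul,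
    glInt_mul]
  apply glInt_congr <;> simp [conjB, e] <;> ring

/-- If `diag(q,1) x = g diag(q,1)` with `g ∈ Γ₀(N)` then `x ∈ Γ₀(N q)`. -/
theorem mem_of_diag_rel (N q : ℕ) [NeZero q] (x g : SL(2, ℤ)) (hg : g ∈ Gamma0 N)
    (H : heckeDiagMatrix q * mapGL ℝ x = mapGL ℝ g * heckeDiagMatrix q) : x ∈ Gamma0 (N * q) := by
  rw [heckeDiagMatrix_eq_glInt q (NeZero.ne q), mapGL_eq_glInt, mapGL_eq_glInt, glInt_mul,
    glInt_mul] at H
  obtain ⟨-, -, h10, -⟩ := glInt_inj H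
  obtain ⟨m, hm⟩ := mem_Gamma0_iff_dvd.mp hg
  rw [mem_Gamma0_iff_dvd]
  refine ⟨m, ?_⟩
  push_cast
  rw [hm] at h10
  linear_combination h10

/-! ### Bezout data and the auxiliary matrices -/

/-- Bezout data for coprime `q`, `N`. -/
structure Bez (N q : ℕ) where
  /-- coefficient of `q` -/
  u : ℤ
  /-- coefficient of `N` -/
  v : ℤ
  h : u * q + v * N = 1

theorem nonempty_bez {N q : ℕ} (hq : q.Prime) (hqN : ¬ q ∣ N) : Nonempty (Bez N q) := by
  have hc : Nat.Coprime q N := (Nat.Prime.coprime_iff_not_dvd hq).mpr hqN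
  obtain ⟨u, v, h⟩ := Nat.isCoprime_iff_coprime.mpr hc
  exact ⟨⟨u, v, h⟩⟩

namespace Bez

variable {N q : ℕ} (b : Bez N q)

/-- `τ = !![u, -v; N, q] ∈ Γ₀(N)`. -/
def tau : SL(2, ℤ) := mkSL b.u (-b.v) N q (by linear_combination b.h)

/-- `ρ = !![q u, -v; N, 1] ∈ Γ₀(N)`. -/
def rho : SL(2, ℤ) := mkSL (q * b.u) (-b.v) N 1 (by linear_combination b.h)

theorem tau_mem : b.tau ∈ Gamma0 N := mem_Gamma0_iff_dvd.mpr (by simp [tau])

theorem rho_mem : b.rho ∈ Gamma0 N := mem_Gamma0_iff_dvd.mpr (by simp [rho])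

theorem tau_rho_mem : b.tau * b.rho ∈ Gamma0 (N * q) := by
  rw [mem_Gamma0_iff_dvd, SL_mul_apply]
  refine ⟨b.u + 1, ?_⟩
  simp only [tau, rho, mkSL_10, mkSL_11, mkSL_00]
  push_cast
  ring

/-- `diag(q,1) τ = ρ diag(1,q)`. -/
theorem diag_mul_tau (hq : q ≠ 0) :
    heckeDiagMatrix q * mapGL ℝ b.tau = mapGL ℝ b.rho * heckeMatrix q 0 := by
  rw [heckeDiagMatrix_eq_glInt q hq, heckeMatrix_eq_glInt q 0 hq, mapGL_eq_glInt, mapGL_eq_glInt,
    glInt_mul, glInt_mul]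
  apply glInt_congr <;> simp [tau, rho] <;> ring

end Bez

/-! ### The transversal of `Γ₀(N q)` in `Γ₀(N)` -/

section Transversal

variable {N q : ℕ} [Fact q.Prime] (hqN : ¬ q ∣ N)

omit [Fact q.Prime] in
theorem sysT_plain (N l : ℕ) [Fact l.Prime] (hlN : ¬ l ∣ N) (i j : OnePoint (ZMod l))
    (h : Gamma0 N) (H : mapGL ℝ ((h : Gamma0 N) : SL(2, ℤ)) * (sysT N l hlN).α i =
      (sysT N l hlN).α j) : i = j :=
  Fermat.Agent.S16.helper2138.repT_inj i j h H

/-- Elements of `Γ₀(N q)` fix the coset `∞` of `T_q`; the cocycle is `conjB`. -/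
theorem sigma_infty_of_mem (h : Gamma0 (N * q)) :
    (sysT N q hqN).σ (Subgroup.inclusion (Gamma0_mul_le N q) h) OnePoint.infty = OnePoint.infty ∧
      (sysT N q hqN).g OnePoint.infty (Subgroup.inclusion (Gamma0_mul_le N q) h) = conjB N q h := by
  have H : (sysT N q hqN).α OnePoint.infty *
      mapGL ℝ ((Subgroup.inclusion (Gamma0_mul_le N q) h : Gamma0 N) : SL(2, ℤ)) =
      mapGL ℝ ((conjB N q h : Gamma0 N) : SL(2, ℤ)) * (sysT N q hqN).α OnePoint.infty :=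
    conjB_rel N q h
  obtain ⟨h1, h2⟩ := Sys.uniq _ (sysT_plain N q hqN) H
  exact ⟨h1.symm, h2.symm⟩

/-- The stabiliser of the coset `∞` of `T_q` is `Γ₀(N q)`. -/
theorem mem_of_sigma_infty (γ : Gamma0 N)
    (h : (sysT N q hqN).σ γ OnePoint.infty = OnePoint.infty) :
    (γ : SL(2, ℤ)) ∈ Gamma0 (N * q) := by
  have hrel := (sysT N q hqN).rel OnePoint.infty γ
  rw [h] at hrel
  exact mem_of_diag_rel N q _ _ ((sysT N q hqN).g OnePoint.infty γ).2 hrel

/-- The transversal: `1` and `τ !![1, j; 0, 1]`. -/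
def trans (b : Bez N q) (k : OnePoint (ZMod q)) : Gamma0 N :=
  k.elim 1 (fun j => ⟨b.tau * Tm (j.val : ℤ), mul_mem b.tau_mem (Tm_mem N _)⟩)

omit [Fact q.Prime] in
@[simp] theorem trans_infty (b : Bez N q) : trans b OnePoint.infty = 1 := rfl

omit [Fact q.Prime] in
theorem trans_coe (b : Bez N q) (j : ZMod q) :
    ((trans b (j : OnePoint (ZMod q)) : Gamma0 N) : SL(2, ℤ)) = b.tau * Tm (j.val : ℤ) := rfl

/-- `diag(q,1) t_j = ρ !![1, j; 0, q]`. -/
theorem diag_mul_trans (b : Bez N q) (j : ZMod q) :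
    heckeDiagMatrix q * mapGL ℝ ((trans b (j : OnePoint (ZMod q)) : Gamma0 N) : SL(2, ℤ)) =
      mapGL ℝ b.rho * heckeMatrix q j.val := by
  have hq : q ≠ 0 := (Fact.out : q.Prime).ne_zero
  rw [trans_coe, map_mul, ← mul_assoc, b.diag_mul_tau hq, mul_assoc]
  congr 1
  exact_mod_cast heckeMatrix_zero_mul_Tm q hq j.val

theorem sigma_trans (b : Bez N q) (k : OnePoint (ZMod q)) :
    (sysT N q hqN).σ (trans b k) OnePoint.infty = k := by
  induction k using OnePoint.rec with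
  | infty => exact (sysT N q hqN).σ_one OnePoint.infty
  | coe j =>
    have H : (sysT N q hqN).α OnePoint.infty *
        mapGL ℝ ((trans b (j : OnePoint (ZMod q)) : Gamma0 N) : SL(2, ℤ)) =
        mapGL ℝ (((⟨b.rho, b.rho_mem⟩ : Gamma0 N)) : SL(2, ℤ)) *
          (sysT N q hqN).α (j : OnePoint (ZMod q)) := diag_mul_trans b j
    exact (Sys.uniq _ (sysT_plain N q hqN) H).1.symm

theorem trans_ex (hqN : ¬ q ∣ N) (b : Bez N q) (x : Gamma0 N) : ∃ (i : OnePoint (ZMod q)) (y : Gamma0 (N * q)),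
    x = Subgroup.inclusion (Gamma0_mul_le N q) y * trans b i := by
  set S := sysT N q hqN with hS
  set k := S.σ x OnePoint.infty with hk
  have e : S.σ (trans b k)⁻¹ k = OnePoint.infty := by
    calc S.σ (trans b k)⁻¹ k = S.σ (trans b k)⁻¹ (S.σ (trans b k) OnePoint.infty) := by
          rw [sigma_trans hqN b k]
      _ = S.σ (trans b k * (trans b k)⁻¹) OnePoint.infty := (S.σ_mul _ _ _).symm
      _ = OnePoint.infty := by rw [mul_inv_cancel, S.σ_one]
  have hy : S.σ (x * (trans b k)⁻¹) OnePoint.infty = OnePoint.infty := by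
    rw [S.σ_mul, ← hk, e]
  refine ⟨k, ⟨_, mem_of_sigma_infty hqN _ hy⟩, ?_⟩
  apply Subtype.ext
  simp

theorem trans_inj (hqN : ¬ q ∣ N) (b : Bez N q) (i j : OnePoint (ZMod q)) (y : Gamma0 (N * q))
    (H : Subgroup.inclusion (Gamma0_mul_le N q) y * trans b i = trans b j) : i = j := by
  have h1 := congrArg (fun z => (sysT N q hqN).σ z OnePoint.infty) H
  simp only [Sys.σ_mul, (sigma_infty_of_mem hqN y).1, sigma_trans] at h1
  exact h1

/-- The corestriction system `Γ₀(N) → Γ₀(N q)`. -/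
noncomputable def sysCores (hqN : ¬ q ∣ N) (b : Bez N q) : Sys (Gamma0 N) (Gamma0 (N * q)) (OnePoint (ZMod q)) :=
  Sys.cores (Gamma0_mul_le N q) (trans b) (trans_ex hqN b) (trans_inj hqN b)

@[simp] theorem sysCores_α (b : Bez N q) (k : OnePoint (ZMod q)) :
    (sysCores hqN b).α k = mapGL ℝ ((trans b k : Gamma0 N) : SL(2, ℤ)) := rfl

end Transversal

/-! ### The Atkin–Lehner system `W_q` at level `N q` -/

section Atkin

variable {N q : ℕ}

/-- `τ⁻¹ = !![q, v; -N, u]`. -/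
def Bez.tauInv (b : Bez N q) : SL(2, ℤ) := mkSL q b.v (-N) b.u (by linear_combination b.h)

theorem Bez.tauInv_mul_tau (b : Bez N q) : b.tauInv * b.tau = 1 := by
  have h := b.h
  apply Matrix.SpecialLinearGroup.ext
  intro i j
  rw [SL_mul_apply]
  fin_cases i <;> fin_cases j <;> simp [Bez.tauInv, Bez.tau] <;>
    first | ring1 | linear_combination h

/-- The Atkin–Lehner matrix `w = τ diag(q,1) = !![q u, -v; q N, q]`. -/
noncomputable def wMat (b : Bez N q) : GL (Fin 2) ℝ := mapGL ℝ b.tau * heckeDiagMatrix q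

theorem wMat_rel [NeZero q] (b : Bez N q) (γ : Gamma0 (N * q)) :
    wMat b * mapGL ℝ ((γ : Gamma0 (N * q)) : SL(2, ℤ)) =
      mapGL ℝ (b.tau * ((conjB N q γ : Gamma0 N) : SL(2, ℤ)) * b.tauInv) * wMat b := by
  calc wMat b * mapGL ℝ ((γ : Gamma0 (N * q)) : SL(2, ℤ))
      = mapGL ℝ b.tau * (heckeDiagMatrix q * mapGL ℝ ((γ : Gamma0 (N * q)) : SL(2, ℤ))) := by
        rw [wMat, mul_assoc]
    _ = mapGL ℝ b.tau * (mapGL ℝ ((conjB N q γ : Gamma0 N) : SL(2, ℤ)) * heckeDiagMatrix q) := by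
        rw [conjB_rel]
    _ = mapGL ℝ (b.tau * ((conjB N q γ : Gamma0 N) : SL(2, ℤ)) * (b.tauInv * b.tau)) *
          heckeDiagMatrix q := by
        rw [b.tauInv_mul_tau, mul_one, map_mul, mul_assoc]
    _ = mapGL ℝ (b.tau * ((conjB N q γ : Gamma0 N) : SL(2, ℤ)) * b.tauInv) * wMat b := by
        simp only [wMat, map_mul, mul_assoc]

theorem wconj_mem [NeZero q] (b : Bez N q) (γ : Gamma0 (N * q)) :
    b.tau * ((conjB N q γ : Gamma0 N) : SL(2, ℤ)) * b.tauInv ∈ Gamma0 (N * q) := by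
  obtain ⟨m, hm⟩ := mem_Gamma0_iff_dvd.mp γ.2
  have e : (q : ℤ) * ((γ : SL(2, ℤ)) 1 0 / q) = (γ : SL(2, ℤ)) 1 0 :=
    Int.mul_ediv_cancel' (q_dvd_of_mem N q γ)
  rw [mem_Gamma0_iff_dvd, SL_mul_apply, SL_mul_apply, SL_mul_apply]
  refine ⟨(γ : SL(2, ℤ)) 0 0 + q * m - N * (γ : SL(2, ℤ)) 0 1 - (γ : SL(2, ℤ)) 1 1, ?_⟩
  simp only [Bez.tau, Bez.tauInv, conjB, mkSL_00, mkSL_01, mkSL_10, mkSL_11]
  push_cast at hm ⊢
  linear_combination (q : ℤ) * e + (q : ℤ) * hm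

/-- The Atkin–Lehner system at level `N q`. -/
noncomputable def sysW [NeZero q] (b : Bez N q) : Sys (Gamma0 (N * q)) (Gamma0 (N * q)) Unit :=
  Sys.conj (wMat b) (fun γ => ⟨_, wconj_mem b γ⟩) (wMat_rel b)

@[simp] theorem sysW_α [NeZero q] (b : Bez N q) (i : Unit) : (sysW b).α i = wMat b := rfl

theorem wMat_sq (b : Bez N q) (hq : q ≠ 0) :
    wMat b * wMat b = sc (qUnit q hq) * mapGL ℝ (b.tau * b.rho) := by
  calc wMat b * wMat b
      = mapGL ℝ b.tau * (heckeDiagMatrix q * mapGL ℝ b.tau) * heckeDiagMatrix q := by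
        rw [wMat]; group
    _ = mapGL ℝ b.tau * (mapGL ℝ b.rho * heckeMatrix q 0) * heckeDiagMatrix q := by
        rw [b.diag_mul_tau hq]
    _ = mapGL ℝ (b.tau * b.rho) * (heckeMatrix q 0 * heckeDiagMatrix q) := by
        rw [map_mul]; group
    _ = sc (qUnit q hq) * mapGL ℝ (b.tau * b.rho) := by
        rw [heckeMatrix_zero_mul_diag q hq, sc_comm]

/-- `W_q ∘ W_q = id` on `Hom(Γ₀(N q), A)`. -/
theorem sysW_op_sysW [NeZero q] (b : Bez N q) (A : Type*) [AddCommGroup A]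
    (φ : Additive (Gamma0 (N * q)) →+ A) : (sysW b).op A ((sysW b).op A φ) = φ := by
  have hq : q ≠ 0 := NeZero.ne q
  rw [← Sys.op_comp']
  conv_rhs => rw [← Sys.one_op (Gamma0 (N * q)) A φ]
  exact Sys.op_eq_of_bijective ((sysW b).comp (sysW b)) (Sys.one _) (Sys.isDistinct_unit _)
    (fun _ => ()) ⟨fun _ _ _ => Subsingleton.elim _ _, fun _ => ⟨((), ()), rfl⟩⟩
    (fun _ => ⟨b.tau * b.rho, b.tau_rho_mem⟩) (fun _ => qUnit q hq) (fun _ => qUnit_pos q hq)
    (fun x => by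
      show wMat b * wMat b = sc (qUnit q hq) * mapGL ℝ (b.tau * b.rho) * 1
      rw [mul_one, wMat_sq b hq]) A φ

/-- The cocycle of `W_q` is surjective. -/
theorem sysW_g_surj [NeZero q] (b : Bez N q) (h : Gamma0 (N * q)) :
    ∃ h' : Gamma0 (N * q), (sysW b).g () h' = h := by
  have hq : q ≠ 0 := NeZero.ne q
  set δ : Gamma0 (N * q) := ⟨b.tau * b.rho, b.tau_rho_mem⟩ with hδ
  have key : ∀ γ : Gamma0 (N * q), (sysW b).g () ((sysW b).g () γ) * δ = δ * γ := by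
    intro γ
    have := (Sys.compare ((sysW b).comp (sysW b)) (Sys.one _) (Sys.isDistinct_unit _)
      (fun _ => ()) (fun _ => δ) (fun _ => qUnit q hq) (fun _ => qUnit_pos q hq)
      (fun x => by
        show wMat b * wMat b = sc (qUnit q hq) * mapGL ℝ (b.tau * b.rho) * 1
        rw [mul_one, wMat_sq b hq]) ((), ()) γ).2
    exact this
  refine ⟨(sysW b).g () (δ⁻¹ * h * δ), ?_⟩
  have := key (δ⁻¹ * h * δ)
  have e : δ * (δ⁻¹ * h * δ) = h * δ := by group
  rw [e] at this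
  exact mul_right_cancel this

/-- `Γ₀(N q)` is normalised by `w`. -/
theorem wMat_norm [NeZero q] (b : Bez N q) (h : Gamma0 (N * q)) :
    ∃ h' : Gamma0 (N * q), mapGL ℝ ((h : Gamma0 (N * q)) : SL(2, ℤ)) * wMat b =
      wMat b * mapGL ℝ ((h' : Gamma0 (N * q)) : SL(2, ℤ)) := by
  obtain ⟨h', rfl⟩ := sysW_g_surj b h
  exact ⟨h', ((sysW b).rel () h').symm⟩

end Atkin

/-! ### The degeneracy systems and the matrix `κ ρ` -/

section Degeneracy

variable {N q : ℕ} [Fact q.Prime] (hqN : ¬ q ∣ N)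

/-- Restriction `Γ₀(N q) ≤ Γ₀(N)` as a system. -/
def sysRes (N q : ℕ) : Sys (Gamma0 (N * q)) (Gamma0 N) Unit := Sys.res (Gamma0_mul_le N q)

/-- Conjugation by `diag(q,1)` as a system `Γ₀(N q) → Γ₀(N)`. -/
noncomputable def sysResc (N q : ℕ) [NeZero q] : Sys (Gamma0 (N * q)) (Gamma0 N) Unit :=
  Sys.conj (heckeDiagMatrix q) (conjB N q) (conjB_rel N q)

theorem card_onePoint_zmod (q : ℕ) [NeZero q] : Fintype.card (OnePoint (ZMod q)) = q + 1 := by
  show Fintype.card (Option (ZMod q)) = q + 1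
  rw [Fintype.card_option, ZMod.card]

/-- `cores ∘ res = q + 1`. -/
theorem sysCores_op_sysRes (b : Bez N q) (A : Type*) [AddCommGroup A]
    (φ : Additive (Gamma0 N) →+ A) :
    (sysCores hqN b).op A ((sysRes N q).op A φ) = (q + 1) • φ := by
  rw [sysCores, sysRes, Sys.cores_res, card_onePoint_zmod]

/-- `cores ∘ res^c = T_q`. -/
theorem sysCores_op_sysResc (b : Bez N q) (A : Type*) [AddCommGroup A]
    (φ : Additive (Gamma0 N) →+ A) :
    (sysCores hqN b).op A ((sysResc N q).op A φ) = (sysT N q hqN).op A φ := by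
  rw [← Sys.op_comp']
  refine Sys.op_eq_of_bijective ((sysCores hqN b).comp (sysResc N q)) (sysT N q hqN)
    (sysT_isDistinct N q hqN) Prod.fst ⟨fun x y h => Prod.ext h rfl, fun k => ⟨(k, ()), rfl⟩⟩
    (fun x => x.1.elim 1 (fun _ => ⟨b.rho, b.rho_mem⟩)) (fun _ => 1) (fun _ => by simp)
    (fun x => ?_) A φ
  obtain ⟨k, u⟩ := x
  induction k using OnePoint.rec with
  | infty =>
    show heckeDiagMatrix q * mapGL ℝ (((1 : Gamma0 N)) : SL(2, ℤ)) =
      sc 1 * mapGL ℝ (((1 : Gamma0 N)) : SL(2, ℤ)) * heckeDiagMatrix q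
    simp [sc_one]
  | coe j =>
    show heckeDiagMatrix q * mapGL ℝ ((trans b (j : OnePoint (ZMod q)) : Gamma0 N) : SL(2, ℤ)) =
      sc 1 * mapGL ℝ b.rho * heckeMatrix q j.val
    rw [sc_one, one_mul, diag_mul_trans]

/-- `res^c = W_q ∘ res`. -/
theorem sysResc_op_eq (b : Bez N q) (A : Type*) [AddCommGroup A]
    (φ : Additive (Gamma0 N) →+ A) :
    (sysResc N q).op A φ = (sysW b).op A ((sysRes N q).op A φ) := by
  rw [← Sys.op_comp']
  symm
  exact Sys.op_eq_of_bijective ((sysW b).comp (sysRes N q)) (sysResc N q) (Sys.isDistinct_unit _)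
    (fun _ => ()) ⟨fun _ _ _ => Subsingleton.elim _ _, fun _ => ⟨((), ()), rfl⟩⟩
    (fun _ => ⟨b.tau, b.tau_mem⟩) (fun _ => 1) (fun _ => by simp)
    (fun x => by
      show 1 * wMat b = sc 1 * mapGL ℝ b.tau * heckeDiagMatrix q
      rw [sc_one, one_mul, one_mul, wMat]) A φ

/-- `cores^c ∘ res = T_q` where `cores^c = cores ∘ W_q`. -/
theorem sysCores_op_sysW_op_sysRes (b : Bez N q) (A : Type*) [AddCommGroup A]
    (φ : Additive (Gamma0 N) →+ A) :
    (sysCores hqN b).op A ((sysW b).op A ((sysRes N q).op A φ)) = (sysT N q hqN).op A φ := by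
  rw [← sysResc_op_eq b A φ, sysCores_op_sysResc]

/-- `cores^c ∘ res^c = q + 1`. -/
theorem sysCores_op_sysW_op_sysResc (b : Bez N q) (A : Type*) [AddCommGroup A]
    (φ : Additive (Gamma0 N) →+ A) :
    (sysCores hqN b).op A ((sysW b).op A ((sysResc N q).op A φ)) = (q + 1) • φ := by
  rw [sysResc_op_eq b A φ, sysW_op_sysW, sysCores_op_sysRes]

end Degeneracy

/-! ### The degeneracy maps as homomorphisms -/

section API

variable (N q : ℕ) [Fact q.Prime]

/-- Chosen Bezout data for `q ∤ N`. -/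
noncomputable def bez (hqN : ¬ q ∣ N) : Bez N q := (nonempty_bez (Fact.out : q.Prime) hqN).some

/-- `res : Hom(Γ₀(N), A) → Hom(Γ₀(N q), A)`, restriction. -/
noncomputable def res (A : Type*) [AddCommGroup A] :
    (Additive (Gamma0 N) →+ A) →+ (Additive (Gamma0 (N * q)) →+ A) := (sysRes N q).op A

/-- `res^c : Hom(Γ₀(N), A) → Hom(Γ₀(N q), A)`, `φ ↦ φ ∘ (conjugation by diag(q,1))`. -/
noncomputable def resc (A : Type*) [AddCommGroup A] :
    (Additive (Gamma0 N) →+ A) →+ (Additive (Gamma0 (N * q)) →+ A) := (sysResc N q).op A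

/-- `cores : Hom(Γ₀(N q), A) → Hom(Γ₀(N), A)`, the transfer. -/
noncomputable def cores (hqN : ¬ q ∣ N) (A : Type*) [AddCommGroup A] :
    (Additive (Gamma0 (N * q)) →+ A) →+ (Additive (Gamma0 N) →+ A) :=
  (sysCores hqN (bez N q hqN)).op A

/-- The Atkin–Lehner involution `W_q` on `Hom(Γ₀(N q), A)`. -/
noncomputable def atkin (hqN : ¬ q ∣ N) (A : Type*) [AddCommGroup A] :
    (Additive (Gamma0 (N * q)) →+ A) →+ (Additive (Gamma0 (N * q)) →+ A) :=
  (sysW (bez N q hqN)).op A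

/-- `cores^c = cores ∘ W_q : Hom(Γ₀(N q), A) → Hom(Γ₀(N), A)`. -/
noncomputable def coresc (hqN : ¬ q ∣ N) (A : Type*) [AddCommGroup A] :
    (Additive (Gamma0 (N * q)) →+ A) →+ (Additive (Gamma0 N) →+ A) :=
  (cores N q hqN A).comp (atkin N q hqN A)

omit [Fact q.Prime] in
theorem res_apply (A : Type*) [AddCommGroup A] (φ : Additive (Gamma0 N) →+ A)
    (γ : Gamma0 (N * q)) :
    res N q A φ (Additive.ofMul γ) =
      φ (Additive.ofMul (Subgroup.inclusion (Gamma0_mul_le N q) γ)) :=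
  Sys.res_op_apply _ A φ γ

theorem resc_apply (A : Type*) [AddCommGroup A] (φ : Additive (Gamma0 N) →+ A)
    (γ : Gamma0 (N * q)) :
    resc N q A φ (Additive.ofMul γ) = φ (Additive.ofMul (conjB N q γ)) :=
  Sys.conj_op_apply _ _ _ A φ γ

theorem coresc_apply (hqN : ¬ q ∣ N) (A : Type*) [AddCommGroup A]
    (φ : Additive (Gamma0 (N * q)) →+ A) :
    coresc N q hqN A φ = cores N q hqN A (atkin N q hqN A φ) := rfl

omit [Fact q.Prime] in
theorem res_natural {A B : Type*} [AddCommGroup A] [AddCommGroup B] (f : A →+ B)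
    (φ : Additive (Gamma0 N) →+ A) : res N q B (f.comp φ) = f.comp (res N q A φ) :=
  Sys.op_natural _ f φ

theorem resc_natural {A B : Type*} [AddCommGroup A] [AddCommGroup B] (f : A →+ B)
    (φ : Additive (Gamma0 N) →+ A) : resc N q B (f.comp φ) = f.comp (resc N q A φ) :=
  Sys.op_natural _ f φ

theorem cores_natural (hqN : ¬ q ∣ N) {A B : Type*} [AddCommGroup A] [AddCommGroup B]
    (f : A →+ B) (φ : Additive (Gamma0 (N * q)) →+ A) :
    cores N q hqN B (f.comp φ) = f.comp (cores N q hqN A φ) :=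
  Sys.op_natural _ f φ

theorem atkin_natural (hqN : ¬ q ∣ N) {A B : Type*} [AddCommGroup A] [AddCommGroup B]
    (f : A →+ B) (φ : Additive (Gamma0 (N * q)) →+ A) :
    atkin N q hqN B (f.comp φ) = f.comp (atkin N q hqN A φ) :=
  Sys.op_natural _ f φ

theorem coresc_natural (hqN : ¬ q ∣ N) {A B : Type*} [AddCommGroup A] [AddCommGroup B]
    (f : A →+ B) (φ : Additive (Gamma0 (N * q)) →+ A) :
    coresc N q hqN B (f.comp φ) = f.comp (coresc N q hqN A φ) := by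
  rw [coresc_apply, coresc_apply, atkin_natural, cores_natural]

/-- `W_q ∘ W_q = id`. -/
theorem atkin_atkin (hqN : ¬ q ∣ N) (A : Type*) [AddCommGroup A]
    (φ : Additive (Gamma0 (N * q)) →+ A) : atkin N q hqN A (atkin N q hqN A φ) = φ :=
  sysW_op_sysW _ A φ

/-- `res^c = W_q ∘ res`. -/
theorem resc_eq_atkin_res (hqN : ¬ q ∣ N) (A : Type*) [AddCommGroup A]
    (φ : Additive (Gamma0 N) →+ A) : resc N q A φ = atkin N q hqN A (res N q A φ) :=
  sysResc_op_eq _ A φ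

/-- `cores ∘ res = q + 1`. -/
theorem cores_res (hqN : ¬ q ∣ N) (A : Type*) [AddCommGroup A] (φ : Additive (Gamma0 N) →+ A) :
    cores N q hqN A (res N q A φ) = (q + 1) • φ :=
  sysCores_op_sysRes hqN _ A φ

/-- `cores ∘ res^c = T_q`. -/
theorem cores_resc (hqN : ¬ q ∣ N) (A : Type*) [AddCommGroup A] (φ : Additive (Gamma0 N) →+ A) :
    cores N q hqN A (resc N q A φ) = heckeHomT N q hqN A φ :=
  (sysCores_op_sysResc hqN _ A φ).trans (sysT_op N q hqN A φ)

/-- `cores^c ∘ res = T_q`. -/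
theorem coresc_res (hqN : ¬ q ∣ N) (A : Type*) [AddCommGroup A] (φ : Additive (Gamma0 N) →+ A) :
    coresc N q hqN A (res N q A φ) = heckeHomT N q hqN A φ :=
  (sysCores_op_sysW_op_sysRes hqN _ A φ).trans (sysT_op N q hqN A φ)

/-- `cores^c ∘ res^c = q + 1`. -/
theorem coresc_resc (hqN : ¬ q ∣ N) (A : Type*) [AddCommGroup A] (φ : Additive (Gamma0 N) →+ A) :
    coresc N q hqN A (resc N q A φ) = (q + 1) • φ :=
  sysCores_op_sysW_op_sysResc hqN _ A φ

end API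

/-! ### Hermite normal form -/

section HNF

/-- upper-left entry of `repT l x`: `l` at `∞`, `1` at `j`. -/
def aT (l : ℕ) (x : OnePoint (ZMod l)) : ℤ := x.elim (l : ℤ) (fun _ => 1)

theorem aT_mul_eT (l : ℕ) (x : OnePoint (ZMod l)) : aT l x * eT l x = l := by
  induction x using OnePoint.rec with
  | infty => simp [aT]
  | coe j => simp [aT]

theorem repT_ne (l : ℕ) (hl : l ≠ 0) (x : OnePoint (ZMod l)) :
    aT l x * eT l x - bT l x * 0 ≠ 0 := by
  rw [mul_zero, sub_zero, aT_mul_eT]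
  exact_mod_cast hl

theorem repT_eq_glInt (l : ℕ) (hl : l ≠ 0) (x : OnePoint (ZMod l)) :
    repT l x = glInt (aT l x) (bT l x) 0 (eT l x) (repT_ne l hl x) := by
  induction x using OnePoint.rec with
  | infty =>
    show heckeDiagMatrix l = _
    rw [heckeDiagMatrix_eq_glInt l hl]
    apply glInt_congr <;> simp [aT]
  | coe j =>
    show heckeMatrix l j.val = _
    rw [heckeMatrix_eq_glInt l j.val hl]
    apply glInt_congr <;> simp [aT]

/-- Hermite normal form: an integral matrix of determinant `l` with coprime first column and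
lower left entry divisible by `N'` lies in `Γ₀(N') !![1, j; 0, l]`. -/
theorem hnf_core (N' l : ℕ) [NeZero l] (a b c d : ℤ) (hdet : a * d - b * c = l)
    (hc : (N' : ℤ) ∣ c) (hac : IsCoprime a c) (h0 : a * d - b * c ≠ 0) :
    ∃ (j : ZMod l) (g : Gamma0 N'),
      glInt a b c d h0 = mapGL ℝ ((g : Gamma0 N') : SL(2, ℤ)) * heckeMatrix l j.val := by
  obtain ⟨s, t, hst⟩ := hac
  have hjv : (((((s * b + t * d : ℤ)) : ZMod l).val : ℕ) : ℤ) = (s * b + t * d) % (l : ℤ) :=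
    ZMod.val_intCast _
  have hJ : s * b + t * d = (l : ℤ) * ((s * b + t * d) / (l : ℤ)) +
      (((((s * b + t * d : ℤ)) : ZMod l).val : ℕ) : ℤ) := by
    rw [hjv]
    exact (Int.mul_ediv_add_emod _ _).symm
  refine ⟨((s * b + t * d : ℤ) : ZMod l),
    ⟨mkSL a (a * ((s * b + t * d) / (l : ℤ)) - t) c (c * ((s * b + t * d) / (l : ℤ)) + s)
      (by linear_combination hst), mem_Gamma0_iff_dvd.mpr (by simpa using hc)⟩, ?_⟩
  rw [mapGL_eq_glInt, heckeMatrix_eq_glInt l _ (NeZero.ne l), glInt_mul]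
  apply glInt_congr
  · simp
  · simp only [mkSL_00, mkSL_01]
    linear_combination (-b) * hst + a * hJ - t * hdet
  · simp
  · simp only [mkSL_10, mkSL_11]
    linear_combination (-d) * hst + c * hJ + s * hdet

/-- Hermite normal form for prime determinant `l ∤ N'`. -/
theorem hnfT (N' l : ℕ) [Fact l.Prime] (hlN : ¬ l ∣ N') (a b c d : ℤ) (hdet : a * d - b * c = l)
    (hc : (N' : ℤ) ∣ c) (h0 : a * d - b * c ≠ 0) :
    ∃ (x : OnePoint (ZMod l)) (g : Gamma0 N'),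
      glInt a b c d h0 = mapGL ℝ ((g : Gamma0 N') : SL(2, ℤ)) * repT l x := by
  have hl : l.Prime := Fact.out
  have hl0 : (l : ℤ) ≠ 0 := by exact_mod_cast hl.ne_zero
  by_cases hlac : (l : ℤ) ∣ a ∧ (l : ℤ) ∣ c
  · obtain ⟨⟨a', rfl⟩, ⟨c', rfl⟩⟩ := hlac
    have hdet' : a' * d - b * c' = 1 := by
      apply mul_left_cancel₀ hl0
      linear_combination hdet
    have hc' : (N' : ℤ) ∣ c' := by
      have hcop : IsCoprime (N' : ℤ) (l : ℤ) :=
        Nat.isCoprime_iff_coprime.mpr ((Nat.Prime.coprime_iff_not_dvd hl).mpr hlN).symm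
      exact hcop.dvd_of_dvd_mul_left hc
    refine ⟨OnePoint.infty, ⟨mkSL a' b c' d hdet', mem_Gamma0_iff_dvd.mpr (by simpa using hc')⟩, ?_⟩
    show _ = mapGL ℝ (mkSL a' b c' d hdet') * heckeDiagMatrix l
    rw [mapGL_eq_glInt, heckeDiagMatrix_eq_glInt l hl.ne_zero, glInt_mul]
    apply glInt_congr <;> simp <;> ring
  · have hac : IsCoprime a c := by
      rw [Int.isCoprime_iff_gcd_eq_one]
      have hg1 : (Int.gcd a c : ℤ) ∣ a := Int.gcd_dvd_left a c
      have hg2 : (Int.gcd a c : ℤ) ∣ c := Int.gcd_dvd_right a c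
      have hgl : (Int.gcd a c : ℤ) ∣ (l : ℤ) := by
        rw [← hdet]
        exact dvd_sub (hg1.mul_right d) (hg2.mul_left b)
      have hgl' : Int.gcd a c ∣ l := Int.natCast_dvd_natCast.mp hgl
      rcases (Nat.dvd_prime hl).mp hgl' with h1 | h1
      · exact h1
      · exfalso
        apply hlac
        rw [← h1]
        exact ⟨hg1, hg2⟩
    haveI : NeZero l := ⟨hl.ne_zero⟩
    obtain ⟨j, g, hg⟩ := hnf_core N' l a b c d hdet hc hac h0
    exact ⟨(j : OnePoint (ZMod l)), g, hg⟩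

end HNF

/-! ### Hecke-equivariance -/

section Equivariance

variable {N q : ℕ}

theorem wMat_ne (b : Bez N q) (hq : q ≠ 0) :
    b.u * (q : ℤ) * (q : ℤ) - -b.v * ((N : ℤ) * (q : ℤ)) ≠ 0 := by
  have hq' : (q : ℤ) ≠ 0 := by exact_mod_cast hq
  have e : b.u * (q : ℤ) * (q : ℤ) - -b.v * ((N : ℤ) * (q : ℤ)) = (q : ℤ) := by
    linear_combination (q : ℤ) * b.h
  rw [e]
  exact hq'

theorem wMat_eq_glInt (b : Bez N q) (hq : q ≠ 0) :
    wMat b = glInt (b.u * q) (-b.v) (N * q) q (wMat_ne b hq) := by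
  rw [wMat, mapGL_eq_glInt, heckeDiagMatrix_eq_glInt q hq, glInt_mul]
  apply glInt_congr <;> simp [Bez.tau]

/-- `w⁻¹ R w` for an upper triangular integral `R = !![r₁, r₂; 0, r₃]` is integral with lower
left entry divisible by `N q`: explicit form. -/
theorem wMat_mul_conj (b : Bez N q) (hq : q ≠ 0) (r₁ r₂ r₃ : ℤ) (hR : r₁ * r₃ - r₂ * 0 ≠ 0)
    (hM : (q * b.u * r₁ + N * (q * r₂ + b.v * r₃)) * (q * b.u * r₃ + N * b.v * r₁ - q * N * r₂) -
      (b.v * (r₃ - r₁) + q * r₂) * ((N * q : ℤ) * (b.u * (r₃ - r₁) - N * r₂)) ≠ 0) :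
    wMat b * glInt (q * b.u * r₁ + N * (q * r₂ + b.v * r₃)) (b.v * (r₃ - r₁) + q * r₂)
        ((N * q : ℤ) * (b.u * (r₃ - r₁) - N * r₂)) (q * b.u * r₃ + N * b.v * r₁ - q * N * r₂) hM =
      glInt r₁ r₂ 0 r₃ hR * wMat b := by
  have h := b.h
  rw [wMat_eq_glInt b hq, glInt_mul, glInt_mul]
  apply glInt_congr
  · linear_combination ((q : ℤ) * b.u * r₁ + (q : ℤ) * N * r₂) * h
  · linear_combination (-b.v * r₁ + (q : ℤ) * r₂) * h
  · linear_combination ((N : ℤ) * q * r₃) * h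
  · linear_combination ((q : ℤ) * r₃) * h

theorem wMat_conj_det (b : Bez N q) (r₁ r₂ r₃ : ℤ) :
    (q * b.u * r₁ + N * (q * r₂ + b.v * r₃)) * (q * b.u * r₃ + N * b.v * r₁ - q * N * r₂) -
      (b.v * (r₃ - r₁) + q * r₂) * ((N * q : ℤ) * (b.u * (r₃ - r₁) - N * r₂)) = r₁ * r₃ := by
  linear_combination (r₁ * r₃ * (b.u * q + b.v * N + 1)) * b.h

theorem unit_eq_one_of_sq {c : ℝˣ} (hc : 0 < (c : ℝ)) (h : c ^ 2 = 1) : c = 1 := by
  apply Units.ext
  have h2 : (c : ℝ) ^ 2 = 1 := by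
    have := congrArg Units.val h
    simpa using this
  have h3 : ((c : ℝ) - 1) * ((c : ℝ) + 1) = 0 := by ring_nf; linarith
  rcases mul_eq_zero.mp h3 with h4 | h4
  · simpa using sub_eq_zero.mp h4
  · exfalso; linarith

/-- Scalars are trivial when the determinants agree. -/
theorem sc_eq_one_of_det {c : ℝˣ} (hc : 0 < (c : ℝ)) {y x : SL(2, ℤ)} {R R' : GL (Fin 2) ℝ}
    (hdet : Matrix.GeneralLinearGroup.det R = Matrix.GeneralLinearGroup.det R')
    (H : sc c * mapGL ℝ y * R = R' * mapGL ℝ x) : c = 1 := by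
  have hd := congrArg Matrix.GeneralLinearGroup.det H
  rw [map_mul, map_mul, map_mul, det_sc, det_mapGL, det_mapGL, mul_one, mul_one, hdet] at hd
  have hc2 : c ^ 2 = 1 := mul_right_cancel (b := Matrix.GeneralLinearGroup.det R')
    (by rw [hd, one_mul])
  exact unit_eq_one_of_sq hc hc2

theorem mem_Gamma0_mul_of_dvd (hq : q.Prime) (hqN : ¬ q ∣ N) (x : SL(2, ℤ)) (hx : x ∈ Gamma0 N)
    (hqx : (q : ℤ) ∣ x 1 0) : x ∈ Gamma0 (N * q) := by
  have hcop : IsCoprime (N : ℤ) (q : ℤ) :=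
    Nat.isCoprime_iff_coprime.mpr ((Nat.Prime.coprime_iff_not_dvd hq).mpr hqN).symm
  rw [mem_Gamma0_iff_dvd]
  push_cast
  exact hcop.mul_dvd (mem_Gamma0_iff_dvd.mp hx) hqx

/-- Property (P) of `Sys.op_cores_comm` for `T_l`, `l ∤ N q`. -/
theorem sysT_P [Fact q.Prime] (hqN : ¬ q ∣ N) (l : ℕ) [Fact l.Prime] (hlN : ¬ l ∣ N)
    (hlq : l ≠ q) (k k' : OnePoint (ZMod l)) (y : Gamma0 (N * q)) (x : Gamma0 N) (c : ℝˣ)
    (hc : 0 < (c : ℝ))
    (H : sc c * mapGL ℝ ((y : Gamma0 (N * q)) : SL(2, ℤ)) * (sysT N l hlN).α k =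
      (sysT N l hlN).α k' * mapGL ℝ ((x : Gamma0 N) : SL(2, ℤ))) :
    (x : SL(2, ℤ)) ∈ Gamma0 (N * q) := by
  have hl : l.Prime := Fact.out
  have hq : q.Prime := Fact.out
  have hc1 : c = 1 := sc_eq_one_of_det hc
    (Units.ext (by rw [sysT_α, sysT_α, det_repT, det_repT])) H
  rw [hc1, sc_one, one_mul, sysT_α, sysT_α, repT_eq_glInt l hl.ne_zero, repT_eq_glInt l hl.ne_zero,
    mapGL_eq_glInt, mapGL_eq_glInt, glInt_mul, glInt_mul] at H
  obtain ⟨-, -, h10, -⟩ := glInt_inj H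
  have hq_dvd : (q : ℤ) ∣ eT l k' * (x : SL(2, ℤ)) 1 0 := by
    have e : eT l k' * (x : SL(2, ℤ)) 1 0 = (y : SL(2, ℤ)) 1 0 * aT l k := by
      linear_combination -h10
    rw [e]
    exact (q_dvd_of_mem N q y).mul_right _
  have hcop : IsCoprime (eT l k') (q : ℤ) := by
    induction k' using OnePoint.rec with
    | infty => exact isCoprime_one_left
    | coe j =>
      show IsCoprime ((l : ℕ) : ℤ) (q : ℤ)
      exact Nat.isCoprime_iff_coprime.mpr ((Nat.coprime_primes hl hq).mpr hlq)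
  exact mem_Gamma0_mul_of_dvd hq hqN _ x.2 (hcop.symm.dvd_of_dvd_mul_left hq_dvd)

/-- Property (P) of `Sys.op_cores_comm` for `U_r`, `r ∣ N`. -/
theorem sysU_P [Fact q.Prime] (hqN : ¬ q ∣ N) (r : ℕ) [NeZero r] (hrN : r ∣ N)
    (k k' : ZMod r) (y : Gamma0 (N * q)) (x : Gamma0 N) (c : ℝˣ) (hc : 0 < (c : ℝ))
    (H : sc c * mapGL ℝ ((y : Gamma0 (N * q)) : SL(2, ℤ)) * (sysU N r hrN).α k =
      (sysU N r hrN).α k' * mapGL ℝ ((x : Gamma0 N) : SL(2, ℤ))) :
    (x : SL(2, ℤ)) ∈ Gamma0 (N * q) := by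
  have hq : q.Prime := Fact.out
  have hr : r ≠ 0 := NeZero.ne r
  have hc1 : c = 1 := sc_eq_one_of_det hc
    (Units.ext (by rw [sysU_α, sysU_α, ModularForm.det_heckeMatrix hr,
      ModularForm.det_heckeMatrix hr])) H
  rw [hc1, sc_one, one_mul, sysU_α, sysU_α, heckeMatrix_eq_glInt r _ hr,
    heckeMatrix_eq_glInt r _ hr, mapGL_eq_glInt, mapGL_eq_glInt, glInt_mul, glInt_mul] at H
  obtain ⟨-, -, h10, -⟩ := glInt_inj H
  have hq_dvd : (q : ℤ) ∣ (r : ℤ) * (x : SL(2, ℤ)) 1 0 := by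
    have e : (r : ℤ) * (x : SL(2, ℤ)) 1 0 = (y : SL(2, ℤ)) 1 0 := by
      linear_combination -h10
    rw [e]
    exact q_dvd_of_mem N q y
  have hcop : IsCoprime (q : ℤ) (r : ℤ) :=
    Nat.isCoprime_iff_coprime.mpr
      ((Nat.Prime.coprime_iff_not_dvd hq).mpr (fun h => hqN (h.trans hrN)))
  exact mem_Gamma0_mul_of_dvd hq hqN _ x.2 (hcop.dvd_of_dvd_mul_left hq_dvd)

/-- `W_q` commutes with `T_l` at level `N q` (`l ∤ N q`). -/
theorem sysT_op_sysW [NeZero q] (b : Bez N q) (l : ℕ) [Fact l.Prime] (hl : ¬ l ∣ N * q)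
    (A : Type*) [AddCommGroup A] (φ : Additive (Gamma0 (N * q)) →+ A) :
    (sysT (N * q) l hl).op A ((sysW b).op A φ) = (sysW b).op A ((sysT (N * q) l hl).op A φ) := by
  have hl0 : l ≠ 0 := (Fact.out : l.Prime).ne_zero
  have hq : q ≠ 0 := NeZero.ne q
  rw [← Sys.op_comp', ← Sys.op_comp']
  symm
  refine Sys.op_eq_of_card ((sysW b).comp (sysT (N * q) l hl)) ((sysT (N * q) l hl).comp (sysW b))
    ?_ ?_ (by rw [Fintype.card_prod, Fintype.card_prod, mul_comm]) ?_ A φ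
  · intro x x' h c hc H
    simp only [Sys.comp_α, sysW_α] at H
    rw [← mul_assoc] at H
    exact Prod.ext (Subsingleton.elim _ _) (sysT_isDistinct _ l hl _ _ _ _ hc (mul_right_cancel H))
  · intro x x' h c hc H
    simp only [Sys.comp_α, sysW_α] at H
    obtain ⟨h', hh'⟩ := wMat_norm b h
    have H2 : wMat b * (sc c * mapGL ℝ ((h' : Gamma0 (N * q)) : SL(2, ℤ)) *
        (sysT (N * q) l hl).α x.1) = wMat b * (sysT (N * q) l hl).α x'.1 := by
      rw [← H]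
      calc wMat b * (sc c * mapGL ℝ ((h' : Gamma0 (N * q)) : SL(2, ℤ)) * (sysT (N * q) l hl).α x.1)
          = sc c * ((wMat b * mapGL ℝ ((h' : Gamma0 (N * q)) : SL(2, ℤ))) *
              (sysT (N * q) l hl).α x.1) := by
            rw [mul_assoc (sc c), ← mul_assoc (wMat b) (sc c), ← sc_comm c (wMat b)]
            simp only [mul_assoc]
        _ = sc c * mapGL ℝ ((h : Gamma0 (N * q)) : SL(2, ℤ)) *
              (wMat b * (sysT (N * q) l hl).α x.1) := by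
            rw [← hh']
            simp only [mul_assoc]
    exact Prod.ext (sysT_isDistinct _ l hl _ _ _ _ hc (mul_left_cancel H2)) (Subsingleton.elim _ _)
  · intro x
    obtain ⟨u, k⟩ := x
    have hdet := wMat_conj_det b (aT l k) (bT l k) (eT l k)
    rw [aT_mul_eT] at hdet
    have hM0 : (q * b.u * aT l k + N * (q * bT l k + b.v * eT l k)) *
        (q * b.u * eT l k + N * b.v * aT l k - q * N * bT l k) -
        (b.v * (eT l k - aT l k) + q * bT l k) *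
          ((N * q : ℤ) * (b.u * (eT l k - aT l k) - N * bT l k)) ≠ 0 := by
      rw [hdet]
      exact_mod_cast hl0
    have e := wMat_mul_conj b hq (aT l k) (bT l k) (eT l k) (repT_ne l hl0 k) hM0
    obtain ⟨k', g, hg⟩ := hnfT (N * q) l hl _ _ _ _ hdet
      (by push_cast; exact Dvd.intro _ rfl) hM0
    refine ⟨(k', ()), (sysW b).g () g, 1, by simp, ?_⟩
    show repT l k * wMat b = sc 1 * mapGL ℝ (((sysW b).g () g : Gamma0 (N * q)) : SL(2, ℤ)) *
      (wMat b * repT l k')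
    have hrel : wMat b * mapGL ℝ ((g : Gamma0 (N * q)) : SL(2, ℤ)) =
        mapGL ℝ (((sysW b).g () g : Gamma0 (N * q)) : SL(2, ℤ)) * wMat b := (sysW b).rel () g
    rw [sc_one, one_mul, repT_eq_glInt l hl0 k, ← e, hg, ← mul_assoc, ← mul_assoc, hrel]

/-- `W_q` commutes with `U_r` at level `N q` (`r ∣ N`). -/
theorem sysU_op_sysW [NeZero q] (b : Bez N q) (r : ℕ) [NeZero r] (hrN : r ∣ N)
    (hr : r ∣ N * q) (A : Type*) [AddCommGroup A] (φ : Additive (Gamma0 (N * q)) →+ A) :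
    (sysU (N * q) r hr).op A ((sysW b).op A φ) = (sysW b).op A ((sysU (N * q) r hr).op A φ) := by
  have hr0 : r ≠ 0 := NeZero.ne r
  have hq : q ≠ 0 := NeZero.ne q
  rw [← Sys.op_comp', ← Sys.op_comp']
  symm
  refine Sys.op_eq_of_card ((sysW b).comp (sysU (N * q) r hr)) ((sysU (N * q) r hr).comp (sysW b))
    ?_ ?_ (by rw [Fintype.card_prod, Fintype.card_prod, mul_comm]) ?_ A φ
  · intro x x' h c hc H
    simp only [Sys.comp_α, sysW_α] at H
    rw [← mul_assoc] at H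
    exact Prod.ext (Subsingleton.elim _ _) (sysU_isDistinct _ r hr _ _ _ _ hc (mul_right_cancel H))
  · intro x x' h c hc H
    simp only [Sys.comp_α, sysW_α] at H
    obtain ⟨h', hh'⟩ := wMat_norm b h
    have H2 : wMat b * (sc c * mapGL ℝ ((h' : Gamma0 (N * q)) : SL(2, ℤ)) *
        (sysU (N * q) r hr).α x.1) = wMat b * (sysU (N * q) r hr).α x'.1 := by
      rw [← H]
      calc wMat b * (sc c * mapGL ℝ ((h' : Gamma0 (N * q)) : SL(2, ℤ)) * (sysU (N * q) r hr).α x.1)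
          = sc c * ((wMat b * mapGL ℝ ((h' : Gamma0 (N * q)) : SL(2, ℤ))) *
              (sysU (N * q) r hr).α x.1) := by
            rw [mul_assoc (sc c), ← mul_assoc (wMat b) (sc c), ← sc_comm c (wMat b)]
            simp only [mul_assoc]
        _ = sc c * mapGL ℝ ((h : Gamma0 (N * q)) : SL(2, ℤ)) *
              (wMat b * (sysU (N * q) r hr).α x.1) := by
            rw [← hh']
            simp only [mul_assoc]
    exact Prod.ext (sysU_isDistinct _ r hr _ _ _ _ hc (mul_left_cancel H2)) (Subsingleton.elim _ _)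
  · intro x
    obtain ⟨u, k⟩ := x
    obtain ⟨N₁, hN₁⟩ := hrN
    have hN : (N : ℤ) = (r : ℤ) * (N₁ : ℤ) := by exact_mod_cast hN₁
    have hdet := wMat_conj_det b 1 (k.val : ℤ) (r : ℤ)
    have hR0 : (1 : ℤ) * (r : ℤ) - (k.val : ℤ) * 0 ≠ 0 := by
      rw [mul_zero, sub_zero, one_mul]
      exact_mod_cast hr0
    have hM0 : (q * b.u * 1 + N * (q * (k.val : ℤ) + b.v * (r : ℤ))) *
        (q * b.u * (r : ℤ) + N * b.v * 1 - q * N * (k.val : ℤ)) -
        (b.v * ((r : ℤ) - 1) + q * (k.val : ℤ)) *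
          ((N * q : ℤ) * (b.u * ((r : ℤ) - 1) - N * (k.val : ℤ))) ≠ 0 := by
      rw [hdet, one_mul]
      exact_mod_cast hr0
    have e := wMat_mul_conj b hq 1 (k.val : ℤ) (r : ℤ) hR0 hM0
    have hst : (1 : ℤ) * (q * b.u * 1 + N * (q * (k.val : ℤ) + b.v * (r : ℤ))) +
        (-((N₁ : ℤ) * (q * (k.val : ℤ) + b.v * (r : ℤ) - b.v))) * (r : ℤ) = 1 := by
      linear_combination b.h + (q * (k.val : ℤ) + b.v * (r : ℤ) - b.v) * hN
    have hcop : IsCoprime (q * b.u * 1 + N * (q * (k.val : ℤ) + b.v * (r : ℤ)))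
        ((N * q : ℤ) * (b.u * ((r : ℤ) - 1) - N * (k.val : ℤ))) :=
      ⟨1 + (-((N₁ : ℤ) * (q * (k.val : ℤ) + b.v * (r : ℤ) - b.v))) *
          (q * b.u * (r : ℤ) + N * b.v * 1 - q * N * (k.val : ℤ)),
        -(-((N₁ : ℤ) * (q * (k.val : ℤ) + b.v * (r : ℤ) - b.v))) *
          (b.v * ((r : ℤ) - 1) + q * (k.val : ℤ)), by
        linear_combination hst +
          (-((N₁ : ℤ) * (q * (k.val : ℤ) + b.v * (r : ℤ) - b.v))) * hdet⟩
    obtain ⟨k', g, hg⟩ := hnf_core (N * q) r _ _ _ _ (by rw [hdet, one_mul])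
      (by push_cast; exact Dvd.intro _ rfl) hcop hM0
    refine ⟨(k', ()), (sysW b).g () g, 1, by simp, ?_⟩
    show heckeMatrix r k.val * wMat b =
      sc 1 * mapGL ℝ (((sysW b).g () g : Gamma0 (N * q)) : SL(2, ℤ)) *
        (wMat b * heckeMatrix r k'.val)
    rw [sc_one, one_mul, heckeMatrix_eq_glInt r k.val hr0]
    have e' : glInt 1 (k.val : ℤ) 0 (r : ℤ) hR0 * wMat b =
        mapGL ℝ (((sysW b).g () g : Gamma0 (N * q)) : SL(2, ℤ)) *
          (wMat b * heckeMatrix r k'.val) := by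
      have hrel : wMat b * mapGL ℝ ((g : Gamma0 (N * q)) : SL(2, ℤ)) =
          mapGL ℝ (((sysW b).g () g : Gamma0 (N * q)) : SL(2, ℤ)) * wMat b := (sysW b).rel () g
      rw [← e, hg, ← mul_assoc, ← mul_assoc, hrel]
    exact e'

end Equivariance

/-! ### Hecke-equivariance of the degeneracy maps -/

section APIEquivariance

variable (N q : ℕ) [Fact q.Prime]

omit [Fact q.Prime] in
/-- `res` commutes with `T_l`. -/
theorem heckeHomT_res (l : ℕ) [Fact l.Prime] (hlN : ¬ l ∣ N) (hlNq : ¬ l ∣ N * q) (A : Type*)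
    [AddCommGroup A] (φ : Additive (Gamma0 N) →+ A) :
    heckeHomT (N * q) l hlNq A (res N q A φ) = res N q A (heckeHomT N l hlN A φ) := by
  rw [← sysT_op, ← sysT_op]
  exact Sys.op_res_comm (Gamma0_mul_le N q) (sysT (N * q) l hlNq) (sysT N l hlN) (fun _ => rfl)
    (sysT_isDistinct N l hlN) A φ

omit [Fact q.Prime] in
/-- `res` commutes with `U_r`, `r ∣ N`. -/
theorem heckeHomU_res (r : ℕ) [NeZero r] (hrN : r ∣ N) (hrNq : r ∣ N * q) (A : Type*)
    [AddCommGroup A] (φ : Additive (Gamma0 N) →+ A) :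
    heckeHomU (N * q) r hrNq A (res N q A φ) = res N q A (heckeHomU N r hrN A φ) := by
  rw [← sysU_op, ← sysU_op]
  exact Sys.op_res_comm (Gamma0_mul_le N q) (sysU (N * q) r hrNq) (sysU N r hrN) (fun _ => rfl)
    (sysU_isDistinct N r hrN) A φ

/-- `W_q` commutes with `T_l`, `l ∤ N q`. -/
theorem heckeHomT_atkin (hqN : ¬ q ∣ N) (l : ℕ) [Fact l.Prime] (hlNq : ¬ l ∣ N * q) (A : Type*)
    [AddCommGroup A] (φ : Additive (Gamma0 (N * q)) →+ A) :
    heckeHomT (N * q) l hlNq A (atkin N q hqN A φ) =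
      atkin N q hqN A (heckeHomT (N * q) l hlNq A φ) := by
  rw [← sysT_op, ← sysT_op]
  exact sysT_op_sysW _ l hlNq A φ

/-- `W_q` commutes with `U_r`, `r ∣ N`. -/
theorem heckeHomU_atkin (hqN : ¬ q ∣ N) (r : ℕ) [NeZero r] (hrN : r ∣ N) (hrNq : r ∣ N * q)
    (A : Type*) [AddCommGroup A] (φ : Additive (Gamma0 (N * q)) →+ A) :
    heckeHomU (N * q) r hrNq A (atkin N q hqN A φ) =
      atkin N q hqN A (heckeHomU (N * q) r hrNq A φ) := by
  rw [← sysU_op, ← sysU_op]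
  exact sysU_op_sysW _ r hrN hrNq A φ

/-- `res^c` commutes with `T_l`, `l ∤ N q`. -/
theorem heckeHomT_resc (hqN : ¬ q ∣ N) (l : ℕ) [Fact l.Prime] (hlN : ¬ l ∣ N)
    (hlNq : ¬ l ∣ N * q) (A : Type*) [AddCommGroup A] (φ : Additive (Gamma0 N) →+ A) :
    heckeHomT (N * q) l hlNq A (resc N q A φ) = resc N q A (heckeHomT N l hlN A φ) := by
  rw [resc_eq_atkin_res N q hqN, resc_eq_atkin_res N q hqN, heckeHomT_atkin,
    heckeHomT_res N q l hlN hlNq]

/-- `res^c` commutes with `U_r`, `r ∣ N`. -/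
theorem heckeHomU_resc (hqN : ¬ q ∣ N) (r : ℕ) [NeZero r] (hrN : r ∣ N) (hrNq : r ∣ N * q)
    (A : Type*) [AddCommGroup A] (φ : Additive (Gamma0 N) →+ A) :
    heckeHomU (N * q) r hrNq A (resc N q A φ) = resc N q A (heckeHomU N r hrN A φ) := by
  rw [resc_eq_atkin_res N q hqN, resc_eq_atkin_res N q hqN, heckeHomU_atkin N q hqN r hrN,
    heckeHomU_res N q r hrN hrNq]

/-- `cores` commutes with `T_l`, `l ∤ N q`. -/
theorem cores_heckeHomT (hqN : ¬ q ∣ N) (l : ℕ) [Fact l.Prime] (hlN : ¬ l ∣ N)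
    (hlNq : ¬ l ∣ N * q) (A : Type*) [AddCommGroup A] (φ : Additive (Gamma0 (N * q)) →+ A) :
    cores N q hqN A (heckeHomT (N * q) l hlNq A φ) = heckeHomT N l hlN A (cores N q hqN A φ) := by
  have hlq : l ≠ q := by
    rintro rfl
    exact hlNq (dvd_mul_left _ _)
  rw [← sysT_op, ← sysT_op]
  exact Sys.op_cores_comm (Gamma0_mul_le N q) _ _ _ (sysT N l hlN) (sysT (N * q) l hlNq)
    (fun _ => rfl) (sysT_isDistinct N l hlN) (sysT_P hqN l hlN hlq) A φ

/-- `cores` commutes with `U_r`, `r ∣ N`. -/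
theorem cores_heckeHomU (hqN : ¬ q ∣ N) (r : ℕ) [NeZero r] (hrN : r ∣ N) (hrNq : r ∣ N * q)
    (A : Type*) [AddCommGroup A] (φ : Additive (Gamma0 (N * q)) →+ A) :
    cores N q hqN A (heckeHomU (N * q) r hrNq A φ) = heckeHomU N r hrN A (cores N q hqN A φ) := by
  rw [← sysU_op, ← sysU_op]
  exact Sys.op_cores_comm (Gamma0_mul_le N q) _ _ _ (sysU N r hrN) (sysU (N * q) r hrNq)
    (fun _ => rfl) (sysU_isDistinct N r hrN) (sysU_P hqN r hrN) A φ

/-- `cores^c` commutes with `T_l`, `l ∤ N q`. -/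
theorem coresc_heckeHomT (hqN : ¬ q ∣ N) (l : ℕ) [Fact l.Prime] (hlN : ¬ l ∣ N)
    (hlNq : ¬ l ∣ N * q) (A : Type*) [AddCommGroup A] (φ : Additive (Gamma0 (N * q)) →+ A) :
    coresc N q hqN A (heckeHomT (N * q) l hlNq A φ) =
      heckeHomT N l hlN A (coresc N q hqN A φ) := by
  rw [coresc_apply, coresc_apply, ← heckeHomT_atkin, cores_heckeHomT N q hqN l hlN hlNq]

/-- `cores^c` commutes with `U_r`, `r ∣ N`. -/
theorem coresc_heckeHomU (hqN : ¬ q ∣ N) (r : ℕ) [NeZero r] (hrN : r ∣ N) (hrNq : r ∣ N * q)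
    (A : Type*) [AddCommGroup A] (φ : Additive (Gamma0 (N * q)) →+ A) :
    coresc N q hqN A (heckeHomU (N * q) r hrNq A φ) =
      heckeHomU N r hrN A (coresc N q hqN A φ) := by
  rw [coresc_apply, coresc_apply, ← heckeHomU_atkin N q hqN r hrN hrNq,
    cores_heckeHomU N q hqN r hrN hrNq]

end APIEquivariance

/-! ### Newness: `U_q² = 1` on `ker κ` -/

section Newness

variable {N q : ℕ} [Fact q.Prime]

/-- The cosets `Γ₀(N q) t_k` are distinct. -/
theorem sysRes_comp_sysCores_isDistinct (hqN : ¬ q ∣ N) (b : Bez N q) :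
    ((sysRes N q).comp (sysCores hqN b)).IsDistinct := by
  refine Sys.isDistinct_of_det _ (fun i j => ?_) (fun i j h H => ?_)
  · rw [Sys.comp_α, Sys.comp_α, sysCores_α, sysCores_α, map_mul, map_mul, det_mapGL, det_mapGL]
  · have H' : mapGL ℝ (((Subgroup.inclusion (Gamma0_mul_le N q) h * trans b i.2 : Gamma0 N)) :
        SL(2, ℤ)) = mapGL ℝ ((trans b j.2 : Gamma0 N) : SL(2, ℤ)) := by
      have H2 : mapGL ℝ ((h : Gamma0 (N * q)) : SL(2, ℤ)) *
          (mapGL ℝ ((trans b i.2 : Gamma0 N) : SL(2, ℤ)) * 1) =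
          mapGL ℝ ((trans b j.2 : Gamma0 N) : SL(2, ℤ)) * 1 := H
      rw [mul_one, mul_one, ← map_mul] at H2
      exact H2
    have H3 := Subtype.ext (mapGL_injective (R := ℤ) (S := ℝ) H')
    exact Prod.ext (Subsingleton.elim _ _) (trans_inj hqN b _ _ h H3)

/-- `w !![1, j; 0, q] = q • t_j`. -/
theorem wMat_mul_heckeMatrix (b : Bez N q) (j : ZMod q) :
    wMat b * heckeMatrix q j.val = sc (qUnit q (Fact.out : q.Prime).ne_zero) *
      mapGL ℝ ((trans b (j : OnePoint (ZMod q)) : Gamma0 N) : SL(2, ℤ)) := by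
  have hq : q ≠ 0 := (Fact.out : q.Prime).ne_zero
  have e : heckeMatrix q j.val = heckeMatrix q 0 * mapGL ℝ (Tm (j.val : ℤ)) := by
    exact_mod_cast (heckeMatrix_zero_mul_Tm q hq j.val).symm
  calc wMat b * heckeMatrix q j.val
      = mapGL ℝ b.tau * (heckeDiagMatrix q * heckeMatrix q 0) * mapGL ℝ (Tm (j.val : ℤ)) := by
        rw [e, wMat]
        simp only [mul_assoc]
    _ = sc (qUnit q hq) * mapGL ℝ ((trans b (j : OnePoint (ZMod q)) : Gamma0 N) : SL(2, ℤ)) := by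
        rw [heckeDiag_mul_heckeMatrix_zero q hq, trans_coe, map_mul, ← sc_comm]
        simp only [mul_assoc]

/-- `res ∘ cores = 1 + U_q ∘ W_q`. -/
theorem sysRes_op_sysCores (hqN : ¬ q ∣ N) (b : Bez N q) (A : Type*) [AddCommGroup A]
    (φ : Additive (Gamma0 (N * q)) →+ A) :
    (sysRes N q).op A ((sysCores hqN b).op A φ) =
      φ + (sysU (N * q) q (dvd_mul_left q N)).op A ((sysW b).op A φ) := by
  have hq : q ≠ 0 := (Fact.out : q.Prime).ne_zero
  have hR : φ + (sysU (N * q) q (dvd_mul_left q N)).op A ((sysW b).op A φ) =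
      ((Sys.one (Gamma0 (N * q))).sum
        ((sysU (N * q) q (dvd_mul_left q N)).comp (sysW b))).op A φ := by
    rw [Sys.op_sum, Sys.one_op, Sys.op_comp']
  rw [hR, ← Sys.op_comp']
  symm
  refine Sys.op_eq_of_bijective _ ((sysRes N q).comp (sysCores hqN b))
    (sysRes_comp_sysCores_isDistinct hqN b)
    (fun x => ((), Sum.elim (fun _ => OnePoint.infty) (fun y => (y.1 : OnePoint (ZMod q))) x))
    ⟨?_, ?_⟩ (fun _ => 1) (Sum.elim (fun _ => 1) (fun _ => qUnit q hq)) ?_ ?_ A φ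
  · rintro (x | x) (y | y) hxy
    · rfl
    · simp at hxy
    · simp at hxy
    · have : x.1 = y.1 := by simpa using hxy
      exact congrArg Sum.inr (Prod.ext this (Subsingleton.elim _ _))
  · rintro ⟨u, k⟩
    induction k using OnePoint.rec with
    | infty => exact ⟨Sum.inl (), rfl⟩
    | coe j => exact ⟨Sum.inr (j, ()), rfl⟩
  · rintro (x | x)
    · simp
    · exact qUnit_pos q hq
  · rintro (x | x)
    · show (1 : GL (Fin 2) ℝ) = sc 1 * mapGL ℝ (((1 : Gamma0 (N * q))) : SL(2, ℤ)) *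
        (mapGL ℝ (((1 : Gamma0 N)) : SL(2, ℤ)) * 1)
      simp [sc_one]
    · show wMat b * heckeMatrix q x.1.val = sc (qUnit q hq) *
        mapGL ℝ (((1 : Gamma0 (N * q))) : SL(2, ℤ)) *
        (mapGL ℝ ((trans b (x.1 : OnePoint (ZMod q)) : Gamma0 N) : SL(2, ℤ)) * 1)
      rw [wMat_mul_heckeMatrix]
      simp

/-- The cosets `Γ₀(N q) w t_k` are distinct. -/
theorem sysRes_comp_coresc_isDistinct (hqN : ¬ q ∣ N) (b : Bez N q) :
    ((sysRes N q).comp ((sysCores hqN b).comp (sysW b))).IsDistinct := by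
  intro x x' h c hc H
  have H1 : sc c * mapGL ℝ ((h : Gamma0 (N * q)) : SL(2, ℤ)) *
      (wMat b * mapGL ℝ ((trans b x.2.1 : Gamma0 N) : SL(2, ℤ)) * 1) =
      wMat b * mapGL ℝ ((trans b x'.2.1 : Gamma0 N) : SL(2, ℤ)) * 1 := H
  obtain ⟨h', hh'⟩ := wMat_norm b h
  have H2 : wMat b * (sc c * mapGL ℝ ((h' : Gamma0 (N * q)) : SL(2, ℤ)) *
      mapGL ℝ ((trans b x.2.1 : Gamma0 N) : SL(2, ℤ))) =
      wMat b * mapGL ℝ ((trans b x'.2.1 : Gamma0 N) : SL(2, ℤ)) := by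
    rw [mul_one, mul_one] at H1
    rw [← H1]
    calc wMat b * (sc c * mapGL ℝ ((h' : Gamma0 (N * q)) : SL(2, ℤ)) *
          mapGL ℝ ((trans b x.2.1 : Gamma0 N) : SL(2, ℤ)))
        = sc c * ((wMat b * mapGL ℝ ((h' : Gamma0 (N * q)) : SL(2, ℤ))) *
            mapGL ℝ ((trans b x.2.1 : Gamma0 N) : SL(2, ℤ))) := by
          rw [mul_assoc (sc c), ← mul_assoc (wMat b) (sc c), ← sc_comm c (wMat b)]
          simp only [mul_assoc]
      _ = sc c * mapGL ℝ ((h : Gamma0 (N * q)) : SL(2, ℤ)) *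
            (wMat b * mapGL ℝ ((trans b x.2.1 : Gamma0 N) : SL(2, ℤ))) := by
          rw [← hh']
          simp only [mul_assoc]
  have H3 := mul_left_cancel H2
  -- sc c * mapGL h' * mapGL (t k) = mapGL (t k')
  have H4 : sc c = mapGL ℝ (((trans b x'.2.1 *
      (Subgroup.inclusion (Gamma0_mul_le N q) h' * trans b x.2.1)⁻¹ : Gamma0 N)) : SL(2, ℤ)) := by
    rw [Subgroup.coe_mul, Subgroup.coe_inv, Subgroup.coe_mul, map_mul, map_inv, map_mul, ← H3]
    show sc c = sc c * mapGL ℝ ((h' : Gamma0 (N * q)) : SL(2, ℤ)) *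
      mapGL ℝ ((trans b x.2.1 : Gamma0 N) : SL(2, ℤ)) *
      (mapGL ℝ ((h' : Gamma0 (N * q)) : SL(2, ℤ)) *
        mapGL ℝ ((trans b x.2.1 : Gamma0 N) : SL(2, ℤ)))⁻¹
    group
  have H5 : trans b x'.2.1 * (Subgroup.inclusion (Gamma0_mul_le N q) h' * trans b x.2.1)⁻¹ = 1 :=
    Subtype.ext (sc_eq_mapGL hc H4).2
  have hk : x.2.1 = x'.2.1 := trans_inj hqN b _ _ h' (mul_inv_eq_one.mp H5).symm
  exact Prod.ext (Subsingleton.elim _ _) (Prod.ext hk (Subsingleton.elim _ _))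

/-- `res ∘ cores^c = W_q + U_q`. -/
theorem sysRes_op_sysCores_op_sysW (hqN : ¬ q ∣ N) (b : Bez N q) (A : Type*) [AddCommGroup A]
    (φ : Additive (Gamma0 (N * q)) →+ A) :
    (sysRes N q).op A ((sysCores hqN b).op A ((sysW b).op A φ)) =
      (sysW b).op A φ + (sysU (N * q) q (dvd_mul_left q N)).op A φ := by
  have hR : (sysW b).op A φ + (sysU (N * q) q (dvd_mul_left q N)).op A φ =
      ((sysW b).sum (sysU (N * q) q (dvd_mul_left q N))).op A φ :=
    (Sys.op_sum _ _ A φ).symm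
  rw [hR, ← Sys.op_comp' (sysCores hqN b) (sysW b), ← Sys.op_comp' (sysRes N q)]
  symm
  refine Sys.op_eq_of_bijective ((sysW b).sum (sysU (N * q) q (dvd_mul_left q N)))
    ((sysRes N q).comp ((sysCores hqN b).comp (sysW b)))
    (sysRes_comp_coresc_isDistinct hqN b)
    (fun x : Unit ⊕ ZMod q => ((), (Sum.elim (fun _ : Unit => (OnePoint.infty : OnePoint (ZMod q)))
      (fun y : ZMod q => (y : OnePoint (ZMod q))) x, ())))
    ⟨?_, ?_⟩ (Sum.elim (fun _ => 1) (fun _ => (⟨b.tau * b.rho, b.tau_rho_mem⟩ : Gamma0 (N * q))⁻¹))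
    (fun _ => 1) (fun _ => by simp) ?_ A φ
  · rintro (x | x) (y | y) hxy
    · rfl
    · simp at hxy
    · simp at hxy
    · have : x = y := by simpa using hxy
      exact congrArg Sum.inr this
  · rintro ⟨u, k, u'⟩
    induction k using OnePoint.rec with
    | infty => exact ⟨Sum.inl (), rfl⟩
    | coe j => exact ⟨Sum.inr j, rfl⟩
  · rintro (x | x)
    · show wMat b = sc 1 * mapGL ℝ (((1 : Gamma0 (N * q))) : SL(2, ℤ)) *
        (wMat b * mapGL ℝ (((1 : Gamma0 N)) : SL(2, ℤ)) * 1)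
      simp [sc_one]
    · show heckeMatrix q x.val = sc 1 * mapGL ℝ (b.tau * b.rho)⁻¹ *
        (wMat b * mapGL ℝ ((trans b (x : OnePoint (ZMod q)) : Gamma0 N) : SL(2, ℤ)) * 1)
      have e1 : (b.tau * b.rho)⁻¹ * b.tau * b.rho = 1 := by group
      rw [sc_one, one_mul, mul_one, wMat, mul_assoc (mapGL ℝ b.tau), diag_mul_trans, ← mul_assoc,
        ← map_mul, ← mul_assoc, ← map_mul, e1, map_one, one_mul]

end Newness

section NewnessAPI

variable (N q : ℕ) [Fact q.Prime]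

/-- `res ∘ cores = 1 + U_q ∘ W_q`. -/
theorem res_cores (hqN : ¬ q ∣ N) (A : Type*) [AddCommGroup A]
    (φ : Additive (Gamma0 (N * q)) →+ A) :
    res N q A (cores N q hqN A φ) =
      φ + heckeHomU (N * q) q (dvd_mul_left q N) A (atkin N q hqN A φ) := by
  rw [← sysU_op]
  exact sysRes_op_sysCores hqN _ A φ

/-- `res ∘ cores^c = W_q + U_q`. -/
theorem res_coresc (hqN : ¬ q ∣ N) (A : Type*) [AddCommGroup A]
    (φ : Additive (Gamma0 (N * q)) →+ A) :
    res N q A (coresc N q hqN A φ) =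
      atkin N q hqN A φ + heckeHomU (N * q) q (dvd_mul_left q N) A φ := by
  rw [← sysU_op]
  exact sysRes_op_sysCores_op_sysW hqN _ A φ

/-- On `ker cores^c`: `U_q = - W_q`. -/
theorem heckeHomU_eq_neg_atkin (hqN : ¬ q ∣ N) (A : Type*) [AddCommGroup A]
    (φ : Additive (Gamma0 (N * q)) →+ A) (h2 : coresc N q hqN A φ = 0) :
    heckeHomU (N * q) q (dvd_mul_left q N) A φ = - atkin N q hqN A φ := by
  have h := res_coresc N q hqN A φ
  rw [h2, map_zero] at h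
  exact eq_neg_of_add_eq_zero_right h.symm

/-- **Newness.** `ker κ = ker cores ∩ ker cores^c` is stable under `U_q`, and `U_q² = 1` on it
(for every coefficient group `A`). -/
theorem new_U (hqN : ¬ q ∣ N) (A : Type*) [AddCommGroup A]
    (φ : Additive (Gamma0 (N * q)) →+ A) (h1 : cores N q hqN A φ = 0)
    (h2 : coresc N q hqN A φ = 0) :
    cores N q hqN A (heckeHomU (N * q) q (dvd_mul_left q N) A φ) = 0 ∧
    coresc N q hqN A (heckeHomU (N * q) q (dvd_mul_left q N) A φ) = 0 ∧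
    heckeHomU (N * q) q (dvd_mul_left q N) A
      (heckeHomU (N * q) q (dvd_mul_left q N) A φ) = φ := by
  have hU := heckeHomU_eq_neg_atkin N q hqN A φ h2
  have h := res_cores N q hqN A φ
  rw [h1, map_zero] at h
  have hUW : heckeHomU (N * q) q (dvd_mul_left q N) A (atkin N q hqN A φ) = -φ :=
    eq_neg_of_add_eq_zero_right h.symm
  refine ⟨?_, ?_, ?_⟩
  · rw [hU, map_neg, ← coresc_apply, h2, neg_zero]
  · rw [hU, coresc_apply, map_neg, atkin_atkin, map_neg, h1, neg_zero]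
  · rw [hU, ← sysU_op, map_neg, sysU_op, hUW, neg_neg]

end NewnessAPI

/-! ### The six fields of the captain's `IsIharaPackage` for `(res, resc, cores, coresc)`, `A = ℤ` -/

section SpecFields

variable (N q : ℕ) [Fact q.Prime] (hqN : ¬ q ∣ N)

include hqN in
/-- Spec field `r_T`. -/
theorem ihara_r_T :
    ∀ (l : ℕ) [Fact l.Prime] (hlN : ¬ l ∣ N) (hlNq : ¬ l ∣ N * q) (x : Additive (Gamma0 N) →+ ℤ),
      res N q ℤ (heckeHomT N l hlN ℤ x) = heckeHomT (N * q) l hlNq ℤ (res N q ℤ x) ∧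
      resc N q ℤ (heckeHomT N l hlN ℤ x) = heckeHomT (N * q) l hlNq ℤ (resc N q ℤ x) :=
  fun l _ hlN hlNq x =>
    ⟨(heckeHomT_res N q l hlN hlNq ℤ x).symm, (heckeHomT_resc N q hqN l hlN hlNq ℤ x).symm⟩

include hqN in
/-- Spec field `r_U`. -/
theorem ihara_r_U :
    ∀ (r : ℕ) [Fact r.Prime] [NeZero r] (hrN : r ∣ N) (hrNq : r ∣ N * q)
      (x : Additive (Gamma0 N) →+ ℤ),
      res N q ℤ (heckeHomU N r hrN ℤ x) = heckeHomU (N * q) r hrNq ℤ (res N q ℤ x) ∧
      resc N q ℤ (heckeHomU N r hrN ℤ x) = heckeHomU (N * q) r hrNq ℤ (resc N q ℤ x) :=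
  fun r _ _ hrN hrNq x =>
    ⟨(heckeHomU_res N q r hrN hrNq ℤ x).symm, (heckeHomU_resc N q hqN r hrN hrNq ℤ x).symm⟩

/-- Spec field `k_T`. -/
theorem ihara_k_T :
    ∀ (l : ℕ) [Fact l.Prime] (hlN : ¬ l ∣ N) (hlNq : ¬ l ∣ N * q)
      (w : Additive (Gamma0 (N * q)) →+ ℤ),
      cores N q hqN ℤ (heckeHomT (N * q) l hlNq ℤ w) = heckeHomT N l hlN ℤ (cores N q hqN ℤ w) ∧
      coresc N q hqN ℤ (heckeHomT (N * q) l hlNq ℤ w) =
        heckeHomT N l hlN ℤ (coresc N q hqN ℤ w) :=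
  fun l _ hlN hlNq w =>
    ⟨cores_heckeHomT N q hqN l hlN hlNq ℤ w, coresc_heckeHomT N q hqN l hlN hlNq ℤ w⟩

/-- Spec field `k_U`. -/
theorem ihara_k_U :
    ∀ (r : ℕ) [Fact r.Prime] [NeZero r] (hrN : r ∣ N) (hrNq : r ∣ N * q)
      (w : Additive (Gamma0 (N * q)) →+ ℤ),
      cores N q hqN ℤ (heckeHomU (N * q) r hrNq ℤ w) = heckeHomU N r hrN ℤ (cores N q hqN ℤ w) ∧
      coresc N q hqN ℤ (heckeHomU (N * q) r hrNq ℤ w) =
        heckeHomU N r hrN ℤ (coresc N q hqN ℤ w) :=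
  fun r _ _ hrN hrNq w =>
    ⟨cores_heckeHomU N q hqN r hrN hrNq ℤ w, coresc_heckeHomU N q hqN r hrN hrNq ℤ w⟩

/-- Spec field `kr`: `κ ρ = [[q+1, T_q], [T_q, q+1]]`. -/
theorem ihara_kr :
    ∀ x : Additive (Gamma0 N) →+ ℤ,
      cores N q hqN ℤ (res N q ℤ x) = ((q : ℤ) + 1) • x ∧
      coresc N q hqN ℤ (resc N q ℤ x) = ((q : ℤ) + 1) • x ∧
      cores N q hqN ℤ (resc N q ℤ x) = heckeHomT N q hqN ℤ x ∧
      coresc N q hqN ℤ (res N q ℤ x) = heckeHomT N q hqN ℤ x := by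
  intro x
  have e : ((q : ℤ) + 1) • x = (q + 1) • x := by
    rw [← natCast_zsmul]
    push_cast
    rfl
  exact ⟨by rw [cores_res, e], by rw [coresc_resc, e], cores_resc N q hqN ℤ x,
    coresc_res N q hqN ℤ x⟩

/-- Spec field `new_U`. -/
theorem ihara_new_U :
    ∀ [NeZero q] (hqNq : q ∣ N * q) (w : Additive (Gamma0 (N * q)) →+ ℤ),
      cores N q hqN ℤ w = 0 → coresc N q hqN ℤ w = 0 →
      cores N q hqN ℤ (heckeHomU (N * q) q hqNq ℤ w) = 0 ∧
      coresc N q hqN ℤ (heckeHomU (N * q) q hqNq ℤ w) = 0 ∧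
      heckeHomU (N * q) q hqNq ℤ (heckeHomU (N * q) q hqNq ℤ w) = w :=
  fun _ w h1 h2 => new_U N q hqN ℤ w h1 h2

end SpecFields

end Fermat.Agent.S41.helper2138
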