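/-
S41 (level raising), leaf L4 (IHARA-INT), file 1/3 -- helper7223.

Abstract "symbol calculus" behind the two Ihara halves of findings #2474 (D2), Mathlib only.

A *pair-function* is a map `U : X → X → A` on a set `X` (the cusps) with values in an abelian
group; it is *additive* if `U a b + U b c = U a c`.  A group `G` acts on `X`; a finite family
`α : ι → G` (the Hecke representatives) acts on pair-functions by
`(pairT α U) a b = ∑ i, U (α i • a) (α i • b)`.

* `IsAddPair`, `PairInv`, `PairLifts`, `pairT`, `pairEta`, `homT`, `homEta` : the vocabulary.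
* `pairT_inv`, `pairEta_lifts` : `pairT` preserves invariance and induces the coset-transfer
  operator on homs.
* `exists_pair_of_kills_stabilizers` : a hom killing all point stabilisers is lifted by an
  additive invariant pair-function.
* `ihara_a_core` : the abstract form of Ihara half (a).
* `ihara_b_core` : the abstract form of Ihara half (b).
-/
import Mathlib

set_option autoImplicit false

namespace Fermat.Agent.S41.helper7223

open scoped BigOperators

section Vocabulary

variable {G : Type*} [Group G] {X : Type*} [MulAction G X] {A : Type*} [AddCommGroup A]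

/-- Additive pair-functions: `U a b + U b c = U a c`. -/
def IsAddPair (U : X → X → A) : Prop := ∀ a b c, U a b + U b c = U a c

/-- Invariance of a pair-function under a set of group elements. -/
def PairInv (S : Set G) (U : X → X → A) : Prop := ∀ g ∈ S, ∀ a b, U (g • a) (g • b) = U a b

theorem IsAddPair.self {U : X → X → A} (hU : IsAddPair U) (a : X) : U a a = 0 := by
  have h := hU a a a
  simpa using h

theorem IsAddPair.symm {U : X → X → A} (hU : IsAddPair U) (a b : X) : U b a = - U a b := by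
  have h := hU a b a
  rw [hU.self] at h
  exact eq_neg_of_add_eq_zero_right h

theorem IsAddPair.eq_sub {U : X → X → A} (hU : IsAddPair U) (o a b : X) :
    U a b = U o b - U o a := by
  rw [← hU o a b]; abel

/-- Moving both arguments: `U (s a) (s b) - U a b = U b (s b) - U a (s a)`. -/
theorem IsAddPair.move {U : X → X → A} (hU : IsAddPair U) (s : X → X) (a b : X) :
    U (s a) (s b) - U a b = U b (s b) - U a (s a) := by
  have h1 := hU a (s a) (s b)
  have h2 := hU a b (s b)
  rw [← h1] at h2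
  -- h2 : U a b + U b (s b) = U a (s a) + U (s a) (s b)
  have : U (s a) (s b) = U a b + U b (s b) - U a (s a) := by
    rw [h2]; abel
  rw [this]; abel

/-- The set of group elements leaving a pair-function invariant is a subgroup. -/
def invSubgroup (U : X → X → A) : Subgroup G where
  carrier := {g | ∀ a b, U (g • a) (g • b) = U a b}
  mul_mem' := by
    intro g h hg hh a b
    rw [mul_smul, mul_smul, hg, hh]
  one_mem' := by
    intro a b
    rw [one_smul, one_smul]
  inv_mem' := by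
    intro g hg a b
    have h := hg (g⁻¹ • a) (g⁻¹ • b)
    rw [smul_inv_smul, smul_inv_smul] at h
    exact h.symm

theorem mem_invSubgroup {U : X → X → A} {g : G} :
    g ∈ invSubgroup U ↔ ∀ a b, U (g • a) (g • b) = U a b := Iff.rfl

theorem PairInv.le_invSubgroup {S : Set G} {U : X → X → A} (h : PairInv S U) :
    Subgroup.closure S ≤ invSubgroup U := by
  rw [Subgroup.closure_le]
  intro g hg
  exact h g hg

/-- On the invariance subgroup of an additive pair-function, `g ↦ U x (g • x)` does not depend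
on the base point. -/
theorem IsAddPair.base_indep {U : X → X → A} (hU : IsAddPair U) {g : G}
    (hg : g ∈ invSubgroup U) (x y : X) : U x (g • x) = U y (g • y) := by
  have h1 := hU x y (g • y)
  have h2 := hU x (g • x) (g • y)
  rw [hg x y] at h2
  rw [← h1] at h2
  -- h2 : U x (g • x) + U x y = U x y + U y (g • y)
  have := add_right_cancel (h2.trans (add_comm _ _))
  exact this

/-- On the invariance subgroup, `g ↦ U x (g • x)` is multiplicative-to-additive. -/
theorem IsAddPair.base_mul {U : X → X → A} (hU : IsAddPair U) {g h : G}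
    (hg : g ∈ invSubgroup U) (x : X) :
    U x ((g * h) • x) = U x (g • x) + U x (h • x) := by
  rw [mul_smul, ← hU x (g • x) (g • h • x), hg x (h • x)]

variable {ι : Type*} [Fintype ι]

/-- The Hecke operator attached to a finite family `α` on pair-functions. -/
def pairT (α : ι → G) (U : X → X → A) : X → X → A :=
  fun a b => ∑ i, U (α i • a) (α i • b)

/-- `η = T - card ι` on pair-functions. -/
def pairEta (α : ι → G) (U : X → X → A) : X → X → A :=
  fun a b => pairT α U a b - Fintype.card ι • U a b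

theorem pairT_isAddPair (α : ι → G) {U : X → X → A} (hU : IsAddPair U) :
    IsAddPair (pairT α U) := by
  intro a b c
  simp only [pairT, ← Finset.sum_add_distrib]
  exact Finset.sum_congr rfl fun i _ => hU _ _ _

theorem pairEta_isAddPair (α : ι → G) {U : X → X → A} (hU : IsAddPair U) :
    IsAddPair (pairEta α U) := by
  intro a b c
  simp only [pairEta]
  rw [← pairT_isAddPair α hU a b c, ← hU a b c, smul_add]
  abel

/-- `pairEta` as a sum of differences. -/
theorem pairEta_eq_sum (α : ι → G) (U : X → X → A) (a b : X) :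
    pairEta α U a b = ∑ i, (U (α i • a) (α i • b) - U a b) := by
  simp only [pairEta, pairT, Finset.sum_sub_distrib, Finset.sum_const, Finset.card_univ]

/-- If `U x (α i • x)` does not depend on `x` for every `i`, then `pairEta α U = 0`. -/
theorem pairEta_eq_zero_of_const (α : ι → G) {U : X → X → A} (hU : IsAddPair U)
    (h : ∀ i, ∃ k : A, ∀ x, U x (α i • x) = k) (a b : X) : pairEta α U a b = 0 := by
  rw [pairEta_eq_sum]
  refine Finset.sum_eq_zero fun i _ => ?_
  obtain ⟨k, hk⟩ := h i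
  rw [hU.move (fun x => α i • x) a b, hk, hk, sub_self]

/-- `α` is a system of representatives compatible with the set `S`:
`α i * g ∈ S * α (σ i)` for a permutation `σ` depending on `g ∈ S`. -/
def IsRepSys (S : Set G) (α : ι → G) : Prop :=
  ∀ g ∈ S, ∃ σ : ι ≃ ι, ∀ i, ∃ h ∈ S, α i * g = h * α (σ i)

theorem pairT_inv {S : Set G} {α : ι → G} (hα : IsRepSys S α) {U : X → X → A}
    (hU : PairInv S U) : PairInv S (pairT α U) := by
  intro g hg a b
  obtain ⟨σ, hσ⟩ := hα g hg
  simp only [pairT]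
  rw [← Equiv.sum_comp σ (fun i => U (α i • a) (α i • b))]
  refine Finset.sum_congr rfl fun i _ => ?_
  obtain ⟨h, hh, e⟩ := hσ i
  rw [← mul_smul, ← mul_smul, e, mul_smul, mul_smul, hU h hh]

theorem pairEta_inv {S : Set G} {α : ι → G} (hα : IsRepSys S α) {U : X → X → A}
    (hU : PairInv S U) : PairInv S (pairEta α U) := by
  intro g hg a b
  simp only [pairEta]
  rw [pairT_inv hα hU g hg, hU g hg]

/-- Translate of a pair-function by a group element. -/
def pairShift (b : G) (U : X → X → A) : X → X → A := fun a c => U (b • a) (b • c)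

theorem pairShift_isAddPair (b : G) {U : X → X → A} (hU : IsAddPair U) :
    IsAddPair (pairShift b U) := fun _ _ _ => hU _ _ _

/-- Invariance of the shift under the conjugated set. -/
theorem pairShift_inv (b : G) {S : Set G} {U : X → X → A} (hU : PairInv S U) :
    PairInv {g | ∃ s ∈ S, g = b⁻¹ * s * b} (pairShift b U) := by
  rintro g ⟨s, hs, rfl⟩ a c
  simp only [pairShift]
  rw [← mul_smul, ← mul_smul]
  have e : b * (b⁻¹ * s * b) = s * b := by group
  rw [e, mul_smul, mul_smul, hU s hs]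

/-- `pairT` commutes with the shift by `b`, for pair-functions invariant under `S`, when
`b * α i * b⁻¹ ∈ S * α (π i)`. -/
theorem pairT_shift (b : G) {S : Set G} {α : ι → G} (π : ι ≃ ι)
    (hconj : ∀ i, ∃ h ∈ S, b * α i * b⁻¹ = h * α (π i)) {U : X → X → A} (hU : PairInv S U)
    (a c : X) : pairT α (pairShift b U) a c = pairShift b (pairT α U) a c := by
  simp only [pairT, pairShift]
  rw [← Equiv.sum_comp π (fun i => U (α i • b • a) (α i • b • c))]
  refine Finset.sum_congr rfl fun i _ => ?_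
  obtain ⟨h, hh, e⟩ := hconj i
  have e' : b * α i = h * α (π i) * b := by
    rw [← e]; group
  rw [← mul_smul, ← mul_smul, e', mul_smul, mul_smul, mul_smul, mul_smul, hU h hh]

theorem pairEta_shift (b : G) {S : Set G} {α : ι → G} (π : ι ≃ ι)
    (hconj : ∀ i, ∃ h ∈ S, b * α i * b⁻¹ = h * α (π i)) {U : X → X → A} (hU : PairInv S U)
    (a c : X) : pairEta α (pairShift b U) a c = pairShift b (pairEta α U) a c := by
  simp only [pairEta]
  rw [pairT_shift b π hconj hU]
  rfl

end Vocabulary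

section Homs

variable {G : Type*} [Group G] {X : Type*} [MulAction G X] {A : Type*} [AddCommGroup A]
variable {ι : Type*} [Fintype ι]
variable {Γ : Type*} [Group Γ]

/-- A pair-function lifts a function on `Γ` (along `ρ : Γ →* G`): `U x (ρ γ • x) = φ γ`. -/
def PairLifts (ρ : Γ →* G) (U : X → X → A) (φ : Γ → A) : Prop :=
  ∀ γ x, U x (ρ γ • x) = φ γ

/-- Coset-transfer operator on functions on `Γ`. -/
def homT (gfun : ι → Γ → Γ) (φ : Γ → A) : Γ → A := fun γ => ∑ i, φ (gfun i γ)

/-- `η = T - card ι` on functions on `Γ`. -/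
def homEta (gfun : ι → Γ → Γ) (φ : Γ → A) : Γ → A :=
  fun γ => homT gfun φ γ - Fintype.card ι • φ γ

theorem isRepSys_of_rel (ρ : Γ →* G) (α : ι → G) (gfun : ι → Γ → Γ) (σ : Γ → ι ≃ ι)
    (hrel : ∀ i γ, α i * ρ γ = ρ (gfun i γ) * α (σ γ i)) : IsRepSys (Set.range ρ) α := by
  rintro g ⟨γ, rfl⟩
  exact ⟨σ γ, fun i => ⟨ρ (gfun i γ), ⟨_, rfl⟩, hrel i γ⟩⟩

theorem pairT_lifts (ρ : Γ →* G) (α : ι → G) (gfun : ι → Γ → Γ) (σ : Γ → ι ≃ ι)
    (hrel : ∀ i γ, α i * ρ γ = ρ (gfun i γ) * α (σ γ i))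
    {U : X → X → A} (hU : IsAddPair U) {φ : Γ → A} (hφ : PairLifts ρ U φ) :
    PairLifts ρ (pairT α U) (homT gfun φ) := by
  intro γ x
  simp only [pairT, homT]
  have hterm : ∀ i, U (α i • x) (α i • ρ γ • x) =
      (U x (α (σ γ i) • x) - U x (α i • x)) + φ (gfun i γ) := by
    intro i
    rw [← mul_smul, hrel i γ, mul_smul,
      ← hU (α i • x) (α (σ γ i) • x) (ρ (gfun i γ) • α (σ γ i) • x), hφ,
      hU.eq_sub x (α i • x) (α (σ γ i) • x)]
  rw [Finset.sum_congr rfl fun i _ => hterm i, Finset.sum_add_distrib, Finset.sum_sub_distrib,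
    Equiv.sum_comp (σ γ) (fun i => U x (α i • x)), sub_self, zero_add]

theorem pairEta_lifts (ρ : Γ →* G) (α : ι → G) (gfun : ι → Γ → Γ) (σ : Γ → ι ≃ ι)
    (hrel : ∀ i γ, α i * ρ γ = ρ (gfun i γ) * α (σ γ i))
    {U : X → X → A} (hU : IsAddPair U) {φ : Γ → A} (hφ : PairLifts ρ U φ) :
    PairLifts ρ (pairEta α U) (homEta gfun φ) := by
  intro γ x
  simp only [pairEta, homEta]
  rw [pairT_lifts ρ α gfun σ hrel hU hφ γ x, hφ γ x]

/-- A hom on `Γ` that kills every point stabiliser is lifted by an additive invariant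
pair-function (choose orbit representatives). -/
theorem exists_pair_of_kills_stabilizers (ρ : Γ →* G) (φ : Additive Γ →+ A)
    (hφ : ∀ (γ : Γ) (x : X), ρ γ • x = x → φ (Additive.ofMul γ) = 0) :
    ∃ U : X → X → A, IsAddPair U ∧ PairInv (Set.range ρ) U ∧
      PairLifts ρ U (fun γ => φ (Additive.ofMul γ)) := by
  classical
  -- the orbit relation of `Γ` acting through `ρ`
  let r : Setoid X :=
    { r := fun x y => ∃ γ : Γ, ρ γ • y = x
      iseqv :=
        { refl := fun x => ⟨1, by simp⟩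
          symm := by
            rintro x y ⟨γ, rfl⟩
            exact ⟨γ⁻¹, by simp⟩
          trans := by
            rintro x y z ⟨γ, rfl⟩ ⟨δ, rfl⟩
            exact ⟨γ * δ, by simp [mul_smul]⟩ } }
  let rep : X → X := fun x => (Quotient.mk r x).out
  have hrep : ∀ x, ∃ γ : Γ, ρ γ • rep x = x := by
    intro x
    have h : r.r (rep x) x := Quotient.mk_out (s := r) x
    obtain ⟨γ, hγ⟩ := h
    exact ⟨γ⁻¹, by rw [← hγ]; simp⟩
  have hrep_smul : ∀ (γ : Γ) (x : X), rep (ρ γ • x) = rep x := by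
    intro γ x
    have : Quotient.mk r (ρ γ • x) = Quotient.mk r x := Quotient.sound ⟨γ, rfl⟩
    simp only [rep, this]
  choose c hc using hrep
  let h : X → A := fun x => φ (Additive.ofMul (c x))
  have hh : ∀ (γ : Γ) (x : X), h (ρ γ • x) = φ (Additive.ofMul γ) + h x := by
    intro γ x
    have e1 : ρ (c (ρ γ • x)) • rep x = ρ γ • x := by
      have := hc (ρ γ • x)
      rwa [hrep_smul] at this
    have e0 : ρ γ • x = ρ (γ * c x) • rep x := by
      rw [map_mul, mul_smul, hc x]
    have e2 : ρ ((γ * c x)⁻¹ * c (ρ γ • x)) • rep x = rep x := by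
      rw [map_mul, mul_smul, e1, e0, map_inv, inv_smul_smul]
    have e3 := hφ _ _ e2
    rw [ofMul_mul, map_add, ofMul_inv, map_neg, ofMul_mul, map_add] at e3
    show φ (Additive.ofMul (c (ρ γ • x))) = φ (Additive.ofMul γ) + φ (Additive.ofMul (c x))
    have := eq_neg_of_add_eq_zero_right e3
    rw [this]; abel
  refine ⟨fun a b => h b - h a, ?_, ?_, ?_⟩
  · intro a b c'
    show h b - h a + (h c' - h b) = h c' - h a
    abel
  · rintro g ⟨γ, rfl⟩ a b
    show h (ρ γ • b) - h (ρ γ • a) = h b - h a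
    rw [hh, hh]; abel
  · intro γ x
    show h (ρ γ • x) - h x = φ (Additive.ofMul γ)
    rw [hh]; abel

end Homs

section Cores

variable {G : Type*} [Group G] {X : Type*} [MulAction G X]
variable {ι : Type*} [Fintype ι]
variable {Γ : Type*} [Group Γ]

theorem pairEta_neg {A : Type*} [AddCommGroup A] (α : ι → G) (W : X → X → A) (a c : X) :
    pairEta α (fun a c => - W a c) a c = - pairEta α W a c := by
  simp only [pairEta, pairT, Finset.sum_neg_distrib, smul_neg]
  abel

theorem pairEta_add {A : Type*} [AddCommGroup A] (α : ι → G) (W W' : X → X → A) (a c : X) :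
    pairEta α (fun a c => W a c + W' a c) a c = pairEta α W a c + pairEta α W' a c := by
  simp only [pairEta, pairT, Finset.sum_add_distrib, smul_add]
  abel

/-- **Abstract Ihara half (a).**  `Γ` (= `Γ₀(N)`) acts on `X` (the cusps) through `ρ`, `Γ'`
(= `Γ₀(Nq)`) through `ρ'`, with `inc`, `cj : Γ' → Γ` the inclusion and the conjugation by `b`.
If `φ₁`, `φ₂` are lifted by additive `Γ`-invariant pair-functions and
`φ₁ ∘ inc + φ₂ ∘ cj = 0`, then `η² φ₁ = η² φ₂ = 0`, provided
* (`hC4`) `η` kills `Γ'`-invariant functions on `X`,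
* (`hconj`) `b α_i b⁻¹ ∈ ρ(Γ) α_{π i}`,
* (`hCSP`) every additive pair-function invariant under `ρ(Γ)` and `b⁻¹ ρ(Γ) b` has
  `U x (α i • x)` independent of `x`. -/
theorem ihara_a_core {A : Type*} [AddCommGroup A] (α : ι → G) (b : G) (ρ : Γ →* G)
    {Γ' : Type*} (ρ' : Γ' → G) (inc cj : Γ' → Γ)
    (hinc : ∀ g, ρ (inc g) = ρ' g) (hcj : ∀ g, ρ (cj g) = b * ρ' g * b⁻¹)
    (gfun : ι → Γ → Γ) (σ : Γ → ι ≃ ι)
    (hrel : ∀ i γ, α i * ρ γ = ρ (gfun i γ) * α (σ γ i))
    (hC4 : ∀ B : X → A, (∀ g x, B (ρ' g • x) = B x) →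
      ∀ x, ∑ i, B (α i • x) = Fintype.card ι • B x)
    (π : ι ≃ ι) (hconj : ∀ i, ∃ h ∈ Set.range ρ, b * α i * b⁻¹ = h * α (π i))
    (hCSP : ∀ U : X → X → A, IsAddPair U → PairInv (Set.range ρ) U →
      PairInv {g | ∃ s ∈ Set.range ρ, g = b⁻¹ * s * b} U →
      ∀ i, ∃ k : A, ∀ x, U x (α i • x) = k)
    (o : X) (φ₁ φ₂ : Γ → A) (U₁ U₂ : X → X → A)
    (h₁a : IsAddPair U₁) (h₁i : PairInv (Set.range ρ) U₁) (h₁l : PairLifts ρ U₁ φ₁)
    (h₂a : IsAddPair U₂) (h₂i : PairInv (Set.range ρ) U₂) (h₂l : PairLifts ρ U₂ φ₂)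
    (hK : ∀ g : Γ', φ₁ (inc g) + φ₂ (cj g) = 0) :
    (∀ γ, homEta gfun (homEta gfun φ₁) γ = 0) ∧ (∀ γ, homEta gfun (homEta gfun φ₂) γ = 0) := by
  have hRS : IsRepSys (Set.range ρ) α := isRepSys_of_rel ρ α gfun σ hrel
  -- the glued pair-function
  let V : X → X → A := fun a c => U₁ a c + pairShift b U₂ a c
  have hVa : IsAddPair V := by
    intro a c d
    show U₁ a c + U₂ (b • a) (b • c) + (U₁ c d + U₂ (b • c) (b • d)) =
      U₁ a d + U₂ (b • a) (b • d)
    rw [← h₁a a c d, ← h₂a (b • a) (b • c) (b • d)]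
    abel
  have hbsmul : ∀ (g : Γ') (x : X), b • ρ' g • x = ρ (cj g) • b • x := by
    intro g x
    rw [hcj, mul_smul, mul_smul, inv_smul_smul]
  have hV0 : ∀ g x, V x (ρ' g • x) = 0 := by
    intro g x
    show U₁ x (ρ' g • x) + U₂ (b • x) (b • ρ' g • x) = 0
    rw [hbsmul, h₂l, ← hinc g, h₁l]
    exact hK g
  have hVinv : ∀ g a c, V (ρ' g • a) (ρ' g • c) = V a c := by
    intro g a c
    show U₁ (ρ' g • a) (ρ' g • c) + U₂ (b • ρ' g • a) (b • ρ' g • c) =
      U₁ a c + U₂ (b • a) (b • c)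
    rw [hbsmul, hbsmul, h₂i _ ⟨_, rfl⟩, ← hinc g, h₁i _ ⟨_, rfl⟩]
  let B : X → A := fun a => V o a
  have hB : ∀ g x, B (ρ' g • x) = B x := by
    intro g x
    show V o (ρ' g • x) = V o x
    rw [← hVa o (ρ' g • o) (ρ' g • x), hV0, hVinv, zero_add]
  have hVB : ∀ a c, V a c = B c - B a := fun a c => hVa.eq_sub o a c
  have hEtaV : ∀ a c, pairEta α V a c = 0 := by
    intro a c
    simp only [pairEta, pairT]
    rw [Finset.sum_congr rfl (fun i _ => hVB (α i • a) (α i • c)), Finset.sum_sub_distrib,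
      hC4 B hB, hC4 B hB, hVB a c, smul_sub]
    abel
  have hsplit : ∀ a c, pairEta α V a c = pairEta α U₁ a c + pairEta α (pairShift b U₂) a c :=
    fun a c => pairEta_add α U₁ (pairShift b U₂) a c
  have hΨ_eq : ∀ a c, pairEta α U₁ a c = - pairShift b (pairEta α U₂) a c := by
    intro a c
    have h := hsplit a c
    rw [hEtaV, pairEta_shift b π hconj h₂i] at h
    exact eq_neg_of_add_eq_zero_left h.symm
  have hΨa : IsAddPair (pairEta α U₁) := pairEta_isAddPair α h₁a
  have hΨi : PairInv (Set.range ρ) (pairEta α U₁) := pairEta_inv hRS h₁i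
  have hΨi' : PairInv {g | ∃ s ∈ Set.range ρ, g = b⁻¹ * s * b} (pairEta α U₁) := by
    intro g hg a c
    rw [hΨ_eq, hΨ_eq, pairShift_inv b (pairEta_inv hRS h₂i) g hg a c]
  have hΨ0 : ∀ a c, pairEta α (pairEta α U₁) a c = 0 :=
    pairEta_eq_zero_of_const α hΨa (hCSP _ hΨa hΨi hΨi')
  have hU2 : ∀ a c, pairEta α (pairEta α U₂) a c = 0 := by
    intro a c
    have hfun : pairShift b (pairEta α U₂) = fun a c => - pairEta α U₁ a c := by
      funext a c
      rw [hΨ_eq, neg_neg]
    have e1 := pairEta_shift b π hconj (pairEta_inv hRS h₂i) (b⁻¹ • a) (b⁻¹ • c)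
    rw [hfun, pairEta_neg, hΨ0, neg_zero] at e1
    have e2 : pairShift b (pairEta α (pairEta α U₂)) (b⁻¹ • a) (b⁻¹ • c) =
        pairEta α (pairEta α U₂) a c := by
      show pairEta α (pairEta α U₂) (b • b⁻¹ • a) (b • b⁻¹ • c) = _
      rw [smul_inv_smul, smul_inv_smul]
    rw [← e2, ← e1]
  have l1 := pairEta_lifts ρ α gfun σ hrel hΨa (pairEta_lifts ρ α gfun σ hrel h₁a h₁l)
  have l2 := pairEta_lifts ρ α gfun σ hrel (pairEta_isAddPair α h₂a)
    (pairEta_lifts ρ α gfun σ hrel h₂a h₂l)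
  refine ⟨fun γ => ?_, fun γ => ?_⟩
  · rw [← l1 γ o, hΨ0]
  · rw [← l2 γ o, hU2]

/-- A nonzero element of an abelian group killed by a prime `p` is detected by an additive map
to `ZMod p`. -/
theorem exists_addHom_zmod_ne_zero (p : ℕ) [Fact p.Prime] {Q : Type*} [AddCommGroup Q]
    (hQ : ∀ x : Q, p • x = 0) {v : Q} (hv : v ≠ 0) : ∃ f : Q →+ ZMod p, f v ≠ 0 := by
  let inst : Module (ZMod p) Q := AddCommGroup.zmodModule hQ
  have hfree : @Module.Free (ZMod p) Q _ _ inst :=
    @Module.Free.of_divisionRing (ZMod p) Q _ _ inst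
  have hproj : @Module.Projective (ZMod p) _ Q _ inst :=
    @Module.Projective.of_free (ZMod p) _ Q _ inst hfree
  obtain ⟨f, hf⟩ := @Module.Projective.exists_dual_ne_zero Q _ (ZMod p) _ inst hproj v hv
  exact ⟨f.toAddMonoidHom, hf⟩

/-- **Abstract Ihara half (b).**  `L`, `L'` are the lattices at the two levels, `k₁`, `k₂` the
two corestrictions, `E`, `E'` the operators `η` at the two levels (any additive maps commuting
with `k₁`, `k₂`), `Θ`, `Θ'` the crossing maps.  If `Θ` is additive, `Γ`-invariant, spans `L`,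
`k₁ (Θ' a c) = Θ a c`, `k₂ (Θ' a c) = Θ (b • a) (b • c)` and
`E (Θ a c) = ∑ i, Θ (α i • a) (α i • c) - card ι • Θ a c`, then under `hCSP` for `ZMod p`:
`E x - k₁ w ∈ p L` and `E y - k₂ w ∈ p L` for a common `w`. -/
theorem ihara_b_core (p : ℕ) [Fact p.Prime] (α : ι → G) (b : G) (ρ : Γ →* G)
    {L L' : Type*} [AddCommGroup L] [AddCommGroup L']
    (k₁ k₂ : L' →+ L) (E : L →+ L) (E' : L' →+ L')
    (hk₁ : ∀ w, k₁ (E' w) = E (k₁ w)) (hk₂ : ∀ w, k₂ (E' w) = E (k₂ w))
    (Θ : X → X → L) (Θ' : X → X → L')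
    (hΘa : IsAddPair Θ) (hΘi : PairInv (Set.range ρ) Θ)
    (hΘspan : AddSubgroup.closure (Set.range fun ab : X × X => Θ ab.1 ab.2) = ⊤)
    (hdeg₁ : ∀ a c, k₁ (Θ' a c) = Θ a c) (hdeg₂ : ∀ a c, k₂ (Θ' a c) = Θ (b • a) (b • c))
    (hΘE : ∀ a c, E (Θ a c) = ∑ i, Θ (α i • a) (α i • c) - Fintype.card ι • Θ a c)
    (hCSP : ∀ U : X → X → ZMod p, IsAddPair U → PairInv (Set.range ρ) U →
      PairInv {g | ∃ s ∈ Set.range ρ, g = b⁻¹ * s * b} U →
      ∀ i, ∃ k : ZMod p, ∀ x, U x (α i • x) = k)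
    (x y : L) :
    ∃ w : L', (∃ x' : L, E x - k₁ w = (p : ℤ) • x') ∧ (∃ y' : L, E y - k₂ w = (p : ℤ) • y') := by
  classical
  -- the subgroup `S = κ(L') + p (L × L)`
  let κ : L' →+ L × L := k₁.prod k₂
  let S : AddSubgroup (L × L) :=
    { carrier := {z | ∃ (w : L') (z' : L × L), z = κ w + (p : ℤ) • z'}
      zero_mem' := ⟨0, 0, by simp⟩
      add_mem' := by
        rintro _ _ ⟨w, z', rfl⟩ ⟨w₂, z₂, rfl⟩
        exact ⟨w + w₂, z' + z₂, by rw [map_add, smul_add]; abel⟩
      neg_mem' := by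
        rintro _ ⟨w, z', rfl⟩
        exact ⟨-w, -z', by rw [map_neg, smul_neg]; abel⟩ }
  have hS : ∀ z, z ∈ S ↔ ∃ (w : L') (z' : L × L), z = κ w + (p : ℤ) • z' := fun z => Iff.rfl
  let EE : L × L →+ L × L := E.prodMap E
  have hEES : ∀ z ∈ S, EE z ∈ S := by
    rintro _ ⟨w, z', rfl⟩
    refine ⟨E' w, EE z', ?_⟩
    rw [map_add, map_zsmul]
    congr 1
    show (E (k₁ w), E (k₂ w)) = (k₁ (E' w), k₂ (E' w))
    rw [hk₁, hk₂]
  -- the quotient is killed by `p`
  have hQ : ∀ v : (L × L) ⧸ S, p • v = 0 := by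
    intro v
    obtain ⟨z, rfl⟩ := QuotientAddGroup.mk_surjective v
    rw [← QuotientAddGroup.mk_nsmul, QuotientAddGroup.eq_zero_iff]
    exact ⟨0, z, by simp⟩
  -- Claim C : `(E x', 0) ∈ S`
  have hC : ∀ x' : L, ((E x', 0) : L × L) ∈ S := by
    intro x'
    let j : L →+ (L × L) ⧸ S :=
      (QuotientAddGroup.mk' S).comp ((AddMonoidHom.inl L L).comp E)
    suffices hj : j = 0 by
      have : j x' = 0 := by rw [hj]; rfl
      exact (QuotientAddGroup.eq_zero_iff _).mp this
    have hdense : AddSubgroup.closure (Set.range fun ab : X × X => Θ ab.1 ab.2) = ⊤ := hΘspan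
    refine AddMonoidHom.eq_of_eqOn_dense hdense ?_
    rintro _ ⟨⟨a, c⟩, rfl⟩
    show j (Θ a c) = 0
    by_contra hne
    obtain ⟨f, hf⟩ := exists_addHom_zmod_ne_zero p hQ hne
    let F : L × L →+ ZMod p := f.comp (QuotientAddGroup.mk' S)
    have hFS : ∀ z ∈ S, F z = 0 := by
      intro z hz
      have hz0 : QuotientAddGroup.mk' S z = 0 := (QuotientAddGroup.eq_zero_iff z).mpr hz
      show f (QuotientAddGroup.mk' S z) = 0
      rw [hz0, map_zero]
    let U : X → X → ZMod p := fun a c => F (Θ a c, 0)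
    let V : X → X → ZMod p := fun a c => F (0, Θ a c)
    have hUa : IsAddPair U := by
      intro a c d
      show F (Θ a c, 0) + F (Θ c d, 0) = F (Θ a d, 0)
      rw [← map_add, Prod.mk_add_mk, hΘa a c d, add_zero]
    have hUi : PairInv (Set.range ρ) U := by
      intro g hg a c
      show F (Θ (g • a) (g • c), 0) = F (Θ a c, 0)
      rw [hΘi g hg]
    have hVi : PairInv (Set.range ρ) V := by
      intro g hg a c
      show F (0, Θ (g • a) (g • c)) = F (0, Θ a c)
      rw [hΘi g hg]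
    have hUV : ∀ a c, U a c = - V (b • a) (b • c) := by
      intro a c
      have h0 : F (κ (Θ' a c)) = 0 := hFS _ ⟨Θ' a c, 0, by simp⟩
      have h1 : κ (Θ' a c) = (Θ a c, 0) + (0, Θ (b • a) (b • c)) := by
        show (k₁ (Θ' a c), k₂ (Θ' a c)) = _
        rw [hdeg₁, hdeg₂, Prod.mk_add_mk, add_zero, zero_add]
      rw [h1, map_add] at h0
      exact eq_neg_of_add_eq_zero_left h0
    have hUi' : PairInv {g | ∃ s ∈ Set.range ρ, g = b⁻¹ * s * b} U := by
      rintro g ⟨s, hs, rfl⟩ a c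
      rw [hUV, hUV, ← mul_smul, ← mul_smul]
      have e : b * (b⁻¹ * s * b) = s * b := by group
      rw [e, mul_smul, mul_smul, hVi s hs]
    have hzero := pairEta_eq_zero_of_const α hUa (hCSP U hUa hUi hUi') a c
    apply hf
    show F (E (Θ a c), 0) = 0
    rw [hΘE]
    have e2 : ((∑ i, Θ (α i • a) (α i • c) - Fintype.card ι • Θ a c, 0) : L × L) =
        ∑ i, ((Θ (α i • a) (α i • c), 0) : L × L) - Fintype.card ι • ((Θ a c, 0) : L × L) := by
      ext
      · simp [Prod.fst_sum]
      · simp [Prod.snd_sum]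
    rw [e2, map_sub, map_sum, map_nsmul]
    exact hzero
  -- Claim A : `(0, y) ∈ (L × 0) + S`
  have hA : ∀ y' : L, ∃ x'' : L, ((0, y') : L × L) - (x'', 0) ∈ S := by
    intro y'
    have hy : y' ∈ AddSubgroup.closure (Set.range fun ab : X × X => Θ ab.1 ab.2) := by
      rw [hΘspan]; trivial
    induction hy using AddSubgroup.closure_induction with
    | mem z hz =>
      obtain ⟨⟨a, c⟩, rfl⟩ := hz
      refine ⟨- Θ (b⁻¹ • a) (b⁻¹ • c), Θ' (b⁻¹ • a) (b⁻¹ • c), 0, ?_⟩
      show ((0, Θ a c) : L × L) - (- Θ (b⁻¹ • a) (b⁻¹ • c), 0) =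
        (k₁ (Θ' (b⁻¹ • a) (b⁻¹ • c)), k₂ (Θ' (b⁻¹ • a) (b⁻¹ • c))) + (p : ℤ) • (0 : L × L)
      rw [hdeg₁, hdeg₂, smul_inv_smul, smul_inv_smul]
      ext <;> simp
    | zero => exact ⟨0, by simp⟩
    | add u v _ _ hu hv =>
      obtain ⟨xu, hxu⟩ := hu
      obtain ⟨xv, hxv⟩ := hv
      refine ⟨xu + xv, ?_⟩
      have := S.add_mem hxu hxv
      have e : ((0, u + v) : L × L) - (xu + xv, 0) = ((0, u) - (xu, 0)) + ((0, v) - (xv, 0)) := by
        ext <;> simp
        abel
      rw [e]; exact this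
    | neg u _ hu =>
      obtain ⟨xu, hxu⟩ := hu
      refine ⟨-xu, ?_⟩
      have := S.neg_mem hxu
      have e : ((0, -u) : L × L) - (-xu, 0) = - ((0, u) - (xu, 0)) := by
        ext <;> simp
      rw [e]; exact this
  -- conclusion
  obtain ⟨x'', hx''⟩ := hA y
  have h1 : ((E x, 0) : L × L) ∈ S := hC x
  have h2 : ((0, E y) : L × L) ∈ S := by
    have h3 := hEES _ hx''
    have h4 : EE ((0, y) - (x'', 0)) = (0, E y) - (E x'', 0) := by
      show (E.prodMap E) ((0, y) - (x'', 0)) = _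
      ext <;> simp
    rw [h4] at h3
    have h5 := S.add_mem h3 (hC x'')
    simpa using h5
  have h6 : ((E x, E y) : L × L) ∈ S := by
    have := S.add_mem h1 h2
    simpa using this
  obtain ⟨w, z', hz⟩ := h6
  refine ⟨w, ⟨z'.1, ?_⟩, ⟨z'.2, ?_⟩⟩
  · have := congrArg Prod.fst hz
    simp only [Prod.fst_add, Prod.smul_fst] at this
    rw [this]
    show k₁ w + (p : ℤ) • z'.1 - k₁ w = _
    abel
  · have := congrArg Prod.snd hz
    simp only [Prod.snd_add, Prod.smul_snd] at this
    rw [this]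
    show k₂ w + (p : ℤ) • z'.2 - k₂ w = _
    abel

end Cores

end Fermat.Agent.S41.helper7223
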