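/-
S41 (level raising), leaf L4 (IHARA-INT), file 2/3 -- helper7223.

Concrete cusp-side inputs of the abstract Ihara halves of `helper7223_IharaCore`:
`X = OnePoint ℚ` with Mathlib's action of `GL (Fin 2) ℚ`, `ρ = rho N : Γ₀(N) →* GL (Fin 2) ℚ`,
Hecke representatives `repTQ l` (helper8689), `β = diagQ q`.

* `CuspMove M l`  : the cusp-move property (`α_i • x = T^k • ε • x`, `ε ∈ Γ(M)`), as a `Prop`.
* `CspPairAt N q p M` : the congruence subgroup property for additive pair-functions, as a `Prop`.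
* `rho_conjB`, `conj_repTQ`, `sum_eq_card_of_cuspMove`, `csp_const` : the hypotheses
  `hcj`, `hconj`, `hC4`, `hCSP` of `ihara_a_core` / `ihara_b_core`.
-/
import Mathlib
import Fermat.Agent.S41.helper123_Spec
import Fermat.Agent.S41.helper7223_IharaCore
import Fermat.Agent.S41.helper8689_Cusps
import Fermat.Agent.S41.helper2138_LevelRaise

set_option autoImplicit false

open CongruenceSubgroup Matrix.SpecialLinearGroup OnePoint
open scoped MatrixGroups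

namespace Fermat.Agent.S41.helper7223

open Fermat.Agent.S16.helper2138 (repT repT_infty T_zpow_mem_Gamma0)
open Fermat.Agent.S41.helper8689
open Fermat.Agent.S41.helper2138 (conjB conjB_rel)

/-- `Γ₀(N)` inside `GL₂(ℚ)`. -/
noncomputable def rho (N : ℕ) : Gamma0 N →* GL (Fin 2) ℚ := (mapGL ℚ).comp (Gamma0 N).subtype

theorem rho_apply (N : ℕ) (γ : Gamma0 N) : rho N γ = mapGL ℚ (γ : SL(2, ℤ)) := rfl

theorem mem_range_rho {N : ℕ} {γ : SL(2, ℤ)} (h : γ ∈ Gamma0 N) :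
    mapGL ℚ γ ∈ Set.range (rho N) := ⟨⟨γ, h⟩, rfl⟩

/-- The cusp-move property at level `M` for the Hecke representatives of `T_l`. -/
def CuspMove (M l : ℕ) [NeZero l] : Prop :=
  ∀ (i : OnePoint (ZMod l)) (x : OnePoint ℚ), ∃ k : ℤ, ∃ ε ∈ CongruenceSubgroup.Gamma M,
    repTQ l i • x = mapGL ℚ (ModularGroup.T ^ k) • mapGL ℚ ε • x

/-- The congruence subgroup property for additive pair-functions (level `M`). -/
def CspPairAt (N q p M : ℕ) [NeZero q] : Prop :=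
  ∀ U : OnePoint ℚ → OnePoint ℚ → ZMod p,
    (∀ a b c, U a b + U b c = U a c) →
    (∀ γ ∈ Gamma0 N, ∀ a b, U (mapGL ℚ γ • a) (mapGL ℚ γ • b) = U a b) →
    (∀ γ ∈ Gamma0 N, ∀ a b,
      U ((diagQ q * mapGL ℚ γ * (diagQ q)⁻¹) • a) ((diagQ q * mapGL ℚ γ * (diagQ q)⁻¹) • b)
        = U a b) →
    ∀ γ ∈ CongruenceSubgroup.Gamma M, ∀ x, U x (mapGL ℚ γ • x) = 0

theorem Gamma_le_Gamma0' (M : ℕ) : CongruenceSubgroup.Gamma M ≤ Gamma0 M := by
  intro γ hγ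
  rw [CongruenceSubgroup.Gamma_mem] at hγ
  rw [Gamma0_mem]
  exact hγ.2.2.1

theorem diagQ_map (q : ℕ) [NeZero q] :
    (diagQ q).map (algebraMap ℚ ℝ) = ModularForm.heckeDiagMatrix q := by
  have h := repTQ_map q ∞
  rwa [repTQ_infty, repT_infty] at h

/-- `hcj`: `conjB` is conjugation by `diagQ q`. -/
theorem rho_conjB (N q : ℕ) [NeZero q] (g : Gamma0 (N * q)) :
    rho N (conjB N q g) = diagQ q * mapGL ℚ (g : SL(2, ℤ)) * (diagQ q)⁻¹ := by
  rw [eq_mul_inv_iff_mul_eq]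
  apply map_algebraMap_injective
  rw [map_mul, map_mul, rho_apply, map_mapGL, map_mapGL, diagQ_map]
  exact (conjB_rel N q g).symm

/-- The permutation `j ↦ q j` of `ℙ¹(𝔽_l)`. -/
noncomputable def piEquiv (l q : ℕ) [Fact l.Prime] (hlq : ¬ l ∣ q) :
    OnePoint (ZMod l) ≃ OnePoint (ZMod l) :=
  Equiv.ofBijective (OnePoint.map (fun j : ZMod l => (q : ZMod l) * j)) (by
    have hq0 : (q : ZMod l) ≠ 0 := by
      rw [Ne, ZMod.natCast_eq_zero_iff]; exact hlq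
    have hinj : Function.Injective (OnePoint.map (fun j : ZMod l => (q : ZMod l) * j)) :=
      Option.map_injective (mul_right_injective₀ hq0)
    exact Finite.injective_iff_bijective.mp hinj)

/-- `hconj`: `β α_i β⁻¹ ∈ ρ(Γ₀(N)) α_{π i}`. -/
theorem conj_repTQ (N l q : ℕ) [Fact l.Prime] [NeZero q] (hlq : ¬ l ∣ q)
    (i : OnePoint (ZMod l)) :
    ∃ h ∈ Set.range (rho N),
      diagQ q * repTQ l i * (diagQ q)⁻¹ = h * repTQ l (piEquiv l q hlq i) := by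
  obtain ⟨t, ht⟩ := repTQ_conj_diag l q i
  refine ⟨mapGL ℚ (ModularGroup.T ^ t), mem_range_rho (T_zpow_mem_Gamma0 N t), ?_⟩
  rw [ht, mul_inv_cancel_right]
  rfl

/-- `hC4`: the cusp-move property gives `∑ i, B (α i • x) = (l + 1) • B x` for
`Γ₀(M)`-invariant `B`. -/
theorem sum_eq_card_of_cuspMove {A : Type*} [AddCommGroup A] (M l : ℕ) [Fact l.Prime]
    (hmove : CuspMove M l) (B : OnePoint ℚ → A)
    (hB : ∀ γ ∈ Gamma0 M, ∀ x, B (mapGL ℚ γ • x) = B x) (x : OnePoint ℚ) :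
    ∑ i, B (repTQ l i • x) = Fintype.card (OnePoint (ZMod l)) • B x := by
  have key : ∀ i ∈ (Finset.univ : Finset (OnePoint (ZMod l))), B (repTQ l i • x) = B x := by
    intro i _
    obtain ⟨k, ε, hε, h⟩ := hmove i x
    rw [h, hB _ (T_zpow_mem_Gamma0 M k), hB _ (Gamma_le_Gamma0' M hε)]
  rw [Finset.sum_congr rfl key, Finset.sum_const, Finset.card_univ]

theorem mapGL_T_zpow_smul_infty (k : ℤ) :
    mapGL ℚ (ModularGroup.T ^ k) • (∞ : OnePoint ℚ) = ∞ := by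
  rw [OnePoint.smul_infty_eq_self_iff, val_mapGL_T_zpow]
  simp

/-- `hCSP`: from the pair-function CSP at level `M₁` and the cusp-move at level `M₁`. -/
theorem csp_const (N q p M₁ l : ℕ) [Fact q.Prime] [Fact l.Prime]
    (hcsp : CspPairAt N q p M₁) (hmove : CuspMove M₁ l)
    (U : OnePoint ℚ → OnePoint ℚ → ZMod p) (hUa : IsAddPair U)
    (hUi : PairInv (Set.range (rho N)) U)
    (hUc : PairInv {g | ∃ s ∈ Set.range (rho N), g = (diagQ q)⁻¹ * s * diagQ q} U)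
    (i : OnePoint (ZMod l)) : ∃ k : ZMod p, ∀ x, U x (repTQ l i • x) = k := by
  refine ⟨0, fun x => ?_⟩
  set β : GL (Fin 2) ℚ := diagQ q with hβ
  -- the shifted pair-function
  let U' : OnePoint ℚ → OnePoint ℚ → ZMod p := pairShift β⁻¹ U
  have hU'a : IsAddPair U' := pairShift_isAddPair β⁻¹ hUa
  have hU'1 : ∀ γ ∈ Gamma0 N, ∀ a b, U' (mapGL ℚ γ • a) (mapGL ℚ γ • b) = U' a b := by
    intro γ hγ a b
    show U (β⁻¹ • mapGL ℚ γ • a) (β⁻¹ • mapGL ℚ γ • b) = U (β⁻¹ • a) (β⁻¹ • b)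
    have e : ∀ c : OnePoint ℚ, β⁻¹ • mapGL ℚ γ • c = (β⁻¹ * mapGL ℚ γ * β) • β⁻¹ • c := by
      intro c
      rw [mul_smul, mul_smul, smul_inv_smul]
    rw [e a, e b]
    exact hUc _ ⟨mapGL ℚ γ, mem_range_rho hγ, rfl⟩ _ _
  have hU'2 : ∀ γ ∈ Gamma0 N, ∀ a b,
      U' ((β * mapGL ℚ γ * β⁻¹) • a) ((β * mapGL ℚ γ * β⁻¹) • b) = U' a b := by
    intro γ hγ a b
    show U (β⁻¹ • (β * mapGL ℚ γ * β⁻¹) • a) (β⁻¹ • (β * mapGL ℚ γ * β⁻¹) • b) =
      U (β⁻¹ • a) (β⁻¹ • b)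
    have e : ∀ c : OnePoint ℚ, β⁻¹ • (β * mapGL ℚ γ * β⁻¹) • c = mapGL ℚ γ • β⁻¹ • c := by
      intro c
      rw [mul_smul, mul_smul, inv_smul_smul]
    rw [e a, e b]
    exact hUi _ (mem_range_rho hγ) _ _
  have hΓM : ∀ γ ∈ CongruenceSubgroup.Gamma M₁, ∀ y, U' y (mapGL ℚ γ • y) = 0 :=
    hcsp U' hU'a hU'1 hU'2
  -- translations
  have hT : ∀ (k : ℤ) (y : OnePoint ℚ), U' y (mapGL ℚ (ModularGroup.T ^ k) • y) = 0 := by
    intro k y
    have hmem : mapGL ℚ (ModularGroup.T ^ k) ∈ invSubgroup U' :=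
      fun a b => hU'1 _ (T_zpow_mem_Gamma0 N k) a b
    rw [hU'a.base_indep hmem y ∞, mapGL_T_zpow_smul_infty, hU'a.self]
  -- the Hecke representatives
  have hα : ∀ (j : OnePoint (ZMod l)) (y : OnePoint ℚ), U' y (repTQ l j • y) = 0 := by
    intro j y
    obtain ⟨k, ε, hε, h⟩ := hmove j y
    rw [h, ← hU'a y (mapGL ℚ ε • y) _, hΓM ε hε y, hT k, add_zero]
  -- back to `U`
  have hUU' : ∀ a c : OnePoint ℚ, U a c = U' (β • a) (β • c) := by
    intro a c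
    show U a c = U (β⁻¹ • β • a) (β⁻¹ • β • c)
    rw [inv_smul_smul, inv_smul_smul]
  obtain ⟨t, ht⟩ := repTQ_conj_diag l q i
  rw [hUU', ← mul_smul, ht, mul_smul, mul_smul,
    ← hU'a (β • x) (repTQ l (i.map (fun j => (q : ZMod l) * j)) • β • x) _, hα, hT, add_zero]

end Fermat.Agent.S41.helper7223
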