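/-
S41 (level raising), leaf L4 (IHARA-INT), file 3/3 -- helper7223.

The two Ihara halves in the captain's Spec shape, and the assembly
`Stmt_CSP → Stmt_Boundary → Stmt_Ihara`.

* `ihara_a_concrete` : field `ihara_a` of `IsIharaPackage` for `r₁ = res`, `r₂ = resc`.
* `ihara_b_concrete` : field `ihara_b` of `IsIharaPackage` for `k₁ = cores`, `k₂ = coresc`.
-/
import Mathlib
import Fermat.Agent.S41.helper123_Spec
import Fermat.Agent.S41.helper7223_IharaCore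
import Fermat.Agent.S41.helper7223_IharaCusp
import Fermat.Agent.S41.helper8689_Cusps
import Fermat.Agent.S41.helper2138_LevelRaise

set_option autoImplicit false

open CongruenceSubgroup Matrix.SpecialLinearGroup OnePoint
open scoped MatrixGroups

namespace Fermat.Agent.S41.helper7223

open Fermat.Agent.S16.helper2138 (corrT heckeHomT heckeHomU heckeHomT_apply heckeHomT_comp Corr)
open Fermat.Agent.S41.helper8689
open Fermat.Agent.S41.helper2138 (res resc cores coresc res_apply resc_apply conjB Gamma0_mul_le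
  card_onePoint_zmod)
open Fermat.Agent.S41.helper123 (Lam eta Stmt_Boundary Stmt_CSP Stmt_Ihara IsIharaPackage)

/-! ### `η` is additive and natural -/

theorem eta_add' (M l : ℕ) [Fact l.Prime] (hl : ¬ l ∣ M) (A : Type*) [AddCommGroup A]
    (φ ψ : Additive (Gamma0 M) →+ A) :
    eta M l hl A (φ + ψ) = eta M l hl A φ + eta M l hl A ψ := by
  unfold eta heckeHomT
  rw [Corr.op_add, smul_add]
  abel

theorem eta_zsmul' (M l : ℕ) [Fact l.Prime] (hl : ¬ l ∣ M) (A : Type*) [AddCommGroup A] (n : ℤ)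
    (φ : Additive (Gamma0 M) →+ A) : eta M l hl A (n • φ) = n • eta M l hl A φ := by
  unfold eta heckeHomT
  have h := ((corrT M l hl).opLin ℤ A).map_smul n φ
  simp only [Corr.opLin_apply] at h
  rw [h, smul_sub, smul_comm]

theorem eta_comp' (M l : ℕ) [Fact l.Prime] (hl : ¬ l ∣ M) {A B : Type*} [AddCommGroup A]
    [AddCommGroup B] (f : A →+ B) (φ : Additive (Gamma0 M) →+ A) :
    eta M l hl B (f.comp φ) = f.comp (eta M l hl A φ) := by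
  unfold eta
  rw [heckeHomT_comp]
  ext γ
  simp

theorem intCast_add_one_zsmul' (l : ℕ) {B : Type*} [AddCommGroup B] (b : B) :
    ((l : ℤ) + 1) • b = (l + 1) • b := by
  have h : ((l : ℤ) + 1) = ((l + 1 : ℕ) : ℤ) := by push_cast; rfl
  rw [h, natCast_zsmul]

/-- `η` as an additive map on the lattice. -/
noncomputable def etaHom (M l : ℕ) [Fact l.Prime] (hl : ¬ l ∣ M) : Lam M →+ Lam M :=
  AddMonoidHom.mk' (eta M l hl ℤ) (eta_add' M l hl ℤ)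

theorem etaHom_apply (M l : ℕ) [Fact l.Prime] (hl : ¬ l ∣ M) (x : Lam M) :
    etaHom M l hl x = eta M l hl ℤ x := rfl

/-- The abstract `homEta` of the core is the captain's `eta`, pointwise. -/
theorem homEta_eq_eta (N l : ℕ) [Fact l.Prime] (hl : ¬ l ∣ N) (A : Type*) [AddCommGroup A]
    (φ : Additive (Gamma0 N) →+ A) :
    homEta (fun i γ => (corrT N l hl).g i γ) (fun γ => φ (Additive.ofMul γ)) =
      fun γ => eta N l hl A φ (Additive.ofMul γ) := by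
  funext γ
  unfold homEta homT eta
  rw [AddMonoidHom.sub_apply, heckeHomT_apply, card_onePoint_zmod, AddMonoidHom.smul_apply,
    intCast_add_one_zsmul']

/-- A `ℤ`-valued hom all of whose values are divisible by `p` is `p` times a hom. -/
theorem exists_eq_zsmul_of_forall_dvd {G : Type*} [AddZeroClass G] (p : ℤ) (f : G →+ ℤ)
    (h : ∀ a, p ∣ f a) : ∃ f' : G →+ ℤ, f = p • f' := by
  have hadd : ∀ a b, f (a + b) / p = f a / p + f b / p := fun a b => by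
    rw [map_add, Int.add_ediv_of_dvd_left (h a)]
  refine ⟨AddMonoidHom.mk' (fun a => f a / p) hadd, ?_⟩
  ext a
  simp only [AddMonoidHom.smul_apply, AddMonoidHom.mk'_apply, smul_eq_mul]
  exact (Int.mul_ediv_cancel' (h a)).symm

/-! ### Ihara half (a) -/

theorem ihara_a_concrete (N q p ℓ₀ : ℕ) [Fact q.Prime] [Fact ℓ₀.Prime] [Fact p.Prime]
    (hN : 0 < N) (h₀N : ¬ ℓ₀ ∣ N) (h₀Nq : ¬ ℓ₀ ∣ N * q)
    (hB : Stmt_Boundary) (h1N : (ℓ₀ : ZMod N) = 1)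
    (hmoveNq : CuspMove (N * q) ℓ₀) (M₁ : ℕ) (hcsp : CspPairAt N q p M₁)
    (hmove₁ : CuspMove M₁ ℓ₀)
    (hrT : ∀ x : Lam N,
      res N q ℤ (heckeHomT N ℓ₀ h₀N ℤ x) = heckeHomT (N * q) ℓ₀ h₀Nq ℤ (res N q ℤ x) ∧
      resc N q ℤ (heckeHomT N ℓ₀ h₀N ℤ x) = heckeHomT (N * q) ℓ₀ h₀Nq ℤ (resc N q ℤ x))
    (x y : Lam N) (hw : ∃ w : Lam (N * q), res N q ℤ x + resc N q ℤ y = (p : ℤ) • w) :
    (∃ x' : Lam N, eta N ℓ₀ h₀N ℤ (eta N ℓ₀ h₀N ℤ (eta N ℓ₀ h₀N ℤ x)) = (p : ℤ) • x') ∧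
    (∃ y' : Lam N, eta N ℓ₀ h₀N ℤ (eta N ℓ₀ h₀N ℤ (eta N ℓ₀ h₀N ℤ y)) = (p : ℤ) • y') := by
  classical
  obtain ⟨w, hw⟩ := hw
  have hlq : ¬ ℓ₀ ∣ q := fun h => h₀Nq (Dvd.dvd.mul_left h N)
  let f : ℤ →+ ZMod p := Int.castAddHom (ZMod p)
  have hx₁p : ModularCurve.Period.IsParabolicHom (Gamma0 N) (eta N ℓ₀ h₀N ℤ x) :=
    hB N ℓ₀ h₀N hN h1N ℤ x
  have hy₁p : ModularCurve.Period.IsParabolicHom (Gamma0 N) (eta N ℓ₀ h₀N ℤ y) :=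
    hB N ℓ₀ h₀N hN h1N ℤ y
  let φ₁ : Additive (Gamma0 N) →+ ZMod p := f.comp (eta N ℓ₀ h₀N ℤ x)
  let φ₂ : Additive (Gamma0 N) →+ ZMod p := f.comp (eta N ℓ₀ h₀N ℤ y)
  have hφ₁p : ModularCurve.Period.IsParabolicHom (Gamma0 N) φ₁ := fun γ hγ => by
    show f (eta N ℓ₀ h₀N ℤ x (Additive.ofMul γ)) = 0
    rw [hx₁p γ hγ, map_zero]
  have hφ₂p : ModularCurve.Period.IsParabolicHom (Gamma0 N) φ₂ := fun γ hγ => by
    show f (eta N ℓ₀ h₀N ℤ y (Additive.ofMul γ)) = 0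
    rw [hy₁p γ hγ, map_zero]
  obtain ⟨U₁, h₁a, h₁i, h₁l⟩ := exists_symbol_of_parabolic (Gamma0 N) φ₁ hφ₁p
  obtain ⟨U₂, h₂a, h₂i, h₂l⟩ := exists_symbol_of_parabolic (Gamma0 N) φ₂ hφ₂p
  -- the relation at level `N q`
  have hrel' : res N q ℤ (eta N ℓ₀ h₀N ℤ x) + resc N q ℤ (eta N ℓ₀ h₀N ℤ y) =
      (p : ℤ) • eta (N * q) ℓ₀ h₀Nq ℤ w := by
    have e1 : res N q ℤ (eta N ℓ₀ h₀N ℤ x) = eta (N * q) ℓ₀ h₀Nq ℤ (res N q ℤ x) := by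
      unfold eta
      rw [map_sub, map_zsmul, (hrT x).1]
    have e2 : resc N q ℤ (eta N ℓ₀ h₀N ℤ y) = eta (N * q) ℓ₀ h₀Nq ℤ (resc N q ℤ y) := by
      unfold eta
      rw [map_sub, map_zsmul, (hrT y).2]
    rw [e1, e2, ← eta_add', hw, eta_zsmul']
  have hK : ∀ g : Gamma0 (N * q),
      φ₁ (Additive.ofMul (Subgroup.inclusion (Gamma0_mul_le N q) g)) +
        φ₂ (Additive.ofMul (conjB N q g)) = 0 := by
    intro g
    have h := congrArg (fun ψ : Lam (N * q) => f (ψ (Additive.ofMul g))) hrel'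
    simp only [AddMonoidHom.add_apply, res_apply, resc_apply, map_add,
      AddMonoidHom.smul_apply] at h
    show f (eta N ℓ₀ h₀N ℤ x _) + f (eta N ℓ₀ h₀N ℤ y _) = 0
    rw [h]
    simp [f]
  have hcore := ihara_a_core (A := ZMod p) (repTQ ℓ₀) (diagQ q) (rho N)
    (fun g : Gamma0 (N * q) => mapGL ℚ (g : SL(2, ℤ)))
    (Subgroup.inclusion (Gamma0_mul_le N q)) (conjB N q)
    (fun g => rfl) (fun g => rho_conjB N q g)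
    (fun i γ => (corrT N ℓ₀ h₀N).g i γ) (fun γ => (corrT N ℓ₀ h₀N).σEquiv γ)
    (fun i γ => repTQ_rel N ℓ₀ h₀N i γ)
    (fun B hB x => sum_eq_card_of_cuspMove (N * q) ℓ₀ hmoveNq B (fun γ hγ x => hB ⟨γ, hγ⟩ x) x)
    (piEquiv ℓ₀ q hlq) (conj_repTQ N ℓ₀ q hlq)
    (fun U hUa hUi hUc i => csp_const N q p M₁ ℓ₀ hcsp hmove₁ U hUa hUi hUc i)
    ∞ (fun γ => φ₁ (Additive.ofMul γ)) (fun γ => φ₂ (Additive.ofMul γ)) U₁ U₂
    h₁a (by rintro _ ⟨γ, rfl⟩ a b; exact h₁i γ a b) (fun γ x => h₁l γ x)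
    h₂a (by rintro _ ⟨γ, rfl⟩ a b; exact h₂i γ a b) (fun γ x => h₂l γ x)
    hK
  -- translate back to `η³`
  have key : ∀ z : Lam N,
      (∀ γ, homEta (fun i γ => (corrT N ℓ₀ h₀N).g i γ)
        (homEta (fun i γ => (corrT N ℓ₀ h₀N).g i γ)
          (fun γ => (f.comp (eta N ℓ₀ h₀N ℤ z)) (Additive.ofMul γ))) γ = 0) →
      ∃ z' : Lam N, eta N ℓ₀ h₀N ℤ (eta N ℓ₀ h₀N ℤ (eta N ℓ₀ h₀N ℤ z)) = (p : ℤ) • z' := by
    intro z hz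
    rw [homEta_eq_eta N ℓ₀ h₀N (ZMod p) (f.comp (eta N ℓ₀ h₀N ℤ z)),
      homEta_eq_eta N ℓ₀ h₀N (ZMod p)] at hz
    apply exists_eq_zsmul_of_forall_dvd
    intro a
    obtain ⟨γ, rfl⟩ := Additive.ofMul.surjective a
    have h := hz γ
    rw [eta_comp', eta_comp'] at h
    exact (ZMod.intCast_zmod_eq_zero_iff_dvd _ p).mp h
  exact ⟨key x hcore.1, key y hcore.2⟩

/-! ### Ihara half (b) -/

theorem ihara_b_concrete (N q p ℓ₀ : ℕ) [Fact q.Prime] [Fact ℓ₀.Prime] [Fact p.Prime]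
    (hqN : ¬ q ∣ N) (h₀N : ¬ ℓ₀ ∣ N) (h₀Nq : ¬ ℓ₀ ∣ N * q)
    (M₁ : ℕ) (hcsp : CspPairAt N q p M₁) (hmove₁ : CuspMove M₁ ℓ₀)
    (hkT : ∀ w : Lam (N * q),
      cores N q hqN ℤ (heckeHomT (N * q) ℓ₀ h₀Nq ℤ w) =
        heckeHomT N ℓ₀ h₀N ℤ (cores N q hqN ℤ w) ∧
      coresc N q hqN ℤ (heckeHomT (N * q) ℓ₀ h₀Nq ℤ w) =
        heckeHomT N ℓ₀ h₀N ℤ (coresc N q hqN ℤ w))
    (Θ : OnePoint ℚ → OnePoint ℚ → Lam N) (Θ' : OnePoint ℚ → OnePoint ℚ → Lam (N * q))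
    (hΘ1 : ∀ a b c, Θ a b + Θ b c = Θ a c)
    (hΘ2 : ∀ γ ∈ Gamma0 N, ∀ a b, Θ (mapGL ℚ γ • a) (mapGL ℚ γ • b) = Θ a b)
    (hΘ3 : AddSubgroup.closure (Set.range fun ab : OnePoint ℚ × OnePoint ℚ => Θ ab.1 ab.2) = ⊤)
    (hΘH : ∀ a b, heckeHomT N ℓ₀ h₀N ℤ (Θ a b) = ∑ i, Θ (repTQ ℓ₀ i • a) (repTQ ℓ₀ i • b))
    (hΘd1 : ∀ a b, cores N q hqN ℤ (Θ' a b) = Θ a b)
    (hΘd2 : ∀ a b, coresc N q hqN ℤ (Θ' a b) = Θ (diagQ q • a) (diagQ q • b))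
    (x y : Lam N) :
    ∃ w : Lam (N * q),
      (∃ x' : Lam N, eta N ℓ₀ h₀N ℤ x - cores N q hqN ℤ w = (p : ℤ) • x') ∧
      (∃ y' : Lam N, eta N ℓ₀ h₀N ℤ y - coresc N q hqN ℤ w = (p : ℤ) • y') := by
  classical
  have hk₁ : ∀ w, cores N q hqN ℤ (etaHom (N * q) ℓ₀ h₀Nq w) =
      etaHom N ℓ₀ h₀N (cores N q hqN ℤ w) := by
    intro w
    rw [etaHom_apply, etaHom_apply]
    unfold eta
    rw [map_sub, map_zsmul, (hkT w).1]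
  have hk₂ : ∀ w, coresc N q hqN ℤ (etaHom (N * q) ℓ₀ h₀Nq w) =
      etaHom N ℓ₀ h₀N (coresc N q hqN ℤ w) := by
    intro w
    rw [etaHom_apply, etaHom_apply]
    unfold eta
    rw [map_sub, map_zsmul, (hkT w).2]
  have hΘE : ∀ a c, etaHom N ℓ₀ h₀N (Θ a c) =
      ∑ i, Θ (repTQ ℓ₀ i • a) (repTQ ℓ₀ i • c) -
        Fintype.card (OnePoint (ZMod ℓ₀)) • Θ a c := by
    intro a c
    rw [etaHom_apply]
    unfold eta
    rw [hΘH, card_onePoint_zmod, intCast_add_one_zsmul']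
  exact ihara_b_core p (repTQ ℓ₀) (diagQ q) (rho N) (cores N q hqN ℤ) (coresc N q hqN ℤ)
    (etaHom N ℓ₀ h₀N) (etaHom (N * q) ℓ₀ h₀Nq) hk₁ hk₂ Θ Θ' hΘ1
    (by rintro _ ⟨γ, rfl⟩ a b; exact hΘ2 _ γ.2 a b) hΘ3 hΘd1 hΘd2 hΘE
    (fun U hUa hUi hUc i => csp_const N q p M₁ ℓ₀ hcsp hmove₁ U hUa hUi hUc i) x y

/-! ### Assembly -/

/-- The six "degeneracy" fields of the captain's `IsIharaPackage` (module A). -/
structure IsDegPackage (N q : ℕ) [Fact q.Prime] (hqN : ¬ q ∣ N)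
    (r₁ r₂ : Lam N →+ Lam (N * q)) (k₁ k₂ : Lam (N * q) →+ Lam N) : Prop where
  r_T : ∀ (l : ℕ) [Fact l.Prime] (hlN : ¬ l ∣ N) (hlNq : ¬ l ∣ N * q) (x : Lam N),
    r₁ (heckeHomT N l hlN ℤ x) = heckeHomT (N * q) l hlNq ℤ (r₁ x) ∧
    r₂ (heckeHomT N l hlN ℤ x) = heckeHomT (N * q) l hlNq ℤ (r₂ x)
  r_U : ∀ (r : ℕ) [Fact r.Prime] [NeZero r] (hrN : r ∣ N) (hrNq : r ∣ N * q) (x : Lam N),
    r₁ (heckeHomU N r hrN ℤ x) = heckeHomU (N * q) r hrNq ℤ (r₁ x) ∧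
    r₂ (heckeHomU N r hrN ℤ x) = heckeHomU (N * q) r hrNq ℤ (r₂ x)
  k_T : ∀ (l : ℕ) [Fact l.Prime] (hlN : ¬ l ∣ N) (hlNq : ¬ l ∣ N * q) (w : Lam (N * q)),
    k₁ (heckeHomT (N * q) l hlNq ℤ w) = heckeHomT N l hlN ℤ (k₁ w) ∧
    k₂ (heckeHomT (N * q) l hlNq ℤ w) = heckeHomT N l hlN ℤ (k₂ w)
  k_U : ∀ (r : ℕ) [Fact r.Prime] [NeZero r] (hrN : r ∣ N) (hrNq : r ∣ N * q) (w : Lam (N * q)),
    k₁ (heckeHomU (N * q) r hrNq ℤ w) = heckeHomU N r hrN ℤ (k₁ w) ∧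
    k₂ (heckeHomU (N * q) r hrNq ℤ w) = heckeHomU N r hrN ℤ (k₂ w)
  kr : ∀ x : Lam N,
    k₁ (r₁ x) = ((q : ℤ) + 1) • x ∧ k₂ (r₂ x) = ((q : ℤ) + 1) • x ∧
    k₁ (r₂ x) = heckeHomT N q hqN ℤ x ∧ k₂ (r₁ x) = heckeHomT N q hqN ℤ x
  new_U : ∀ [NeZero q] (hqNq : q ∣ N * q) (w : Lam (N * q)), k₁ w = 0 → k₂ w = 0 →
    k₁ (heckeHomU (N * q) q hqNq ℤ w) = 0 ∧ k₂ (heckeHomU (N * q) q hqNq ℤ w) = 0 ∧
    heckeHomU (N * q) q hqNq ℤ (heckeHomU (N * q) q hqNq ℤ w) = w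

theorem zmod_eq_one_of_dvd {M M' l : ℕ} (h : M' ∣ M) (hl : (l : ZMod M) = 1) :
    (l : ZMod M') = 1 := by
  have h' := congrArg (ZMod.castHom h (ZMod M')) hl
  rwa [map_natCast, map_one] at h'

/-- **L4 with explicit inputs.**  `Stmt_Ihara` from: the cusp-move (`hCM`), the pair-function
CSP (`hCSPP`), the degeneracy package (`hA`, module A), the crossing maps `Θ` (module B) and
`Stmt_Boundary` (module C). -/
theorem stmt_Ihara_of_inputs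
    (hCM : ∀ (M l : ℕ) [NeZero M] [Fact l.Prime], (l : ZMod M) = 1 → CuspMove M l)
    (hCSPP : ∀ (N q p : ℕ) [Fact q.Prime], 0 < N → ¬ q ∣ N → p.Prime → p ≠ 2 → q ≠ p →
      ∃ M, 0 < M ∧ CspPairAt N q p M)
    (hA : ∀ (N q : ℕ) [Fact q.Prime] (hqN : ¬ q ∣ N), 0 < N →
      IsDegPackage N q hqN (res N q ℤ) (resc N q ℤ) (cores N q hqN ℤ) (coresc N q hqN ℤ))
    (Θ : (M : ℕ) → OnePoint ℚ → OnePoint ℚ → Lam M)
    (hΘ1 : ∀ M, 0 < M → ∀ a b c, Θ M a b + Θ M b c = Θ M a c)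
    (hΘ2 : ∀ M, 0 < M → ∀ γ ∈ Gamma0 M, ∀ a b, Θ M (mapGL ℚ γ • a) (mapGL ℚ γ • b) = Θ M a b)
    (hΘ3 : ∀ M, 0 < M →
      AddSubgroup.closure (Set.range fun ab : OnePoint ℚ × OnePoint ℚ => Θ M ab.1 ab.2) = ⊤)
    (hΘH : ∀ (M l : ℕ) [Fact l.Prime] (hl : ¬ l ∣ M), 0 < M → ∀ a b,
      heckeHomT M l hl ℤ (Θ M a b) = ∑ i, Θ M (repTQ l i • a) (repTQ l i • b))
    (hΘd : ∀ (N q : ℕ) [Fact q.Prime] (hqN : ¬ q ∣ N), 0 < N → ∀ a b,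
      cores N q hqN ℤ (Θ (N * q) a b) = Θ N a b ∧
      coresc N q hqN ℤ (Θ (N * q) a b) = Θ N (diagQ q • a) (diagQ q • b))
    (hB : Stmt_Boundary) : Stmt_Ihara := by
  intro N q p _ hN hqN hp hp2 hqp
  have : Fact p.Prime := ⟨hp⟩
  obtain ⟨M₁, hM₁, hcsp⟩ := hCSPP N q p hN hqN hp hp2 hqp
  have hq0 : 0 < q := (Fact.out : q.Prime).pos
  refine ⟨M₁ * (N * q), Nat.mul_pos hM₁ (Nat.mul_pos hN hq0), ?_⟩
  intro ℓ₀ _ h₀N h₀Nq h1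
  have : NeZero M₁ := ⟨hM₁.ne'⟩
  have : NeZero (N * q) := ⟨(Nat.mul_pos hN hq0).ne'⟩
  have h1M₁ : (ℓ₀ : ZMod M₁) = 1 := zmod_eq_one_of_dvd (Dvd.intro _ rfl) h1
  have h1Nq : (ℓ₀ : ZMod (N * q)) = 1 := zmod_eq_one_of_dvd (Dvd.intro_left _ rfl) h1
  have h1N : (ℓ₀ : ZMod N) = 1 := zmod_eq_one_of_dvd (Dvd.intro _ rfl) h1Nq
  have hmove₁ : CuspMove M₁ ℓ₀ := hCM M₁ ℓ₀ h1M₁
  have hmoveNq : CuspMove (N * q) ℓ₀ := hCM (N * q) ℓ₀ h1Nq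
  have hdeg := hA N q hqN hN
  refine ⟨res N q ℤ, resc N q ℤ, cores N q hqN ℤ, coresc N q hqN ℤ, ?_⟩
  exact
    { r_T := hdeg.r_T
      r_U := hdeg.r_U
      k_T := hdeg.k_T
      k_U := hdeg.k_U
      kr := hdeg.kr
      new_U := hdeg.new_U
      ihara_a := fun x y hw =>
        ihara_a_concrete N q p ℓ₀ hN h₀N h₀Nq hB h1N hmoveNq M₁ hcsp hmove₁
          (fun x => hdeg.r_T ℓ₀ h₀N h₀Nq x) x y hw
      ihara_b := fun x y =>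
        ihara_b_concrete N q p ℓ₀ hqN h₀N h₀Nq M₁ hcsp hmove₁
          (fun w => hdeg.k_T ℓ₀ h₀N h₀Nq w) (Θ N) (Θ (N * q)) (hΘ1 N hN) (hΘ2 N hN) (hΘ3 N hN)
          (hΘH N ℓ₀ h₀N hN) (fun a b => (hΘd N q hqN hN a b).1)
          (fun a b => (hΘd N q hqN hN a b).2) x y }

end Fermat.Agent.S41.helper7223
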