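import Fermat.Agent.S16.helper1144_ShimuraLift

/-!
# Every homomorphism `Γ → ℤ` of a subgroup of `SL(2, ℤ)` is a Farey-crossing count

For an arbitrary subgroup `Γ ≤ SL(2, ℤ)` and an additive homomorphism `χ : Γ → ℤ` there is a
left-`Γ`-invariant even weight `κ` on `SL(2, ℤ)` (a weight on the `Γ`-orbits of oriented Farey
edges `h (0 → ∞)`) such that `χ γ` is the `κ`-weighted signed number of Farey geodesics separating
`ρ = e^{2πi/3}` from `γ ρ`:

`χ γ = ∑ᶠ h ∈ half-system, (pos (h⁻¹ γ) - pos h⁻¹) * κ h`,   `pos m = 1` iff `0 < Re (m • ρ)`.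

This is the "surjectivity of the crossing map onto `Hom(Γ, ℤ)`".  Also: the dictionary between the
integer side function `pos` and the action on the upper half plane, and (for `Γ` of finite index)
the grouped form `χ = ∑ i, n i * edgeCount Γ (r i)` over finitely many `Γ`-orbits of Farey edges.
-/

set_option autoImplicit false

namespace Fermat.Agent.S41.helper1144

open scoped MatrixGroups
open ModularGroup Matrix.SpecialLinearGroup OnePoint
open Fermat.Agent.S16.helper1144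

/-! ### Dictionary with the upper half plane -/

open UpperHalfPlane in
/-- The base point `ρ = e^{2πi/3}`. -/
noncomputable def rho : UpperHalfPlane :=
  ⟨⟨-1 / 2, Real.sqrt 3 / 2⟩, by
    show 0 < Real.sqrt 3 / 2
    positivity⟩

theorem rho_re : (rho : ℂ).re = -1 / 2 := rfl

theorem rho_im : (rho : ℂ).im = Real.sqrt 3 / 2 := rfl

/-- `Re (m • ρ) = q m / (2 |c ρ + d|²)`. -/
theorem re_smul_rho (m : SL(2, ℤ)) :
    (m • rho).re = (q m : ℝ) /
      (2 * Complex.normSq (((m 1 0 : ℤ) : ℂ) * (rho : ℂ) + ((m 1 1 : ℤ) : ℂ))) := by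
  have h3 : Real.sqrt 3 * Real.sqrt 3 = 3 := Real.mul_self_sqrt (by norm_num)
  rw [← UpperHalfPlane.coe_re, UpperHalfPlane.coe_specialLinearGroup_apply, Complex.div_re]
  simp only [algebraMap_int_eq, Int.coe_castRingHom, Complex.ofReal_intCast, Complex.add_re,
    Complex.mul_re, Complex.intCast_re, Complex.intCast_im, Complex.add_im, Complex.mul_im,
    rho_re, rho_im, zero_mul, sub_zero, add_zero, q, Int.cast_sub, Int.cast_mul, Int.cast_add,
    Int.cast_ofNat]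
  rw [← add_div, mul_comm (2 : ℝ), ← div_div]
  congr 1
  linear_combination ((m 0 0 : ℤ) : ℝ) * ((m 1 0 : ℤ) : ℝ) / 4 * h3

/-- `pos m = 1` iff `m • ρ` lies in the right half plane. -/
theorem pos_eq_ite_re (m : SL(2, ℤ)) : pos m = if 0 < (m • rho).re then 1 else 0 := by
  have hden : 0 < Complex.normSq (((m 1 0 : ℤ) : ℂ) * (rho : ℂ) + ((m 1 1 : ℤ) : ℂ)) := by
    rw [Complex.normSq_pos]
    intro h0
    have him := congrArg Complex.im h0
    have hre := congrArg Complex.re h0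
    simp only [Complex.add_im, Complex.mul_im, Complex.intCast_re, Complex.intCast_im, rho_re,
      rho_im, zero_mul, add_zero, Complex.zero_im, Complex.add_re, Complex.mul_re, sub_zero,
      Complex.zero_re] at him hre
    have hs : (0 : ℝ) < Real.sqrt 3 / 2 := by positivity
    have hc : ((m 1 0 : ℤ) : ℝ) = 0 := by
      rcases mul_eq_zero.mp him with h | h
      · exact h
      · exact absurd h hs.ne'
    have hd : ((m 1 1 : ℤ) : ℝ) = 0 := by
      rw [hc] at hre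
      linarith
    have hc' : m 1 0 = 0 := by exact_mod_cast hc
    have hd' : m 1 1 = 0 := by exact_mod_cast hd
    have := det_eq m
    rw [hc', hd'] at this
    simp at this
  have hiff : 0 < (m • rho).re ↔ 0 < q m := by
    rw [re_smul_rho]
    constructor
    · intro h
      have h2 : (0 : ℝ) < q m := by
        by_contra hneg
        have : (q m : ℝ) / (2 * Complex.normSq (((m 1 0 : ℤ) : ℂ) * (rho : ℂ) + ((m 1 1 : ℤ) : ℂ)))
            ≤ 0 := div_nonpos_of_nonpos_of_nonneg (not_lt.mp hneg) (by positivity)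
        linarith
      exact_mod_cast h2
    · intro h
      have h2 : (0 : ℝ) < q m := by exact_mod_cast h
      positivity
  unfold pos
  by_cases h : 0 < q m
  · rw [if_pos h, if_pos (hiff.mpr h)]
  · rw [if_neg h, if_neg (fun h' => h (hiff.mp h'))]

/-- Column form of the side function: `h⁻¹ • z` lies in the right half plane iff
`Re ((d z - b) * conj (c z - a)) < 0` for `h = !![a, b; c, d]`; here `(a : c) = h • ∞` and
`(b : d) = h • 0` are the end points of the Farey edge `h • (0, ∞)`. -/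
theorem re_inv_smul_pos_iff (h : SL(2, ℤ)) (z : UpperHalfPlane) :
    0 < (h⁻¹ • z).re ↔
      ((((h 1 1 : ℤ) : ℂ) * (z : ℂ) - ((h 0 1 : ℤ) : ℂ)) *
        (starRingEnd ℂ) (((h 1 0 : ℤ) : ℂ) * (z : ℂ) - ((h 0 0 : ℤ) : ℂ))).re < 0 := by
  have hden : ((h 1 0 : ℤ) : ℂ) * (z : ℂ) - ((h 0 0 : ℤ) : ℂ) ≠ 0 := by
    intro h0
    have him := congrArg Complex.im h0
    have hre := congrArg Complex.re h0
    simp only [Complex.sub_im, Complex.mul_im, Complex.intCast_re, Complex.intCast_im, zero_mul,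
      add_zero, Complex.zero_im, sub_zero, Complex.sub_re, Complex.mul_re, Complex.zero_re,
      UpperHalfPlane.coe_im, UpperHalfPlane.coe_re] at him hre
    have hc : ((h 1 0 : ℤ) : ℝ) = 0 := by
      rcases mul_eq_zero.mp him with h | h
      · exact h
      · exact absurd h z.im_pos.ne'
    have ha : ((h 0 0 : ℤ) : ℝ) = 0 := by
      rw [hc] at hre
      linarith
    have hc' : h 1 0 = 0 := by exact_mod_cast hc
    have ha' : h 0 0 = 0 := by exact_mod_cast ha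
    have := det_eq h
    rw [hc', ha'] at this
    simp at this
  have hpos : 0 < Complex.normSq (((h 1 0 : ℤ) : ℂ) * (z : ℂ) - ((h 0 0 : ℤ) : ℂ)) :=
    Complex.normSq_pos.mpr hden
  have key : (h⁻¹ • z).re = -((((h 1 1 : ℤ) : ℂ) * (z : ℂ) - ((h 0 1 : ℤ) : ℂ)) *
        (starRingEnd ℂ) (((h 1 0 : ℤ) : ℂ) * (z : ℂ) - ((h 0 0 : ℤ) : ℂ))).re /
        Complex.normSq (((h 1 0 : ℤ) : ℂ) * (z : ℂ) - ((h 0 0 : ℤ) : ℂ)) := by
    rw [← UpperHalfPlane.coe_re, UpperHalfPlane.coe_specialLinearGroup_apply]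
    have e00 : (h⁻¹ : SL(2, ℤ)) 0 0 = h 1 1 := by
      simp [Matrix.SpecialLinearGroup.coe_inv, Matrix.adjugate_fin_two]
    have e01 : (h⁻¹ : SL(2, ℤ)) 0 1 = -h 0 1 := by
      simp [Matrix.SpecialLinearGroup.coe_inv, Matrix.adjugate_fin_two]
    have e10 : (h⁻¹ : SL(2, ℤ)) 1 0 = -h 1 0 := by
      simp [Matrix.SpecialLinearGroup.coe_inv, Matrix.adjugate_fin_two]
    have e11 : (h⁻¹ : SL(2, ℤ)) 1 1 = h 0 0 := by
      simp [Matrix.SpecialLinearGroup.coe_inv, Matrix.adjugate_fin_two]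
    rw [e00, e01, e10, e11]
    simp only [algebraMap_int_eq, Int.coe_castRingHom, Complex.ofReal_intCast, Int.cast_neg,
      Complex.ofReal_neg]
    have e1 : (-((h 1 0 : ℤ) : ℂ)) * (z : ℂ) + ((h 0 0 : ℤ) : ℂ) =
        -(((h 1 0 : ℤ) : ℂ) * (z : ℂ) - ((h 0 0 : ℤ) : ℂ)) := by ring
    have e2 : ((h 1 1 : ℤ) : ℂ) * (z : ℂ) + -((h 0 1 : ℤ) : ℂ) =
        ((h 1 1 : ℤ) : ℂ) * (z : ℂ) - ((h 0 1 : ℤ) : ℂ) := by ring
    rw [e1, e2, Complex.div_re, Complex.normSq_neg]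
    simp only [Complex.mul_re, Complex.conj_re, Complex.conj_im, Complex.neg_re, Complex.neg_im]
    field_simp
    ring
  rw [key]
  constructor
  · intro hx
    by_contra hneg
    have : -((((h 1 1 : ℤ) : ℂ) * (z : ℂ) - ((h 0 1 : ℤ) : ℂ)) *
        (starRingEnd ℂ) (((h 1 0 : ℤ) : ℂ) * (z : ℂ) - ((h 0 0 : ℤ) : ℂ))).re /
        Complex.normSq (((h 1 0 : ℤ) : ℂ) * (z : ℂ) - ((h 0 0 : ℤ) : ℂ)) ≤ 0 :=
      div_nonpos_of_nonpos_of_nonneg (by linarith) hpos.le
    linarith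
  · intro hx
    exact div_pos (by linarith) hpos

/-- The summand of the crossing potential in column form: `pos (h⁻¹ * g) = 1` iff `g • ρ` is on
the positive side of the Farey edge `h • (0, ∞)`. -/
theorem pos_inv_mul_eq_ite (h g : SL(2, ℤ)) :
    pos (h⁻¹ * g) = if 0 < (h⁻¹ • g • rho).re then 1 else 0 := by
  rw [pos_eq_ite_re, mul_smul]

/-- The half-system truncation of a weight. -/
noncomputable def trunc (κ : SL(2, ℤ) → ℤ) : SL(2, ℤ) → ℤ := fun h => if half h then κ h else 0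

theorem trunc_add_neg (κ : SL(2, ℤ) → ℤ) (heven : ∀ h, κ (-h) = κ h) (g : SL(2, ℤ)) :
    trunc κ g + trunc κ (-g) = κ g := by
  unfold trunc
  by_cases hg : half g
  · rw [if_pos hg, if_neg ((half_neg_iff g).not.mpr (not_not.mpr hg)), add_zero]
  · rw [if_neg hg, if_pos ((half_neg_iff g).mpr hg), zero_add, heven]

/-- The jump of the crossing potential of an even weight along `S`. -/
theorem pot_trunc_mul_S (κ : SL(2, ℤ) → ℤ) (heven : ∀ h, κ (-h) = κ h) (g : SL(2, ℤ)) :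
    pot (trunc κ) (g * S) - pot (trunc κ) g = κ g - κ (g * S) := by
  rw [pot_mul_S]
  have h1 := trunc_add_neg κ heven g
  have h2 := trunc_add_neg κ heven (g * S)
  linarith

/-- For left-`Γ`-invariant even `κ`, the crossing potential restricts to a homomorphism on `Γ`. -/
theorem pot_trunc_add (Γ : Subgroup SL(2, ℤ)) (κ : SL(2, ℤ) → ℤ) (heven : ∀ h, κ (-h) = κ h)
    (hκ : ∀ γ ∈ Γ, ∀ g, κ (γ * g) = κ g) :
    ∀ γ ∈ Γ, ∀ g, pot (trunc κ) (γ * g) = pot (trunc κ) γ + pot (trunc κ) g :=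
  potential_add Γ (pot (trunc κ)) κ (pot_one _) (pot_mul_U _) (pot_trunc_mul_S κ heven) hκ

/-- The crossing homomorphism of a left-`Γ`-invariant even weight. -/
noncomputable def crossHom (Γ : Subgroup SL(2, ℤ)) (κ : SL(2, ℤ) → ℤ) (heven : ∀ h, κ (-h) = κ h)
    (hκ : ∀ γ ∈ Γ, ∀ g, κ (γ * g) = κ g) : Additive Γ →+ ℤ where
  toFun γ := pot (trunc κ) ((Additive.toMul γ : Γ) : SL(2, ℤ))
  map_zero' := pot_one _
  map_add' γ _ := pot_trunc_add Γ κ heven hκ _ (Additive.toMul γ).2 _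

@[simp] theorem crossHom_apply (Γ : Subgroup SL(2, ℤ)) (κ : SL(2, ℤ) → ℤ)
    (heven : ∀ h, κ (-h) = κ h) (hκ : ∀ γ ∈ Γ, ∀ g, κ (γ * g) = κ g) (γ : Γ) :
    crossHom Γ κ heven hκ (Additive.ofMul γ) = pot (trunc κ) (γ : SL(2, ℤ)) := rfl

/-- The crossing homomorphism is additive in the weight. -/
theorem pot_add (κ₁ κ₂ : SL(2, ℤ) → ℤ) (g : SL(2, ℤ)) :
    pot (fun h => κ₁ h + κ₂ h) g = pot κ₁ g + pot κ₂ g := by
  unfold pot
  rw [← finsum_add_distrib (term_support_finite κ₁ g) (term_support_finite κ₂ g)]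
  congr 1
  funext h
  simp only [term]
  ring

theorem pot_smul (c : ℤ) (κ : SL(2, ℤ) → ℤ) (g : SL(2, ℤ)) :
    pot (fun h => c * κ h) g = c * pot κ g := by
  unfold pot
  rw [mul_finsum]
  congr 1
  funext h
  simp only [term]
  ring

/-- **Surjectivity of the crossing construction.**  Every homomorphism from a subgroup of
`SL(2, ℤ)` to `ℤ` is the crossing homomorphism of a left-invariant even weight. -/
theorem exists_kappa_of_hom (Γ : Subgroup SL(2, ℤ)) (χ : Additive Γ →+ ℤ) :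
    ∃ κ : SL(2, ℤ) → ℤ, (∀ γ ∈ Γ, ∀ g, κ (γ * g) = κ g) ∧ (∀ g, κ (-g) = κ g) ∧
      ∀ γ : Γ, χ (Additive.ofMul γ) = pot (trunc κ) (γ : SL(2, ℤ)) := by
  classical
  let ψ : Γ →* Multiplicative ℤ := AddMonoidHom.toMultiplicativeRight χ
  have hψ : ∀ γ : Γ, Multiplicative.toAdd (ψ γ) = χ (Additive.ofMul γ) := fun γ => rfl
  -- `χ` kills elements of finite order
  have hstab : ∀ (E : Subgroup SL(2, ℤ)), (∀ u ∈ E, u ^ 12 = 1) → ∀ (γ : Γ) (g u : SL(2, ℤ)),
      u ∈ E → (γ : SL(2, ℤ)) * g * u = g → ψ γ = 1 := by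
    intro E hE γ g u hu h
    have hγ : (γ : SL(2, ℤ)) = g * u⁻¹ * g⁻¹ := by
      rw [eq_mul_inv_iff_mul_eq, eq_mul_inv_iff_mul_eq]
      exact h
    have h12 : γ ^ 12 = 1 := by
      apply Subtype.ext
      rw [Subgroup.coe_pow, hγ, conj_pow, inv_pow, hE u hu]
      simp
    have h0 : (12 : ℤ) * χ (Additive.ofMul γ) = 0 := by
      have := congrArg (fun x => χ (Additive.ofMul x)) h12
      simp only [ofMul_pow, map_nsmul, ofMul_one, map_zero] at this
      simpa using this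
    have h1 : χ (Additive.ofMul γ) = 0 := by omega
    apply Multiplicative.toAdd.injective
    rw [hψ, h1]
    rfl
  obtain ⟨βU, hβU, -⟩ := exists_equivariant Γ (Subgroup.zpowers U) ψ
    (hstab _ (pow_twelve_of_mem_zpowers U (by decide)))
  obtain ⟨βS, hβS, -⟩ := exists_equivariant Γ (Subgroup.zpowers S) ψ
    (hstab _ (pow_twelve_of_mem_zpowers S (by decide)))
  set bU : SL(2, ℤ) → ℤ := fun g => Multiplicative.toAdd (βU g) with hbU
  set bS : SL(2, ℤ) → ℤ := fun g => Multiplicative.toAdd (βS g) with hbS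
  have hbU_eq : ∀ (γ : Γ) (g u : SL(2, ℤ)), u ∈ Subgroup.zpowers U →
      bU ((γ : SL(2, ℤ)) * g * u) = χ (Additive.ofMul γ) + bU g := by
    intro γ g u hu
    simp only [hbU]
    rw [hβU γ g u hu, toAdd_mul, hψ]
  have hbS_eq : ∀ (γ : Γ) (g u : SL(2, ℤ)), u ∈ Subgroup.zpowers S →
      bS ((γ : SL(2, ℤ)) * g * u) = χ (Additive.ofMul γ) + bS g := by
    intro γ g u hu
    simp only [hbS]
    rw [hβS γ g u hu, toAdd_mul, hψ]
  have hbU_right : ∀ (g u : SL(2, ℤ)), u ∈ Subgroup.zpowers U → bU (g * u) = bU g := by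
    intro g u hu
    have := hbU_eq 1 g u hu
    simpa using this
  have hbS_right : ∀ (g u : SL(2, ℤ)), u ∈ Subgroup.zpowers S → bS (g * u) = bS g := by
    intro g u hu
    have := hbS_eq 1 g u hu
    simpa using this
  have hbU_left : ∀ (γ : Γ) (g : SL(2, ℤ)), bU ((γ : SL(2, ℤ)) * g) = χ (Additive.ofMul γ) + bU g := by
    intro γ g
    have := hbU_eq γ g 1 (Subgroup.one_mem _)
    rwa [mul_one] at this
  have hbS_left : ∀ (γ : Γ) (g : SL(2, ℤ)), bS ((γ : SL(2, ℤ)) * g) = χ (Additive.ofMul γ) + bS g := by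
    intro γ g
    have := hbS_eq γ g 1 (Subgroup.one_mem _)
    rwa [mul_one] at this
  have hU3 : (U : SL(2, ℤ)) ^ 3 = -1 := by decide
  have hS2 : (S : SL(2, ℤ)) ^ 2 = -1 := by decide
  have hbU_neg : ∀ g, bU (-g) = bU g := by
    intro g
    have := hbU_right g (U ^ 3) (Subgroup.pow_mem _ (Subgroup.mem_zpowers U) 3)
    rwa [hU3, mul_neg, mul_one] at this
  have hbS_neg : ∀ g, bS (-g) = bS g := by
    intro g
    have := hbS_right g (S ^ 2) (Subgroup.pow_mem _ (Subgroup.mem_zpowers S) 2)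
    rwa [hS2, mul_neg, mul_one] at this
  set κ : SL(2, ℤ) → ℤ := fun g => bS g - bU g with hκdef
  have hκ_left : ∀ γ ∈ Γ, ∀ g, κ (γ * g) = κ g := by
    intro γ hγ g
    simp only [hκdef]
    rw [hbS_left ⟨γ, hγ⟩ g, hbU_left ⟨γ, hγ⟩ g]
    ring
  have hκ_even : ∀ g, κ (-g) = κ g := by
    intro g
    simp only [hκdef]
    rw [hbS_neg, hbU_neg]
  refine ⟨κ, hκ_left, hκ_even, fun γ => ?_⟩
  have hconst := const_of_right_invariant ({S, U} : Set SL(2, ℤ)) closure_S_U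
    (fun g => pot (trunc κ) g - bU g) (by
      intro x hx g
      rcases hx with rfl | rfl
      · show pot (trunc κ) (g * S) - bU (g * S) = pot (trunc κ) g - bU g
        have e1 := pot_trunc_mul_S κ hκ_even g
        have e2 : bS (g * S) = bS g := hbS_right g S (Subgroup.mem_zpowers S)
        simp only [hκdef] at e1
        linarith
      · show pot (trunc κ) (g * U) - bU (g * U) = pot (trunc κ) g - bU g
        rw [pot_mul_U, hbU_right g U (Subgroup.mem_zpowers U)])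
  have h1 := hconst (γ : SL(2, ℤ))
  simp only [pot_one, zero_sub] at h1
  have h2 := hbU_left γ 1
  rw [mul_one] at h2
  linarith

/-- Every homomorphism `Γ → ℤ` is a crossing homomorphism. -/
theorem exists_crossHom_eq (Γ : Subgroup SL(2, ℤ)) (χ : Additive Γ →+ ℤ) :
    ∃ (κ : SL(2, ℤ) → ℤ) (heven : ∀ h, κ (-h) = κ h) (hκ : ∀ γ ∈ Γ, ∀ g, κ (γ * g) = κ g),
      χ = crossHom Γ κ heven hκ := by
  obtain ⟨κ, hκ, heven, h⟩ := exists_kappa_of_hom Γ χ
  refine ⟨κ, heven, hκ, ?_⟩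
  ext γ
  exact h (Additive.toMul γ)

/-! ### Grouping by `Γ`-orbits of Farey edges -/

/-- `Γ ∪ -Γ`, the subgroup generated by `Γ` and `-1`. -/
def pm (Γ : Subgroup SL(2, ℤ)) : Subgroup SL(2, ℤ) where
  carrier := {x | x ∈ Γ ∨ -x ∈ Γ}
  mul_mem' := by
    rintro a b (ha | ha) (hb | hb)
    · exact Or.inl (Γ.mul_mem ha hb)
    · right
      have := Γ.mul_mem ha hb
      rwa [mul_neg] at this
    · right
      have := Γ.mul_mem ha hb
      rwa [neg_mul] at this
    · left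
      have := Γ.mul_mem ha hb
      rwa [neg_mul_neg] at this
  one_mem' := Or.inl Γ.one_mem
  inv_mem' := by
    rintro a (ha | ha)
    · exact Or.inl (Γ.inv_mem ha)
    · right
      have := Γ.inv_mem ha
      rwa [inv_neg] at this

theorem mem_pm (Γ : Subgroup SL(2, ℤ)) (x : SL(2, ℤ)) : x ∈ pm Γ ↔ x ∈ Γ ∨ -x ∈ Γ := Iff.rfl

theorem le_pm (Γ : Subgroup SL(2, ℤ)) : Γ ≤ pm Γ := fun _ hx => Or.inl hx

/-- `h'` lies in the orbit `Γ · h · {±1}`. -/
def SameEdgeOrbit (Γ : Subgroup SL(2, ℤ)) (h h' : SL(2, ℤ)) : Prop :=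
  ∃ d ∈ Γ, h' = d * h ∨ h' = -(d * h)

theorem sameEdgeOrbit_iff (Γ : Subgroup SL(2, ℤ)) (h h' : SL(2, ℤ)) :
    SameEdgeOrbit Γ h h' ↔ h' * h⁻¹ ∈ pm Γ := by
  constructor
  · rintro ⟨d, hd, rfl | rfl⟩
    · left
      simpa using hd
    · right
      simpa using hd
  · rintro (hx | hx)
    · exact ⟨h' * h⁻¹, hx, Or.inl (by simp)⟩
    · exact ⟨-(h' * h⁻¹), hx, Or.inr (by simp)⟩

/-- The half-system representatives of the orbit `Γ · h · {±1}`: they correspond bijectively to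
the `Γ`-translates of the oriented Farey edge `h • (0, ∞)`. -/
def orb (Γ : Subgroup SL(2, ℤ)) (h : SL(2, ℤ)) : Set SL(2, ℤ) :=
  {h' | half h' ∧ ∃ d ∈ Γ, h' = d * h ∨ h' = -(d * h)}

/-- The crossing count of the `Γ`-orbit of the Farey edge `h • (0, ∞)` between `ρ` and `g • ρ`:
`∑_{d ∈ Γ/±1} ([0 < Re ((d h)⁻¹ g ρ)] - [0 < Re ((d h)⁻¹ ρ)])`. -/
noncomputable def edgeCount (Γ : Subgroup SL(2, ℤ)) (h g : SL(2, ℤ)) : ℤ :=
  ∑ᶠ h' ∈ orb Γ h, (pos (h'⁻¹ * g) - pos h'⁻¹)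

theorem crossing_support_finite (g : SL(2, ℤ)) :
    (Function.support fun h : SL(2, ℤ) => pos (h⁻¹ * g) - pos h⁻¹).Finite := by
  have h := term_support_finite (fun _ => 1) g
  have e : term (fun _ => 1) g = fun h : SL(2, ℤ) => pos (h⁻¹ * g) - pos h⁻¹ := by
    funext h
    simp only [term, mul_one]
  rwa [e] at h

/-- Grouping the crossing potential of a `Γ`-invariant even weight by `Γ`-orbits of edges. -/
theorem pot_trunc_eq_sum_edgeCount (Γ : Subgroup SL(2, ℤ)) [Γ.FiniteIndex] (κ : SL(2, ℤ) → ℤ)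
    (heven : ∀ h, κ (-h) = κ h) (hκ : ∀ γ ∈ Γ, ∀ g, κ (γ * g) = κ g) :
    ∃ (ι : Type) (_ : Fintype ι) (r : ι → SL(2, ℤ)), Function.Injective r ∧
      ∀ g, pot (trunc κ) g = ∑ i, κ (r i) * edgeCount Γ (r i) g := by
  classical
  have : (pm Γ).FiniteIndex := Subgroup.finiteIndex_of_le (le_pm Γ)
  have : Finite (SL(2, ℤ) ⧸ pm Γ) := Subgroup.finite_quotient_of_finiteIndex
  let _ : Fintype (SL(2, ℤ) ⧸ pm Γ) := Fintype.ofFinite _
  let F : SL(2, ℤ) → SL(2, ℤ) ⧸ pm Γ := fun h => ((h⁻¹ : SL(2, ℤ)) : SL(2, ℤ) ⧸ pm Γ)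
  have hF : ∀ h h', F h = F h' ↔ SameEdgeOrbit Γ h h' := by
    intro h h'
    rw [sameEdgeOrbit_iff]
    simp only [F]
    rw [QuotientGroup.eq, inv_inv]
    constructor
    · intro hx
      have := (pm Γ).inv_mem hx
      simpa using this
    · intro hx
      have := (pm Γ).inv_mem hx
      simpa using this
  let r : SL(2, ℤ) ⧸ pm Γ → SL(2, ℤ) := fun c => (Quotient.out c)⁻¹
  have hFr : ∀ c, F (r c) = c := by
    intro c
    simp only [F, r, inv_inv]
    exact Quotient.out_eq c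
  have hκ_orb : ∀ h h', SameEdgeOrbit Γ h h' → κ h' = κ h := by
    rintro h h' ⟨d, hd, rfl | rfl⟩
    · exact hκ d hd h
    · rw [heven, hκ d hd h]
  refine ⟨SL(2, ℤ) ⧸ pm Γ, inferInstance, r, fun c c' hcc => ?_, fun g => ?_⟩
  · rw [← hFr c, ← hFr c', hcc]
  set f : SL(2, ℤ) → ℤ := fun h => pos (h⁻¹ * g) - pos h⁻¹ with hf
  set s : Finset SL(2, ℤ) := (crossing_support_finite g).toFinset with hs
  have hsupp : Function.support f ⊆ ↑s := by
    intro h hh
    simpa [hs] using hh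
  have h1 : pot (trunc κ) g = ∑ h ∈ s, term (trunc κ) g h := by
    unfold pot
    apply finsum_eq_sum_of_support_subset
    intro h hh
    apply hsupp
    rw [Function.mem_support] at hh ⊢
    intro h0
    apply hh
    simp only [term]
    rw [show pos (h⁻¹ * g) - pos h⁻¹ = 0 from h0, zero_mul]
  have h2 : ∀ c, edgeCount Γ (r c) g = ∑ h ∈ s, (orb Γ (r c)).indicator f h := by
    intro c
    unfold edgeCount
    rw [finsum_mem_def]
    apply finsum_eq_sum_of_support_subset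
    intro h hh
    apply hsupp
    rw [Function.mem_support] at hh ⊢
    intro h0
    apply hh
    exact Set.indicator_apply_eq_zero.mpr (fun _ => h0)
  rw [h1]
  simp only [h2, Finset.mul_sum]
  rw [Finset.sum_comm]
  apply Finset.sum_congr rfl
  intro h _
  rw [Finset.sum_eq_single (F h)]
  · have hor : SameEdgeOrbit Γ (r (F h)) h := (hF _ _).mp (hFr (F h))
    have hk : κ h = κ (r (F h)) := hκ_orb _ _ hor
    simp only [term, trunc, Set.indicator_apply, orb, Set.mem_ofPred_eq]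
    by_cases hh : half h
    · rw [if_pos hh, if_pos ⟨hh, hor⟩, hk]
      ring
    · rw [if_neg hh, if_neg (fun hx => hh hx.1)]
      ring
  · intro c _ hc
    have : h ∉ orb Γ (r c) := by
      rintro ⟨-, hx⟩
      apply hc
      have := (hF (r c) h).mpr hx
      rw [hFr] at this
      exact this
    rw [Set.indicator_of_notMem this, mul_zero]
  · intro hx
    exact absurd (Finset.mem_univ _) hx

/-- **Surjectivity, grouped form (indexed family).**  Every homomorphism `Γ → ℤ` of a finite-index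
subgroup is a finite integral combination of edge-orbit crossing counts. -/
theorem exists_family_edgeCount (Γ : Subgroup SL(2, ℤ)) [Γ.FiniteIndex] (χ : Additive Γ →+ ℤ) :
    ∃ (ι : Type) (_ : Fintype ι) (r : ι → SL(2, ℤ)) (n : ι → ℤ), Function.Injective r ∧
      ∀ γ : Γ, χ (Additive.ofMul γ) = ∑ i, n i * edgeCount Γ (r i) (γ : SL(2, ℤ)) := by
  obtain ⟨κ, hκ, heven, h⟩ := exists_kappa_of_hom Γ χ
  obtain ⟨ι, hι, r, hr, hsum⟩ := pot_trunc_eq_sum_edgeCount Γ κ heven hκ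
  exact ⟨ι, hι, r, fun i => κ (r i), hr, fun γ => by rw [h γ, hsum]⟩

/-- **Surjectivity, grouped form (finitely supported weights).** -/
theorem exists_finsupp_edgeCount (Γ : Subgroup SL(2, ℤ)) [Γ.FiniteIndex] (χ : Additive Γ →+ ℤ) :
    ∃ c : SL(2, ℤ) →₀ ℤ, ∀ γ : Γ,
      χ (Additive.ofMul γ) = c.sum fun h n => n * edgeCount Γ h (γ : SL(2, ℤ)) := by
  classical
  obtain ⟨ι, hι, r, n, -, h⟩ := exists_family_edgeCount Γ χ
  refine ⟨∑ i, Finsupp.single (r i) (n i), fun γ => ?_⟩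
  rw [h γ, ← Finsupp.sum_finsetSum_index (fun a => by simp) (fun a b₁ b₂ => by ring)]
  apply Finset.sum_congr rfl
  intro i _
  rw [Finsupp.sum_single_index (by simp)]

/-! ### Adapter: Farey edges as pairs of cusps in `OnePoint ℚ` -/

theorem mapGL_rat_apply (h : SL(2, ℤ)) (i j : Fin 2) :
    (mapGL ℚ h : GL (Fin 2) ℚ) i j = ((h i j : ℤ) : ℚ) := by
  simp [mapGL_coe_matrix]

theorem mapGL_smul_infty (h : SL(2, ℤ)) :
    mapGL ℚ h • (∞ : OnePoint ℚ) =
      if h 1 0 = 0 then ∞ else (((h 0 0 : ℤ) : ℚ) / ((h 1 0 : ℤ) : ℚ) : ℚ) := by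
  rw [smul_infty_eq_ite, mapGL_rat_apply, mapGL_rat_apply]
  simp

theorem mapGL_smul_zero (h : SL(2, ℤ)) :
    mapGL ℚ h • (((0 : ℚ) : OnePoint ℚ)) =
      if h 1 1 = 0 then ∞ else (((h 0 1 : ℤ) : ℚ) / ((h 1 1 : ℤ) : ℚ) : ℚ) := by
  rw [smul_some_eq_ite, mapGL_rat_apply, mapGL_rat_apply, mapGL_rat_apply, mapGL_rat_apply]
  simp

/-- An element of `SL(2, ℤ)` fixing both cusps `0` and `∞` is `± 1`. -/
theorem eq_one_or_neg_one_of_fix (g : SL(2, ℤ))
    (h0 : mapGL ℚ g • (((0 : ℚ) : OnePoint ℚ)) = ((0 : ℚ) : OnePoint ℚ))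
    (hinf : mapGL ℚ g • (∞ : OnePoint ℚ) = ∞) : g = 1 ∨ g = -1 := by
  have hc : g 1 0 = 0 := by
    rw [mapGL_smul_infty] at hinf
    by_contra hne
    rw [if_neg hne] at hinf
    exact OnePoint.coe_ne_infty _ hinf
  have hdet := det_eq g
  rw [hc, mul_zero, sub_zero] at hdet
  have hd : g 1 1 ≠ 0 := by
    intro h
    rw [h, mul_zero] at hdet
    exact zero_ne_one hdet
  have hb : g 0 1 = 0 := by
    rw [mapGL_smul_zero, if_neg hd] at h0
    have h1 : (((g 0 1 : ℤ) : ℚ) / ((g 1 1 : ℤ) : ℚ) : ℚ) = 0 := OnePoint.coe_injective h0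
    have hd' : ((g 1 1 : ℤ) : ℚ) ≠ 0 := by exact_mod_cast hd
    have h2 : ((g 0 1 : ℤ) : ℚ) = 0 := by
      rcases div_eq_zero_iff.mp h1 with h | h
      · exact h
      · exact absurd h hd'
    exact_mod_cast h2
  rcases Int.isUnit_iff.mp (IsUnit.of_mul_eq_one _ hdet) with ha | ha
  · left
    have hd1 : g 1 1 = 1 := by rw [ha, one_mul] at hdet; exact hdet
    ext i j
    fin_cases i <;> fin_cases j <;> simp [ha, hb, hc, hd1]
  · right
    have hd1 : g 1 1 = -1 := by rw [ha] at hdet; linarith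
    ext i j
    fin_cases i <;> fin_cases j <;> simp [ha, hb, hc, hd1]

/-- The oriented Farey edge `h • (0, ∞)` as a pair of cusps. -/
noncomputable def edge (h : SL(2, ℤ)) : OnePoint ℚ × OnePoint ℚ :=
  (mapGL ℚ h • (((0 : ℚ) : OnePoint ℚ)), mapGL ℚ h • (∞ : OnePoint ℚ))

theorem mapGL_neg_one_smul (x : OnePoint ℚ) : mapGL ℚ (-1 : SL(2, ℤ)) • x = x := by
  cases x with
  | infty => rw [mapGL_smul_infty]; simp
  | coe k =>
    rw [smul_some_eq_ite, mapGL_rat_apply, mapGL_rat_apply, mapGL_rat_apply, mapGL_rat_apply]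
    simp

theorem mapGL_neg_smul (h : SL(2, ℤ)) (x : OnePoint ℚ) : mapGL ℚ (-h) • x = mapGL ℚ h • x := by
  have : -h = h * (-1) := by simp
  rw [this, map_mul, mul_smul, mapGL_neg_one_smul]

theorem edge_neg (h : SL(2, ℤ)) : edge (-h) = edge h := by
  simp only [edge, mapGL_neg_smul]

theorem edge_mul (d h : SL(2, ℤ)) :
    edge (d * h) = (mapGL ℚ d • (edge h).1, mapGL ℚ d • (edge h).2) := by
  simp only [edge, map_mul, mul_smul]

theorem edge_eq_edge_iff (h h' : SL(2, ℤ)) : edge h' = edge h ↔ h' = h ∨ h' = -h := by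
  constructor
  · intro he
    have h1 := congrArg Prod.fst he
    have h2 := congrArg Prod.snd he
    simp only [edge] at h1 h2
    have e0 : mapGL ℚ (h⁻¹ * h') • (((0 : ℚ) : OnePoint ℚ)) = ((0 : ℚ) : OnePoint ℚ) := by
      rw [map_mul, mul_smul, h1, ← mul_smul, ← map_mul, inv_mul_cancel, map_one, one_smul]
    have einf : mapGL ℚ (h⁻¹ * h') • (∞ : OnePoint ℚ) = ∞ := by
      rw [map_mul, mul_smul, h2, ← mul_smul, ← map_mul, inv_mul_cancel, map_one, one_smul]
    rcases eq_one_or_neg_one_of_fix _ e0 einf with hg | hg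
    · left
      have := congrArg (fun x => h * x) hg
      simpa using this
    · right
      have := congrArg (fun x => h * x) hg
      simpa using this
  · rintro (rfl | rfl)
    · rfl
    · exact edge_neg h

/-- The `Γ`-orbit of the oriented Farey edge `h • (0, ∞)` (as a set of pairs of cusps). -/
def edgeOrbit (Γ : Subgroup SL(2, ℤ)) (h : SL(2, ℤ)) : Set (OnePoint ℚ × OnePoint ℚ) :=
  {e | ∃ d ∈ Γ, e = (mapGL ℚ d • (edge h).1, mapGL ℚ d • (edge h).2)}

/-- `h' ↦ (h' • 0, h' • ∞)` is a bijection from the half-system representatives `orb Γ h` onto the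
`Γ`-orbit of the oriented edge `h • (0, ∞)`. -/
theorem bijOn_edge (Γ : Subgroup SL(2, ℤ)) (h : SL(2, ℤ)) :
    Set.BijOn edge (orb Γ h) (edgeOrbit Γ h) := by
  refine ⟨?_, ?_, ?_⟩
  · rintro h' ⟨-, d, hd, rfl | rfl⟩
    · exact ⟨d, hd, edge_mul d h⟩
    · exact ⟨d, hd, by rw [edge_neg, edge_mul]⟩
  · rintro h₁ ⟨hh₁, -⟩ h₂ ⟨hh₂, -⟩ he
    rcases (edge_eq_edge_iff h₂ h₁).mp he with rfl | rfl
    · rfl
    · exact absurd hh₂ ((half_neg_iff h₂).mp hh₁)
  · rintro e ⟨d, hd, rfl⟩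
    by_cases hh : half (d * h)
    · exact ⟨d * h, ⟨hh, d, hd, Or.inl rfl⟩, edge_mul d h⟩
    · exact ⟨-(d * h), ⟨(half_neg_iff _).mpr hh, d, hd, Or.inr rfl⟩, by rw [edge_neg, edge_mul]⟩

/-- **Adapter.**  The crossing count `edgeCount Γ h g` as a sum over the `Γ`-orbit of the pair of
cusps `(h • 0, h • ∞)`, for any function `F` on pairs of cusps that restricts to the crossing
indicator on Farey edges. -/
theorem edgeCount_eq_finsum_edgeOrbit (Γ : Subgroup SL(2, ℤ)) (h g : SL(2, ℤ))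
    (F : OnePoint ℚ × OnePoint ℚ → ℤ)
    (hF : ∀ h' : SL(2, ℤ), F (edge h') = pos (h'⁻¹ * g) - pos h'⁻¹) :
    edgeCount Γ h g = ∑ᶠ e ∈ edgeOrbit Γ h, F e := by
  unfold edgeCount
  exact finsum_mem_eq_of_bijOn edge (bijOn_edge Γ h) (fun h' _ => (hF h').symm)

/-- Real polynomial form of the side function: `h⁻¹ • z` is in the right half plane iff
`det[u, v] * ((u₁ x - u₀) (v₁ x - v₀) + u₁ v₁ y²) > 0` for `u = (h 0 1, h 1 1)` (a vector of the
cusp `h • 0`), `v = (h 0 0, h 1 0)` (a vector of `h • ∞`), `z = x + i y`. -/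
theorem re_inv_smul_pos_iff_real (h : SL(2, ℤ)) (z : UpperHalfPlane) :
    0 < (h⁻¹ • z).re ↔
      0 < (((h 0 1 * h 1 0 - h 1 1 * h 0 0 : ℤ) : ℝ)) *
        ((((h 1 1 : ℤ) : ℝ) * z.re - ((h 0 1 : ℤ) : ℝ)) *
            (((h 1 0 : ℤ) : ℝ) * z.re - ((h 0 0 : ℤ) : ℝ)) +
          ((h 1 1 : ℤ) : ℝ) * ((h 1 0 : ℤ) : ℝ) * z.im ^ 2) := by
  rw [re_inv_smul_pos_iff]
  have hdet : ((h 0 1 * h 1 0 - h 1 1 * h 0 0 : ℤ) : ℝ) = -1 := by
    have := det_eq h
    have h2 : h 0 1 * h 1 0 - h 1 1 * h 0 0 = -1 := by linarith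
    rw [h2]
    norm_num
  rw [hdet]
  have hre : ((((h 1 1 : ℤ) : ℂ) * (z : ℂ) - ((h 0 1 : ℤ) : ℂ)) *
        (starRingEnd ℂ) (((h 1 0 : ℤ) : ℂ) * (z : ℂ) - ((h 0 0 : ℤ) : ℂ))).re =
      (((h 1 1 : ℤ) : ℝ) * z.re - ((h 0 1 : ℤ) : ℝ)) *
            (((h 1 0 : ℤ) : ℝ) * z.re - ((h 0 0 : ℤ) : ℝ)) +
          ((h 1 1 : ℤ) : ℝ) * ((h 1 0 : ℤ) : ℝ) * z.im ^ 2 := by
    simp only [Complex.mul_re, Complex.sub_re, Complex.sub_im, Complex.mul_im, Complex.intCast_re,
      Complex.intCast_im, Complex.conj_re, Complex.conj_im, UpperHalfPlane.coe_re,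
      UpperHalfPlane.coe_im, zero_mul, sub_zero, add_zero]
    ring
  rw [hre]
  constructor <;> intro hx <;> linarith

/-- The summand of `edgeCount` in real polynomial form at the base point `ρ`. -/
theorem pos_inv_mul_eq_ite_real (h g : SL(2, ℤ)) :
    pos (h⁻¹ * g) =
      if 0 < (((h 0 1 * h 1 0 - h 1 1 * h 0 0 : ℤ) : ℝ)) *
        ((((h 1 1 : ℤ) : ℝ) * (g • rho).re - ((h 0 1 : ℤ) : ℝ)) *
            (((h 1 0 : ℤ) : ℝ) * (g • rho).re - ((h 0 0 : ℤ) : ℝ)) +
          ((h 1 1 : ℤ) : ℝ) * ((h 1 0 : ℤ) : ℝ) * (g • rho).im ^ 2) then 1 else 0 := by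
  rw [pos_inv_mul_eq_ite]
  simp only [re_inv_smul_pos_iff_real]

/-- **Surjectivity, orbit-sum form.**  For a finite-index `Γ`, every `χ : Γ → ℤ` is a finite
integral combination of the crossing sums over `Γ`-orbits of Farey edges, for any family `F g` of
functions on pairs of cusps restricting to the crossing indicators
`pos (h'⁻¹ * g) - pos h'⁻¹ = [g • ρ right of h' • (0, ∞)] - [ρ right of h' • (0, ∞)]`. -/
theorem exists_family_edgeOrbit (Γ : Subgroup SL(2, ℤ)) [Γ.FiniteIndex] (χ : Additive Γ →+ ℤ)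
    (F : SL(2, ℤ) → OnePoint ℚ × OnePoint ℚ → ℤ)
    (hF : ∀ g h' : SL(2, ℤ), F g (edge h') = pos (h'⁻¹ * g) - pos h'⁻¹) :
    ∃ (ι : Type) (_ : Fintype ι) (r : ι → SL(2, ℤ)) (n : ι → ℤ), Function.Injective r ∧
      ∀ γ : Γ, χ (Additive.ofMul γ) =
        ∑ i, n i * ∑ᶠ e ∈ edgeOrbit Γ (r i), F (γ : SL(2, ℤ)) e := by
  obtain ⟨ι, hι, r, n, hr, h⟩ := exists_family_edgeCount Γ χ
  refine ⟨ι, hι, r, n, hr, fun γ => ?_⟩
  rw [h γ]
  refine Finset.sum_congr rfl fun i _ => ?_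
  rw [edgeCount_eq_finsum_edgeOrbit Γ (r i) (γ : SL(2, ℤ)) (F γ) (hF γ)]

end Fermat.Agent.S41.helper1144
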