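import Fermat.Agent.S41.helper6553_Crossing
import Fermat.Agent.S41.helper1144_PotentialSurj

/-!
# S41, module B, sub-lemma D7: the crossing map on Farey edges and its span

* `R_edge` : the side indicator of the Farey edge `h • (0, ∞)` at `z` is `[0 < Re (h⁻¹ • z)]`.
* `Theta_edgeCount` : `Theta Γ (h • 0) (h • ∞)` is the edge-orbit crossing count
  `helper1144.edgeCount Γ h`.
* `Theta_span` : for `Γ` of finite index the crossing homomorphisms `Theta Γ a b` generate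
  `Hom(Γ, ℤ)`.
-/

set_option autoImplicit false

namespace Fermat.Agent.S41.helper9161

open scoped MatrixGroups
open Matrix.SpecialLinearGroup (mapGL)
open OnePoint UpperHalfPlane
open Fermat.Agent.S41.helper6553

/-- The side indicator of the edge `0 → ∞` is the indicator of the right half plane. -/
theorem R_zero_infty (w : ℍ) :
    R ((0 : ℚ) : OnePoint ℚ) (∞ : OnePoint ℚ) w = if 0 < w.re then 1 else 0 := by
  have hside : side ((0 : ℚ) : OnePoint ℚ) (∞ : OnePoint ℚ) (w : ℂ) = w.re := by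
    simp [side, sideR, castV]
  unfold R
  rw [hside]

/-- The side indicator of the Farey edge `h • (0, ∞)`. -/
theorem R_edge (h : SL(2, ℤ)) (z : ℍ) :
    R (mapGL ℚ h • ((0 : ℚ) : OnePoint ℚ)) (mapGL ℚ h • (∞ : OnePoint ℚ)) z =
      if 0 < (h⁻¹ • z).re then 1 else 0 := by
  have h1 := R_smul (mapGL ℚ h) (det_mapGL_pos h) ((0 : ℚ) : OnePoint ℚ) (∞ : OnePoint ℚ)
    (h⁻¹ • z)
  rw [toR_mapGL_smul, smul_inv_smul] at h1
  rw [h1, R_zero_infty]

/-- The orbit of the pair of cusps of a Farey edge is the edge orbit of `helper1144`. -/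
theorem orbS_edge (Γ : Subgroup SL(2, ℤ)) (h : SL(2, ℤ)) :
    orbS Γ (Fermat.Agent.S41.helper1144.edge h) = Fermat.Agent.S41.helper1144.edgeOrbit Γ h :=
  rfl

/-- **D7, first half.**  On a Farey edge the crossing map is the edge-orbit crossing count. -/
theorem Theta_edgeCount (Γ : Subgroup SL(2, ℤ)) (h : SL(2, ℤ)) (γ : Γ) :
    Theta Γ (mapGL ℚ h • ((0 : ℚ) : OnePoint ℚ)) (mapGL ℚ h • (∞ : OnePoint ℚ))
        (Additive.ofMul γ) =
      Fermat.Agent.S41.helper1144.edgeCount Γ h (γ : SL(2, ℤ)) := by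
  rw [Theta_apply_base Γ _ _ γ Fermat.Agent.S41.helper1144.rho]
  rw [Fermat.Agent.S41.helper1144.edgeCount_eq_finsum_edgeOrbit Γ h (γ : SL(2, ℤ))
    (fun e => R e.1 e.2 ((γ : SL(2, ℤ)) • Fermat.Agent.S41.helper1144.rho) -
      R e.1 e.2 Fermat.Agent.S41.helper1144.rho) ?_]
  · rfl
  · intro h'
    show R (mapGL ℚ h' • ((0 : ℚ) : OnePoint ℚ)) (mapGL ℚ h' • (∞ : OnePoint ℚ)) _ -
      R (mapGL ℚ h' • ((0 : ℚ) : OnePoint ℚ)) (mapGL ℚ h' • (∞ : OnePoint ℚ)) _ = _
    rw [R_edge, R_edge, Fermat.Agent.S41.helper1144.pos_inv_mul_eq_ite,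
      Fermat.Agent.S41.helper1144.pos_eq_ite_re]

/-- **D7, second half.**  For a subgroup of finite index, the crossing homomorphisms
`Theta Γ a b` generate `Hom(Γ, ℤ)`. -/
theorem Theta_span (Γ : Subgroup SL(2, ℤ)) [Γ.FiniteIndex] :
    AddSubgroup.closure (Set.range fun ab : OnePoint ℚ × OnePoint ℚ => Theta Γ ab.1 ab.2) = ⊤ := by
  rw [eq_top_iff]
  intro χ _
  obtain ⟨ι, hι, r, n, -, hχ⟩ := Fermat.Agent.S41.helper1144.exists_family_edgeCount Γ χ
  have hsum : χ = ∑ i, n i • Theta Γ (mapGL ℚ (r i) • ((0 : ℚ) : OnePoint ℚ))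
      (mapGL ℚ (r i) • (∞ : OnePoint ℚ)) := by
    refine AddMonoidHom.ext fun γ => ?_
    obtain ⟨γ, rfl⟩ := Additive.ofMul.surjective γ
    rw [hχ γ, AddMonoidHom.finsetSum_apply]
    refine Finset.sum_congr rfl fun i _ => ?_
    rw [AddMonoidHom.smul_apply, Theta_edgeCount, smul_eq_mul]
  rw [hsum]
  refine AddSubgroup.sum_mem _ fun i _ => AddSubgroup.zsmul_mem _ (AddSubgroup.subset_closure ?_) _
  exact ⟨(mapGL ℚ (r i) • ((0 : ℚ) : OnePoint ℚ), mapGL ℚ (r i) • (∞ : OnePoint ℚ)), rfl⟩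

end Fermat.Agent.S41.helper9161
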