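/-
S41 (level raising) — captain's assembly of leaf L4 (helper123).

`stmt_Ihara_of_theta` : the Ihara package `Stmt_Ihara` from the two remaining facts about the
crossing map `Θ = helper6553.Theta`: the three-term relation (Θ1) and the degeneracy
compatibility (Θ-deg).  Everything else is landed and wired here:
cusp-move (helper8689), the pair-function CSP (helper1763 on top of `stmt_CSP`), module A
(helper2138), (Θ2) (helper6553), (Θ3) (helper9161), (Θ-Hecke) (helper3777), the boundary
(helper1763) and the two abstract Ihara halves (helper7223).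
-/
import Mathlib
import Fermat.Agent.S41.helper123_Wire
import Fermat.Agent.S41.helper7223_IharaHalves
import Fermat.Agent.S41.helper1763_CspPair
import Fermat.Agent.S41.helper9161_ThetaSpan
import Fermat.Agent.S41.helper3777_ThetaHeckeFinal

set_option autoImplicit false

open CongruenceSubgroup Matrix.SpecialLinearGroup OnePoint
open scoped MatrixGroups
open Fermat.Agent.S16.helper2138 (heckeHomT heckeHomU)

namespace Fermat.Agent.S41.helper123

open Fermat.Agent.S41.helper2138 (res resc cores coresc)
open Fermat.Agent.S41.helper8689 (repTQ diagQ)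

/-- The crossing map at level `M` (module B, helper6553). -/
noncomputable def ThetaAt (M : ℕ) (a b : OnePoint ℚ) : Lam M :=
  Fermat.Agent.S41.helper6553.Theta (Gamma0 M) a b

/-- (Θ1): the three-term relation for the crossing map at every positive level. -/
def Stmt_Theta1 : Prop :=
  ∀ M : ℕ, 0 < M → ∀ a b c : OnePoint ℚ, ThetaAt M a b + ThetaAt M b c = ThetaAt M a c

/-- (Θ-deg): compatibility of the crossing map with the two corestrictions. -/
def Stmt_ThetaDeg : Prop :=
  ∀ (N q : ℕ) [Fact q.Prime] (hqN : ¬ q ∣ N), 0 < N → ∀ a b : OnePoint ℚ,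
    cores N q hqN ℤ (ThetaAt (N * q) a b) = ThetaAt N a b ∧
    coresc N q hqN ℤ (ThetaAt (N * q) a b) = ThetaAt N (diagQ q • a) (diagQ q • b)

/-- Leaf L4 from (Θ1) and (Θ-deg). -/
theorem stmt_Ihara_of_theta (h1 : Stmt_Theta1) (hd : Stmt_ThetaDeg) : Stmt_Ihara := by
  refine Fermat.Agent.S41.helper7223.stmt_Ihara_of_inputs
    (fun M l _ _ hl => Fermat.Agent.S41.helper8689.cusp_move M l hl)
    (fun N q p _ hN hqN hp hp2 hqp =>
      Fermat.Agent.S41.helper1763.csp_pair stmt_CSP N q p hN hqN hp hp2 hqp)
    (fun N q _ hqN _ =>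
      { r_T := Fermat.Agent.S41.helper2138.ihara_r_T N q hqN
        r_U := Fermat.Agent.S41.helper2138.ihara_r_U N q hqN
        k_T := Fermat.Agent.S41.helper2138.ihara_k_T N q hqN
        k_U := Fermat.Agent.S41.helper2138.ihara_k_U N q hqN
        kr := Fermat.Agent.S41.helper2138.ihara_kr N q hqN
        new_U := Fermat.Agent.S41.helper2138.ihara_new_U N q hqN })
    ThetaAt h1
    (fun M _ γ hγ a b => Fermat.Agent.S41.helper6553.Theta_smul (Gamma0 M) hγ a b)
    (fun M hM => by
      have : NeZero M := ⟨hM.ne'⟩
      exact Fermat.Agent.S41.helper9161.Theta_span (Gamma0 M))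
    (fun M l _ hl _ a b => Fermat.Agent.S41.helper3777.heckeHomT_Theta M l hl a b)
    (fun N q _ hqN hN a b => hd N q hqN hN a b)
    Fermat.Agent.S41.helper1763.stmt_Boundary

end Fermat.Agent.S41.helper123
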