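/-
S41, module B (crossing map), delegated sub-lemma D3 of team chat #96 (owner of B: helper6553):
the sign lemma behind the three-term relation of the crossing numbers.

With `u = P1 + i Q1`, `v = P2 + i Q2`, `u v = P12 + i Q12`, and `c = Re * Im` for each of the
three complex numbers: if at least two of the three satisfy `|Im| < |Re|`, then
`[0 < c1] + [0 < c2] - [0 < c12] = [0 ≤ Q1 Q2 Q12]`.
Mathlib only.
-/
import Mathlib

set_option autoImplicit false

namespace Fermat.Agent.S41.helper616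

/-- Abstract core, case "the two factors are near the real axis". -/
theorem sign_core_two (c1 c2 c12 s q1 q2 w a b : ℝ)
    (hq1 : 0 < q1) (hq2 : 0 < q2) (ha : 0 < a) (hb : 0 < b)
    (I1 : s = q2 * c1 + q1 * c2) (I2 : c12 * s = w * (c1 * c2 - q1 * q2))
    (I3 : c12 = c2 * a + c1 * b) (hc1 : c1 ≠ 0) (hc2 : c2 ≠ 0)
    (hw : (c12 = 0 ∧ s = 0) ∨ 0 < w) :
    (if 0 < c1 then (1 : ℤ) else 0) + (if 0 < c2 then 1 else 0) - (if 0 < c12 then 1 else 0) =
      if 0 ≤ s then 1 else 0 := by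
  rcases lt_or_gt_of_ne hc1 with n1 | p1 <;> rcases lt_or_gt_of_ne hc2 with n2 | p2
  · have h12 : c12 < 0 := by
      rw [I3]
      have := mul_pos (neg_pos.2 n2) ha
      have := mul_pos (neg_pos.2 n1) hb
      linarith
    have hs : s < 0 := by
      rw [I1]
      have := mul_pos hq2 (neg_pos.2 n1)
      have := mul_pos hq1 (neg_pos.2 n2)
      linarith
    rw [if_neg (not_lt.2 n1.le), if_neg (not_lt.2 n2.le), if_neg (not_lt.2 h12.le),
      if_neg (not_le.2 hs)]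
    norm_num
  · rcases hw with ⟨h0, hs0⟩ | hw
    · rw [if_neg (not_lt.2 n1.le), if_pos p2, if_neg (not_lt.2 h0.le), if_pos hs0.ge]
      norm_num
    · have hneg : c12 * s < 0 := by
        rw [I2]
        have h1 : c1 * c2 < 0 := mul_neg_of_neg_of_pos n1 p2
        have h2 : 0 < q1 * q2 := mul_pos hq1 hq2
        exact mul_neg_of_pos_of_neg hw (by linarith)
      rcases lt_trichotomy c12 0 with h | h | h
      · have hs : 0 < s := by
          by_contra hc
          have : 0 ≤ c12 * s := mul_nonneg_of_nonpos_of_nonpos h.le (not_lt.1 hc)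
          linarith
        rw [if_neg (not_lt.2 n1.le), if_pos p2, if_neg (not_lt.2 h.le), if_pos hs.le]
        norm_num
      · rw [h, zero_mul] at hneg
        exact absurd hneg (lt_irrefl _)
      · have hs : s < 0 := by
          by_contra hc
          have : 0 ≤ c12 * s := mul_nonneg h.le (not_lt.1 hc)
          linarith
        rw [if_neg (not_lt.2 n1.le), if_pos p2, if_pos h, if_neg (not_le.2 hs)]
        norm_num
  · rcases hw with ⟨h0, hs0⟩ | hw
    · rw [if_pos p1, if_neg (not_lt.2 n2.le), if_neg (not_lt.2 h0.le), if_pos hs0.ge]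
      norm_num
    · have hneg : c12 * s < 0 := by
        rw [I2]
        have h1 : c1 * c2 < 0 := mul_neg_of_pos_of_neg p1 n2
        have h2 : 0 < q1 * q2 := mul_pos hq1 hq2
        exact mul_neg_of_pos_of_neg hw (by linarith)
      rcases lt_trichotomy c12 0 with h | h | h
      · have hs : 0 < s := by
          by_contra hc
          have : 0 ≤ c12 * s := mul_nonneg_of_nonpos_of_nonpos h.le (not_lt.1 hc)
          linarith
        rw [if_pos p1, if_neg (not_lt.2 n2.le), if_neg (not_lt.2 h.le), if_pos hs.le]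
        norm_num
      · rw [h, zero_mul] at hneg
        exact absurd hneg (lt_irrefl _)
      · have hs : s < 0 := by
          by_contra hc
          have : 0 ≤ c12 * s := mul_nonneg h.le (not_lt.1 hc)
          linarith
        rw [if_pos p1, if_neg (not_lt.2 n2.le), if_pos h, if_neg (not_le.2 hs)]
        norm_num
  · have h12 : 0 < c12 := by
      rw [I3]
      have := mul_pos p2 ha
      have := mul_pos p1 hb
      linarith
    have hs : 0 < s := by
      rw [I1]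
      have := mul_pos hq2 p1
      have := mul_pos hq1 p2
      linarith
    rw [if_pos p1, if_pos p2, if_pos h12, if_pos hs.le]
    norm_num

/-- Abstract core, case "one factor and the product are near the real axis". -/
theorem sign_core_mixed (c1 c2 c12 s q1 q2 w a b n : ℝ)
    (hq1 : 0 < q1) (hq2 : 0 < q2) (ha : 0 < a) (hb : 0 < b) (hn : 0 < n)
    (I1 : s = q2 * c1 + q1 * c2) (I2 : c12 * s = w * (c1 * c2 - q1 * q2))
    (I4 : c2 * n = c12 * a - c1 * b) (hc1 : c1 ≠ 0)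
    (hw : c12 ≠ 0 → 0 < w) (h0 : c12 = 0 → s = 0) :
    (if 0 < c1 then (1 : ℤ) else 0) + (if 0 < c2 then 1 else 0) - (if 0 < c12 then 1 else 0) =
      if 0 ≤ s then 1 else 0 := by
  have hq : 0 < q1 * q2 := mul_pos hq1 hq2
  -- sign of `c12 * s` when `c1 * c2 ≤ 0` and `c12 ≠ 0`
  have keyneg : c1 * c2 ≤ 0 → c12 ≠ 0 → c12 * s < 0 := by
    intro h hne
    rw [I2]
    exact mul_neg_of_pos_of_neg (hw hne) (by linarith)
  have pos_of : 0 < c2 * n → 0 < c2 := by
    intro h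
    by_contra hc
    have : c2 * n ≤ 0 := mul_nonpos_of_nonpos_of_nonneg (not_lt.1 hc) hn.le
    linarith
  have neg_of : c2 * n < 0 → c2 < 0 := by
    intro h
    by_contra hc
    have : 0 ≤ c2 * n := mul_nonneg (not_lt.1 hc) hn.le
    linarith
  have s_pos_of : c12 < 0 → c12 * s < 0 → 0 < s := by
    intro h hneg
    by_contra hc
    have : 0 ≤ c12 * s := mul_nonneg_of_nonpos_of_nonpos h.le (not_lt.1 hc)
    linarith
  have s_neg_of : 0 < c12 → c12 * s < 0 → s < 0 := by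
    intro h hneg
    by_contra hc
    have : 0 ≤ c12 * s := mul_nonneg h.le (not_lt.1 hc)
    linarith
  rcases lt_or_gt_of_ne hc1 with n1 | p1
  · -- c1 < 0
    have hcb : 0 < -c1 * b := mul_pos (neg_pos.2 n1) hb
    rcases lt_trichotomy c12 0 with h | h | h
    · by_cases p2 : 0 < c2
      · have hs := s_pos_of h (keyneg (mul_neg_of_neg_of_pos n1 p2).le h.ne)
        rw [if_neg (not_lt.2 n1.le), if_pos p2, if_neg (not_lt.2 h.le), if_pos hs.le]
        norm_num
      · have hs : s < 0 := by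
          rw [I1]
          have := mul_pos hq2 (neg_pos.2 n1)
          have := mul_nonneg hq1.le (neg_nonneg.2 (not_lt.1 p2))
          linarith
        rw [if_neg (not_lt.2 n1.le), if_neg p2, if_neg (not_lt.2 h.le), if_neg (not_le.2 hs)]
        norm_num
    · have p2 : 0 < c2 := by
        apply pos_of
        rw [I4, h]
        linarith
      rw [if_neg (not_lt.2 n1.le), if_pos p2, if_neg (not_lt.2 h.le), if_pos (h0 h).ge]
      norm_num
    · have p2 : 0 < c2 := by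
        apply pos_of
        rw [I4]
        have := mul_pos h ha
        linarith
      have hs := s_neg_of h (keyneg (mul_neg_of_neg_of_pos n1 p2).le h.ne')
      rw [if_neg (not_lt.2 n1.le), if_pos p2, if_pos h, if_neg (not_le.2 hs)]
      norm_num
  · -- c1 > 0
    have hcb : 0 < c1 * b := mul_pos p1 hb
    rcases lt_trichotomy c12 0 with h | h | h
    · have n2 : c2 < 0 := by
        apply neg_of
        rw [I4]
        have := mul_pos (neg_pos.2 h) ha
        linarith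
      have hs := s_pos_of h (keyneg (mul_neg_of_pos_of_neg p1 n2).le h.ne)
      rw [if_pos p1, if_neg (not_lt.2 n2.le), if_neg (not_lt.2 h.le), if_pos hs.le]
      norm_num
    · have n2 : c2 < 0 := by
        apply neg_of
        rw [I4, h]
        linarith
      rw [if_pos p1, if_neg (not_lt.2 n2.le), if_neg (not_lt.2 h.le), if_pos (h0 h).ge]
      norm_num
    · by_cases p2 : 0 < c2
      · have hs : 0 < s := by
          rw [I1]
          have := mul_pos hq2 p1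
          have := mul_pos hq1 p2
          linarith
        rw [if_pos p1, if_pos p2, if_pos h, if_pos hs.le]
        norm_num
      · have hs := s_neg_of h
          (keyneg (mul_nonpos_of_nonneg_of_nonpos p1.le (not_lt.1 p2)) h.ne')
        rw [if_pos p1, if_neg p2, if_pos h, if_neg (not_le.2 hs)]
        norm_num

/-- **D3 (sign lemma)** of the crossing-map module (team chat #96, statement verbatim). -/
theorem sign_lemma (P1 Q1 P2 Q2 : ℝ) (h1 : Q1 ≠ 0) (h2 : Q2 ≠ 0)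
    (hbad : (Q1 ^ 2 < P1 ^ 2 ∧ Q2 ^ 2 < P2 ^ 2) ∨
      (Q1 ^ 2 < P1 ^ 2 ∧ (P1 * Q2 + Q1 * P2) ^ 2 < (P1 * P2 - Q1 * Q2) ^ 2) ∨
      (Q2 ^ 2 < P2 ^ 2 ∧ (P1 * Q2 + Q1 * P2) ^ 2 < (P1 * P2 - Q1 * Q2) ^ 2)) :
    (if 0 < P1 * Q1 then (1 : ℤ) else 0) + (if 0 < P2 * Q2 then 1 else 0) -
      (if 0 < (P1 * P2 - Q1 * Q2) * (P1 * Q2 + Q1 * P2) then 1 else 0) =
    if 0 ≤ Q1 * Q2 * (P1 * Q2 + Q1 * P2) then 1 else 0 := by
  have hQ1 : 0 < Q1 ^ 2 := by positivity
  have hQ2 : 0 < Q2 ^ 2 := by positivity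
  have I1 : Q1 * Q2 * (P1 * Q2 + Q1 * P2) = Q2 ^ 2 * (P1 * Q1) + Q1 ^ 2 * (P2 * Q2) := by ring
  have I1' : Q1 * Q2 * (P1 * Q2 + Q1 * P2) = Q1 ^ 2 * (P2 * Q2) + Q2 ^ 2 * (P1 * Q1) := by ring
  have I2 : (P1 * P2 - Q1 * Q2) * (P1 * Q2 + Q1 * P2) * (Q1 * Q2 * (P1 * Q2 + Q1 * P2)) =
      (P1 * Q2 + Q1 * P2) ^ 2 * (P1 * Q1 * (P2 * Q2) - Q1 ^ 2 * Q2 ^ 2) := by ring
  have I2' : (P1 * P2 - Q1 * Q2) * (P1 * Q2 + Q1 * P2) * (Q1 * Q2 * (P1 * Q2 + Q1 * P2)) =
      (P1 * Q2 + Q1 * P2) ^ 2 * (P2 * Q2 * (P1 * Q1) - Q2 ^ 2 * Q1 ^ 2) := by ring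
  have hw : (P1 * P2 - Q1 * Q2) * (P1 * Q2 + Q1 * P2) ≠ 0 → 0 < (P1 * Q2 + Q1 * P2) ^ 2 := by
    intro h
    have : P1 * Q2 + Q1 * P2 ≠ 0 := fun h' => h (by rw [h', mul_zero])
    positivity
  have hc1 : Q1 ^ 2 < P1 ^ 2 → P1 * Q1 ≠ 0 := by
    intro ha h
    rcases mul_eq_zero.mp h with h | h
    · rw [h] at ha
      have : (0 : ℝ) ^ 2 = 0 := by norm_num
      linarith
    · exact h1 h
  have hc2 : Q2 ^ 2 < P2 ^ 2 → P2 * Q2 ≠ 0 := by
    intro ha h
    rcases mul_eq_zero.mp h with h | h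
    · rw [h] at ha
      have : (0 : ℝ) ^ 2 = 0 := by norm_num
      linarith
    · exact h2 h
  have h0 : (P1 * Q2 + Q1 * P2) ^ 2 < (P1 * P2 - Q1 * Q2) ^ 2 →
      (P1 * P2 - Q1 * Q2) * (P1 * Q2 + Q1 * P2) = 0 →
      Q1 * Q2 * (P1 * Q2 + Q1 * P2) = 0 := by
    intro hb h
    rcases mul_eq_zero.mp h with h | h
    · rw [h] at hb
      have : (0 : ℝ) ^ 2 = 0 := by norm_num
      have := sq_nonneg (P1 * Q2 + Q1 * P2)
      linarith
    · rw [h, mul_zero]
  rcases hbad with ⟨ha, hb⟩ | ⟨ha, hb⟩ | ⟨ha, hb⟩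
  · refine sign_core_two (P1 * Q1) (P2 * Q2) _ _ (Q1 ^ 2) (Q2 ^ 2) ((P1 * Q2 + Q1 * P2) ^ 2)
      (P1 ^ 2 - Q1 ^ 2) (P2 ^ 2 - Q2 ^ 2) hQ1 hQ2 (by linarith) (by linarith) I1 I2 (by ring)
      (hc1 ha) (hc2 hb) ?_
    by_cases hz : P1 * Q2 + Q1 * P2 = 0
    · left
      rw [hz, mul_zero, mul_zero]
      exact ⟨rfl, rfl⟩
    · right
      positivity
  · exact sign_core_mixed (P1 * Q1) (P2 * Q2) _ _ (Q1 ^ 2) (Q2 ^ 2) ((P1 * Q2 + Q1 * P2) ^ 2)
      (P1 ^ 2 - Q1 ^ 2) ((P1 * P2 - Q1 * Q2) ^ 2 - (P1 * Q2 + Q1 * P2) ^ 2)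
      ((P1 ^ 2 + Q1 ^ 2) ^ 2) hQ1 hQ2 (by linarith) (by linarith) (by positivity) I1 I2
      (by ring) (hc1 ha) hw (h0 hb)
  · have key := sign_core_mixed (P2 * Q2) (P1 * Q1) _ _ (Q2 ^ 2) (Q1 ^ 2)
      ((P1 * Q2 + Q1 * P2) ^ 2)
      (P2 ^ 2 - Q2 ^ 2) ((P1 * P2 - Q1 * Q2) ^ 2 - (P1 * Q2 + Q1 * P2) ^ 2)
      ((P2 ^ 2 + Q2 ^ 2) ^ 2) hQ2 hQ1 (by linarith) (by linarith) (by positivity) I1' I2'
      (by ring) (hc2 ha) hw (h0 hb)
    rw [← key]
    ring

end Fermat.Agent.S41.helper616
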