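import Mathlib

/-!
# S41, module B, sub-lemma D1: finiteness of the crossing set

For two points `z, z'` of the upper half plane and a fixed determinant `D`, only finitely many
pairs of integer vectors `u, v` with `det [u, v] = D` have the two points on different sides of
the geodesic attached to `(u, v)`.  No intermediate value theorem is used: with
`A = u₁ v₁`, `B = u₁ v₀ + u₀ v₁`, `C = u₀ v₀` and `F = A (x² + y²) - B x + C` one has
`4 A F = (2 A x - B)² + 4 A² y² - D²`, and one of the two points has `A F ≤ 0`.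
-/

namespace Fermat.Agent.S41.helper9161

/-- One-sided real core: the quadratic form is positive (after the sign `d`) at `(x, y)` and
nonpositive at `(x', y')`. -/
theorem abc_bound_one {a b c d x y x' y' m X : ℝ}
    (hd : d ≠ 0) (hdisc : b ^ 2 - 4 * a * c = d ^ 2) (ha : a = 0 ∨ 1 ≤ |a|)
    (hm : 0 < m) (hmy : m ≤ y) (hmy' : m ≤ y') (hX : |x| ≤ X) (hX' : |x'| ≤ X)
    (h1 : 0 < d * (a * (x ^ 2 + y ^ 2) - b * x + c))
    (h2 : d * (a * (x' ^ 2 + y' ^ 2) - b * x' + c) ≤ 0) :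
    |a| ≤ |d| / (2 * m) ∧ |b| ≤ |d| + |d| * X / m ∧
      |c| ≤ (|d| + |d| * X / m) * X + ((|d| + |d| * X / m) ^ 2 + d ^ 2) / 4 := by
  have hX0 : 0 ≤ X := le_trans (abs_nonneg x) hX
  have hdpos : 0 < |d| := abs_pos.mpr hd
  have hKb0 : 0 ≤ |d| * X / m := by positivity
  rcases ha with rfl | ha1
  · -- `a = 0`
    have hb : |b| = |d| := by
      have : b ^ 2 = d ^ 2 := by linarith
      exact (sq_eq_sq_iff_abs_eq_abs b d).mp this
    refine ⟨by simp; positivity, by rw [hb]; linarith, ?_⟩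
    have h1' : d * b * x < d * c := by nlinarith
    have h2' : d * c ≤ d * b * x' := by nlinarith
    have e1 : |d * b * x| ≤ |d| * |b| * X := by
      rw [abs_mul, abs_mul]; exact mul_le_mul_of_nonneg_left hX (by positivity)
    have e2 : |d * b * x'| ≤ |d| * |b| * X := by
      rw [abs_mul, abs_mul]; exact mul_le_mul_of_nonneg_left hX' (by positivity)
    have e3 : |d * c| ≤ |d| * |b| * X := by
      rw [abs_le]
      constructor
      · have := (abs_le.mp e1).1; linarith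
      · have := (abs_le.mp e2).2; linarith
    have e4 : |c| ≤ |b| * X := by
      rw [abs_mul, mul_assoc] at e3
      exact le_of_mul_le_mul_left e3 hdpos
    have e5 : |b| * X ≤ (|d| + |d| * X / m) * X := by
      rw [hb]; exact mul_le_mul_of_nonneg_right (by linarith) hX0
    have e6 : 0 ≤ ((|d| + |d| * X / m) ^ 2 + d ^ 2) / 4 := by positivity
    linarith
  · -- `1 ≤ |a|`
    have ha0 : a ≠ 0 := by
      rintro rfl; simp at ha1; linarith
    -- a point where `a * F ≤ 0`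
    have key : ∃ xw yw : ℝ, m ≤ yw ∧ |xw| ≤ X ∧ (2 * a * xw - b) ^ 2 + 4 * a ^ 2 * yw ^ 2 ≤ d ^ 2 := by
      have had : a * d ≠ 0 := mul_ne_zero ha0 hd
      have hd2 : 0 < d ^ 2 := by positivity
      rcases lt_or_gt_of_ne had with hneg | hpos
      · refine ⟨x, y, hmy, hX, ?_⟩
        have : d ^ 2 * (a * (a * (x ^ 2 + y ^ 2) - b * x + c)) < 0 := by
          have := mul_neg_of_neg_of_pos hneg h1
          nlinarith
        have h3 : a * (a * (x ^ 2 + y ^ 2) - b * x + c) < 0 := by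
          by_contra hcon
          push Not at hcon
          have := mul_nonneg hd2.le hcon
          linarith
        nlinarith
      · refine ⟨x', y', hmy', hX', ?_⟩
        have : d ^ 2 * (a * (a * (x' ^ 2 + y' ^ 2) - b * x' + c)) ≤ 0 := by
          have := mul_nonpos_of_nonneg_of_nonpos hpos.le h2
          nlinarith
        have h3 : a * (a * (x' ^ 2 + y' ^ 2) - b * x' + c) ≤ 0 := by
          by_contra hcon
          push Not at hcon
          have := mul_pos hd2 hcon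
          linarith
        nlinarith
    obtain ⟨xw, yw, hyw, hxw, hw⟩ := key
    have hyw0 : 0 < yw := lt_of_lt_of_le hm hyw
    -- bound on `a`
    have hA : |a| ≤ |d| / (2 * m) := by
      rw [le_div_iff₀ (by positivity)]
      have h4 : (|a| * (2 * m)) ^ 2 ≤ |d| ^ 2 := by
        have h5 : (|a| * (2 * m)) ^ 2 = 4 * a ^ 2 * m ^ 2 := by
          rw [mul_pow, sq_abs]; ring
        have h6 : 4 * a ^ 2 * m ^ 2 ≤ 4 * a ^ 2 * yw ^ 2 := by
          have : m ^ 2 ≤ yw ^ 2 := by nlinarith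
          have h7 : 0 ≤ 4 * a ^ 2 := by positivity
          exact mul_le_mul_of_nonneg_left this h7
        have h8 : 0 ≤ (2 * a * xw - b) ^ 2 := sq_nonneg _
        rw [h5, sq_abs]; linarith
      exact le_of_sq_le_sq h4 (abs_nonneg d)
    -- bound on `b`
    have hB : |b| ≤ |d| + |d| * X / m := by
      have h4 : (2 * a * xw - b) ^ 2 ≤ d ^ 2 := by
        have : 0 ≤ 4 * a ^ 2 * yw ^ 2 := by positivity
        linarith
      have h5 : |2 * a * xw - b| ≤ |d| := sq_le_sq.mp h4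
      have h6 : |2 * a * xw| ≤ |d| * X / m := by
        have h7 : |2 * a * xw| = 2 * |a| * |xw| := by
          rw [abs_mul, abs_mul]; simp
        rw [h7]
        have h8 : 2 * |a| * |xw| ≤ 2 * (|d| / (2 * m)) * X := by
          apply mul_le_mul (by linarith) hxw (abs_nonneg _) (by positivity)
        have h9 : 2 * (|d| / (2 * m)) * X = |d| * X / m := by
          field_simp
        linarith
      have h10 : |b| ≤ |2 * a * xw - b| + |2 * a * xw| := by
        have := abs_sub (2 * a * xw) (2 * a * xw - b)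
        have e : 2 * a * xw - (2 * a * xw - b) = b := by ring
        rw [e] at this
        linarith
      linarith
    refine ⟨hA, hB, ?_⟩
    -- bound on `c`
    have hKb : 0 ≤ |d| + |d| * X / m := by positivity
    have h4 : |c| ≤ |a| * |c| := by
      have := mul_le_mul_of_nonneg_right ha1 (abs_nonneg c)
      linarith
    have h5 : |a| * |c| = |b ^ 2 - d ^ 2| / 4 := by
      rw [← abs_mul]
      have : b ^ 2 - d ^ 2 = 4 * (a * c) := by linarith
      rw [this, abs_mul]; simp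
    have h6 : |b ^ 2 - d ^ 2| ≤ b ^ 2 + d ^ 2 := by
      rw [abs_le]; constructor <;> nlinarith [sq_nonneg b, sq_nonneg d]
    have h7 : b ^ 2 ≤ (|d| + |d| * X / m) ^ 2 := by
      rw [← sq_abs b]
      exact pow_le_pow_left₀ (abs_nonneg b) hB 2
    have h8 : 0 ≤ (|d| + |d| * X / m) * X := mul_nonneg hKb hX0
    linarith

/-- Two-sided real core. -/
theorem abc_bound {a b c d x y x' y' m X : ℝ}
    (hd : d ≠ 0) (hdisc : b ^ 2 - 4 * a * c = d ^ 2) (ha : a = 0 ∨ 1 ≤ |a|)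
    (hm : 0 < m) (hmy : m ≤ y) (hmy' : m ≤ y') (hX : |x| ≤ X) (hX' : |x'| ≤ X)
    (hne : ¬ (0 < d * (a * (x ^ 2 + y ^ 2) - b * x + c) ↔
      0 < d * (a * (x' ^ 2 + y' ^ 2) - b * x' + c))) :
    |a| ≤ |d| / (2 * m) ∧ |b| ≤ |d| + |d| * X / m ∧
      |c| ≤ (|d| + |d| * X / m) * X + ((|d| + |d| * X / m) ^ 2 + d ^ 2) / 4 := by
  by_cases h1 : 0 < d * (a * (x ^ 2 + y ^ 2) - b * x + c)
  · have h2 : ¬ 0 < d * (a * (x' ^ 2 + y' ^ 2) - b * x' + c) := fun h => hne ⟨fun _ => h, fun _ => h1⟩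
    exact abc_bound_one hd hdisc ha hm hmy hmy' hX hX' h1 (not_lt.mp h2)
  · have h2 : 0 < d * (a * (x' ^ 2 + y' ^ 2) - b * x' + c) := by
      by_contra h
      exact hne ⟨fun h' => absurd h' h1, fun h' => absurd h' h⟩
    exact abc_bound_one hd hdisc ha hm hmy' hmy hX' hX h2 (not_lt.mp h1)

/-- An integer factor is bounded by the product when the other factor is nonzero. -/
theorem abs_le_of_abs_mul_le (s t : ℤ) (K : ℝ) (ht : t ≠ 0) (h : |(s : ℝ) * t| ≤ K) :
    |(s : ℝ)| ≤ K := by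
  have h1 : (1 : ℝ) ≤ |(t : ℝ)| := by exact_mod_cast Int.one_le_abs ht
  have h2 : |(s : ℝ)| ≤ |(s : ℝ)| * |(t : ℝ)| := by
    have := mul_le_mul_of_nonneg_left h1 (abs_nonneg (s : ℝ))
    linarith
  rw [abs_mul] at h
  linarith

/-- The bound on the four entries. -/
theorem entries_bound (x y x' y' : ℝ) (hy : 0 < y) (hy' : 0 < y') (D : ℤ) (hD : D ≠ 0) :
    ∃ K : ℝ, ∀ u0 u1 v0 v1 : ℤ, u0 * v1 - u1 * v0 = D →
      ¬ (0 < (D : ℝ) * ((u1 * x - u0) * (v1 * x - v0) + u1 * v1 * y ^ 2) ↔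
        0 < (D : ℝ) * ((u1 * x' - u0) * (v1 * x' - v0) + u1 * v1 * y' ^ 2)) →
      |(u0 : ℝ)| ≤ K ∧ |(u1 : ℝ)| ≤ K ∧ |(v0 : ℝ)| ≤ K ∧ |(v1 : ℝ)| ≤ K := by
  set m : ℝ := min y y' with hm
  set X : ℝ := max |x| |x'| with hX
  set d : ℝ := (D : ℝ) with hd
  have hd0 : d ≠ 0 := by rw [hd]; exact_mod_cast hD
  have hm0 : 0 < m := lt_min hy hy'
  have hX0 : 0 ≤ X := le_trans (abs_nonneg x) (le_max_left _ _)
  refine ⟨|d| / (2 * m) + (|d| + |d| * X / m) +
    ((|d| + |d| * X / m) * X + ((|d| + |d| * X / m) ^ 2 + d ^ 2) / 4) + |d|, ?_⟩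
  intro u0 u1 v0 v1 hdet hne
  have hdetR : (u0 : ℝ) * v1 - u1 * v0 = d := by rw [hd]; exact_mod_cast hdet
  have hA : (u1 : ℝ) * v1 = 0 ∨ 1 ≤ |(u1 : ℝ) * v1| := by
    by_cases h : u1 * v1 = 0
    · left; exact_mod_cast h
    · right; exact_mod_cast Int.one_le_abs h
  have e1 : (u1 * x - u0) * (v1 * x - v0) + u1 * v1 * y ^ 2 =
      (u1 : ℝ) * v1 * (x ^ 2 + y ^ 2) - ((u1 : ℝ) * v0 + u0 * v1) * x + (u0 : ℝ) * v0 := by ring
  have e2 : (u1 * x' - u0) * (v1 * x' - v0) + u1 * v1 * y' ^ 2 =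
      (u1 : ℝ) * v1 * (x' ^ 2 + y' ^ 2) - ((u1 : ℝ) * v0 + u0 * v1) * x' + (u0 : ℝ) * v0 := by ring
  rw [e1, e2] at hne
  have hdisc : ((u1 : ℝ) * v0 + u0 * v1) ^ 2 - 4 * ((u1 : ℝ) * v1) * ((u0 : ℝ) * v0) = d ^ 2 := by
    rw [← hdetR]; ring
  obtain ⟨bA, bB, bC⟩ := abc_bound hd0 hdisc hA hm0 (min_le_left _ _) (min_le_right _ _)
    (le_max_left _ _) (le_max_right _ _) hne
  set Ka : ℝ := |d| / (2 * m) with hKa
  set Kb : ℝ := |d| + |d| * X / m with hKb
  set Kc : ℝ := Kb * X + (Kb ^ 2 + d ^ 2) / 4 with hKc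
  have hKa0 : 0 ≤ Ka := le_trans (abs_nonneg _) bA
  have hKb0 : 0 ≤ Kb := le_trans (abs_nonneg _) bB
  have hKc0 : 0 ≤ Kc := le_trans (abs_nonneg _) bC
  have hdabs : 0 ≤ |d| := abs_nonneg d
  -- the four products
  have p11 : |(u1 : ℝ) * v1| ≤ Ka + Kb + Kc + |d| := by linarith
  have p00 : |(u0 : ℝ) * v0| ≤ Ka + Kb + Kc + |d| := by linarith
  have p01 : |(u0 : ℝ) * v1| ≤ Ka + Kb + Kc + |d| := by
    have e : (u0 : ℝ) * v1 = (((u1 : ℝ) * v0 + u0 * v1) + d) / 2 := by rw [← hdetR]; ring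
    have h1 : |(((u1 : ℝ) * v0 + u0 * v1) + d) / 2| ≤ (|(u1 : ℝ) * v0 + u0 * v1| + |d|) / 2 := by
      rw [abs_div, abs_two]
      exact div_le_div_of_nonneg_right (abs_add_le _ _) (by norm_num)
    rw [e]
    have h2 : 0 ≤ |(u1 : ℝ) * v0 + u0 * v1| := abs_nonneg _
    linarith
  have p10 : |(u1 : ℝ) * v0| ≤ Ka + Kb + Kc + |d| := by
    have e : (u1 : ℝ) * v0 = (((u1 : ℝ) * v0 + u0 * v1) - d) / 2 := by rw [← hdetR]; ring
    have h1 : |(((u1 : ℝ) * v0 + u0 * v1) - d) / 2| ≤ (|(u1 : ℝ) * v0 + u0 * v1| + |d|) / 2 := by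
      rw [abs_div, abs_two]
      exact div_le_div_of_nonneg_right (abs_sub _ _) (by norm_num)
    rw [e]
    have h2 : 0 ≤ |(u1 : ℝ) * v0 + u0 * v1| := abs_nonneg _
    linarith
  have hv : v0 ≠ 0 ∨ v1 ≠ 0 := by
    by_contra h
    push Not at h
    apply hD
    rw [← hdet, h.1, h.2]; ring
  have hu : u0 ≠ 0 ∨ u1 ≠ 0 := by
    by_contra h
    push Not at h
    apply hD
    rw [← hdet, h.1, h.2]; ring
  refine ⟨?_, ?_, ?_, ?_⟩
  · rcases hv with h | h
    · exact abs_le_of_abs_mul_le u0 v0 _ h p00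
    · exact abs_le_of_abs_mul_le u0 v1 _ h p01
  · rcases hv with h | h
    · exact abs_le_of_abs_mul_le u1 v0 _ h p10
    · exact abs_le_of_abs_mul_le u1 v1 _ h p11
  · rcases hu with h | h
    · exact abs_le_of_abs_mul_le v0 u0 _ h (by rwa [mul_comm])
    · exact abs_le_of_abs_mul_le v0 u1 _ h (by rwa [mul_comm])
  · rcases hu with h | h
    · exact abs_le_of_abs_mul_le v1 u0 _ h (by rwa [mul_comm])
    · exact abs_le_of_abs_mul_le v1 u1 _ h (by rwa [mul_comm])

/-- **D1 (crossing_finite).**  For two points of the upper half plane and a fixed determinant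
`D`, the set of pairs of integer vectors `(u, v)` with `det [u, v] = D` whose geodesic separates
the two points is finite. -/
theorem crossing_finite (z z' : ℂ) (hz : 0 < z.im) (hz' : 0 < z'.im) (D : ℤ) :
    {p : (ℤ × ℤ) × (ℤ × ℤ) | p.1.1 * p.2.2 - p.1.2 * p.2.1 = D ∧
      ¬ (0 < (D : ℝ) * ((p.1.2 * z.re - p.1.1) * (p.2.2 * z.re - p.2.1)
            + p.1.2 * p.2.2 * z.im ^ 2) ↔
         0 < (D : ℝ) * ((p.1.2 * z'.re - p.1.1) * (p.2.2 * z'.re - p.2.1)
            + p.1.2 * p.2.2 * z'.im ^ 2))}.Finite := by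
  by_cases hD : D = 0
  · subst hD
    convert Set.finite_empty
    ext p
    simp
  · obtain ⟨K, hK⟩ := entries_bound z.re z.im z'.re z'.im hz hz' D hD
    set N : ℤ := ⌈K⌉ with hN
    apply Set.Finite.subset
      (((Set.finite_Icc (-N) N).prod (Set.finite_Icc (-N) N)).prod
        ((Set.finite_Icc (-N) N).prod (Set.finite_Icc (-N) N)))
    rintro ⟨⟨u0, u1⟩, ⟨v0, v1⟩⟩ ⟨hdet, hne⟩
    obtain ⟨b0, b1, b2, b3⟩ := hK u0 u1 v0 v1 hdet hne
    have hKN : K ≤ (N : ℝ) := Int.le_ceil K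
    have conv : ∀ t : ℤ, |(t : ℝ)| ≤ K → t ∈ Set.Icc (-N) N := by
      intro t ht
      have h1 := abs_le.mp (le_trans ht hKN)
      constructor
      · have : ((-N : ℤ) : ℝ) ≤ (t : ℝ) := by push_cast; exact h1.1
        exact_mod_cast this
      · exact_mod_cast h1.2
    exact ⟨⟨conv u0 b0, conv u1 b1⟩, ⟨conv v0 b2, conv v1 b3⟩⟩

end Fermat.Agent.S41.helper9161
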