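/-
helper6553 — S41 module B (core): the crossing map `Theta`.

* `vecQ`, `Rep` : rational vectors representing cusps (`OnePoint ℚ`, Mathlib's `GL (Fin 2) ℚ` action).
* `sideR`, `side`, `R a b z` : the side indicator of the oriented geodesic `a → b`
  (`R a b z = 1` iff `z` lies strictly to the right); `R_smul` : invariance under `GL₂⁺(ℚ)`.
* `cr`, `Tame`, `cross` : crossing numbers, tame weights on edges, weighted crossing numbers.
* `thetaW Γ w` : the crossing homomorphism `Γ → ℤ` of a tame `Γ`-invariant weight;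
  `thetaW_apply_base` : independence of the base point.
* `orbS`, `orbW`, `tame_orbW` : orbit weights are tame (finiteness of crossings).
* `Theta Γ a b : Additive Γ →+ ℤ`, `Theta_apply`, `Theta_smul`.
-/
import Mathlib
import Fermat.Agent.S41.helper9161_CrossingFinite

set_option autoImplicit false

namespace Fermat.Agent.S41.helper6553

open scoped MatrixGroups
open OnePoint UpperHalfPlane Matrix

/-- The rational vector of a cusp: `∞ ↦ (1, 0)`, `t ↦ (t, 1)`. -/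
def vecQ (a : OnePoint ℚ) : Fin 2 → ℚ := a.elim ![1, 0] (fun t => ![t, 1])

@[simp] theorem vecQ_infty : vecQ ∞ = ![1, 0] := rfl

@[simp] theorem vecQ_coe (t : ℚ) : vecQ (t : OnePoint ℚ) = ![t, 1] := rfl

theorem vecQ_ne_zero (a : OnePoint ℚ) : vecQ a ≠ 0 := by
  cases a with
  | infty => simp
  | coe t => simp

theorem equivProj_eq (a : OnePoint ℚ) :
    equivProjectivization ℚ a = Projectivization.mk ℚ (vecQ a) (vecQ_ne_zero a) := by
  cases a with
  | infty => rfl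
  | coe t => rfl

/-- `u` represents the cusp `a`. -/
def Rep (a : OnePoint ℚ) (u : Fin 2 → ℚ) : Prop := ∃ s : ℚ, s ≠ 0 ∧ u = s • vecQ a

theorem rep_vecQ (a : OnePoint ℚ) : Rep a (vecQ a) := ⟨1, one_ne_zero, by simp⟩

theorem Rep.ne_zero {a : OnePoint ℚ} {u : Fin 2 → ℚ} (h : Rep a u) : u ≠ 0 := by
  obtain ⟨s, hs, rfl⟩ := h
  exact smul_ne_zero hs (vecQ_ne_zero a)

theorem Rep.smul {a : OnePoint ℚ} {u : Fin 2 → ℚ} (h : Rep a u) (g : GL (Fin 2) ℚ) :
    Rep (g • a) (g.1 *ᵥ u) := by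
  obtain ⟨s, hs, rfl⟩ := h
  have h1 : equivProjectivization ℚ (g • a) = g • equivProjectivization ℚ a :=
    equivProjectivization_smul a
  rw [equivProj_eq, equivProj_eq, Projectivization.smul_mk] at h1
  rw [Projectivization.mk_eq_mk_iff'] at h1
  obtain ⟨c, hc⟩ := h1
  have hc0 : c ≠ 0 := by
    rintro rfl
    rw [zero_smul] at hc
    exact vecQ_ne_zero _ hc.symm
  refine ⟨s * c⁻¹, mul_ne_zero hs (inv_ne_zero hc0), ?_⟩
  rw [← hc, Matrix.mulVec_smul, smul_smul, mul_assoc, inv_mul_cancel₀ hc0, mul_one]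
  rfl

/-- The side function of the oriented geodesic `u → v` on real vectors:
`det[u, v] * Re ((u₁ z - u₀) * conj (v₁ z - v₀))`. -/
def sideR (u v : Fin 2 → ℝ) (z : ℂ) : ℝ :=
  (u 0 * v 1 - u 1 * v 0) *
    ((u 1 * z.re - u 0) * (v 1 * z.re - v 0) + u 1 * v 1 * z.im ^ 2)

theorem sideR_smul (s t : ℝ) (u v : Fin 2 → ℝ) (z : ℂ) :
    sideR (s • u) (t • v) z = s ^ 2 * t ^ 2 * sideR u v z := by
  simp only [sideR, Pi.smul_apply, smul_eq_mul]
  ring

theorem sideR_pos_smul_iff {s t : ℝ} (hs : s ≠ 0) (ht : t ≠ 0) (u v : Fin 2 → ℝ) (z : ℂ) :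
    0 < sideR (s • u) (t • v) z ↔ 0 < sideR u v z := by
  rw [sideR_smul]
  have : 0 < s ^ 2 * t ^ 2 := by positivity
  constructor
  · intro h
    by_contra hn
    have := mul_nonpos_of_nonneg_of_nonpos this.le (not_lt.mp hn)
    linarith
  · intro h
    positivity

/-- Real and imaginary part of a Moebius image. -/
theorem smul_re_im (g : GL (Fin 2) ℝ) (hg : 0 < g.det.val) (z : ℍ) :
    0 < (g 1 0 * z.re + g 1 1) ^ 2 + (g 1 0 * z.im) ^ 2 ∧
    (g • z).re = ((g 0 0 * z.re + g 0 1) * (g 1 0 * z.re + g 1 1) + g 0 0 * g 1 0 * z.im ^ 2) /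
      ((g 1 0 * z.re + g 1 1) ^ 2 + (g 1 0 * z.im) ^ 2) ∧
    (g • z).im = (g 0 0 * g 1 1 - g 0 1 * g 1 0) * z.im /
      ((g 1 0 * z.re + g 1 1) ^ 2 + (g 1 0 * z.im) ^ 2) := by
  have hN : Complex.normSq (denom g z) = (g 1 0 * z.re + g 1 1) ^ 2 + (g 1 0 * z.im) ^ 2 := by
    simp [denom, Complex.normSq_apply]
    ring
  have hpos : 0 < (g 1 0 * z.re + g 1 1) ^ 2 + (g 1 0 * z.im) ^ 2 := by
    rw [← hN]
    exact normSq_denom_pos g z.im_ne_zero
  refine ⟨hpos, ?_, ?_⟩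
  · rw [← UpperHalfPlane.coe_re, coe_smul_of_det_pos hg, Complex.div_re, hN]
    simp [num, denom]
    field_simp
  · rw [← UpperHalfPlane.coe_im, coe_smul_of_det_pos hg, Complex.div_im, hN]
    simp [num, denom]
    field_simp
    ring

theorem side_key (a b c d x y u0 u1 v0 v1 N : ℝ) (hN : N = (c * x + d) ^ 2 + (c * y) ^ 2)
    (hN0 : N ≠ 0) :
    ((a * u0 + b * u1) * (c * v0 + d * v1) - (c * u0 + d * u1) * (a * v0 + b * v1)) *
      (((c * u0 + d * u1) * (((a * x + b) * (c * x + d) + a * c * y ^ 2) / N) - (a * u0 + b * u1)) *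
        ((c * v0 + d * v1) * (((a * x + b) * (c * x + d) + a * c * y ^ 2) / N) - (a * v0 + b * v1)) +
        (c * u0 + d * u1) * (c * v0 + d * v1) * ((a * d - b * c) * y / N) ^ 2) =
    (a * d - b * c) ^ 3 / N * ((u0 * v1 - u1 * v0) * ((u1 * x - u0) * (v1 * x - v0) + u1 * v1 * y ^ 2)) := by
  field_simp
  subst hN
  ring

/-- Moebius covariance of the side function. -/
theorem sideR_smul_smul (g : GL (Fin 2) ℝ) (hg : 0 < g.det.val) (u v : Fin 2 → ℝ) (z : ℍ) :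
    sideR (g.1 *ᵥ u) (g.1 *ᵥ v) (g • z : ℍ) =
      (g 0 0 * g 1 1 - g 0 1 * g 1 0) ^ 3 / ((g 1 0 * z.re + g 1 1) ^ 2 + (g 1 0 * z.im) ^ 2) *
        sideR u v z := by
  obtain ⟨hpos, hre, him⟩ := smul_re_im g hg z
  have e0 : ∀ w : Fin 2 → ℝ, (g.1 *ᵥ w) 0 = g 0 0 * w 0 + g 0 1 * w 1 := fun w => by
    simp [Matrix.mulVec_fin_two]
  have e1 : ∀ w : Fin 2 → ℝ, (g.1 *ᵥ w) 1 = g 1 0 * w 0 + g 1 1 * w 1 := fun w => by
    simp [Matrix.mulVec_fin_two]
  unfold sideR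
  rw [e0, e0, e1, e1, UpperHalfPlane.coe_re, UpperHalfPlane.coe_im, hre, him,
    UpperHalfPlane.coe_re, UpperHalfPlane.coe_im]
  exact side_key _ _ _ _ _ _ _ _ _ _ _ rfl hpos.ne'


/-! ### The side function on cusps -/

/-- The base change `GL₂(ℚ) → GL₂(ℝ)`. -/
noncomputable def toR : GL (Fin 2) ℚ →* GL (Fin 2) ℝ :=
  Matrix.GeneralLinearGroup.map (algebraMap ℚ ℝ)

@[simp] theorem toR_apply (g : GL (Fin 2) ℚ) (i j : Fin 2) : toR g i j = ((g i j : ℚ) : ℝ) := rfl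

theorem toR_mapGL (γ : SL(2, ℤ)) :
    toR (Matrix.SpecialLinearGroup.mapGL ℚ γ) = Matrix.SpecialLinearGroup.mapGL ℝ γ :=
  Matrix.SpecialLinearGroup.map_mapGL γ

theorem toR_det_pos {g : GL (Fin 2) ℚ} (hg : 0 < g.det.val) : 0 < (toR g).det.val := by
  have h1 : (toR g).det.val = ((g.det.val : ℚ) : ℝ) := by
    simp [toR, Matrix.GeneralLinearGroup.map_det]
  rw [h1]
  exact_mod_cast hg

/-- Cast of a rational vector to a real vector. -/
def castV (u : Fin 2 → ℚ) : Fin 2 → ℝ := fun i => (u i : ℝ)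

theorem castV_smul (s : ℚ) (u : Fin 2 → ℚ) : castV (s • u) = (s : ℝ) • castV u := by
  funext i
  simp [castV]

theorem castV_mulVec (g : GL (Fin 2) ℚ) (u : Fin 2 → ℚ) :
    castV (g.1 *ᵥ u) = (toR g).1 *ᵥ castV u := by
  funext i
  fin_cases i <;> simp [castV, Matrix.mulVec_fin_two]

/-- The side function of the oriented geodesic from the cusp `a` to the cusp `b`. -/
def side (a b : OnePoint ℚ) (z : ℂ) : ℝ := sideR (castV (vecQ a)) (castV (vecQ b)) z

/-- `R a b z = 1` iff `z` lies strictly to the right of the oriented geodesic `a → b`. -/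
noncomputable def R (a b : OnePoint ℚ) (z : ℍ) : ℤ := if 0 < side a b z then 1 else 0

theorem Rep.side_pos_iff {a b : OnePoint ℚ} {u v : Fin 2 → ℚ} (ha : Rep a u) (hb : Rep b v)
    (z : ℂ) : 0 < sideR (castV u) (castV v) z ↔ 0 < side a b z := by
  obtain ⟨s, hs, rfl⟩ := ha
  obtain ⟨t, ht, rfl⟩ := hb
  rw [castV_smul, castV_smul, side]
  exact sideR_pos_smul_iff (by exact_mod_cast hs) (by exact_mod_cast ht) _ _ _

theorem Rep.R_eq {a b : OnePoint ℚ} {u v : Fin 2 → ℚ} (ha : Rep a u) (hb : Rep b v)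
    (z : ℍ) : R a b z = if 0 < sideR (castV u) (castV v) z then 1 else 0 := by
  unfold R
  simp only [ha.side_pos_iff hb]

/-- **Invariance of the side indicator** under `GL₂⁺(ℚ)`. -/
theorem R_smul (g : GL (Fin 2) ℚ) (hg : 0 < g.det.val) (a b : OnePoint ℚ) (z : ℍ) :
    R (g • a) (g • b) (toR g • z) = R a b z := by
  have hg' := toR_det_pos hg
  rw [((rep_vecQ a).smul g).R_eq ((rep_vecQ b).smul g), castV_mulVec, castV_mulVec,
    sideR_smul_smul _ hg']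
  obtain ⟨hpos, -, -⟩ := smul_re_im (toR g) hg' z
  have hdet : 0 < toR g 0 0 * toR g 1 1 - toR g 0 1 * toR g 1 0 := by
    have := hg'
    rwa [Matrix.GeneralLinearGroup.val_det_apply, Matrix.det_fin_two] at this
  unfold R side
  have hc : 0 < (toR g 0 0 * toR g 1 1 - toR g 0 1 * toR g 1 0) ^ 3 /
      ((toR g 1 0 * z.re + toR g 1 1) ^ 2 + (toR g 1 0 * z.im) ^ 2) := by positivity
  congr 1
  apply propext
  constructor
  · intro h
    by_contra hn
    have := mul_nonpos_of_nonneg_of_nonpos hc.le (not_lt.mp hn)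
    linarith
  · intro h
    positivity


/-! ### Crossing numbers and tame weights -/

/-- Pairs of cusps (oriented edges). -/
abbrev Pair : Type := OnePoint ℚ × OnePoint ℚ

/-- The crossing number of the edge `e` between `z` and `z'`. -/
noncomputable def cr (e : Pair) (z z' : ℍ) : ℤ := R e.1 e.2 z - R e.1 e.2 z'

theorem cr_add (e : Pair) (z z' z'' : ℍ) : cr e z z' + cr e z' z'' = cr e z z'' := by
  unfold cr
  ring

@[simp] theorem cr_self (e : Pair) (z : ℍ) : cr e z z = 0 := by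
  unfold cr
  ring

theorem cr_smul (g : GL (Fin 2) ℚ) (hg : 0 < g.det.val) (e : Pair) (z z' : ℍ) :
    cr (g • e) (toR g • z) (toR g • z') = cr e z z' := by
  unfold cr
  rw [Prod.smul_fst, Prod.smul_snd, R_smul g hg, R_smul g hg]

theorem cr_ne_zero_iff (e : Pair) (z z' : ℍ) : cr e z z' ≠ 0 ↔ R e.1 e.2 z ≠ R e.1 e.2 z' := by
  unfold cr
  exact sub_ne_zero

/-- A weight on edges is tame if only finitely many edges of its support separate two points. -/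
def Tame (w : Pair → ℤ) : Prop :=
  ∀ z z' : ℍ, {e : Pair | w e ≠ 0 ∧ R e.1 e.2 z ≠ R e.1 e.2 z'}.Finite

theorem Tame.support_finite {w : Pair → ℤ} (hw : Tame w) (z z' : ℍ) :
    (Function.support fun e => w e * cr e z z').Finite := by
  refine (hw z z').subset ?_
  intro e he
  rw [Function.mem_support] at he
  exact ⟨left_ne_zero_of_mul he, (cr_ne_zero_iff e z z').mp (right_ne_zero_of_mul he)⟩

/-- The weighted crossing number between `z` and `z'`. -/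
noncomputable def cross (w : Pair → ℤ) (z z' : ℍ) : ℤ := ∑ᶠ e : Pair, w e * cr e z z'

@[simp] theorem cross_self (w : Pair → ℤ) (z : ℍ) : cross w z z = 0 := by
  simp [cross]

theorem cross_add_cross {w : Pair → ℤ} (hw : Tame w) (z z' z'' : ℍ) :
    cross w z z' + cross w z' z'' = cross w z z'' := by
  unfold cross
  rw [← finsum_add_distrib (hw.support_finite z z') (hw.support_finite z' z'')]
  refine finsum_congr fun e => ?_
  rw [← mul_add, cr_add]

theorem cross_symm {w : Pair → ℤ} (hw : Tame w) (z z' : ℍ) : cross w z' z = -cross w z z' := by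
  have := cross_add_cross hw z z' z
  rw [cross_self] at this
  linarith

theorem cross_smul (w : Pair → ℤ) (g : GL (Fin 2) ℚ) (hg : 0 < g.det.val) (z z' : ℍ) :
    cross w (toR g • z) (toR g • z') = cross (fun e => w (g • e)) z z' := by
  unfold cross
  rw [← finsum_comp_equiv (MulAction.toPerm g)]
  refine finsum_congr fun e => ?_
  simp only [MulAction.toPerm_apply]
  rw [cr_smul g hg]

theorem Tame.comp_smul {w : Pair → ℤ} (hw : Tame w) (g : GL (Fin 2) ℚ) (hg : 0 < g.det.val) :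
    Tame (fun e => w (g • e)) := by
  intro z z'
  have h := hw (toR g • z) (toR g • z')
  refine (h.preimage (Set.injOn_of_injective (MulAction.injective g))).subset ?_
  rintro e ⟨he1, he2⟩
  refine ⟨he1, ?_⟩
  rwa [Prod.smul_fst, Prod.smul_snd, R_smul g hg, R_smul g hg]

theorem tame_zero : Tame (fun _ => 0) := by
  intro z z'
  simp

theorem Tame.add {w₁ w₂ : Pair → ℤ} (h₁ : Tame w₁) (h₂ : Tame w₂) :
    Tame (fun e => w₁ e + w₂ e) := by
  intro z z'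
  refine ((h₁ z z').union (h₂ z z')).subset ?_
  rintro e ⟨he1, he2⟩
  by_cases h : w₁ e = 0
  · right
    have he1' : w₁ e + w₂ e ≠ 0 := he1
    exact ⟨by rwa [h, zero_add] at he1', he2⟩
  · left
    exact ⟨h, he2⟩

theorem Tame.neg {w : Pair → ℤ} (h : Tame w) : Tame (fun e => -w e) := by
  intro z z'
  refine (h z z').subset ?_
  rintro e ⟨he1, he2⟩
  exact ⟨neg_ne_zero.mp he1, he2⟩

theorem Tame.sub {w₁ w₂ : Pair → ℤ} (h₁ : Tame w₁) (h₂ : Tame w₂) :
    Tame (fun e => w₁ e - w₂ e) := by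
  simpa [sub_eq_add_neg] using h₁.add h₂.neg

theorem Tame.sum {ι : Type*} (s : Finset ι) (w : ι → Pair → ℤ) (h : ∀ i ∈ s, Tame (w i)) :
    Tame (fun e => ∑ i ∈ s, w i e) := by
  intro z z'
  refine (s.finite_toSet.biUnion fun i hi => h i hi z z').subset ?_
  rintro e ⟨he1, he2⟩
  obtain ⟨i, hi, hne⟩ := Finset.exists_ne_zero_of_sum_ne_zero he1
  simp only [Set.mem_iUnion]
  exact ⟨i, hi, hne, he2⟩

theorem cross_sum {ι : Type*} (s : Finset ι) (w : ι → Pair → ℤ) (h : ∀ i ∈ s, Tame (w i))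
    (z z' : ℍ) : cross (fun e => ∑ i ∈ s, w i e) z z' = ∑ i ∈ s, cross (w i) z z' := by
  unfold cross
  rw [← finsum_sum_comm s (fun e i => w i e * cr e z z') (fun i hi => (h i hi).support_finite z z')]
  refine finsum_congr fun e => ?_
  rw [Finset.sum_mul]

theorem cross_add_weight {w₁ w₂ : Pair → ℤ} (h₁ : Tame w₁) (h₂ : Tame w₂) (z z' : ℍ) :
    cross (fun e => w₁ e + w₂ e) z z' = cross w₁ z z' + cross w₂ z z' := by
  unfold cross
  rw [← finsum_add_distrib (h₁.support_finite z z') (h₂.support_finite z z')]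
  refine finsum_congr fun e => ?_
  rw [add_mul]

theorem cross_neg_weight (w : Pair → ℤ) (z z' : ℍ) :
    cross (fun e => -w e) z z' = -cross w z z' := by
  unfold cross
  rw [← finsum_neg_distrib]
  refine finsum_congr fun e => ?_
  rw [neg_mul]

/-! ### The crossing homomorphism of a tame invariant weight -/

theorem det_mapGL_pos (γ : SL(2, ℤ)) : 0 < (Matrix.SpecialLinearGroup.mapGL ℚ γ).det.val := by
  rw [Matrix.SpecialLinearGroup.det_mapGL]
  exact one_pos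

theorem toR_mapGL_smul (γ : SL(2, ℤ)) (z : ℍ) :
    toR (Matrix.SpecialLinearGroup.mapGL ℚ γ) • z = γ • z := by
  rw [toR_mapGL]
  rfl

/-- Invariance of a weight under a subgroup of `SL(2, ℤ)`. -/
def Inv (Γ : Subgroup SL(2, ℤ)) (w : Pair → ℤ) : Prop :=
  ∀ γ ∈ Γ, ∀ e, w (Matrix.SpecialLinearGroup.mapGL ℚ γ • e) = w e

theorem cross_SL {Γ : Subgroup SL(2, ℤ)} {w : Pair → ℤ} (hinv : Inv Γ w) {γ : SL(2, ℤ)}
    (hγ : γ ∈ Γ) (z z' : ℍ) : cross w (γ • z) (γ • z') = cross w z z' := by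
  rw [← toR_mapGL_smul, ← toR_mapGL_smul, cross_smul w _ (det_mapGL_pos γ)]
  congr 1
  funext e
  exact hinv γ hγ e

/-- Independence of the base point. -/
theorem cross_base {Γ : Subgroup SL(2, ℤ)} {w : Pair → ℤ} (hw : Tame w) (hinv : Inv Γ w)
    {γ : SL(2, ℤ)} (hγ : γ ∈ Γ) (z z₁ : ℍ) : cross w (γ • z) z = cross w (γ • z₁) z₁ := by
  have h1 := cross_add_cross hw (γ • z) (γ • z₁) z
  have h2 := cross_add_cross hw (γ • z₁) z₁ z
  have h3 := cross_SL hinv hγ z z₁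
  have h4 := cross_symm hw z z₁
  linarith

/-- The crossing homomorphism of a tame `Γ`-invariant weight: `γ ↦ cross w (γ • i) i`. -/
noncomputable def thetaW (Γ : Subgroup SL(2, ℤ)) (w : Pair → ℤ) (hw : Tame w) (hinv : Inv Γ w) :
    Additive Γ →+ ℤ where
  toFun γ := cross w (((Additive.toMul γ : Γ) : SL(2, ℤ)) • UpperHalfPlane.I) UpperHalfPlane.I
  map_zero' := by
    simp
  map_add' γ δ := by
    have h1 := cross_add_cross hw
      ((((Additive.toMul γ : Γ) : SL(2, ℤ)) * ((Additive.toMul δ : Γ) : SL(2, ℤ))) • UpperHalfPlane.I)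
      (((Additive.toMul γ : Γ) : SL(2, ℤ)) • UpperHalfPlane.I) UpperHalfPlane.I
    rw [mul_smul, cross_SL hinv (Additive.toMul γ).2] at h1
    rw [toMul_add, Subgroup.coe_mul, mul_smul, ← h1]
    ring

theorem thetaW_apply (Γ : Subgroup SL(2, ℤ)) (w : Pair → ℤ) (hw : Tame w) (hinv : Inv Γ w)
    (γ : Γ) : thetaW Γ w hw hinv (Additive.ofMul γ) =
      cross w ((γ : SL(2, ℤ)) • UpperHalfPlane.I) UpperHalfPlane.I := rfl

theorem thetaW_apply_base (Γ : Subgroup SL(2, ℤ)) (w : Pair → ℤ) (hw : Tame w) (hinv : Inv Γ w)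
    (γ : Γ) (z : ℍ) : thetaW Γ w hw hinv (Additive.ofMul γ) = cross w ((γ : SL(2, ℤ)) • z) z := by
  rw [thetaW_apply]
  exact cross_base hw hinv γ.2 _ _

theorem thetaW_congr (Γ : Subgroup SL(2, ℤ)) {w w' : Pair → ℤ} (h : w = w') (hw : Tame w)
    (hinv : Inv Γ w) (hw' : Tame w') (hinv' : Inv Γ w') :
    thetaW Γ w hw hinv = thetaW Γ w' hw' hinv' := by
  subst h
  rfl

theorem thetaW_add (Γ : Subgroup SL(2, ℤ)) {w₁ w₂ : Pair → ℤ} (h₁ : Tame w₁) (i₁ : Inv Γ w₁)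
    (h₂ : Tame w₂) (i₂ : Inv Γ w₂) (h : Tame fun e => w₁ e + w₂ e)
    (i : Inv Γ fun e => w₁ e + w₂ e) :
    thetaW Γ (fun e => w₁ e + w₂ e) h i = thetaW Γ w₁ h₁ i₁ + thetaW Γ w₂ h₂ i₂ := by
  refine AddMonoidHom.ext fun γ => ?_
  obtain ⟨γ, rfl⟩ := Additive.ofMul.surjective γ
  rw [AddMonoidHom.add_apply, thetaW_apply, thetaW_apply, thetaW_apply, cross_add_weight h₁ h₂]


/-! ### Orbit weights -/

/-- The `Γ`-orbit of an edge. -/
def orbS (Γ : Subgroup SL(2, ℤ)) (e₀ : Pair) : Set Pair :=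
  {e | ∃ γ ∈ Γ, e = Matrix.SpecialLinearGroup.mapGL ℚ γ • e₀}

theorem mem_orbS_self (Γ : Subgroup SL(2, ℤ)) (e₀ : Pair) : e₀ ∈ orbS Γ e₀ :=
  ⟨1, Γ.one_mem, by simp⟩

theorem smul_mem_orbS_iff (Γ : Subgroup SL(2, ℤ)) (e₀ e : Pair) {γ : SL(2, ℤ)} (hγ : γ ∈ Γ) :
    Matrix.SpecialLinearGroup.mapGL ℚ γ • e ∈ orbS Γ e₀ ↔ e ∈ orbS Γ e₀ := by
  constructor
  · rintro ⟨δ, hδ, h⟩
    refine ⟨γ⁻¹ * δ, Γ.mul_mem (Γ.inv_mem hγ) hδ, ?_⟩
    rw [map_mul, mul_smul, ← h, map_inv, inv_smul_smul]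
  · rintro ⟨δ, hδ, rfl⟩
    exact ⟨γ * δ, Γ.mul_mem hγ hδ, by rw [map_mul, mul_smul]⟩

theorem orbS_smul (Γ : Subgroup SL(2, ℤ)) (e₀ : Pair) {γ : SL(2, ℤ)} (hγ : γ ∈ Γ) :
    orbS Γ (Matrix.SpecialLinearGroup.mapGL ℚ γ • e₀) = orbS Γ e₀ := by
  ext e
  constructor
  · rintro ⟨δ, hδ, rfl⟩
    exact ⟨δ * γ, Γ.mul_mem hδ hγ, by rw [map_mul, mul_smul]⟩
  · rintro ⟨δ, hδ, rfl⟩
    refine ⟨δ * γ⁻¹, Γ.mul_mem hδ (Γ.inv_mem hγ), ?_⟩
    rw [map_mul, mul_smul, map_inv, inv_smul_smul]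

theorem orbS_eq_orbit (Γ : Subgroup SL(2, ℤ)) (e₀ : Pair) :
    orbS Γ e₀ = MulAction.orbit (Γ.map (Matrix.SpecialLinearGroup.mapGL ℚ)) e₀ := by
  ext e
  constructor
  · rintro ⟨γ, hγ, rfl⟩
    exact ⟨⟨_, Subgroup.mem_map_of_mem _ hγ⟩, rfl⟩
  · rintro ⟨⟨g, hg⟩, rfl⟩
    obtain ⟨γ, hγ, rfl⟩ := Subgroup.mem_map.mp hg
    exact ⟨γ, hγ, rfl⟩

open Classical in
/-- The indicator weight of the `Γ`-orbit of an edge. -/
noncomputable def orbW (Γ : Subgroup SL(2, ℤ)) (e₀ : Pair) : Pair → ℤ :=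
  fun e => if e ∈ orbS Γ e₀ then 1 else 0

theorem orbW_ne_zero_iff (Γ : Subgroup SL(2, ℤ)) (e₀ e : Pair) :
    orbW Γ e₀ e ≠ 0 ↔ e ∈ orbS Γ e₀ := by
  unfold orbW
  split_ifs with h <;> simp [h]

theorem orbW_inv (Γ : Subgroup SL(2, ℤ)) (e₀ : Pair) : Inv Γ (orbW Γ e₀) := by
  intro γ hγ e
  unfold orbW
  by_cases h : e ∈ orbS Γ e₀
  · rw [if_pos h, if_pos ((smul_mem_orbS_iff Γ e₀ e hγ).mpr h)]
  · rw [if_neg h, if_neg (fun h' => h ((smul_mem_orbS_iff Γ e₀ e hγ).mp h'))]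

/-! ### Integer vectors and tameness of orbit weights -/

/-- An integer vector of a cusp. -/
def intVec (a : OnePoint ℚ) : ℤ × ℤ := a.elim (1, 0) (fun t => (t.num, (t.den : ℤ)))

/-- Cast of an integer vector. -/
def castZ (p : ℤ × ℤ) : Fin 2 → ℚ := ![(p.1 : ℚ), (p.2 : ℚ)]

theorem rep_intVec (a : OnePoint ℚ) : Rep a (castZ (intVec a)) := by
  cases a with
  | infty => exact ⟨1, one_ne_zero, by simp [castZ, intVec]⟩
  | coe t =>
    refine ⟨(t.den : ℚ), by exact_mod_cast t.den_ne_zero, ?_⟩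
    funext i
    fin_cases i
    · simp [castZ, intVec, Rat.den_mul_eq_num]
    · simp [castZ, intVec]

/-- The action of `SL(2, ℤ)` on integer vectors. -/
def mulZ (γ : SL(2, ℤ)) (p : ℤ × ℤ) : ℤ × ℤ :=
  (γ 0 0 * p.1 + γ 0 1 * p.2, γ 1 0 * p.1 + γ 1 1 * p.2)

theorem castZ_mulZ (γ : SL(2, ℤ)) (p : ℤ × ℤ) :
    castZ (mulZ γ p) = (Matrix.SpecialLinearGroup.mapGL ℚ γ).1 *ᵥ castZ p := by
  funext i
  fin_cases i <;> simp [castZ, mulZ, Matrix.mulVec_fin_two]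

theorem det_mulZ (γ : SL(2, ℤ)) (p q : ℤ × ℤ) :
    (mulZ γ p).1 * (mulZ γ q).2 - (mulZ γ p).2 * (mulZ γ q).1 = p.1 * q.2 - p.2 * q.1 := by
  have h := γ.det_coe
  rw [Matrix.det_fin_two] at h
  simp only [mulZ]
  linear_combination (p.1 * q.2 - p.2 * q.1) * h

/-- The cusp of an integer vector. -/
def cuspZ (p : ℤ × ℤ) : OnePoint ℚ := if p.2 = 0 then ∞ else (((p.1 : ℚ) / (p.2 : ℚ) : ℚ) : OnePoint ℚ)

theorem Rep.cuspZ_eq {a : OnePoint ℚ} {p : ℤ × ℤ} (h : Rep a (castZ p)) : cuspZ p = a := by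
  obtain ⟨s, hs, h⟩ := h
  have h0 := congrFun h 0
  have h1 := congrFun h 1
  cases a with
  | infty =>
    simp [castZ] at h0 h1
    simp [cuspZ, h1]
  | coe t =>
    simp [castZ] at h0 h1
    have : p.2 ≠ 0 := by
      intro h2
      rw [h2] at h1
      simp at h1
      exact hs h1.symm
    simp only [cuspZ, this, if_false]
    congr 1
    rw [h0, h1]
    field_simp

theorem sideR_castZ (p q : ℤ × ℤ) (z : ℂ) :
    sideR (castV (castZ p)) (castV (castZ q)) z =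
      ((p.1 * q.2 - p.2 * q.1 : ℤ) : ℝ) *
        ((p.2 * z.re - p.1) * (q.2 * z.re - q.1) + p.2 * q.2 * z.im ^ 2) := by
  simp [sideR, castV, castZ]

/-- **Finiteness of crossings**: the orbit weight of an edge is tame. -/
theorem tame_orbS (Γ : Subgroup SL(2, ℤ)) (e₀ : Pair) (z z' : ℍ) :
    {e : Pair | e ∈ orbS Γ e₀ ∧ R e.1 e.2 z ≠ R e.1 e.2 z'}.Finite := by
  set D : ℤ := (intVec e₀.1).1 * (intVec e₀.2).2 - (intVec e₀.1).2 * (intVec e₀.2).1 with hD
  have hfin := helper9161.crossing_finite (z : ℂ) (z' : ℂ) z.im_pos z'.im_pos D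
  refine (hfin.image (fun p : (ℤ × ℤ) × (ℤ × ℤ) => (cuspZ p.1, cuspZ p.2))).subset ?_
  rintro e ⟨⟨γ, hγ, rfl⟩, hne⟩
  have ha : Rep (Matrix.SpecialLinearGroup.mapGL ℚ γ • e₀.1) (castZ (mulZ γ (intVec e₀.1))) := by
    rw [castZ_mulZ]
    exact (rep_intVec e₀.1).smul _
  have hb : Rep (Matrix.SpecialLinearGroup.mapGL ℚ γ • e₀.2) (castZ (mulZ γ (intVec e₀.2))) := by
    rw [castZ_mulZ]
    exact (rep_intVec e₀.2).smul _
  refine ⟨(mulZ γ (intVec e₀.1), mulZ γ (intVec e₀.2)), ⟨det_mulZ γ _ _, ?_⟩, ?_⟩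
  · intro hiff
    apply hne
    rw [Prod.smul_fst, Prod.smul_snd, ha.R_eq hb, ha.R_eq hb, sideR_castZ, sideR_castZ, det_mulZ,
      ← hD]
    simp only [hiff]
  · show (cuspZ _, cuspZ _) = _
    rw [ha.cuspZ_eq, hb.cuspZ_eq]
    rfl

theorem tame_orbW (Γ : Subgroup SL(2, ℤ)) (e₀ : Pair) : Tame (orbW Γ e₀) := by
  intro z z'
  refine (tame_orbS Γ e₀ z z').subset ?_
  rintro e ⟨he1, he2⟩
  exact ⟨(orbW_ne_zero_iff Γ e₀ e).mp he1, he2⟩

theorem cross_orbW (Γ : Subgroup SL(2, ℤ)) (e₀ : Pair) (z z' : ℍ) :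
    cross (orbW Γ e₀) z z' = ∑ᶠ e ∈ orbS Γ e₀, cr e z z' := by
  unfold cross
  rw [finsum_mem_def]
  refine finsum_congr fun e => ?_
  unfold orbW
  by_cases h : e ∈ orbS Γ e₀
  · rw [if_pos h, Set.indicator_of_mem h, one_mul]
  · rw [if_neg h, Set.indicator_of_notMem h, zero_mul]

/-! ### The crossing homomorphism of a pair of cusps -/

/-- **The crossing map**: `Theta Γ a b γ` is the signed number of `Γ`-translates of the oriented
geodesic `a → b` separating `i` from `γ • i`. -/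
noncomputable def Theta (Γ : Subgroup SL(2, ℤ)) (a b : OnePoint ℚ) : Additive Γ →+ ℤ :=
  thetaW Γ (orbW Γ (a, b)) (tame_orbW Γ (a, b)) (orbW_inv Γ (a, b))

theorem Theta_apply_base (Γ : Subgroup SL(2, ℤ)) (a b : OnePoint ℚ) (γ : Γ) (z : ℍ) :
    Theta Γ a b (Additive.ofMul γ) =
      ∑ᶠ e ∈ orbS Γ (a, b), (R e.1 e.2 ((γ : SL(2, ℤ)) • z) - R e.1 e.2 z) := by
  unfold Theta
  rw [thetaW_apply_base _ _ _ _ γ z, cross_orbW]
  rfl

theorem Theta_apply (Γ : Subgroup SL(2, ℤ)) (a b : OnePoint ℚ) (γ : Γ) :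
    Theta Γ a b (Additive.ofMul γ) =
      ∑ᶠ e ∈ orbS Γ (a, b), (R e.1 e.2 ((γ : SL(2, ℤ)) • UpperHalfPlane.I) -
        R e.1 e.2 UpperHalfPlane.I) :=
  Theta_apply_base Γ a b γ _

/-- **Invariance** of the crossing map under `Γ`. -/
theorem Theta_smul (Γ : Subgroup SL(2, ℤ)) {γ : SL(2, ℤ)} (hγ : γ ∈ Γ) (a b : OnePoint ℚ) :
    Theta Γ (Matrix.SpecialLinearGroup.mapGL ℚ γ • a) (Matrix.SpecialLinearGroup.mapGL ℚ γ • b) =
      Theta Γ a b := by
  unfold Theta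
  apply thetaW_congr
  have : ((Matrix.SpecialLinearGroup.mapGL ℚ γ • a, Matrix.SpecialLinearGroup.mapGL ℚ γ • b) : Pair)
      = Matrix.SpecialLinearGroup.mapGL ℚ γ • ((a, b) : Pair) := rfl
  unfold orbW
  rw [this, orbS_smul Γ _ hγ]

end Fermat.Agent.S41.helper6553
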