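/-
S41 (level raising), module B (crossing map Theta), delegated sub-lemma D6 of helper6553
(team_s41_chat #148): for a triple of cusps `(a, b, c)` with `a ≠ b`, `b ≠ c`, the "triangle
defect" `R a b z + R b c z - R a c z` of the translates `γ • (a, b, c)`, `γ ∈ Γ`, equals a constant
`κ` for all but finitely many translates (for every base point `z`).
-/
import Mathlib
import Fermat.Agent.S41.helper6553_Crossing
import Fermat.Agent.S41.helper616_SignLemma
import Fermat.Agent.S41.helper6493_TriangleFinite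

set_option autoImplicit false

namespace Fermat.Agent.S41.helper6493

open scoped MatrixGroups
open Matrix.SpecialLinearGroup (mapGL)
open OnePoint UpperHalfPlane
open Fermat.Agent.S41.helper6553

/-- The determinant of the integer vectors of two distinct cusps is nonzero. -/
theorem det_intVec_ne_zero (a b : OnePoint ℚ) (hab : a ≠ b) :
    (intVec a).1 * (intVec b).2 - (intVec a).2 * (intVec b).1 ≠ 0 := by
  cases a with
  | infty =>
    cases b with
    | infty => exact absurd rfl hab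
    | coe t =>
      simp [intVec]
  | coe s =>
    cases b with
    | infty =>
      simp [intVec]
    | coe t =>
      have hst : s ≠ t := fun h => hab (by rw [h])
      intro h
      apply hst
      rw [Rat.eq_iff_mul_eq_mul]
      simp only [intVec, OnePoint.elim_some] at h
      linarith

/-- The `R`-value of a pair of cusps represented by integer vectors, in terms of `PP`, `QQ`. -/
theorem R_eq_of_rep {a b : OnePoint ℚ} {u v : ℤ × ℤ} (ha : Rep a (castZ u)) (hb : Rep b (castZ v))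
    (z : ℍ) : R a b z = if 0 < PP u v z.re z.im * QQ u v z.im then 1 else 0 := by
  rw [ha.R_eq hb, sideR_castZ]
  have hy : 0 < z.im := z.im_pos
  have e : (((u.1 * v.2 - u.2 * v.1 : ℤ) : ℝ)) *
      (((u.2 : ℝ) * (z : ℂ).re - u.1) * ((v.2 : ℝ) * (z : ℂ).re - v.1) +
        (u.2 : ℝ) * v.2 * (z : ℂ).im ^ 2) * z.im = PP u v z.re z.im * QQ u v z.im := by
    simp only [PP, QQ, UpperHalfPlane.coe_re, UpperHalfPlane.coe_im]
    push_cast
    ring
  congr 1
  apply propext
  rw [← e]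
  constructor
  · intro h; exact mul_pos h hy
  · intro h
    by_contra hn
    have := mul_nonpos_of_nonpos_of_nonneg (not_lt.mp hn) hy.le
    linarith

/-- **D6** (helper6553, team_s41_chat #148). -/
theorem triple_defect_finite (Γ : Subgroup SL(2, ℤ)) (a b c : OnePoint ℚ) (hab : a ≠ b)
    (hbc : b ≠ c) :
    ∃ κ : ℤ, ∀ z : ℍ, {t : OnePoint ℚ × OnePoint ℚ × OnePoint ℚ |
      (∃ γ ∈ Γ, t = (mapGL ℚ γ • a, mapGL ℚ γ • b, mapGL ℚ γ • c)) ∧
        R t.1 t.2.1 z + R t.2.1 t.2.2 z - R t.1 t.2.2 z ≠ κ}.Finite := by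
  set u := intVec a with hu
  set v := intVec b with hv
  set w := intVec c with hw
  set D1 : ℤ := u.1 * v.2 - u.2 * v.1 with hD1
  set D2 : ℤ := v.1 * w.2 - v.2 * w.1 with hD2
  set D3 : ℤ := u.1 * w.2 - u.2 * w.1 with hD3
  have hD1ne : D1 ≠ 0 := det_intVec_ne_zero a b hab
  have hD2ne : D2 ≠ 0 := det_intVec_ne_zero b c hbc
  refine ⟨if 0 ≤ D1 * D2 * D3 then 1 else 0, fun z => ?_⟩
  have hy : 0 < z.im := z.im_pos
  have hfin := triangle_finite z.re z.im hy D1 D2 D3 hD1ne hD2ne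
  refine (hfin.image (fun p : (ℤ × ℤ) × (ℤ × ℤ) × (ℤ × ℤ) =>
    (cuspZ p.1, cuspZ p.2.1, cuspZ p.2.2))).subset ?_
  rintro t ⟨⟨γ, -, rfl⟩, hne⟩
  set u' := mulZ γ u with hu'
  set v' := mulZ γ v with hv'
  set w' := mulZ γ w with hw'
  have ha : Rep (mapGL ℚ γ • a) (castZ u') := by
    rw [hu', castZ_mulZ]; exact (rep_intVec a).smul _
  have hb : Rep (mapGL ℚ γ • b) (castZ v') := by
    rw [hv', castZ_mulZ]; exact (rep_intVec b).smul _
  have hc : Rep (mapGL ℚ γ • c) (castZ w') := by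
    rw [hw', castZ_mulZ]; exact (rep_intVec c).smul _
  have hd1 : u'.1 * v'.2 - u'.2 * v'.1 = D1 := det_mulZ γ u v
  have hd2 : v'.1 * w'.2 - v'.2 * w'.1 = D2 := det_mulZ γ v w
  have hd3 : u'.1 * w'.2 - u'.2 * w'.1 = D3 := det_mulZ γ u w
  refine ⟨(u', v', w'), ⟨hd1, hd2, hd3, ?_⟩, ?_⟩
  · -- if two of the three pairs are bad, the defect equals κ
    intro hbad
    apply hne
    show R (mapGL ℚ γ • a) (mapGL ℚ γ • b) z + R (mapGL ℚ γ • b) (mapGL ℚ γ • c) z -
      R (mapGL ℚ γ • a) (mapGL ℚ γ • c) z = _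
    rw [R_eq_of_rep ha hb, R_eq_of_rep hb hc, R_eq_of_rep ha hc]
    set x := z.re with hx
    set y := z.im with hy'
    set P1 := PP u' v' x y with hP1
    set Q1 := QQ u' v' y with hQ1
    set P2 := PP v' w' x y with hP2
    set Q2 := QQ v' w' y with hQ2
    set P3 := PP u' w' x y with hP3
    set Q3 := QQ u' w' y with hQ3
    set n := nn v' x y with hn
    have hnpos : 0 < n := by
      have hv'0 : v' ≠ 0 := by
        intro h0
        apply hD1ne
        rw [← hd1, h0]; simp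
      have := nn_lower v' hv'0 x y
      have hm : 0 < min 1 (y ^ 2) := lt_min one_pos (by positivity)
      linarith
    have e1 : P1 * P2 - Q1 * Q2 = n * P3 := by
      simp only [hP1, hP2, hQ1, hQ2, hP3, hn, PP, QQ, nn]; ring
    have e2 : P1 * Q2 + Q1 * P2 = n * Q3 := by
      simp only [hP1, hP2, hQ1, hQ2, hQ3, hn, PP, QQ, nn]; ring
    have hQ1v : Q1 = y * (D1 : ℝ) := by
      rw [hQ1, ← hd1]; simp only [QQ]; push_cast; ring
    have hQ2v : Q2 = y * (D2 : ℝ) := by
      rw [hQ2, ← hd2]; simp only [QQ]; push_cast; ring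
    have hQ3v : Q3 = y * (D3 : ℝ) := by
      rw [hQ3, ← hd3]; simp only [QQ]; push_cast; ring
    have hQ1ne : Q1 ≠ 0 := by
      rw [hQ1v]; exact mul_ne_zero hy.ne' (by exact_mod_cast hD1ne)
    have hQ2ne : Q2 ≠ 0 := by
      rw [hQ2v]; exact mul_ne_zero hy.ne' (by exact_mod_cast hD2ne)
    have hn2 : 0 < n ^ 2 := by positivity
    have hbad' : (Q1 ^ 2 < P1 ^ 2 ∧ Q2 ^ 2 < P2 ^ 2) ∨
        (Q1 ^ 2 < P1 ^ 2 ∧ (P1 * Q2 + Q1 * P2) ^ 2 < (P1 * P2 - Q1 * Q2) ^ 2) ∨
        (Q2 ^ 2 < P2 ^ 2 ∧ (P1 * Q2 + Q1 * P2) ^ 2 < (P1 * P2 - Q1 * Q2) ^ 2) := by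
      have h3 : Q3 ^ 2 < P3 ^ 2 → (P1 * Q2 + Q1 * P2) ^ 2 < (P1 * P2 - Q1 * Q2) ^ 2 := by
        intro h
        rw [e1, e2, mul_pow, mul_pow]
        exact mul_lt_mul_of_pos_left h hn2
      rcases hbad with ⟨h1, h2⟩ | ⟨h1, h2⟩ | ⟨h1, h2⟩
      · exact Or.inl ⟨h1, h2⟩
      · exact Or.inr (Or.inl ⟨h1, h3 h2⟩)
      · exact Or.inr (Or.inr ⟨h1, h3 h2⟩)
    have hs := helper616.sign_lemma P1 Q1 P2 Q2 hQ1ne hQ2ne hbad'
    -- third indicator
    have h3iff : (0 < (P1 * P2 - Q1 * Q2) * (P1 * Q2 + Q1 * P2)) ↔ (0 < P3 * Q3) := by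
      rw [e1, e2]
      have : n * P3 * (n * Q3) = n ^ 2 * (P3 * Q3) := by ring
      rw [this]
      constructor
      · intro h
        by_contra hc'
        have := mul_nonpos_of_nonneg_of_nonpos hn2.le (not_lt.mp hc')
        linarith
      · intro h; exact mul_pos hn2 h
    -- right-hand side
    have hκiff : (0 ≤ Q1 * Q2 * (P1 * Q2 + Q1 * P2)) ↔ (0 ≤ D1 * D2 * D3) := by
      rw [e2, hQ1v, hQ2v, hQ3v]
      have : y * (D1 : ℝ) * (y * (D2 : ℝ)) * (n * (y * (D3 : ℝ))) =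
          (y ^ 3 * n) * (((D1 * D2 * D3 : ℤ)) : ℝ) := by push_cast; ring
      rw [this]
      have hpos : 0 < y ^ 3 * n := by positivity
      constructor
      · intro h
        by_contra hc'
        have hlt : ((D1 * D2 * D3 : ℤ) : ℝ) < 0 := by exact_mod_cast not_le.mp hc'
        have := mul_neg_of_pos_of_neg hpos hlt
        linarith
      · intro h
        have : (0 : ℝ) ≤ ((D1 * D2 * D3 : ℤ) : ℝ) := by exact_mod_cast h
        exact mul_nonneg hpos.le this
    simp only [h3iff, hκiff] at hs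
    exact hs
  · show (cuspZ u', cuspZ v', cuspZ w') = _
    rw [ha.cuspZ_eq, hb.cuspZ_eq, hc.cuspZ_eq]

end Fermat.Agent.S41.helper6493
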