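/-
helper6553 — S41 module B: relations of the crossing map.

* `thetaW_sys_apply`, `inv_transfer`, `tame_transfer` : coset systems (`a i * γ = g i * a (σ i)`)
  act on crossing homomorphisms through the transferred weight `e ↦ ∑ i, w (a i • e)`.
* `Theta_sys_apply` : the same for the crossing map of a pair of cusps, given the coset count.
* `Theta_self`, `Theta_add` (three-term relation), `Theta_swap`.
-/
import Mathlib
import Fermat.Agent.S41.helper6553_Crossing
import Fermat.Agent.S41.helper5755_StabPair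
import Fermat.Agent.S41.helper6493_TripleDefect

set_option autoImplicit false

namespace Fermat.Agent.S41.helper6553

open scoped MatrixGroups
open OnePoint UpperHalfPlane Matrix
open Matrix.SpecialLinearGroup (mapGL)

/-! ### The abstract coset-system theorem -/

theorem toR_injective : Function.Injective toR := by
  intro g h hgh
  apply Matrix.GeneralLinearGroup.ext
  intro i j
  have := congrArg (fun m : GL (Fin 2) ℝ => m i j) hgh
  simpa using this

/-- **Coset systems and the crossing map** (one group element).  If `a i * γ = g i * a (σ i)` with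
`g i ∈ Γ'`, then `∑ i, thetaW Γ' w (g i)` is the crossing number of the transferred weight
`e ↦ ∑ i, w (a i • e)` between `i` and `γ • i`. -/
theorem thetaW_sys_apply {Γ' : Subgroup SL(2, ℤ)} {ι : Type*} [Fintype ι]
    (a : ι → GL (Fin 2) ℚ) (ha : ∀ i, 0 < (a i).det.val) {w : Pair → ℤ} (hw : Tame w)
    (hinv : Inv Γ' w) (γ : SL(2, ℤ)) (σ : ι ≃ ι) (g : ι → Γ')
    (rel : ∀ i, a i * mapGL ℚ γ = mapGL ℚ (g i : SL(2, ℤ)) * a (σ i)) :
    ∑ i, thetaW Γ' w hw hinv (Additive.ofMul (g i)) =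
      cross (fun e => ∑ i, w (a i • e)) (γ • UpperHalfPlane.I) UpperHalfPlane.I := by
  have key : ∀ i, thetaW Γ' w hw hinv (Additive.ofMul (g i)) =
      cross (fun e => w (a i • e)) (γ • UpperHalfPlane.I) UpperHalfPlane.I +
        (cross w (toR (a i) • UpperHalfPlane.I) UpperHalfPlane.I -
          cross w (toR (a (σ i)) • UpperHalfPlane.I) UpperHalfPlane.I) := by
    intro i
    rw [thetaW_apply_base Γ' w hw hinv (g i) (toR (a (σ i)) • UpperHalfPlane.I)]
    have e1 : (((g i : Γ') : SL(2, ℤ)) • toR (a (σ i)) • UpperHalfPlane.I : ℍ) =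
        toR (a i) • γ • UpperHalfPlane.I := by
      rw [← toR_mapGL_smul, ← toR_mapGL_smul γ, ← mul_smul, ← mul_smul, ← map_mul, ← map_mul,
        rel i]
    rw [e1]
    have h1 := cross_add_cross hw (toR (a i) • γ • UpperHalfPlane.I) (toR (a i) • UpperHalfPlane.I)
      (toR (a (σ i)) • UpperHalfPlane.I)
    have h2 := cross_add_cross hw (toR (a i) • UpperHalfPlane.I) UpperHalfPlane.I
      (toR (a (σ i)) • UpperHalfPlane.I)
    have h3 := cross_symm hw (toR (a (σ i)) • UpperHalfPlane.I) UpperHalfPlane.I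
    have h4 := cross_smul w (a i) (ha i) (γ • UpperHalfPlane.I) UpperHalfPlane.I
    linarith
  rw [Finset.sum_congr rfl (fun i _ => key i), Finset.sum_add_distrib, Finset.sum_sub_distrib,
    Equiv.sum_comp σ (fun i => cross w (toR (a i) • UpperHalfPlane.I) UpperHalfPlane.I), sub_self,
    add_zero, cross_sum Finset.univ (fun i e => w (a i • e)) (fun i _ => hw.comp_smul (a i) (ha i))]

/-- The transferred weight of a coset system is invariant. -/
theorem inv_transfer {Γ Γ' : Subgroup SL(2, ℤ)} {ι : Type*} [Fintype ι]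
    (a : ι → GL (Fin 2) ℚ) {w : Pair → ℤ} (hinv : Inv Γ' w)
    (hrel : ∀ γ ∈ Γ, ∃ (σ : ι ≃ ι) (g : ι → Γ'),
      ∀ i, a i * mapGL ℚ γ = mapGL ℚ (g i : SL(2, ℤ)) * a (σ i)) :
    Inv Γ (fun e => ∑ i, w (a i • e)) := by
  intro γ hγ e
  obtain ⟨σ, g, rel⟩ := hrel γ hγ
  show ∑ i, w (a i • mapGL ℚ γ • e) = ∑ i, w (a i • e)
  rw [← Equiv.sum_comp σ (fun i => w (a i • e))]
  refine Finset.sum_congr rfl fun i _ => ?_
  rw [← mul_smul, rel i, mul_smul]
  exact hinv _ (g i).2 _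

theorem tame_transfer {ι : Type*} [Fintype ι] (a : ι → GL (Fin 2) ℚ)
    (ha : ∀ i, 0 < (a i).det.val) {w : Pair → ℤ} (hw : Tame w) :
    Tame (fun e => ∑ i, w (a i • e)) :=
  Tame.sum Finset.univ (fun i e => w (a i • e)) (fun i _ => hw.comp_smul (a i) (ha i))


open Classical in
/-- **Coset systems and the crossing map of a pair of cusps.**  If the transferred weight of the
orbit weight of `(x, y)` is the sum of the orbit weights of the `b j • (x, y)` (a counting
statement on cosets), then `∑ i, Theta Γ' x y (g i) = ∑ j, Theta Γ (b j • x) (b j • y) γ`. -/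
theorem Theta_sys_apply {Γ Γ' : Subgroup SL(2, ℤ)} {ι κ : Type*} [Fintype ι] [Fintype κ]
    (a : ι → GL (Fin 2) ℚ) (ha : ∀ i, 0 < (a i).det.val) (b : κ → GL (Fin 2) ℚ) (x y : OnePoint ℚ)
    (hcount : ∀ e : Pair, (Finset.univ.filter fun i => a i • e ∈ orbS Γ' (x, y)).card =
      (Finset.univ.filter fun j => e ∈ orbS Γ (b j • ((x, y) : Pair))).card)
    (γ : Γ) (σ : ι ≃ ι) (g : ι → Γ')
    (rel : ∀ i, a i * mapGL ℚ (γ : SL(2, ℤ)) = mapGL ℚ (g i : SL(2, ℤ)) * a (σ i)) :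
    ∑ i, Theta Γ' x y (Additive.ofMul (g i)) =
      ∑ j, Theta Γ (b j • x) (b j • y) (Additive.ofMul γ) := by
  unfold Theta
  rw [thetaW_sys_apply a ha (tame_orbW Γ' (x, y)) (orbW_inv Γ' (x, y)) (γ : SL(2, ℤ)) σ g rel]
  have hw : (fun e => ∑ i, orbW Γ' (x, y) (a i • e)) =
      fun e => ∑ j, orbW Γ (b j • ((x, y) : Pair)) e := by
    funext e
    have h1 : ∑ i, orbW Γ' (x, y) (a i • e) =
        ((Finset.univ.filter fun i => a i • e ∈ orbS Γ' (x, y)).card : ℤ) := by
      unfold orbW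
      rw [Finset.sum_ite, Finset.sum_const_zero, add_zero, Finset.sum_const, nsmul_eq_mul, mul_one]
    have h2 : ∑ j, orbW Γ (b j • ((x, y) : Pair)) e =
        ((Finset.univ.filter fun j => e ∈ orbS Γ (b j • ((x, y) : Pair))).card : ℤ) := by
      unfold orbW
      rw [Finset.sum_ite, Finset.sum_const_zero, add_zero, Finset.sum_const, nsmul_eq_mul, mul_one]
    rw [h1, h2, hcount e]
  rw [hw, cross_sum Finset.univ (fun j e => orbW Γ (b j • ((x, y) : Pair)) e)
    (fun j _ => tame_orbW Γ _)]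
  rfl

/-! ### The three-term relation -/

theorem R_self (x : OnePoint ℚ) (z : ℍ) : R x x z = 0 := by
  have h : side x x z = 0 := by
    unfold side sideR
    ring
  unfold R
  rw [h, if_neg (lt_irrefl _)]

theorem finsum_mem_three {α : Type*} {s : Set α} {f g h : α → ℤ}
    (hf : (s ∩ Function.support f).Finite) (hg : (s ∩ Function.support g).Finite)
    (hh : (s ∩ Function.support h).Finite) :
    ∑ᶠ i ∈ s, f i + ∑ᶠ i ∈ s, g i - ∑ᶠ i ∈ s, h i = ∑ᶠ i ∈ s, (f i + g i - h i) := by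
  rw [← Set.support_indicator] at hf hg hh
  rw [finsum_mem_def, finsum_mem_def, finsum_mem_def, finsum_mem_def, ← finsum_add_distrib hf hg,
    ← finsum_sub_distrib ((hf.union hg).subset (Function.support_add _ _)) hh]
  refine finsum_congr fun i => ?_
  by_cases hi : i ∈ s
  · simp [hi]
  · simp [hi]

theorem finsum_mem_two {α : Type*} {s : Set α} {f g : α → ℤ}
    (hf : (s ∩ Function.support f).Finite) (hg : (s ∩ Function.support g).Finite) :
    ∑ᶠ i ∈ s, f i - ∑ᶠ i ∈ s, g i = ∑ᶠ i ∈ s, (f i - g i) := by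
  rw [← Set.support_indicator] at hf hg
  rw [finsum_mem_def, finsum_mem_def, finsum_mem_def, ← finsum_sub_distrib hf hg]
  refine finsum_congr fun i => ?_
  by_cases hi : i ∈ s
  · simp [hi]
  · simp [hi]

theorem cr_eq_zero_of_eq {e : Pair} (h : e.1 = e.2) (z z' : ℍ) : cr e z z' = 0 := by
  unfold cr
  rw [h, R_self, R_self, sub_zero]

theorem Theta_self (Γ : Subgroup SL(2, ℤ)) (x : OnePoint ℚ) : Theta Γ x x = 0 := by
  refine AddMonoidHom.ext fun γ => ?_
  obtain ⟨γ, rfl⟩ := Additive.ofMul.surjective γ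
  rw [Theta_apply, AddMonoidHom.zero_apply]
  apply finsum_mem_eq_zero_of_forall_eq_zero
  rintro e ⟨δ, -, rfl⟩
  exact cr_eq_zero_of_eq rfl _ _

/-- Triples of cusps. -/
abbrev Triple : Type := OnePoint ℚ × OnePoint ℚ × OnePoint ℚ

/-- The `Γ`-orbit of a triple of cusps. -/
def orb3 (Γ : Subgroup SL(2, ℤ)) (t₀ : Triple) : Set Triple :=
  {t | ∃ γ ∈ Γ, t = mapGL ℚ γ • t₀}

theorem smul_mem_orb3 (Γ : Subgroup SL(2, ℤ)) (t₀ t : Triple) {γ : SL(2, ℤ)} (hγ : γ ∈ Γ)
    (ht : t ∈ orb3 Γ t₀) : mapGL ℚ γ • t ∈ orb3 Γ t₀ := by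
  obtain ⟨δ, hδ, rfl⟩ := ht
  exact ⟨γ * δ, Γ.mul_mem hγ hδ, by rw [map_mul, mul_smul]⟩

/-- The stabiliser hypothesis: an element of `SL(2, ℤ)` fixing two distinct cusps acts trivially. -/
def StabTrivial : Prop :=
  ∀ (γ : SL(2, ℤ)) (a b : OnePoint ℚ), a ≠ b → mapGL ℚ γ • a = a → mapGL ℚ γ • b = b →
    ∀ c : OnePoint ℚ, mapGL ℚ γ • c = c

/-- Projecting the orbit of a triple to the orbit of a pair. -/
theorem proj_facts (hstab : StabTrivial) (Γ : Subgroup SL(2, ℤ)) (t₀ : Triple) (π : Triple → Pair)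
    (hπ : ∀ (g : GL (Fin 2) ℚ) (t : Triple), π (g • t) = g • π t) (z z' : ℍ) :
    (∑ᶠ e ∈ orbS Γ (π t₀), cr e z z' = ∑ᶠ t ∈ orb3 Γ t₀, cr (π t) z z') ∧
      (orb3 Γ t₀ ∩ Function.support fun t => cr (π t) z z').Finite := by
  by_cases hd : (π t₀).1 = (π t₀).2
  · have h0 : ∀ t ∈ orb3 Γ t₀, cr (π t) z z' = 0 := by
      rintro t ⟨γ, -, rfl⟩
      apply cr_eq_zero_of_eq
      rw [hπ, Prod.smul_fst, Prod.smul_snd, hd]
    constructor
    · rw [finsum_mem_eq_zero_of_forall_eq_zero h0]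
      apply finsum_mem_eq_zero_of_forall_eq_zero
      rintro e ⟨γ, -, rfl⟩
      apply cr_eq_zero_of_eq
      rw [Prod.smul_fst, Prod.smul_snd, hd]
    · convert Set.finite_empty
      ext t
      simp only [Set.mem_inter_iff, Function.mem_support, Set.mem_empty_iff_false, iff_false,
        not_and, not_not]
      exact h0 t
  · have hinj : (orb3 Γ t₀).InjOn π := by
      rintro t ⟨γ, hγ, rfl⟩ t' ⟨γ', hγ', rfl⟩ h
      rw [hπ, hπ] at h
      have h2 : mapGL ℚ (γ⁻¹ * γ') • π t₀ = π t₀ := by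
        rw [map_mul, mul_smul, ← h, map_inv, inv_smul_smul]
      have h3 := hstab (γ⁻¹ * γ') (π t₀).1 (π t₀).2 hd (congrArg Prod.fst h2) (congrArg Prod.snd h2)
      have h4 : mapGL ℚ (γ⁻¹ * γ') • t₀ = t₀ := by
        rw [Prod.ext_iff, Prod.ext_iff]
        exact ⟨h3 _, h3 _, h3 _⟩
      rw [map_mul, mul_smul, map_inv, inv_smul_eq_iff] at h4
      exact h4.symm
    have himg : orbS Γ (π t₀) = π '' orb3 Γ t₀ := by
      ext e
      constructor
      · rintro ⟨γ, hγ, rfl⟩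
        exact ⟨mapGL ℚ γ • t₀, ⟨γ, hγ, rfl⟩, hπ _ _⟩
      · rintro ⟨t, ⟨γ, hγ, rfl⟩, rfl⟩
        exact ⟨γ, hγ, hπ _ _⟩
    constructor
    · rw [himg, finsum_mem_image hinj]
    · apply Set.Finite.of_finite_image _ (hinj.mono Set.inter_subset_left)
      refine (tame_orbS Γ (π t₀) z z').subset ?_
      rintro e ⟨t, ⟨ht, hsupp⟩, rfl⟩
      refine ⟨?_, (cr_ne_zero_iff _ _ _).mp hsupp⟩
      rw [himg]
      exact ⟨t, ht, rfl⟩

/-- The defect function of a triple: `R a b + R b c - R a c`. -/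
noncomputable def tau (t : Triple) (z : ℍ) : ℤ :=
  R t.1 t.2.1 z + R t.2.1 t.2.2 z - R t.1 t.2.2 z

theorem tau_smul (g : GL (Fin 2) ℚ) (hg : 0 < g.det.val) (t : Triple) (z : ℍ) :
    tau (g • t) (toR g • z) = tau t z := by
  unfold tau
  simp only [Prod.smul_fst, Prod.smul_snd, R_smul g hg]

/-- The three-term relation for crossing numbers, on the level of orbit sums. -/
theorem cross_three (hstab : StabTrivial) (Γ : Subgroup SL(2, ℤ)) (a b c : OnePoint ℚ)
    (z z' : ℍ) :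
    cross (orbW Γ (a, b)) z z' + cross (orbW Γ (b, c)) z z' - cross (orbW Γ (a, c)) z z' =
      ∑ᶠ t ∈ orb3 Γ (a, b, c), (tau t z - tau t z') := by
  obtain ⟨h12, f12⟩ := proj_facts hstab Γ (a, b, c) (fun t => (t.1, t.2.1))
    (fun g t => rfl) z z'
  obtain ⟨h23, f23⟩ := proj_facts hstab Γ (a, b, c) (fun t => (t.2.1, t.2.2))
    (fun g t => rfl) z z'
  obtain ⟨h13, f13⟩ := proj_facts hstab Γ (a, b, c) (fun t => (t.1, t.2.2))
    (fun g t => rfl) z z'
  rw [cross_orbW, cross_orbW, cross_orbW]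
  change (∑ᶠ e ∈ orbS Γ (a, b), cr e z z') + (∑ᶠ e ∈ orbS Γ (b, c), cr e z z') -
    (∑ᶠ e ∈ orbS Γ (a, c), cr e z z') = _ at *
  rw [h12, h23, h13, finsum_mem_three f12 f23 f13]
  refine finsum_mem_congr rfl fun t _ => ?_
  unfold tau cr
  ring


/-- The three-term relation, from the stabiliser lemma and the finiteness of triangle defects. -/
theorem Theta_add_of (hstab : StabTrivial) (Γ : Subgroup SL(2, ℤ)) (a b c : OnePoint ℚ)
    (hfin : ∃ κ : ℤ, ∀ z : ℍ, {t : Triple | t ∈ orb3 Γ (a, b, c) ∧ tau t z ≠ κ}.Finite) :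
    Theta Γ a b + Theta Γ b c = Theta Γ a c := by
  obtain ⟨κ, hκ⟩ := hfin
  refine AddMonoidHom.ext fun γ => ?_
  obtain ⟨γ, rfl⟩ := Additive.ofMul.surjective γ
  rw [AddMonoidHom.add_apply]
  unfold Theta
  rw [thetaW_apply, thetaW_apply, thetaW_apply]
  have h := cross_three hstab Γ a b c ((γ : SL(2, ℤ)) • UpperHalfPlane.I) UpperHalfPlane.I
  have hJ : ∀ z : ℍ, (orb3 Γ (a, b, c) ∩ Function.support fun t => tau t z - κ).Finite := by
    intro z
    refine (hκ z).subset ?_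
    rintro t ⟨ht, hs⟩
    exact ⟨ht, sub_ne_zero.mp hs⟩
  have h2 : ∑ᶠ t ∈ orb3 Γ (a, b, c),
      (tau t ((γ : SL(2, ℤ)) • UpperHalfPlane.I) - tau t UpperHalfPlane.I) =
      ∑ᶠ t ∈ orb3 Γ (a, b, c), (tau t ((γ : SL(2, ℤ)) • UpperHalfPlane.I) - κ) -
        ∑ᶠ t ∈ orb3 Γ (a, b, c), (tau t UpperHalfPlane.I - κ) := by
    rw [finsum_mem_two (hJ _) (hJ _)]
    refine finsum_mem_congr rfl fun t _ => ?_
    ring
  have h3 : ∑ᶠ t ∈ orb3 Γ (a, b, c), (tau t UpperHalfPlane.I - κ) =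
      ∑ᶠ t ∈ orb3 Γ (a, b, c), (tau t ((γ : SL(2, ℤ)) • UpperHalfPlane.I) - κ) := by
    apply finsum_mem_eq_of_bijOn (fun t => mapGL ℚ (γ : SL(2, ℤ)) • t)
    · refine ⟨fun t ht => smul_mem_orb3 Γ _ t γ.2 ht, (MulAction.injective _).injOn, ?_⟩
      intro t ht
      refine ⟨mapGL ℚ ((γ : SL(2, ℤ))⁻¹) • t, smul_mem_orb3 Γ _ t (Γ.inv_mem γ.2) ht, ?_⟩
      show mapGL ℚ (γ : SL(2, ℤ)) • mapGL ℚ ((γ : SL(2, ℤ))⁻¹) • t = t
      rw [map_inv, smul_inv_smul]
    · intro t _
      rw [← toR_mapGL_smul, tau_smul _ (det_mapGL_pos _)]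
  linarith


theorem stabTrivial : StabTrivial := by
  intro γ a b hab ha hb c
  rcases helper5755.stab_pair γ a b hab ha hb with rfl | rfl
  · simp
  · exact helper5755.neg_one_smul_cusp c

/-- **(Θ1) The three-term relation** of the crossing map. -/
theorem Theta_add (Γ : Subgroup SL(2, ℤ)) (a b c : OnePoint ℚ) :
    Theta Γ a b + Theta Γ b c = Theta Γ a c := by
  by_cases hab : a = b
  · subst hab
    rw [Theta_self, zero_add]
  by_cases hbc : b = c
  · subst hbc
    rw [Theta_self, add_zero]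
  exact Theta_add_of stabTrivial Γ a b c (helper6493.triple_defect_finite Γ a b c hab hbc)

/-- Antisymmetry of the crossing map. -/
theorem Theta_swap (Γ : Subgroup SL(2, ℤ)) (a b : OnePoint ℚ) : Theta Γ b a = -Theta Γ a b := by
  have h := Theta_add Γ a b a
  rw [Theta_self] at h
  exact eq_neg_of_add_eq_zero_right h

end Fermat.Agent.S41.helper6553
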