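import Mathlib

open Matrix MatrixGroups Matrix.SpecialLinearGroup OnePoint

namespace Fermat.Agent.S41.helper5755

/-- An integer `w` with `t ^ 2 - 4 = w ^ 2` vanishes. -/
theorem int_sq_sub_four (t w : ℤ) (h : t ^ 2 - 4 = w ^ 2) : w = 0 := by
  have h1 : |w| < |t| := sq_lt_sq.mp (by linarith)
  have h2 : |w| ≤ 1 := by
    by_contra hc
    push Not at hc
    have h3 : |w| + 1 ≤ |t| := by omega
    nlinarith [sq_abs t, sq_abs w, abs_nonneg w]
  have h4 : -1 ≤ w ∧ w ≤ 1 := abs_le.mp h2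
  obtain ⟨h5, h6⟩ := h4
  interval_cases w
  · exfalso
    have h7 : |t| < 3 := by
      by_contra hc
      push Not at hc
      nlinarith [sq_abs t]
    have h8 := abs_lt.mp h7
    obtain ⟨h9, h10⟩ := h8
    interval_cases t <;> omega
  · rfl
  · exfalso
    have h7 : |t| < 3 := by
      by_contra hc
      push Not at hc
      nlinarith [sq_abs t]
    have h8 := abs_lt.mp h7
    obtain ⟨h9, h10⟩ := h8
    interval_cases t <;> omega

/-- A rational `w` with `w ^ 2 = t ^ 2 - 4`, `t` an integer, vanishes. -/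
theorem rat_sq_sub_four (t : ℤ) (w : ℚ) (h : w ^ 2 = (t : ℚ) ^ 2 - 4) : w = 0 := by
  have h1 : IsSquare (((t ^ 2 - 4 : ℤ)) : ℚ) := ⟨w, by push_cast; rw [← h]; ring⟩
  rw [Rat.isSquare_intCast_iff] at h1
  obtain ⟨w₀, hw₀⟩ := h1
  have h2 : w₀ = 0 := int_sq_sub_four t w₀ (by rw [hw₀]; ring)
  subst h2
  have h3 : (t : ℚ) ^ 2 - 4 = 0 := by exact_mod_cast hw₀
  rw [h3] at h
  exact pow_eq_zero_iff (two_ne_zero) |>.mp h

/-- `-1` acts trivially on the cusps. -/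
theorem neg_one_smul_cusp (c : OnePoint ℚ) : mapGL ℚ (-1 : SL(2, ℤ)) • c = c := by
  cases c with
  | infty => rw [smul_infty_eq_self_iff]; simp
  | coe k =>
    rw [smul_some_eq_ite]
    simp

/-- Fixing `∞` means the lower left entry vanishes. -/
theorem fix_infty_iff (γ : SL(2, ℤ)) :
    mapGL ℚ γ • (∞ : OnePoint ℚ) = ∞ ↔ γ 1 0 = 0 := by
  rw [smul_infty_eq_self_iff]
  simp

/-- Fixing a finite cusp `k` is the quadratic equation `r k² + (s - p) k - q = 0`. -/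
theorem fix_coe_iff (γ : SL(2, ℤ)) (k : ℚ) :
    mapGL ℚ γ • (k : OnePoint ℚ) = k ↔
      ((γ 1 0 : ℤ) : ℚ) * k ^ 2 + (((γ 1 1 : ℤ) : ℚ) - ((γ 0 0 : ℤ) : ℚ)) * k
        - ((γ 0 1 : ℤ) : ℚ) = 0 := by
  rw [← Matrix.GeneralLinearGroup.fixpointPolynomial_aeval_eq_zero_iff]
  simp [Matrix.GeneralLinearGroup.fixpointPolynomial]

/-- The determinant relation of an element of `SL(2, ℤ)`. -/
theorem sl2_det_eq (γ : SL(2, ℤ)) : γ 0 0 * γ 1 1 - γ 0 1 * γ 1 0 = 1 := by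
  have h := γ.det_coe
  rw [Matrix.det_fin_two] at h
  exact h

/-- A diagonal element of `SL(2, ℤ)` is `±1`. -/
theorem sl2_diag_eq (γ : SL(2, ℤ)) (h10 : γ 1 0 = 0) (h01 : γ 0 1 = 0) : γ = 1 ∨ γ = -1 := by
  have hdet := sl2_det_eq γ
  rw [h10, h01] at hdet
  have h1 : γ 0 0 * γ 1 1 = 1 := by linarith
  rcases Int.eq_one_or_neg_one_of_mul_eq_one' h1 with ⟨h00, h11⟩ | ⟨h00, h11⟩
  · left
    ext i j
    fin_cases i <;> fin_cases j <;> simp [h00, h11, h10, h01]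
  · right
    ext i j
    fin_cases i <;> fin_cases j <;> simp [h00, h11, h10, h01]

/-- An upper triangular element of `SL(2, ℤ)` fixing a finite cusp is `±1`. -/
theorem sl2_upper_fix (γ : SL(2, ℤ)) (h10 : γ 1 0 = 0) (k : ℚ)
    (hk : mapGL ℚ γ • (k : OnePoint ℚ) = k) : γ = 1 ∨ γ = -1 := by
  refine sl2_diag_eq γ h10 ?_
  have hdet := sl2_det_eq γ
  rw [h10] at hdet
  have h1 : γ 0 0 * γ 1 1 = 1 := by linarith
  have h2 : γ 1 1 = γ 0 0 := by
    rcases Int.eq_one_or_neg_one_of_mul_eq_one' h1 with ⟨h00, h11⟩ | ⟨h00, h11⟩ <;> omega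
  rw [fix_coe_iff, h10, h2] at hk
  have h3 : ((γ 0 1 : ℤ) : ℚ) = 0 := by
    have : ((0 : ℤ) : ℚ) = 0 := Int.cast_zero
    rw [this] at hk
    linarith
  exact_mod_cast h3

/-- An element of `SL(2, ℤ)` fixing two distinct cusps is `±1`. -/
theorem stab_pair (γ : SL(2, ℤ)) (a b : OnePoint ℚ) (hab : a ≠ b)
    (ha : mapGL ℚ γ • a = a) (hb : mapGL ℚ γ • b = b) : γ = 1 ∨ γ = -1 := by
  cases a with
  | infty =>
    cases b with
    | infty => exact absurd rfl hab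
    | coe k => exact sl2_upper_fix γ ((fix_infty_iff γ).mp ha) k hb
  | coe k =>
    cases b with
    | infty => exact sl2_upper_fix γ ((fix_infty_iff γ).mp hb) k ha
    | coe k' =>
      by_cases h10 : γ 1 0 = 0
      · exact sl2_upper_fix γ h10 k ha
      · exfalso
        have hkk : k ≠ k' := fun h => hab (by rw [h])
        have hR : ((γ 1 0 : ℤ) : ℚ) ≠ 0 := by exact_mod_cast h10
        have hdet : ((γ 0 0 : ℤ) : ℚ) * ((γ 1 1 : ℤ) : ℚ)
            - ((γ 0 1 : ℤ) : ℚ) * ((γ 1 0 : ℤ) : ℚ) = 1 := by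
          exact_mod_cast sl2_det_eq γ
        rw [fix_coe_iff] at ha hb
        have hw : ∀ x : ℚ, ((γ 1 0 : ℤ) : ℚ) * x ^ 2
            + (((γ 1 1 : ℤ) : ℚ) - ((γ 0 0 : ℤ) : ℚ)) * x - ((γ 0 1 : ℤ) : ℚ) = 0 →
            2 * ((γ 1 0 : ℤ) : ℚ) * x + (((γ 1 1 : ℤ) : ℚ) - ((γ 0 0 : ℤ) : ℚ)) = 0 := by
          intro x hx
          refine rat_sq_sub_four (γ 0 0 + γ 1 1) _ ?_
          push_cast
          linear_combination 4 * ((γ 1 0 : ℤ) : ℚ) * hx - 4 * hdet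
        have h1 := hw k ha
        have h2 := hw k' hb
        have h3 : 2 * ((γ 1 0 : ℤ) : ℚ) * (k - k') = 0 := by linear_combination h1 - h2
        rcases mul_eq_zero.mp h3 with h4 | h4
        · rcases mul_eq_zero.mp h4 with h5 | h5
          · norm_num at h5
          · exact hR h5
        · exact hkk (sub_eq_zero.mp h4)

end Fermat.Agent.S41.helper5755
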