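import Mathlib
import Fermat.Agent.S41.helper2138_LevelRaise
import Fermat.Agent.S41.helper8689_Cusps
import Fermat.Agent.S41.helper5755_StabPair
import Fermat.Agent.S41.helper6553_Crossing

/-!
# S41, module B, (Θ-deg) = T7: degeneracy maps on crossing homomorphisms

Hypothesis-passing form (ruling #30 of `team_s41_chat`).  `IsCrossing R Θ` collects exactly the
four facts about the crossing kernel `R` and the crossing map `Θ` (module B, helper6553) that the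
proof uses: invariance (T0), tameness (T1), the orbit-sum formula with an arbitrary base point,
and `Θ a a = 0`.  From these:

* `IsCrossing.conj` : conjugation by a normalising element of `GL₂(ℚ)⁺` (E1);
* `IsCrossing.cores` : transfer for a right transversal (E3);
* `IsCrossing.theta_cores`, `IsCrossing.theta_coresc` : for helper2138's `cores`, `coresc`:
  `cores (Θ (Γ₀(Nq)) a b) = Θ (Γ₀(N)) a b`,
  `coresc (Θ (Γ₀(Nq)) a b) = Θ (Γ₀(N)) (β • a) (β • b)`, `β = diagQ q = diag(q,1)`.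
-/

set_option autoImplicit false

open scoped MatrixGroups
open Matrix.SpecialLinearGroup CongruenceSubgroup UpperHalfPlane

namespace Fermat.Agent.S41.helper996

/-- `GL₂(ℚ) → GL₂(ℝ)`. -/
noncomputable abbrev toRR : GL (Fin 2) ℚ →* GL (Fin 2) ℝ :=
  Matrix.GeneralLinearGroup.map (algebraMap ℚ ℝ)

/-- The orbit of a pair of cusps under a subgroup of `SL(2,ℤ)` (acting through `mapGL ℚ`). -/
def orbP (Γ : Subgroup SL(2, ℤ)) (e₀ : OnePoint ℚ × OnePoint ℚ) :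
    Set (OnePoint ℚ × OnePoint ℚ) :=
  {e | ∃ γ ∈ Γ, e = mapGL ℚ γ • e₀}

/-- The interface of the crossing kernel `R` and the crossing map `Θ` used by (Θ-deg). -/
structure IsCrossing (R : OnePoint ℚ → OnePoint ℚ → ℍ → ℤ)
    (Θ : (Γ : Subgroup SL(2, ℤ)) → OnePoint ℚ → OnePoint ℚ → (Additive Γ →+ ℤ)) : Prop where
  smul : ∀ (g : GL (Fin 2) ℚ), 0 < g.det.val → ∀ (a b : OnePoint ℚ) (z : ℍ),
    R (g • a) (g • b) (toRR g • z) = R a b z
  tame : ∀ (Γ : Subgroup SL(2, ℤ)) (e₀ : OnePoint ℚ × OnePoint ℚ) (z z' : ℍ),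
    {e | e ∈ orbP Γ e₀ ∧ R e.1 e.2 z ≠ R e.1 e.2 z'}.Finite
  apply : ∀ (Γ : Subgroup SL(2, ℤ)) (a b : OnePoint ℚ) (γ : Γ) (z : ℍ),
    Θ Γ a b (Additive.ofMul γ) =
      ∑ᶠ e ∈ orbP Γ (a, b), (R e.1 e.2 ((γ : SL(2, ℤ)) • z) - R e.1 e.2 z)
  self : ∀ (Γ : Subgroup SL(2, ℤ)) (a : OnePoint ℚ), Θ Γ a a = 0

/-- The action of `SL(2,ℤ)` on `ℍ` factors through `GL₂(ℚ)`. -/
theorem sl_smul_eq (γ : SL(2, ℤ)) (z : ℍ) : γ • z = toRR (mapGL ℚ γ) • z := by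
  have h : toRR (mapGL ℚ γ) = mapGL ℝ γ := map_mapGL γ
  rw [h]
  rfl

theorem det_mapGL_pos (γ : SL(2, ℤ)) : 0 < (mapGL ℚ γ : GL (Fin 2) ℚ).det.val := by
  rw [det_mapGL]
  exact one_pos

/-- The crossing sum of `R` over a set of pairs, between two points. -/
noncomputable def crS (R : OnePoint ℚ → OnePoint ℚ → ℍ → ℤ) (O : Set (OnePoint ℚ × OnePoint ℚ))
    (z z' : ℍ) : ℤ :=
  ∑ᶠ e ∈ O, (R e.1 e.2 z - R e.1 e.2 z')

section Kernel

variable {R : OnePoint ℚ → OnePoint ℚ → ℍ → ℤ}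

theorem crS_self (O : Set (OnePoint ℚ × OnePoint ℚ)) (z : ℍ) : crS R O z z = 0 := by
  simp [crS]

/-- Tameness on a set of pairs. -/
def TameOn (R : OnePoint ℚ → OnePoint ℚ → ℍ → ℤ) (O : Set (OnePoint ℚ × OnePoint ℚ)) : Prop :=
  ∀ z z' : ℍ, {e | e ∈ O ∧ R e.1 e.2 z ≠ R e.1 e.2 z'}.Finite

theorem TameOn.mono {O O' : Set (OnePoint ℚ × OnePoint ℚ)} (h : TameOn R O) (hO : O' ⊆ O) :
    TameOn R O' := fun z z' =>
  (h z z').subset fun _ he => ⟨hO he.1, he.2⟩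

theorem TameOn.support_finite {O : Set (OnePoint ℚ × OnePoint ℚ)} (h : TameOn R O) (z z' : ℍ) :
    (O ∩ Function.support fun e : OnePoint ℚ × OnePoint ℚ => R e.1 e.2 z - R e.1 e.2 z').Finite :=
  (h z z').subset fun _ he => ⟨he.1, fun heq => he.2 (sub_eq_zero.mpr heq)⟩

theorem crS_add {O : Set (OnePoint ℚ × OnePoint ℚ)} (h : TameOn R O) (z₁ z₂ z₃ : ℍ) :
    crS R O z₁ z₃ = crS R O z₁ z₂ + crS R O z₂ z₃ := by
  unfold crS
  rw [← finsum_mem_add_distrib' (h.support_finite z₁ z₂) (h.support_finite z₂ z₃)]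
  refine finsum_mem_congr rfl fun e _ => ?_
  ring

theorem crS_symm {O : Set (OnePoint ℚ × OnePoint ℚ)} (h : TameOn R O) (z₁ z₂ : ℍ) :
    crS R O z₁ z₂ = - crS R O z₂ z₁ := by
  have := crS_add h z₁ z₂ z₁
  rw [crS_self] at this
  linarith

/-- Moving both points by `g ∈ GL₂(ℚ)⁺` moves the set of pairs by `g⁻¹`. -/
theorem crS_smul (hR : ∀ (g : GL (Fin 2) ℚ), 0 < g.det.val → ∀ (a b : OnePoint ℚ) (z : ℍ),
      R (g • a) (g • b) (toRR g • z) = R a b z)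
    (g : GL (Fin 2) ℚ) (hg : 0 < g.det.val) (O : Set (OnePoint ℚ × OnePoint ℚ)) (z z' : ℍ) :
    crS R O (toRR g • z) (toRR g • z') = crS R ((fun e => g⁻¹ • e) '' O) z z' := by
  unfold crS
  rw [finsum_mem_image (fun x _ y _ hxy => smul_left_cancel g⁻¹ hxy)]
  refine finsum_mem_congr rfl fun e _ => ?_
  have h1 := hR g hg (g⁻¹ • e.1) (g⁻¹ • e.2) z
  have h2 := hR g hg (g⁻¹ • e.1) (g⁻¹ • e.2) z'
  rw [smul_inv_smul, smul_inv_smul] at h1 h2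
  rw [h1, h2]
  rfl

/-- Finite disjoint unions. -/
theorem crS_iUnion {ι : Type*} [Fintype ι] (A : ι → Set (OnePoint ℚ × OnePoint ℚ))
    (hdisj : Pairwise (Function.onFun Disjoint A)) (htame : TameOn R (⋃ i, A i)) (z z' : ℍ) :
    ∑ i, crS R (A i) z z' = crS R (⋃ i, A i) z z' := by
  unfold crS
  set F : OnePoint ℚ × OnePoint ℚ → ℤ := fun e => R e.1 e.2 z - R e.1 e.2 z' with hF
  have hfin : ∀ i, (A i ∩ Function.support F).Finite := fun i =>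
    (htame.support_finite z z').subset
      (Set.inter_subset_inter_left _ (Set.subset_iUnion A i))
  have hdisj' : Pairwise (Function.onFun Disjoint fun i => A i ∩ Function.support F) :=
    fun i j hij => (hdisj hij).mono Set.inter_subset_left Set.inter_subset_left
  rw [← finsum_mem_inter_support F (⋃ i, A i), Set.iUnion_inter, finsum_mem_iUnion hdisj' hfin,
    finsum_eq_sum_of_fintype]
  exact Finset.sum_congr rfl fun i _ => (finsum_mem_inter_support F (A i)).symm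

end Kernel

section Orbits

theorem mem_orbP {Γ : Subgroup SL(2, ℤ)} {e₀ e : OnePoint ℚ × OnePoint ℚ} :
    e ∈ orbP Γ e₀ ↔ ∃ γ ∈ Γ, e = mapGL ℚ γ • e₀ := Iff.rfl

/-- The orbit does not depend on the base point inside it. -/
theorem orbP_smul (Γ : Subgroup SL(2, ℤ)) {δ : SL(2, ℤ)} (hδ : δ ∈ Γ)
    (e₀ : OnePoint ℚ × OnePoint ℚ) : orbP Γ (mapGL ℚ δ • e₀) = orbP Γ e₀ := by
  ext e
  constructor
  · rintro ⟨γ, hγ, rfl⟩
    exact ⟨γ * δ, Γ.mul_mem hγ hδ, by rw [map_mul, mul_smul]⟩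
  · rintro ⟨γ, hγ, rfl⟩
    refine ⟨γ * δ⁻¹, Γ.mul_mem hγ (Γ.inv_mem hδ), ?_⟩
    rw [← mul_smul, ← map_mul, inv_mul_cancel_right]

/-- Conjugating the orbit by a normalising element. -/
theorem image_orbP_of_norm (Γ : Subgroup SL(2, ℤ)) (w : GL (Fin 2) ℚ) (c : Γ → Γ)
    (hc : ∀ γ : Γ, w * mapGL ℚ (γ : SL(2, ℤ)) = mapGL ℚ ((c γ : Γ) : SL(2, ℤ)) * w)
    (hsurj : Function.Surjective c) (e₀ : OnePoint ℚ × OnePoint ℚ) :
    (fun e => w⁻¹ • e) '' orbP Γ e₀ = orbP Γ (w⁻¹ • e₀) := by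
  have key : ∀ γ : Γ, w⁻¹ * mapGL ℚ ((c γ : Γ) : SL(2, ℤ)) = mapGL ℚ (γ : SL(2, ℤ)) * w⁻¹ := by
    intro γ
    rw [inv_mul_eq_iff_eq_mul, ← mul_assoc, hc γ, mul_inv_cancel_right]
  ext e
  constructor
  · rintro ⟨_, ⟨δ, hδ, rfl⟩, rfl⟩
    obtain ⟨γ, hγ⟩ := hsurj ⟨δ, hδ⟩
    refine ⟨γ, γ.2, ?_⟩
    have := key γ
    rw [hγ] at this
    show w⁻¹ • mapGL ℚ δ • e₀ = mapGL ℚ (γ : SL(2, ℤ)) • w⁻¹ • e₀
    rw [← mul_smul, ← mul_smul, this]
  · rintro ⟨γ, hγ, rfl⟩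
    refine ⟨mapGL ℚ ((c ⟨γ, hγ⟩ : Γ) : SL(2, ℤ)) • e₀, ⟨_, (c ⟨γ, hγ⟩).2, rfl⟩, ?_⟩
    show w⁻¹ • mapGL ℚ ((c ⟨γ, hγ⟩ : Γ) : SL(2, ℤ)) • e₀ = mapGL ℚ γ • w⁻¹ • e₀
    rw [← mul_smul, ← mul_smul, key ⟨γ, hγ⟩]

end Orbits

namespace IsCrossing

variable {R : OnePoint ℚ → OnePoint ℚ → ℍ → ℤ}
  {Θ : (Γ : Subgroup SL(2, ℤ)) → OnePoint ℚ → OnePoint ℚ → (Additive Γ →+ ℤ)}

theorem tameOn (h : IsCrossing R Θ) (Γ : Subgroup SL(2, ℤ)) (e₀ : OnePoint ℚ × OnePoint ℚ) :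
    TameOn R (orbP Γ e₀) := h.tame Γ e₀

theorem apply_crS (h : IsCrossing R Θ) (Γ : Subgroup SL(2, ℤ)) (a b : OnePoint ℚ) (γ : Γ)
    (z : ℍ) :
    Θ Γ a b (Additive.ofMul γ) = crS R (orbP Γ (a, b)) ((γ : SL(2, ℤ)) • z) z :=
  h.apply Γ a b γ z

/-- (Θ2) `Γ`-invariance of `Θ Γ`. -/
theorem inv (h : IsCrossing R Θ) (Γ : Subgroup SL(2, ℤ)) {δ : SL(2, ℤ)} (hδ : δ ∈ Γ)
    (a b : OnePoint ℚ) : Θ Γ (mapGL ℚ δ • a) (mapGL ℚ δ • b) = Θ Γ a b := by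
  refine AddMonoidHom.ext fun γ => ?_
  obtain ⟨γ, rfl⟩ := Additive.ofMul.surjective γ
  rw [h.apply_crS Γ _ _ γ I, h.apply_crS Γ a b γ I]
  have : ((mapGL ℚ δ • a, mapGL ℚ δ • b) : OnePoint ℚ × OnePoint ℚ) = mapGL ℚ δ • (a, b) := rfl
  rw [this, orbP_smul Γ hδ]

/-- (E1) Conjugation by a normalising element `w ∈ GL₂(ℚ)⁺`, `w γ = c(γ) w`. -/
theorem conj (h : IsCrossing R Θ) (Γ : Subgroup SL(2, ℤ)) (w : GL (Fin 2) ℚ)
    (hw : 0 < w.det.val) (c : Γ → Γ)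
    (hc : ∀ γ : Γ, w * mapGL ℚ (γ : SL(2, ℤ)) = mapGL ℚ ((c γ : Γ) : SL(2, ℤ)) * w)
    (hsurj : Function.Surjective c) (a b : OnePoint ℚ) (γ : Γ) :
    Θ Γ a b (Additive.ofMul (c γ)) = Θ Γ (w⁻¹ • a) (w⁻¹ • b) (Additive.ofMul γ) := by
  rw [h.apply_crS Γ a b (c γ) (toRR w • I), h.apply_crS Γ _ _ γ I]
  have hz : ((c γ : Γ) : SL(2, ℤ)) • (toRR w • I) = toRR w • ((γ : SL(2, ℤ)) • I) := by
    rw [sl_smul_eq, sl_smul_eq, ← mul_smul, ← mul_smul, ← map_mul, ← map_mul, hc γ]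
  rw [hz, crS_smul h.smul w hw, image_orbP_of_norm Γ w c hc hsurj]
  rfl

/-- (E3) Transfer for a right transversal `t` of `Γ'` in `Γ`: `cores (Θ Γ' a b) = Θ Γ a b`,
provided the stabiliser of the pair `(a, b)` in `Γ` lies in `Γ'`. -/
theorem cores (h : IsCrossing R Θ) {Γ Γ' : Subgroup SL(2, ℤ)} (hle : Γ' ≤ Γ) {ι : Type}
    [Fintype ι] (t : ι → Γ)
    (ex : ∀ x : Γ, ∃ (i : ι) (y : Γ'), x = Subgroup.inclusion hle y * t i)
    (inj : ∀ (i j : ι) (y : Γ'), Subgroup.inclusion hle y * t i = t j → i = j)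
    (a b : OnePoint ℚ)
    (hstab : ∀ x ∈ Γ, mapGL ℚ x • ((a, b) : OnePoint ℚ × OnePoint ℚ) = (a, b) → x ∈ Γ') :
    (helper2138.Sys.cores hle t ex inj).op ℤ (Θ Γ' a b) = Θ Γ a b := by
  classical
  set S := helper2138.Sys.cores hle t ex inj with hS
  refine AddMonoidHom.ext fun γ => ?_
  obtain ⟨γ, rfl⟩ := Additive.ofMul.surjective γ
  rw [helper2138.Sys.op_apply]
  set e₀ : OnePoint ℚ × OnePoint ℚ := (a, b) with he₀
  let A : ι → Set (OnePoint ℚ × OnePoint ℚ) := fun i =>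
    (fun e => (mapGL ℚ ((t i : Γ) : SL(2, ℤ)))⁻¹ • e) '' orbP Γ' e₀
  have hU : (⋃ i, A i) = orbP Γ e₀ := by
    ext e
    simp only [Set.mem_iUnion]
    constructor
    · rintro ⟨i, _, ⟨y, hy, rfl⟩, rfl⟩
      refine ⟨((t i : Γ) : SL(2, ℤ))⁻¹ * y, Γ.mul_mem (Γ.inv_mem (t i).2) (hle hy), ?_⟩
      show (mapGL ℚ ((t i : Γ) : SL(2, ℤ)))⁻¹ • mapGL ℚ y • e₀ = _
      rw [map_mul, map_inv, mul_smul]
    · rintro ⟨δ, hδ, rfl⟩
      obtain ⟨i, y, hy⟩ := ex (⟨δ, hδ⟩⁻¹)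
      refine ⟨i, mapGL ℚ ((y : SL(2, ℤ))⁻¹) • e₀, ⟨_, Γ'.inv_mem y.2, rfl⟩, ?_⟩
      have hδ' : δ = ((t i : Γ) : SL(2, ℤ))⁻¹ * (y : SL(2, ℤ))⁻¹ := by
        have h1 : δ⁻¹ = (y : SL(2, ℤ)) * ((t i : Γ) : SL(2, ℤ)) := congrArg Subtype.val hy
        rw [← inv_inv δ, h1, mul_inv_rev]
      show (mapGL ℚ ((t i : Γ) : SL(2, ℤ)))⁻¹ • mapGL ℚ ((y : SL(2, ℤ))⁻¹) • e₀ = mapGL ℚ δ • e₀
      rw [hδ']
      simp only [map_mul, map_inv, mul_smul]
  have hdisj : Pairwise (Function.onFun Disjoint A) := by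
    intro i j hij
    rw [Function.onFun, Set.disjoint_left]
    rintro _ ⟨_, ⟨y, hy, rfl⟩, rfl⟩ ⟨_, ⟨y', hy', rfl⟩, hEq⟩
    apply hij
    have hEq : (mapGL ℚ ((t j : Γ) : SL(2, ℤ)))⁻¹ • mapGL ℚ y' • e₀ =
        (mapGL ℚ ((t i : Γ) : SL(2, ℤ)))⁻¹ • mapGL ℚ y • e₀ := hEq
    have hEq' : mapGL ℚ (y⁻¹ * ((t i : Γ) : SL(2, ℤ)) * ((t j : Γ) : SL(2, ℤ))⁻¹ * y') • e₀
        = e₀ := by
      simp only [map_mul, map_inv, mul_smul]
      rw [hEq, smul_inv_smul, inv_smul_smul]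
    have hs := hstab _ (Γ.mul_mem (Γ.mul_mem (Γ.mul_mem (Γ.inv_mem (hle hy)) (t i).2)
      (Γ.inv_mem (t j).2)) (hle hy')) hEq'
    have hmem : ((t i : Γ) : SL(2, ℤ)) * ((t j : Γ) : SL(2, ℤ))⁻¹ ∈ Γ' := by
      have := Γ'.mul_mem (Γ'.mul_mem hy hs) (Γ'.inv_mem hy')
      convert this using 1
      group
    exact (inj j i ⟨_, hmem⟩ (by apply Subtype.ext; simp)).symm
  have hT' : TameOn R (orbP Γ' e₀) := h.tameOn Γ' e₀
  have hterm : ∀ i, Θ Γ' a b (Additive.ofMul (S.g i γ)) =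
      crS R (A i) ((γ : SL(2, ℤ)) • I) I
        + (crS R (orbP Γ' e₀) (((t i : Γ) : SL(2, ℤ)) • I) I
          - crS R (orbP Γ' e₀) (((t (S.σ γ i) : Γ) : SL(2, ℤ)) • I) I) := by
    intro i
    rw [h.apply_crS Γ' a b (S.g i γ) (((t (S.σ γ i) : Γ) : SL(2, ℤ)) • I)]
    have hrel := helper2138.Sys.cores_rel hle t ex inj i γ
    have hz : (((S.g i γ : Γ') : SL(2, ℤ))) • (((t (S.σ γ i) : Γ) : SL(2, ℤ)) • I) =
        ((t i : Γ) : SL(2, ℤ)) • ((γ : SL(2, ℤ)) • I) := by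
      rw [← mul_smul, ← mul_smul]
      congr 1
      exact (congrArg Subtype.val hrel).symm
    rw [hz]
    rw [crS_add hT' _ (((t i : Γ) : SL(2, ℤ)) • I) _,
      crS_add hT' (((t i : Γ) : SL(2, ℤ)) • I) I _, crS_symm hT' I _]
    have h1 : crS R (orbP Γ' e₀) (((t i : Γ) : SL(2, ℤ)) • ((γ : SL(2, ℤ)) • I))
        (((t i : Γ) : SL(2, ℤ)) • I) = crS R (A i) ((γ : SL(2, ℤ)) • I) I := by
      rw [sl_smul_eq ((t i : Γ) : SL(2, ℤ)), sl_smul_eq ((t i : Γ) : SL(2, ℤ)) I,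
        crS_smul h.smul _ (det_mapGL_pos _)]
    rw [h1]
    ring
  rw [Finset.sum_congr rfl fun i _ => hterm i, Finset.sum_add_distrib, Finset.sum_sub_distrib]
  have hperm : ∑ i, crS R (orbP Γ' e₀) (((t (S.σ γ i) : Γ) : SL(2, ℤ)) • I) I =
      ∑ i, crS R (orbP Γ' e₀) (((t i : Γ) : SL(2, ℤ)) • I) I :=
    Equiv.sum_comp (S.σEquiv γ) (fun i => crS R (orbP Γ' e₀) (((t i : Γ) : SL(2, ℤ)) • I) I)
  rw [hperm, sub_self, add_zero, crS_iUnion A hdisj (by rw [hU]; exact h.tameOn Γ e₀), hU,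
    h.apply_crS Γ a b γ I]

end IsCrossing

/-! ### The degeneracy maps of helper2138 -/

section Concrete

variable {R : OnePoint ℚ → OnePoint ℚ → ℍ → ℤ}
  {Θ : (Γ : Subgroup SL(2, ℤ)) → OnePoint ℚ → OnePoint ℚ → (Additive Γ →+ ℤ)}

/-- An element of `SL(2,ℤ)` fixing a pair of distinct cusps lies in every `Γ₀(M)`. -/
theorem mem_Gamma0_of_fix (M : ℕ) (x : SL(2, ℤ)) (a b : OnePoint ℚ) (hab : a ≠ b)
    (hfix : mapGL ℚ x • ((a, b) : OnePoint ℚ × OnePoint ℚ) = (a, b)) : x ∈ Gamma0 M := by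
  have h1 : mapGL ℚ x • a = a := congrArg Prod.fst hfix
  have h2 : mapGL ℚ x • b = b := congrArg Prod.snd hfix
  rcases helper5755.stab_pair x a b hab h1 h2 with rfl | rfl
  · exact Subgroup.one_mem _
  · rw [CongruenceSubgroup.Gamma0_mem]
    simp

/-- **(Θ-deg), first half**: `cores (Θ (Γ₀(N q)) a b) = Θ (Γ₀(N)) a b`. -/
theorem IsCrossing.theta_cores (h : IsCrossing R Θ) (N q : ℕ) [Fact q.Prime] (hqN : ¬ q ∣ N)
    (a b : OnePoint ℚ) :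
    helper2138.cores N q hqN ℤ (Θ (Gamma0 (N * q)) a b) = Θ (Gamma0 N) a b := by
  by_cases hab : a = b
  · subst hab
    rw [h.self, h.self, map_zero]
  · exact h.cores (helper2138.Gamma0_mul_le N q) (helper2138.trans (helper2138.bez N q hqN))
      (helper2138.trans_ex hqN _) (helper2138.trans_inj hqN _) a b
      (fun x _ hfix => mem_Gamma0_of_fix (N * q) x a b hab hfix)

/-- The rational Atkin–Lehner matrix `w = τ diag(q,1)`. -/
noncomputable def wQ {N q : ℕ} [NeZero q] (b : helper2138.Bez N q) : GL (Fin 2) ℚ :=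
  mapGL ℚ b.tau * helper8689.diagQ q

theorem toRR_diagQ (q : ℕ) [NeZero q] :
    toRR (helper8689.diagQ q) = ModularForm.heckeDiagMatrix q :=
  helper8689.repTQ_map q OnePoint.infty

theorem toRR_wQ {N q : ℕ} [NeZero q] (b : helper2138.Bez N q) :
    toRR (wQ b) = helper2138.wMat b := by
  rw [wQ, map_mul, toRR_diagQ, helper2138.wMat]
  congr 1
  exact map_mapGL _

theorem wQ_rel {N q : ℕ} [NeZero q] (b : helper2138.Bez N q) (γ : Gamma0 (N * q)) :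
    wQ b * mapGL ℚ (γ : SL(2, ℤ)) =
      mapGL ℚ (((helper2138.sysW b).g () γ : Gamma0 (N * q)) : SL(2, ℤ)) * wQ b := by
  apply helper8689.map_algebraMap_injective
  have h1 : toRR (mapGL ℚ (γ : SL(2, ℤ))) = mapGL ℝ (γ : SL(2, ℤ)) := map_mapGL _
  have h2 : toRR (mapGL ℚ (((helper2138.sysW b).g () γ : Gamma0 (N * q)) : SL(2, ℤ))) =
      mapGL ℝ (((helper2138.sysW b).g () γ : Gamma0 (N * q)) : SL(2, ℤ)) := map_mapGL _
  show toRR (wQ b * mapGL ℚ (γ : SL(2, ℤ))) = toRR (mapGL ℚ _ * wQ b)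
  rw [map_mul, map_mul, toRR_wQ, h1, h2]
  exact (helper2138.sysW b).rel () γ

theorem det_wQ_pos {N q : ℕ} [NeZero q] (b : helper2138.Bez N q) : 0 < (wQ b).det.val := by
  rw [wQ, map_mul, det_mapGL, one_mul, Matrix.GeneralLinearGroup.val_det_apply,
    helper8689.val_diagQ, Matrix.det_fin_two_of]
  have : 0 < (q : ℚ) := by exact_mod_cast Nat.pos_of_ne_zero (NeZero.ne q)
  linarith

/-- (E1) for `W_q`: `atkin (Θ (Γ₀(N q)) a b) = Θ (Γ₀(N q)) (w⁻¹ • a) (w⁻¹ • b)`. -/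
theorem IsCrossing.theta_atkin (h : IsCrossing R Θ) (N q : ℕ) [Fact q.Prime] (hqN : ¬ q ∣ N)
    (a b : OnePoint ℚ) :
    helper2138.atkin N q hqN ℤ (Θ (Gamma0 (N * q)) a b) =
      Θ (Gamma0 (N * q)) ((wQ (helper2138.bez N q hqN))⁻¹ • a)
        ((wQ (helper2138.bez N q hqN))⁻¹ • b) := by
  refine AddMonoidHom.ext fun γ => ?_
  obtain ⟨γ, rfl⟩ := Additive.ofMul.surjective γ
  have h1 : helper2138.atkin N q hqN ℤ (Θ (Gamma0 (N * q)) a b) (Additive.ofMul γ) =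
      Θ (Gamma0 (N * q)) a b
        (Additive.ofMul ((helper2138.sysW (helper2138.bez N q hqN)).g () γ)) :=
    helper2138.Sys.conj_op_apply _ _ _ ℤ _ γ
  rw [h1]
  exact h.conj (Gamma0 (N * q)) (wQ (helper2138.bez N q hqN)) (det_wQ_pos _)
    (fun γ => (helper2138.sysW (helper2138.bez N q hqN)).g () γ) (wQ_rel _)
    (fun x => helper2138.sysW_g_surj _ x) a b γ

/-- A scalar matrix acts trivially on the cusps. -/
theorem smul_eq_self_of_scalar (g : GL (Fin 2) ℚ) (c : ℚ) (hc : c ≠ 0) (h00 : g 0 0 = c)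
    (h01 : g 0 1 = 0) (h10 : g 1 0 = 0) (h11 : g 1 1 = c) (x : OnePoint ℚ) : g • x = x := by
  cases x with
  | infty => exact OnePoint.smul_infty_eq_self_iff.mpr h10
  | coe k =>
    rw [OnePoint.smul_some_eq_ite, h00, h01, h10, h11]
    simp [hc]

/-- `σ = !![1, v; -N, q u] = ρ⁻¹ ∈ Γ₀(N)`. -/
def sigmaB {N q : ℕ} (b : helper2138.Bez N q) : SL(2, ℤ) :=
  helper2138.mkSL 1 b.v (-N) (q * b.u) (by linear_combination b.h)

theorem sigmaB_mem {N q : ℕ} (b : helper2138.Bez N q) : sigmaB b ∈ Gamma0 N := by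
  rw [CongruenceSubgroup.Gamma0_mem]
  simp [sigmaB]

theorem mapGL_apply (g : SL(2, ℤ)) (i j : Fin 2) :
    (mapGL ℚ g : GL (Fin 2) ℚ) i j = ((g i j : ℤ) : ℚ) := by
  simp [mapGL_coe_matrix]

/-- `w σ β = q`, so `w⁻¹ = σ β` on cusps. -/
theorem wQ_inv_smul {N q : ℕ} [NeZero q] (b : helper2138.Bez N q) (x : OnePoint ℚ) :
    (wQ b)⁻¹ • x = mapGL ℚ (sigmaB b) • helper8689.diagQ q • x := by
  rw [inv_smul_eq_iff, ← mul_smul, ← mul_smul]
  have hq : (q : ℚ) ≠ 0 := by exact_mod_cast NeZero.ne q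
  have hb : (b.u : ℚ) * q + b.v * N = 1 := by exact_mod_cast b.h
  refine (smul_eq_self_of_scalar _ (q : ℚ) hq ?_ ?_ ?_ ?_ x).symm
  all_goals
    simp only [wQ, Matrix.GeneralLinearGroup.coe_mul, Matrix.mul_apply, Fin.sum_univ_two,
      helper8689.val_diagQ, mapGL_coe_matrix, Matrix.SpecialLinearGroup.map_apply_coe,
      RingHom.mapMatrix_apply, Matrix.map_apply, sigmaB, helper2138.Bez.tau,
      helper2138.mkSL_00, helper2138.mkSL_01, helper2138.mkSL_10, helper2138.mkSL_11,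
      Matrix.of_apply, Matrix.cons_val', Matrix.cons_val_zero, Matrix.cons_val_one,
      Matrix.cons_val_fin_one, Matrix.empty_val']
    push_cast
    first | linear_combination (q : ℚ) * hb | ring_nf

/-- **(Θ-deg), second half**: `coresc (Θ (Γ₀(N q)) a b) = Θ (Γ₀(N)) (β • a) (β • b)`,
`β = diagQ q = diag(q, 1)`. -/
theorem IsCrossing.theta_coresc (h : IsCrossing R Θ) (N q : ℕ) [Fact q.Prime] (hqN : ¬ q ∣ N)
    (a b : OnePoint ℚ) :
    helper2138.coresc N q hqN ℤ (Θ (Gamma0 (N * q)) a b) =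
      Θ (Gamma0 N) (helper8689.diagQ q • a) (helper8689.diagQ q • b) := by
  rw [helper2138.coresc_apply, h.theta_atkin, h.theta_cores, wQ_inv_smul, wQ_inv_smul,
    h.inv (Gamma0 N) (sigmaB_mem _)]

end Concrete

/-! ### Instantiation with the crossing map of module B -/

/-- The crossing kernel and crossing map of helper6553 satisfy the interface. -/
theorem isCrossing_theta : IsCrossing helper6553.R helper6553.Theta where
  smul := helper6553.R_smul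
  tame := helper6553.tame_orbS
  apply := helper6553.Theta_apply_base
  self := by
    intro Γ a
    refine AddMonoidHom.ext fun γ => ?_
    obtain ⟨γ, rfl⟩ := Additive.ofMul.surjective γ
    rw [helper6553.Theta_apply, AddMonoidHom.zero_apply]
    refine finsum_mem_eq_zero_of_forall_eq_zero ?_
    rintro e ⟨δ, -, rfl⟩
    have hR : ∀ (c : OnePoint ℚ) (z : ℍ), helper6553.R c c z = 0 := by
      intro c z
      simp [helper6553.R, helper6553.side, helper6553.sideR, mul_comm]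
    show helper6553.R (mapGL ℚ δ • a) (mapGL ℚ δ • a) _ - helper6553.R (mapGL ℚ δ • a)
      (mapGL ℚ δ • a) _ = 0
    rw [hR, hR, sub_self]

/-- **(Θ-deg)**: `cores (Θ (N q) a b) = Θ N a b`. -/
theorem theta_cores (N q : ℕ) [Fact q.Prime] (hqN : ¬ q ∣ N) (a b : OnePoint ℚ) :
    helper2138.cores N q hqN ℤ (helper6553.Theta (Gamma0 (N * q)) a b) =
      helper6553.Theta (Gamma0 N) a b :=
  isCrossing_theta.theta_cores N q hqN a b

/-- **(Θ-deg)**: `coresc (Θ (N q) a b) = Θ N (β • a) (β • b)`, `β = diagQ q`. -/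
theorem theta_coresc (N q : ℕ) [Fact q.Prime] (hqN : ¬ q ∣ N) (a b : OnePoint ℚ) :
    helper2138.coresc N q hqN ℤ (helper6553.Theta (Gamma0 (N * q)) a b) =
      helper6553.Theta (Gamma0 N) (helper8689.diagQ q • a) (helper8689.diagQ q • b) :=
  isCrossing_theta.theta_coresc N q hqN a b

end Fermat.Agent.S41.helper996
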