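/-
S41, module E (congruence subgroup property of `Γ₀(N)[1/q]`, `Spec.Stmt_CSP`) -- interface file.
helper102.  Paper proof: findings row "S41 module E: complete elementary proof" (helper102).

Three Mathlib-only leaves and the glue `stmt_CSP_of : Stmt_E1 → Stmt_E2 → Stmt_CSP` (proved here):

* `Stmt_E1` (GROUP): a hom `Φ` on `Δ = Γ₀(N)[1/q]` killing the unipotents has a first-row symbol
  `R a b = Φ [[a, b], [*, *]]` satisfying `IsSymbol`.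
* `Stmt_E3` (FINITE FIELD): a function on `𝔽_r^×` with the two relations below is constant.
* `Stmt_E2` (ARITHMETIC): a symbol vanishes on coprime `(a, b)` with `a ≡ 1 mod 4 p N`
  (Dirichlet + `Stmt_E3`).
-/
import Mathlib
import Fermat.Agent.S41.helper123_Spec

set_option autoImplicit false
open scoped MatrixGroups
open Fermat.Agent.S41.helper123

namespace Fermat.Agent.S41.helper102

/-- The rules satisfied by the first-row symbol `R a b = Φ [[a, b], [*, *]]` of a hom `Φ` on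
`Γ₀(N)[1/q]` killing `[[1, x], [0, 1]]` and `[[1, 0], [N y, 1]]`.

* `add_right`, `add_left`: right multiplication by the two unipotents;
* `one_left`: `[[1, b], [0, 1]]` is killed;
* `unit_mul`: `D g D` with `D = diag(q^n, q^{-n})`, and `D² = diag(q^{2n}, q^{-2n})` is a product
  of the killed unipotents when `q^{2n} ≡ 1 mod N`;
* `key`: with `u = q^{2n}`, `g₁ = [[a, b], [*, *]]`, `h = [[k + a u, b u], [N t, d']]`
  (`= D [[k + a u, b], [N t u, d']] D⁻¹`), the product `g₁ h⁻¹` has first row `(α, b k)`. -/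
structure IsSymbol (N q p : ℕ) (R : ℤ → ℤ → ZMod p) : Prop where
  add_right : ∀ a b x : ℤ, R a (b + x * a) = R a b
  add_left : ∀ a b y : ℤ, R (a + (N : ℤ) * y * b) b = R a b
  one_left : ∀ b : ℤ, R 1 b = 0
  unit_mul : ∀ (a b : ℤ) (n : ℕ), (q : ℤ) ^ (2 * n) ≡ 1 [ZMOD (N : ℤ)] →
    IsCoprime a ((N : ℤ) * b) → IsCoprime (q : ℤ) b →
    R ((q : ℤ) ^ (2 * n) * a) b = R a b
  key : ∀ (α k b d' a t : ℤ) (n : ℕ), d' * k = 1 - (q : ℤ) ^ (2 * n) * α →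
    a * d' - α = (N : ℤ) * b * t → IsCoprime a ((N : ℤ) * b) →
    R α (b * k) = R a b - R (k + a * (q : ℤ) ^ (2 * n)) b

/-- **E1 (group part).**  Existence of the first-row symbol. -/
def Stmt_E1 : Prop :=
  ∀ (N q p : ℕ), 0 < N → q.Prime → ¬ q ∣ N →
  ∀ (Φ : SL(2, ℚ) → ZMod p),
    (∀ g h : SL(2, ℚ), InDelta N q g → InDelta N q h → Φ (g * h) = Φ g + Φ h) →
    (∀ x : ℚ, IsZq q x → Φ (upperUni x) = 0) →
    (∀ y : ℚ, IsZq q y → Φ (lowerUni ((N : ℚ) * y)) = 0) →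
    ∃ R : ℤ → ℤ → ZMod p, IsSymbol N q p R ∧
      ∀ γ : SL(2, ℤ), γ ∈ CongruenceSubgroup.Gamma0 N →
        Φ (Matrix.SpecialLinearGroup.map (Int.castRingHom ℚ) γ) = R (γ 0 0) (γ 0 1)

/-- **E3 (finite field lemma).**  `χ : 𝔽_r^× → 𝔽_p`, `p ∤ r - 1`, `w ≠ 1`,
`χ (w Y) = χ Y`, and for all `x ≠ 1`, `w x ≠ 1`, with `m = (1 - w x) / (1 - x)`:
`χ (x Y) - χ Y = χ (x Y / m) - χ (Y / m)`.  Then `χ` is constant. -/
def Stmt_E3 : Prop :=
  ∀ (r p : ℕ) [Fact r.Prime], p.Prime → ¬ p ∣ r - 1 →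
  ∀ (w : (ZMod r)ˣ), w ≠ 1 → ∀ χ : (ZMod r)ˣ → ZMod p,
    (∀ Y, χ (w * Y) = χ Y) →
    (∀ x m Y : (ZMod r)ˣ, x ≠ 1 →
      (m : ZMod r) * (1 - (x : ZMod r)) = 1 - (w : ZMod r) * (x : ZMod r) →
      χ (x * Y) - χ Y = χ (x * Y * m⁻¹) - χ (Y * m⁻¹)) →
    ∀ Y, χ Y = χ 1

/-- **E2 (arithmetic part).**  A symbol vanishes on coprime pairs `(a, b)` with
`a ≡ 1 mod 4 p N`. -/
def Stmt_E2 : Prop :=
  ∀ (N q p : ℕ), 0 < N → q.Prime → ¬ q ∣ N → p.Prime → p ≠ 2 →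
  ∀ R : ℤ → ℤ → ZMod p, IsSymbol N q p R →
  ∀ a b : ℤ, IsCoprime a b → a ≡ 1 [ZMOD ((4 * p * N : ℕ) : ℤ)] → R a b = 0

/-- Glue: `Spec.Stmt_CSP` with `M = 4 p N`. -/
theorem stmt_CSP_of (h1 : Stmt_E1) (h2 : Stmt_E2) : Stmt_CSP := by
  intro N q p hN hq hqN hp hp2 _hqp
  refine ⟨4 * p * N, Nat.mul_pos (Nat.mul_pos (by norm_num) hp.pos) hN, ?_⟩
  intro Φ hadd hU hL γ hγ
  obtain ⟨R, hR, hΦ⟩ := h1 N q p hN hq hqN Φ hadd hU hL
  rw [CongruenceSubgroup.Gamma_mem] at hγ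
  obtain ⟨h00, _h01, h10, _h11⟩ := hγ
  have hdvd : (N : ℤ) ∣ ((4 * p * N : ℕ) : ℤ) := by
    exact_mod_cast Dvd.intro_left (4 * p) rfl
  have hγ0 : γ ∈ CongruenceSubgroup.Gamma0 N := by
    rw [CongruenceSubgroup.Gamma0_mem]
    have h10' : ((4 * p * N : ℕ) : ℤ) ∣ γ 1 0 := by
      rw [← ZMod.intCast_zmod_eq_zero_iff_dvd]; exact h10
    rw [ZMod.intCast_zmod_eq_zero_iff_dvd]
    exact hdvd.trans h10'
  rw [hΦ γ hγ0]
  apply h2 N q p hN hq hqN hp hp2 R hR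
  · -- coprimality from the determinant
    have hdet : γ 0 0 * γ 1 1 - γ 0 1 * γ 1 0 = 1 := by
      have := γ.det_coe
      rw [Matrix.det_fin_two] at this
      exact this
    exact ⟨γ 1 1, -γ 1 0, by linarith⟩
  · have : ((γ 0 0 : ℤ) : ZMod (4 * p * N)) = ((1 : ℤ) : ZMod (4 * p * N)) := by
      rw [h00]; simp
    exact (ZMod.intCast_eq_intCast_iff _ _ _).mp this

end Fermat.Agent.S41.helper102
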