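/-
helper181 — S41, leaf A-NEW (board 1564): the `q`-new relations on `Hom(Γ₀(N q), A)`.

Built only on the landed `Fermat.Agent.S16.helper2138.Corr` / `heckeHomU`.

* general `Corr` lemmas: `corr_op_eq_of_cosets` (the operator only depends on the cosets, up to
  one central scalar), `corrMulLeft`, `corrMulRight` (twisting by a normalising element),
  `corrWithOne` (adding the identity coset), `corrScale`.
* `corrW` : conjugation by the Atkin–Lehner matrix `w = !![q, -b₀; N q, q a₀]`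
  (`q a₀ + N b₀ = 1`); `alW` its operator on `Hom(Γ₀(N q), A)`, `alW_alW : W (W x) = x`.
* `trP` : the trace operator of `Γ₀(N q) \ Γ₀(N)` (`= res ∘ cores`), `trP_eq : P x = x + U (W x)`;
  `trPc` : the trace operator of `Γ₀(N q) \ δ⁻¹ Γ₀(N) δ`, `trPc_eq : Pc x = x + W (U x)`.
* `heckeHomU_sq_of_traces_zero` : `P x = 0 → Pc x = 0 → U (U x) = x`, `U x = - W x`,
  `P (U x) = 0`, `Pc (U x) = 0`.
-/
import Mathlib
import Fermat.Agent.S16.helper2138_HeckeHom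

set_option autoImplicit false

open CongruenceSubgroup Matrix.SpecialLinearGroup
open scoped MatrixGroups

namespace Fermat.Agent.S41.helper181

open Fermat.Agent.S16.helper2138

/-! ### General lemmas on correspondences -/

section General

variable {Γ : Subgroup SL(2, ℤ)} {ι κ : Type} [Fintype ι] [Fintype κ]

theorem corr_op_neg (C : Corr Γ ι) (A : Type*) [AddCommGroup A] (φ : Additive Γ →+ A) :
    C.op A (-φ) = -C.op A φ := by
  refine AddMonoidHom.ext fun γ => ?_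
  obtain ⟨γ, rfl⟩ := Additive.ofMul.surjective γ
  simp [Corr.op_apply]

/-- The operator of a correspondence only depends on the cosets `Γ α i`, up to one central
scalar `z`. -/
theorem corr_op_eq_of_cosets (C : Corr Γ ι) (C' : Corr Γ κ) (z : GL (Fin 2) ℝ)
    (hz : ∀ M : GL (Fin 2) ℝ, z * M = M * z)
    (h₁ : ∀ i, ∃ (k : κ) (h : Γ), C.α i = z * (mapGL ℝ (h : SL(2, ℤ)) * C'.α k))
    (h₂ : ∀ k, ∃ (i : ι) (h : Γ), z * C'.α k = mapGL ℝ (h : SL(2, ℤ)) * C.α i)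
    (A : Type*) [AddCommGroup A] (φ : Additive Γ →+ A) : C.op A φ = C'.op A φ := by
  classical
  choose e τ hτ using h₁
  have heinj : Function.Injective e := by
    intro i i' hii
    have h1 := hτ i
    have h2 := hτ i'
    rw [← hii] at h2
    have h3 : mapGL ℝ (((τ i' * (τ i)⁻¹ : Γ)) : SL(2, ℤ)) * C.α i = C.α i' := by
      rw [h2, h1, Subgroup.coe_mul, map_mul, Subgroup.coe_inv, map_inv, ← mul_assoc,
        ← hz (mapGL ℝ ((τ i' : Γ) : SL(2, ℤ)) * (mapGL ℝ ((τ i : Γ) : SL(2, ℤ)))⁻¹)]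
      group
    exact C.inj _ _ _ h3
  have hesurj : Function.Surjective e := by
    intro k
    obtain ⟨i, h, hk⟩ := h₂ k
    refine ⟨i, ?_⟩
    have h3 : mapGL ℝ (((h * τ i : Γ)) : SL(2, ℤ)) * C'.α (e i) = C'.α k := by
      apply mul_left_cancel (a := z)
      rw [hk, hτ i, Subgroup.coe_mul, map_mul, ← mul_assoc, hz, mul_assoc, mul_assoc]
      congr 1
      rw [← mul_assoc, ← hz, mul_assoc]
    exact C'.inj _ _ _ h3
  let ee : ι ≃ κ := Equiv.ofBijective e ⟨heinj, hesurj⟩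
  have key : ∀ (i : ι) (γ : Γ),
      C.g i γ = τ i * C'.g (e i) γ * (τ (C.σ γ i))⁻¹ := by
    intro i γ
    set j : ι := ee.symm (C'.σ γ (e i)) with hj
    have hej : e j = C'.σ γ (e i) := ee.apply_symm_apply _
    have H : C.α i * mapGL ℝ (γ : SL(2, ℤ)) =
        mapGL ℝ (((τ i * C'.g (e i) γ * (τ j)⁻¹ : Γ)) : SL(2, ℤ)) * C.α j := by
      rw [hτ i, hτ j, hej, Subgroup.coe_mul, Subgroup.coe_mul, map_mul, map_mul, Subgroup.coe_inv,
        map_inv]
      have h1 := C'.rel (e i) γ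
      calc z * (mapGL ℝ ((τ i : Γ) : SL(2, ℤ)) * C'.α (e i)) * mapGL ℝ (γ : SL(2, ℤ))
          = z * (mapGL ℝ ((τ i : Γ) : SL(2, ℤ)) * (C'.α (e i) * mapGL ℝ (γ : SL(2, ℤ)))) := by
            group
        _ = z * (mapGL ℝ ((τ i : Γ) : SL(2, ℤ)) *
              (mapGL ℝ ((C'.g (e i) γ : Γ) : SL(2, ℤ)) * C'.α (C'.σ γ (e i)))) := by rw [h1]
        _ = (mapGL ℝ ((τ i : Γ) : SL(2, ℤ)) * mapGL ℝ ((C'.g (e i) γ : Γ) : SL(2, ℤ)) *
              (mapGL ℝ ((τ j : Γ) : SL(2, ℤ)))⁻¹) * z *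
              (mapGL ℝ ((τ j : Γ) : SL(2, ℤ)) * C'.α (C'.σ γ (e i))) := by
            rw [← hz]; group
        _ = _ := by group
    obtain ⟨h1, h2⟩ := C.uniq H
    rw [← h1, ← h2]
  have hσ : ∀ (i : ι) (γ : Γ), e (C.σ γ i) = C'.σ γ (e i) := by
    intro i γ
    set j : ι := ee.symm (C'.σ γ (e i)) with hj
    have hej : e j = C'.σ γ (e i) := ee.apply_symm_apply _
    have H : C.α i * mapGL ℝ (γ : SL(2, ℤ)) =
        mapGL ℝ (((τ i * C'.g (e i) γ * (τ j)⁻¹ : Γ)) : SL(2, ℤ)) * C.α j := by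
      rw [hτ i, hτ j, hej, Subgroup.coe_mul, Subgroup.coe_mul, map_mul, map_mul, Subgroup.coe_inv,
        map_inv]
      have h1 := C'.rel (e i) γ
      calc z * (mapGL ℝ ((τ i : Γ) : SL(2, ℤ)) * C'.α (e i)) * mapGL ℝ (γ : SL(2, ℤ))
          = z * (mapGL ℝ ((τ i : Γ) : SL(2, ℤ)) * (C'.α (e i) * mapGL ℝ (γ : SL(2, ℤ)))) := by
            group
        _ = z * (mapGL ℝ ((τ i : Γ) : SL(2, ℤ)) *
              (mapGL ℝ ((C'.g (e i) γ : Γ) : SL(2, ℤ)) * C'.α (C'.σ γ (e i)))) := by rw [h1]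
        _ = (mapGL ℝ ((τ i : Γ) : SL(2, ℤ)) * mapGL ℝ ((C'.g (e i) γ : Γ) : SL(2, ℤ)) *
              (mapGL ℝ ((τ j : Γ) : SL(2, ℤ)))⁻¹) * z *
              (mapGL ℝ ((τ j : Γ) : SL(2, ℤ)) * C'.α (C'.σ γ (e i))) := by
            rw [← hz]; group
        _ = _ := by group
    rw [← (C.uniq H).1, hej]
  refine AddMonoidHom.ext fun γ => ?_
  obtain ⟨γ, rfl⟩ := Additive.ofMul.surjective γ
  rw [Corr.op_apply, Corr.op_apply]
  rw [← Equiv.sum_comp ee (fun k => φ (Additive.ofMul (C'.g k γ)))]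
  have hterm : ∀ i, φ (Additive.ofMul (C.g i γ)) =
      φ (Additive.ofMul (C'.g (ee i) γ)) + (φ (Additive.ofMul (τ i))
        - φ (Additive.ofMul (τ (C.σ γ i)))) := by
    intro i
    rw [key i γ, ofMul_mul, ofMul_mul, ofMul_inv, map_add, map_add, map_neg]
    show _ = φ (Additive.ofMul (C'.g (e i) γ)) + _
    abel
  rw [Finset.sum_congr rfl (fun i _ => hterm i), Finset.sum_add_distrib,
    Finset.sum_sub_distrib]
  have hperm : ∑ i, φ (Additive.ofMul (τ (C.σ γ i))) = ∑ i, φ (Additive.ofMul (τ i)) :=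
    Equiv.sum_comp (C.σEquiv γ) (fun i => φ (Additive.ofMul (τ i)))
  rw [hperm, sub_self, add_zero]

/-- Twisting a correspondence on the right by a normalising element `w = Cw.α ()`. -/
noncomputable def corrMulRight (C : Corr Γ ι) (Cw : Corr Γ Unit) : Corr Γ ι where
  α i := C.α i * Cw.α ()
  ex i γ := by
    refine ⟨C.σ (Cw.g () γ) i, C.g i (Cw.g () γ), ?_⟩
    have h1 := Cw.rel () γ
    have h2 := C.rel i (Cw.g () γ)
    rw [mul_assoc, h1, ← mul_assoc, h2, mul_assoc]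
  inj i j h H := C.inj i j h (mul_right_cancel (b := Cw.α ()) (by rw [mul_assoc]; exact H))

theorem corrMulRight_α (C : Corr Γ ι) (Cw : Corr Γ Unit) (i : ι) :
    (corrMulRight C Cw).α i = C.α i * Cw.α () := rfl

theorem corrUnit_op_apply (Cw : Corr Γ Unit) (A : Type*) [AddCommGroup A]
    (φ : Additive Γ →+ A) (γ : Γ) :
    Cw.op A φ (Additive.ofMul γ) = φ (Additive.ofMul (Cw.g () γ)) := by
  rw [Corr.op_apply]
  simp

/-- `op` of the right twist is `W ∘ op`. -/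
theorem corrMulRight_op (C : Corr Γ ι) (Cw : Corr Γ Unit) (A : Type*) [AddCommGroup A]
    (φ : Additive Γ →+ A) : (corrMulRight C Cw).op A φ = Cw.op A (C.op A φ) := by
  refine AddMonoidHom.ext fun γ => ?_
  obtain ⟨γ, rfl⟩ := Additive.ofMul.surjective γ
  rw [corrUnit_op_apply, Corr.op_apply, Corr.op_apply]
  refine Finset.sum_congr rfl fun i _ => ?_
  have H : (corrMulRight C Cw).α i * mapGL ℝ (γ : SL(2, ℤ)) =
      mapGL ℝ ((C.g i (Cw.g () γ) : Γ) : SL(2, ℤ)) *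
        (corrMulRight C Cw).α (C.σ (Cw.g () γ) i) := by
    have h1 := Cw.rel () γ
    have h2 := C.rel i (Cw.g () γ)
    rw [corrMulRight_α, corrMulRight_α, mul_assoc, h1, ← mul_assoc, h2, mul_assoc]
  rw [((corrMulRight C Cw).uniq H).2]

/-- Twisting a correspondence on the left by a normalising element `w = Cw.α ()`. -/
noncomputable def corrMulLeft (C : Corr Γ ι) (Cw : Corr Γ Unit)
    (hinv : ∀ h : Γ, ∃ γ : Γ,
      Cw.α () * mapGL ℝ (γ : SL(2, ℤ)) = mapGL ℝ (h : SL(2, ℤ)) * Cw.α ()) : Corr Γ ι where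
  α i := Cw.α () * C.α i
  ex i γ := by
    refine ⟨C.σ γ i, Cw.g () (C.g i γ), ?_⟩
    have h1 := C.rel i γ
    have h2 := Cw.rel () (C.g i γ)
    rw [mul_assoc, h1, ← mul_assoc, h2, mul_assoc]
  inj i j h H := by
    obtain ⟨γ, hγ⟩ := hinv h
    refine C.inj i j γ (mul_left_cancel (a := Cw.α ()) ?_)
    rw [← mul_assoc, hγ, mul_assoc]
    exact H

theorem corrMulLeft_α (C : Corr Γ ι) (Cw : Corr Γ Unit)
    (hinv : ∀ h : Γ, ∃ γ : Γ,
      Cw.α () * mapGL ℝ (γ : SL(2, ℤ)) = mapGL ℝ (h : SL(2, ℤ)) * Cw.α ()) (i : ι) :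
    (corrMulLeft C Cw hinv).α i = Cw.α () * C.α i := rfl

/-- `op` of the left twist is `op ∘ W`. -/
theorem corrMulLeft_op (C : Corr Γ ι) (Cw : Corr Γ Unit)
    (hinv : ∀ h : Γ, ∃ γ : Γ,
      Cw.α () * mapGL ℝ (γ : SL(2, ℤ)) = mapGL ℝ (h : SL(2, ℤ)) * Cw.α ())
    (A : Type*) [AddCommGroup A] (φ : Additive Γ →+ A) :
    (corrMulLeft C Cw hinv).op A φ = C.op A (Cw.op A φ) := by
  refine AddMonoidHom.ext fun γ => ?_
  obtain ⟨γ, rfl⟩ := Additive.ofMul.surjective γ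
  rw [Corr.op_apply, Corr.op_apply]
  refine Finset.sum_congr rfl fun i _ => ?_
  rw [corrUnit_op_apply]
  have H : (corrMulLeft C Cw hinv).α i * mapGL ℝ (γ : SL(2, ℤ)) =
      mapGL ℝ ((Cw.g () (C.g i γ) : Γ) : SL(2, ℤ)) *
        (corrMulLeft C Cw hinv).α (C.σ γ i) := by
    have h1 := C.rel i γ
    have h2 := Cw.rel () (C.g i γ)
    rw [corrMulLeft_α, corrMulLeft_α, mul_assoc, h1, ← mul_assoc, h2, mul_assoc]
  rw [((corrMulLeft C Cw hinv).uniq H).2]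

/-- Rescaling the representatives by a central element. -/
noncomputable def corrScale (C : Corr Γ ι) (z : GL (Fin 2) ℝ)
    (hz : ∀ M : GL (Fin 2) ℝ, z * M = M * z) (β : ι → GL (Fin 2) ℝ)
    (hβ : ∀ i, C.α i = z * β i) : Corr Γ ι where
  α := β
  ex i γ := by
    refine ⟨C.σ γ i, C.g i γ, ?_⟩
    have h1 := C.rel i γ
    rw [hβ i, hβ (C.σ γ i), ← mul_assoc, ← hz, mul_assoc, mul_assoc] at h1
    exact mul_left_cancel h1
  inj i j h H := by
    refine C.inj i j h ?_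
    rw [hβ i, hβ j, ← H, ← mul_assoc, ← hz, mul_assoc]

theorem corrScale_α (C : Corr Γ ι) (z : GL (Fin 2) ℝ)
    (hz : ∀ M : GL (Fin 2) ℝ, z * M = M * z) (β : ι → GL (Fin 2) ℝ)
    (hβ : ∀ i, C.α i = z * β i) (i : ι) : (corrScale C z hz β hβ).α i = β i := rfl

theorem corrScale_op (C : Corr Γ ι) (z : GL (Fin 2) ℝ)
    (hz : ∀ M : GL (Fin 2) ℝ, z * M = M * z) (β : ι → GL (Fin 2) ℝ)
    (hβ : ∀ i, C.α i = z * β i) (A : Type*) [AddCommGroup A] (φ : Additive Γ →+ A) :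
    (corrScale C z hz β hβ).op A φ = C.op A φ := by
  refine AddMonoidHom.ext fun γ => ?_
  obtain ⟨γ, rfl⟩ := Additive.ofMul.surjective γ
  rw [Corr.op_apply, Corr.op_apply]
  refine Finset.sum_congr rfl fun i _ => ?_
  have H : (corrScale C z hz β hβ).α i * mapGL ℝ (γ : SL(2, ℤ)) =
      mapGL ℝ ((C.g i γ : Γ) : SL(2, ℤ)) * (corrScale C z hz β hβ).α (C.σ γ i) := by
    have h1 := C.rel i γ
    rw [hβ i, hβ (C.σ γ i), ← mul_assoc, ← hz, mul_assoc, mul_assoc] at h1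
    exact mul_left_cancel h1
  rw [((corrScale C z hz β hβ).uniq H).2]

/-- Adding the identity coset to a correspondence none of whose cosets is `Γ`. -/
noncomputable def corrWithOne (C : Corr Γ ι)
    (hne : ∀ (i : ι) (h : Γ), mapGL ℝ (h : SL(2, ℤ)) ≠ C.α i) : Corr Γ (Option ι) where
  α o := o.elim 1 C.α
  ex o γ := by
    cases o with
    | none => exact ⟨none, γ, by simp⟩
    | some i => exact ⟨some (C.σ γ i), C.g i γ, C.rel i γ⟩
  inj o o' h H := by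
    cases o with
    | none =>
      cases o' with
      | none => rfl
      | some j =>
        exfalso
        refine hne j h ?_
        simpa using H
    | some i =>
      cases o' with
      | none =>
        exfalso
        refine hne i h⁻¹ ?_
        have H' : mapGL ℝ (h : SL(2, ℤ)) * C.α i = 1 := H
        rw [Subgroup.coe_inv, map_inv]
        exact inv_eq_of_mul_eq_one_right H'
      | some j =>
        have H' : mapGL ℝ (h : SL(2, ℤ)) * C.α i = C.α j := H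
        rw [C.inj i j h H']

theorem corrWithOne_α_none (C : Corr Γ ι)
    (hne : ∀ (i : ι) (h : Γ), mapGL ℝ (h : SL(2, ℤ)) ≠ C.α i) :
    (corrWithOne C hne).α none = 1 := rfl

theorem corrWithOne_α_some (C : Corr Γ ι)
    (hne : ∀ (i : ι) (h : Γ), mapGL ℝ (h : SL(2, ℤ)) ≠ C.α i) (i : ι) :
    (corrWithOne C hne).α (some i) = C.α i := rfl

/-- `op` of `corrWithOne` is `1 + op`. -/
theorem corrWithOne_op (C : Corr Γ ι)
    (hne : ∀ (i : ι) (h : Γ), mapGL ℝ (h : SL(2, ℤ)) ≠ C.α i)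
    (A : Type*) [AddCommGroup A] (φ : Additive Γ →+ A) :
    (corrWithOne C hne).op A φ = φ + C.op A φ := by
  refine AddMonoidHom.ext fun γ => ?_
  obtain ⟨γ, rfl⟩ := Additive.ofMul.surjective γ
  rw [AddMonoidHom.add_apply, Corr.op_apply, Corr.op_apply]
  rw [Fintype.sum_option (M := A)
    (f := fun o => φ (Additive.ofMul ((corrWithOne C hne).g o γ)))]
  have H0 : (corrWithOne C hne).α none * mapGL ℝ (γ : SL(2, ℤ)) =
      mapGL ℝ ((γ : Γ) : SL(2, ℤ)) * (corrWithOne C hne).α none := by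
    rw [corrWithOne_α_none]; simp
  have e0 : (corrWithOne C hne).g none γ = γ := ((corrWithOne C hne).uniq H0).2.symm
  have e1 : ∀ i, (corrWithOne C hne).g (some i) γ = C.g i γ := by
    intro i
    have H : (corrWithOne C hne).α (some i) * mapGL ℝ (γ : SL(2, ℤ)) =
        mapGL ℝ ((C.g i γ : Γ) : SL(2, ℤ)) * (corrWithOne C hne).α (some (C.σ γ i)) := by
      rw [corrWithOne_α_some, corrWithOne_α_some]
      exact C.rel i γ
    exact ((corrWithOne C hne).uniq H).2.symm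
  simp only [e0, e1]

/-- If `w * w` is a central scalar times an element of `Γ`, every `h ∈ Γ` is a conjugate
`w γ w⁻¹`. -/
theorem corrUnit_inv_of_sq (Cw : Corr Γ Unit) (z : GL (Fin 2) ℝ)
    (hz : ∀ M : GL (Fin 2) ℝ, z * M = M * z) (m : Γ)
    (hsq : Cw.α () * Cw.α () = z * mapGL ℝ (m : SL(2, ℤ))) (h : Γ) :
    ∃ γ : Γ, Cw.α () * mapGL ℝ (γ : SL(2, ℤ)) = mapGL ℝ (h : SL(2, ℤ)) * Cw.α () := by
  refine ⟨m⁻¹ * Cw.g () h * m, ?_⟩
  apply mul_left_cancel (a := Cw.α ())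
  have h1 := Cw.rel () h
  rw [Subgroup.coe_mul, Subgroup.coe_mul, map_mul, map_mul, Subgroup.coe_inv, map_inv]
  calc Cw.α () * (Cw.α () * ((mapGL ℝ (m : SL(2, ℤ)))⁻¹ * mapGL ℝ ((Cw.g () h : Γ) : SL(2, ℤ)) *
        mapGL ℝ (m : SL(2, ℤ))))
      = (Cw.α () * Cw.α ()) * ((mapGL ℝ (m : SL(2, ℤ)))⁻¹ *
          mapGL ℝ ((Cw.g () h : Γ) : SL(2, ℤ)) * mapGL ℝ (m : SL(2, ℤ))) := by group
    _ = z * (mapGL ℝ ((Cw.g () h : Γ) : SL(2, ℤ)) * mapGL ℝ (m : SL(2, ℤ))) := by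
        rw [hsq]; group
    _ = mapGL ℝ ((Cw.g () h : Γ) : SL(2, ℤ)) * (z * mapGL ℝ (m : SL(2, ℤ))) := by
        rw [← mul_assoc, hz, mul_assoc]
    _ = mapGL ℝ ((Cw.g () h : Γ) : SL(2, ℤ)) * (Cw.α () * Cw.α ()) := by rw [hsq]
    _ = (Cw.α () * mapGL ℝ (h : SL(2, ℤ))) * Cw.α () := by rw [h1]; group
    _ = _ := by group

/-- If `w * w` is a central scalar times an element of `Γ`, then `W ∘ W = 1`. -/
theorem corrUnit_op_op (Cw : Corr Γ Unit) (z : GL (Fin 2) ℝ)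
    (hz : ∀ M : GL (Fin 2) ℝ, z * M = M * z) (m : Γ)
    (hsq : Cw.α () * Cw.α () = z * mapGL ℝ (m : SL(2, ℤ)))
    (A : Type*) [AddCommGroup A] (φ : Additive Γ →+ A) : Cw.op A (Cw.op A φ) = φ := by
  refine AddMonoidHom.ext fun γ => ?_
  obtain ⟨γ, rfl⟩ := Additive.ofMul.surjective γ
  rw [corrUnit_op_apply, corrUnit_op_apply]
  have h1 := Cw.rel () γ
  have h2 := Cw.rel () (Cw.g () γ)
  have h3 : mapGL ℝ ((m * γ : Γ) : SL(2, ℤ)) =
      mapGL ℝ ((Cw.g () (Cw.g () γ) * m : Γ) : SL(2, ℤ)) := by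
    apply mul_left_cancel (a := z)
    rw [Subgroup.coe_mul, Subgroup.coe_mul, map_mul, map_mul]
    calc z * (mapGL ℝ (m : SL(2, ℤ)) * mapGL ℝ (γ : SL(2, ℤ)))
        = (z * mapGL ℝ (m : SL(2, ℤ))) * mapGL ℝ (γ : SL(2, ℤ)) := by group
      _ = Cw.α () * (Cw.α () * mapGL ℝ (γ : SL(2, ℤ))) := by rw [← hsq]; group
      _ = (Cw.α () * mapGL ℝ ((Cw.g () γ : Γ) : SL(2, ℤ))) * Cw.α () := by rw [h1]; group
      _ = mapGL ℝ ((Cw.g () (Cw.g () γ) : Γ) : SL(2, ℤ)) * (Cw.α () * Cw.α ()) := by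
          rw [h2]; group
      _ = mapGL ℝ ((Cw.g () (Cw.g () γ) : Γ) : SL(2, ℤ)) * (z * mapGL ℝ (m : SL(2, ℤ))) := by
          rw [hsq]
      _ = _ := by rw [← mul_assoc, ← hz, mul_assoc]
  have h4 : m * γ = Cw.g () (Cw.g () γ) * m := Subtype.ext (mapGL_injective h3)
  have h5 : Cw.g () (Cw.g () γ) = m * γ * m⁻¹ := by rw [h4]; group
  rw [h5, ofMul_mul, ofMul_mul, ofMul_inv, map_add, map_add, map_neg]
  abel

end General

/-! ### The Atkin–Lehner conjugation on `Γ₀(N q)` -/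

section AtkinLehner

open ModularForm (heckeMatrix heckeDiagMatrix val_heckeMatrix val_heckeDiagMatrix)

/-- Bezout data for the Atkin–Lehner matrix: `q a₀ + N b₀ = 1`. -/
structure ALData (N q : ℕ) where
  /-- coefficient of `q` -/
  a₀ : ℤ
  /-- coefficient of `N` -/
  b₀ : ℤ
  bez : (q : ℤ) * a₀ + (N : ℤ) * b₀ = 1

variable {N q : ℕ}

theorem ALData.bezR (D : ALData N q) :
    (q : ℝ) * (D.a₀ : ℝ) + (N : ℝ) * (D.b₀ : ℝ) = 1 := by
  exact_mod_cast D.bez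

/-- scalar matrices in `GL₂(ℝ)` -/
noncomputable def scalarGL (c : ℝ) (hc : c ≠ 0) : GL (Fin 2) ℝ :=
  Matrix.GeneralLinearGroup.mkOfDetNeZero !![c, 0; 0, c] (by
    rw [Matrix.det_fin_two_of]; simp [hc])

theorem scalarGL_val (c : ℝ) (hc : c ≠ 0) :
    (scalarGL c hc : Matrix (Fin 2) (Fin 2) ℝ) = !![c, 0; 0, c] := rfl

theorem scalarGL_central (c : ℝ) (hc : c ≠ 0) (M : GL (Fin 2) ℝ) :
    scalarGL c hc * M = M * scalarGL c hc := by
  apply Matrix.GeneralLinearGroup.ext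
  intro i j
  simp only [Matrix.GeneralLinearGroup.coe_mul, Matrix.mul_apply, Fin.sum_univ_two, scalarGL_val]
  fin_cases i <;> fin_cases j <;> simp <;> ring

/-- the Atkin–Lehner matrix `w = !![q, -b₀; N q, q a₀]` -/
noncomputable def wGL (D : ALData N q) (hq : q ≠ 0) : GL (Fin 2) ℝ :=
  Matrix.GeneralLinearGroup.mkOfDetNeZero
    !![(q : ℝ), -(D.b₀ : ℝ); (N : ℝ) * q, (q : ℝ) * D.a₀] (by
    rw [Matrix.det_fin_two_of]
    have h := D.bezR
    have hq' : (q : ℝ) ≠ 0 := by exact_mod_cast hq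
    have : (q : ℝ) * ((q : ℝ) * D.a₀) - -(D.b₀ : ℝ) * ((N : ℝ) * q) = q := by
      linear_combination (q : ℝ) * h
    rw [this]; exact hq')

theorem wGL_val (D : ALData N q) (hq : q ≠ 0) :
    (wGL D hq : Matrix (Fin 2) (Fin 2) ℝ) =
      !![(q : ℝ), -(D.b₀ : ℝ); (N : ℝ) * q, (q : ℝ) * D.a₀] := rfl

/-- the conjugate `w γ w⁻¹` of `γ = !![a, b; N q c2, d]` as an integer matrix -/
def conjMat (D : ALData N q) (a b c2 d : ℤ) : Matrix (Fin 2) (Fin 2) ℤ :=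
  !![(q : ℤ) * a * D.a₀ - D.a₀ * D.b₀ * ((N : ℤ) * q * c2) - (N : ℤ) * q * b + (N : ℤ) * D.b₀ * d,
     a * D.b₀ - D.b₀ * D.b₀ * ((N : ℤ) * c2) + (q : ℤ) * b - D.b₀ * d;
     (q : ℤ) * ((N : ℤ) * a * D.a₀ + D.a₀ * D.a₀ * ((N : ℤ) * q * c2) - (N : ℤ) * N * b
        - (N : ℤ) * D.a₀ * d),
     (N : ℤ) * a * D.b₀ + D.a₀ * D.b₀ * ((N : ℤ) * q * c2) + (q : ℤ) * N * b + (q : ℤ) * D.a₀ * d]

theorem conjMat_det (D : ALData N q) (a b c2 d : ℤ)
    (hdet : a * d - b * ((N : ℤ) * q * c2) = 1) : (conjMat D a b c2 d).det = 1 := by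
  rw [conjMat, Matrix.det_fin_two_of]
  linear_combination ((N : ℤ) * a * D.b₀ * d - (N : ℤ) * D.a₀ * b * c2 * (q : ℤ) ^ 2
    - (N : ℤ) * b * c2 * q - (N : ℤ) ^ 2 * b * D.b₀ * c2 * q + a * D.a₀ * d * q + a * d) * D.bez
    + hdet

theorem wGL_conj (D : ALData N q) (hq : q ≠ 0) (γ : Gamma0 (N * q)) :
    ∃ h : Gamma0 (N * q),
      wGL D hq * mapGL ℝ (γ : SL(2, ℤ)) = mapGL ℝ (h : SL(2, ℤ)) * wGL D hq := by
  obtain ⟨c2, hc2⟩ := mem_Gamma0_iff_dvd.mp γ.2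
  push_cast at hc2
  have hdet := det_SL (γ : SL(2, ℤ))
  have hdet' : (γ : SL(2, ℤ)) 0 0 * (γ : SL(2, ℤ)) 1 1
      - (γ : SL(2, ℤ)) 0 1 * ((N : ℤ) * q * c2) = 1 := by
    linear_combination hdet + (γ : SL(2, ℤ)) 0 1 * hc2
  have hbez := D.bezR
  have hcR : (((γ : SL(2, ℤ)) 1 0 : ℤ) : ℝ) = (N : ℝ) * q * c2 := by
    rw [hc2]; push_cast; ring
  refine ⟨⟨⟨conjMat D ((γ : SL(2, ℤ)) 0 0) ((γ : SL(2, ℤ)) 0 1) c2 ((γ : SL(2, ℤ)) 1 1),
    conjMat_det D _ _ _ _ hdet'⟩, ?_⟩, ?_⟩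
  · rw [mem_Gamma0_iff_dvd]
    refine ⟨(γ : SL(2, ℤ)) 0 0 * D.a₀ + D.a₀ * D.a₀ * (q * c2) - N * (γ : SL(2, ℤ)) 0 1
      - D.a₀ * (γ : SL(2, ℤ)) 1 1, ?_⟩
    simp only [conjMat, Matrix.of_apply, Matrix.cons_val_zero, Matrix.cons_val_one]
    push_cast
    ring
  · apply Matrix.GeneralLinearGroup.ext
    intro i j
    simp only [Matrix.GeneralLinearGroup.coe_mul, Matrix.mul_apply, Fin.sum_univ_two, mapGL_val,
      wGL_val, conjMat]
    fin_cases i <;> fin_cases j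
    · simp
      rw [hcR]
      linear_combination ((N : ℝ) * D.b₀ * c2 * q - ((γ : SL(2, ℤ)) 0 0 : ℤ) * (q : ℝ)) * hbez
    · simp
      linear_combination (-(((γ : SL(2, ℤ)) 0 1 : ℤ) * (q : ℝ))
        + (D.b₀ : ℝ) * ((γ : SL(2, ℤ)) 1 1 : ℤ)) * hbez
    · simp
      rw [hcR]
      linear_combination (-((N : ℝ) * ((γ : SL(2, ℤ)) 0 0 : ℤ) * q)
        - (N : ℝ) * D.a₀ * c2 * (q : ℝ) ^ 2) * hbez
    · simp
      linear_combination (-((N : ℝ) * ((γ : SL(2, ℤ)) 0 1 : ℤ) * q)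
        - (D.a₀ : ℝ) * ((γ : SL(2, ℤ)) 1 1 : ℤ) * q) * hbez

/-- Conjugation by the Atkin–Lehner matrix, as a one-element correspondence on `Γ₀(N q)`. -/
noncomputable def corrW (D : ALData N q) (hq : q ≠ 0) : Corr (Gamma0 (N * q)) Unit where
  α := fun _ => wGL D hq
  ex _ γ := by
    obtain ⟨h, hh⟩ := wGL_conj D hq γ
    exact ⟨(), h, hh⟩
  inj _ _ _ _ := rfl

theorem corrW_α (D : ALData N q) (hq : q ≠ 0) (u : Unit) : (corrW D hq).α u = wGL D hq := rfl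

/-- `w² = q · m` with `m ∈ Γ₀(N q)`. -/
def mSq (D : ALData N q) : SL(2, ℤ) :=
  ⟨!![(q : ℤ) - (N : ℤ) * D.b₀, -(D.b₀ * (1 + D.a₀));
      (N : ℤ) * q * (1 + D.a₀), -((N : ℤ) * D.b₀) + (q : ℤ) * D.a₀ * D.a₀], by
    rw [Matrix.det_fin_two_of]
    linear_combination (1 + (N : ℤ) * D.b₀ + D.a₀ * (q : ℤ)) * D.bez⟩

theorem mSq_mem (D : ALData N q) : mSq D ∈ Gamma0 (N * q) := by
  rw [mem_Gamma0_iff_dvd]
  refine ⟨1 + D.a₀, ?_⟩
  simp only [mSq, Matrix.SpecialLinearGroup.coe_mk, Matrix.of_apply, Matrix.cons_val_zero,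
    Matrix.cons_val_one]
  push_cast
  ring

theorem wGL_sq (D : ALData N q) (hq : q ≠ 0) :
    wGL D hq * wGL D hq =
      scalarGL (q : ℝ) (by exact_mod_cast hq) * mapGL ℝ (mSq D) := by
  apply Matrix.GeneralLinearGroup.ext
  intro i j
  simp only [Matrix.GeneralLinearGroup.coe_mul, Matrix.mul_apply, Fin.sum_univ_two, mapGL_val,
    wGL_val, scalarGL_val, mSq]
  fin_cases i <;> fin_cases j <;> simp <;> ring

theorem corrW_sq (D : ALData N q) (hq : q ≠ 0) :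
    (corrW D hq).α () * (corrW D hq).α () =
      scalarGL (q : ℝ) (by exact_mod_cast hq) *
        mapGL ℝ (((⟨mSq D, mSq_mem D⟩ : Gamma0 (N * q)) : SL(2, ℤ))) :=
  wGL_sq D hq

theorem corrW_inv (D : ALData N q) (hq : q ≠ 0) (h : Gamma0 (N * q)) :
    ∃ γ : Gamma0 (N * q), (corrW D hq).α () * mapGL ℝ (γ : SL(2, ℤ)) =
      mapGL ℝ (h : SL(2, ℤ)) * (corrW D hq).α () :=
  corrUnit_inv_of_sq (corrW D hq) _ (scalarGL_central _ _) ⟨mSq D, mSq_mem D⟩ (corrW_sq D hq) h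

/-- The Atkin–Lehner operator `W` on `Hom(Γ₀(N q), A)`: `(W x)(γ) = x (w γ w⁻¹)`. -/
noncomputable def alWOp (D : ALData N q) (hq : q ≠ 0) (A : Type*) [AddCommGroup A]
    (x : Additive (Gamma0 (N * q)) →+ A) : Additive (Gamma0 (N * q)) →+ A :=
  (corrW D hq).op A x

/-- `W ∘ W = 1`. -/
theorem alWOp_alWOp (D : ALData N q) (hq : q ≠ 0) (A : Type*) [AddCommGroup A]
    (x : Additive (Gamma0 (N * q)) →+ A) : alWOp D hq A (alWOp D hq A x) = x :=
  corrUnit_op_op (corrW D hq) _ (scalarGL_central _ _) ⟨mSq D, mSq_mem D⟩ (corrW_sq D hq) A x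

theorem alWOp_neg (D : ALData N q) (hq : q ≠ 0) (A : Type*) [AddCommGroup A]
    (x : Additive (Gamma0 (N * q)) →+ A) : alWOp D hq A (-x) = -alWOp D hq A x :=
  corr_op_neg _ A x

/-- `r T^j = !![1, j - b₀; N, N j + q a₀] ∈ Γ₀(N)`. -/
def rTMat (D : ALData N q) (j : ℤ) : SL(2, ℤ) :=
  ⟨!![1, j - D.b₀; (N : ℤ), (N : ℤ) * j + (q : ℤ) * D.a₀], by
    rw [Matrix.det_fin_two_of]
    linear_combination D.bez⟩

theorem rTMat_mem (D : ALData N q) (j : ℤ) : rTMat D j ∈ Gamma0 N := by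
  rw [mem_Gamma0_iff_dvd]
  simp [rTMat]

theorem wGL_mul_heckeMatrix (D : ALData N q) (hq : q ≠ 0) (j : ℕ) :
    wGL D hq * heckeMatrix q j =
      scalarGL (q : ℝ) (by exact_mod_cast hq) * mapGL ℝ (rTMat D j) := by
  apply Matrix.GeneralLinearGroup.ext
  intro i k
  simp only [Matrix.GeneralLinearGroup.coe_mul, Matrix.mul_apply, Fin.sum_univ_two, mapGL_val,
    wGL_val, scalarGL_val, rTMat, val_heckeMatrix hq]
  fin_cases i <;> fin_cases k <;> simp <;> ring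

/-- `δ⁻¹ T^j r δ = !![1 + j N, (-b₀ + j q a₀) / q; N q, q a₀]`. -/
noncomputable def rcGL (D : ALData N q) (hq : q ≠ 0) (j : ℤ) : GL (Fin 2) ℝ :=
  Matrix.GeneralLinearGroup.mkOfDetNeZero
    !![1 + (j : ℝ) * N, (-(D.b₀ : ℝ) + (j : ℝ) * q * D.a₀) / q; (N : ℝ) * q, (q : ℝ) * D.a₀] (by
    rw [Matrix.det_fin_two_of]
    have h := D.bezR
    have hq' : (q : ℝ) ≠ 0 := by exact_mod_cast hq
    have : (1 + (j : ℝ) * N) * ((q : ℝ) * D.a₀)
        - (-(D.b₀ : ℝ) + (j : ℝ) * q * D.a₀) / q * ((N : ℝ) * q) = 1 := by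
      field_simp
      linear_combination h
    rw [this]; exact one_ne_zero)

theorem rcGL_val (D : ALData N q) (hq : q ≠ 0) (j : ℤ) :
    (rcGL D hq j : Matrix (Fin 2) (Fin 2) ℝ) =
      !![1 + (j : ℝ) * N, (-(D.b₀ : ℝ) + (j : ℝ) * q * D.a₀) / q;
        (N : ℝ) * q, (q : ℝ) * D.a₀] := rfl

theorem heckeMatrix_mul_wGL (D : ALData N q) (hq : q ≠ 0) (j : ℕ) :
    heckeMatrix q j * wGL D hq =
      scalarGL (q : ℝ) (by exact_mod_cast hq) * rcGL D hq j := by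
  have hq' : (q : ℝ) ≠ 0 := by exact_mod_cast hq
  apply Matrix.GeneralLinearGroup.ext
  intro i k
  simp only [Matrix.GeneralLinearGroup.coe_mul, Matrix.mul_apply, Fin.sum_univ_two,
    wGL_val, scalarGL_val, rcGL_val, val_heckeMatrix hq]
  fin_cases i <;> fin_cases k <;> simp <;> field_simp

end AtkinLehner

/-! ### The two trace operators and the `q`-new relations -/

section Traces

open ModularForm (heckeMatrix heckeDiagMatrix val_heckeMatrix val_heckeDiagMatrix)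

variable {N q : ℕ} [NeZero q]

/-- Bezout data from coprimality. -/
noncomputable def ALData.ofCoprime (h : Nat.Coprime q N) : ALData N q where
  a₀ := Int.gcdA q N
  b₀ := Int.gcdB q N
  bez := by
    have h1 := Int.gcd_eq_gcd_ab (q : ℤ) (N : ℤ)
    rw [Int.gcd_natCast_natCast, h.gcd_eq_one] at h1
    rw [← h1]; simp

/-- the landed `U_q` correspondence on `Γ₀(N q)`. -/
noncomputable def corrUq (N q : ℕ) [NeZero q] : Corr (Gamma0 (N * q)) (ZMod q) :=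
  corrU (N * q) q (dvd_mul_left q N)

theorem corrUq_op (N q : ℕ) [NeZero q] (A : Type*) [AddCommGroup A]
    (x : Additive (Gamma0 (N * q)) →+ A) :
    (corrUq N q).op A x = heckeHomU (N * q) q (dvd_mul_left q N) A x := rfl

/-- the correspondence with representatives `w * u_j`. -/
noncomputable def corrWU (D : ALData N q) : Corr (Gamma0 (N * q)) (ZMod q) :=
  corrMulLeft (corrUq N q) (corrW D (NeZero.ne q)) (corrW_inv D (NeZero.ne q))

/-- the correspondence with representatives `u_j * w`. -/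
noncomputable def corrUW (D : ALData N q) : Corr (Gamma0 (N * q)) (ZMod q) :=
  corrMulRight (corrUq N q) (corrW D (NeZero.ne q))

/-- the correspondence with representatives `r T^j ∈ Γ₀(N)`. -/
noncomputable def corrRT (D : ALData N q) : Corr (Gamma0 (N * q)) (ZMod q) :=
  corrScale (corrWU D) (scalarGL (q : ℝ) (by exact_mod_cast NeZero.ne q)) (scalarGL_central _ _)
    (fun j => mapGL ℝ (rTMat D (j.val : ℤ)))
    (fun j => wGL_mul_heckeMatrix D (NeZero.ne q) j.val)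

/-- the correspondence with representatives `δ⁻¹ T^j r δ ∈ δ⁻¹ Γ₀(N) δ`. -/
noncomputable def corrRC (D : ALData N q) : Corr (Gamma0 (N * q)) (ZMod q) :=
  corrScale (corrUW D) (scalarGL (q : ℝ) (by exact_mod_cast NeZero.ne q)) (scalarGL_central _ _)
    (fun j => rcGL D (NeZero.ne q) (j.val : ℤ))
    (fun j => heckeMatrix_mul_wGL D (NeZero.ne q) j.val)

theorem corrRT_α (D : ALData N q) (j : ZMod q) :
    (corrRT D).α j = mapGL ℝ (rTMat D (j.val : ℤ)) := rfl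

theorem corrRC_α (D : ALData N q) (j : ZMod q) :
    (corrRC D).α j = rcGL D (NeZero.ne q) (j.val : ℤ) := rfl

theorem corrRT_ne (D : ALData N q) (hqN : ¬ q ∣ N) (j : ZMod q) (h : Gamma0 (N * q)) :
    mapGL ℝ (h : SL(2, ℤ)) ≠ (corrRT D).α j := by
  intro H
  rw [corrRT_α] at H
  have h1 : (h : SL(2, ℤ)) = rTMat D (j.val : ℤ) := mapGL_injective H
  have h2 := mem_Gamma0_iff_dvd.mp h.2
  rw [h1] at h2
  have h3 : ((N * q : ℕ) : ℤ) ∣ (N : ℤ) := by simpa [rTMat] using h2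
  exact hqN ((dvd_mul_left q N).trans (Int.natCast_dvd_natCast.mp h3))

theorem corrRC_ne (D : ALData N q) (hqN : ¬ q ∣ N) (j : ZMod q) (h : Gamma0 (N * q)) :
    mapGL ℝ (h : SL(2, ℤ)) ≠ (corrRC D).α j := by
  intro H
  rw [corrRC_α] at H
  have h01 := congrArg (fun M : GL (Fin 2) ℝ => (M : Matrix (Fin 2) (Fin 2) ℝ) 0 1) H
  simp only [mapGL_val, rcGL_val, Matrix.of_apply, Matrix.cons_val_zero, Matrix.cons_val_one] at h01
  have hq' : (q : ℝ) ≠ 0 := by exact_mod_cast NeZero.ne q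
  have h2 : (q : ℝ) * (((h : SL(2, ℤ)) 0 1 : ℤ) : ℝ) =
      -(D.b₀ : ℝ) + (((j.val : ℕ) : ℤ) : ℝ) * q * D.a₀ := by
    rw [h01]; field_simp
  have h3 : (q : ℤ) * (h : SL(2, ℤ)) 0 1 = -D.b₀ + ((j.val : ℕ) : ℤ) * q * D.a₀ := by
    exact_mod_cast h2
  have h4 : (q : ℤ) ∣ D.b₀ := ⟨((j.val : ℕ) : ℤ) * D.a₀ - (h : SL(2, ℤ)) 0 1, by
    linear_combination h3⟩
  have h5 : (q : ℤ) ∣ 1 := by
    rw [← D.bez]
    exact dvd_add (dvd_mul_right _ _) (h4.mul_left _)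
  have h6 : q ∣ 1 := Int.natCast_dvd_natCast.mp (by simpa using h5)
  exact hqN (h6.trans (one_dvd N))

/-- The correspondence of a full transversal of `Γ₀(N q) \ Γ₀(N)`: `1` and `r T^j`. -/
noncomputable def corrTr (D : ALData N q) (hqN : ¬ q ∣ N) :
    Corr (Gamma0 (N * q)) (Option (ZMod q)) :=
  corrWithOne (corrRT D) (corrRT_ne D hqN)

/-- The correspondence of a full transversal of `Γ₀(N q) \ δ⁻¹ Γ₀(N) δ`: `1` and
`δ⁻¹ T^j r δ`. -/
noncomputable def corrTrc (D : ALData N q) (hqN : ¬ q ∣ N) :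
    Corr (Gamma0 (N * q)) (Option (ZMod q)) :=
  corrWithOne (corrRC D) (corrRC_ne D hqN)

/-- **`res ∘ cores = 1 + U_q W`.** -/
theorem corrTr_op (D : ALData N q) (hqN : ¬ q ∣ N) (A : Type*) [AddCommGroup A]
    (x : Additive (Gamma0 (N * q)) →+ A) :
    (corrTr D hqN).op A x =
      x + heckeHomU (N * q) q (dvd_mul_left q N) A (alWOp D (NeZero.ne q) A x) := by
  rw [corrTr, corrWithOne_op, corrRT, corrScale_op, corrWU, corrMulLeft_op, corrUq_op]
  rfl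

/-- **`res^c ∘ cores^c = 1 + W U_q`.** -/
theorem corrTrc_op (D : ALData N q) (hqN : ¬ q ∣ N) (A : Type*) [AddCommGroup A]
    (x : Additive (Gamma0 (N * q)) →+ A) :
    (corrTrc D hqN).op A x =
      x + alWOp D (NeZero.ne q) A (heckeHomU (N * q) q (dvd_mul_left q N) A x) := by
  rw [corrTrc, corrWithOne_op, corrRC, corrScale_op, corrUW, corrMulRight_op, corrUq_op]
  rfl

theorem heckeHomU_neg (M r : ℕ) [NeZero r] (hrM : r ∣ M) (A : Type*) [AddCommGroup A]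
    (x : Additive (Gamma0 M) →+ A) : heckeHomU M r hrM A (-x) = -heckeHomU M r hrM A x :=
  corr_op_neg _ A x

/-- **The `q`-new relations.** If both traces of `x ∈ Hom(Γ₀(N q), A)` vanish, then
`U_q (U_q x) = x`, `U_q x = - W x`, and both traces of `U_q x` vanish. -/
theorem heckeHomU_sq_of_corrTr_zero (D : ALData N q) (hqN : ¬ q ∣ N) (A : Type*)
    [AddCommGroup A] (x : Additive (Gamma0 (N * q)) →+ A)
    (h1 : (corrTr D hqN).op A x = 0) (h2 : (corrTrc D hqN).op A x = 0) :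
    heckeHomU (N * q) q (dvd_mul_left q N) A (heckeHomU (N * q) q (dvd_mul_left q N) A x) = x ∧
    heckeHomU (N * q) q (dvd_mul_left q N) A x = -alWOp D (NeZero.ne q) A x ∧
    (corrTr D hqN).op A (heckeHomU (N * q) q (dvd_mul_left q N) A x) = 0 ∧
    (corrTrc D hqN).op A (heckeHomU (N * q) q (dvd_mul_left q N) A x) = 0 := by
  rw [corrTr_op] at h1
  rw [corrTrc_op] at h2
  have hUW : heckeHomU (N * q) q (dvd_mul_left q N) A (alWOp D (NeZero.ne q) A x) = -x :=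
    eq_neg_of_add_eq_zero_right h1
  have hWU : alWOp D (NeZero.ne q) A (heckeHomU (N * q) q (dvd_mul_left q N) A x) = -x :=
    eq_neg_of_add_eq_zero_right h2
  have hU : heckeHomU (N * q) q (dvd_mul_left q N) A x = -alWOp D (NeZero.ne q) A x := by
    have h3 := congrArg (alWOp D (NeZero.ne q) A) hWU
    rw [alWOp_alWOp, alWOp_neg] at h3
    exact h3
  have hUU : heckeHomU (N * q) q (dvd_mul_left q N) A
      (heckeHomU (N * q) q (dvd_mul_left q N) A x) = x := by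
    rw [hU, heckeHomU_neg, hUW, neg_neg]
  refine ⟨hUU, hU, ?_, ?_⟩
  · rw [corrTr_op, hWU, heckeHomU_neg]
    exact add_neg_cancel _
  · rw [corrTrc_op, hUU, hU]
    exact neg_add_cancel _

end Traces

end Fermat.Agent.S41.helper181
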