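/-
helper181 — S41, leaf A-NEW (board 1564), bridge to the two-group coset calculus of helper2138.

* `corrTr_cover`, `corrTrc_cover` : the representatives of `corrTr` / `corrTrc` cover
  `Γ₀(N)` resp. `δ⁻¹ Γ₀(N) δ` (`δ = diag(q, 1)`).
* `sys_op_eq_one_add_UW` : ANY coset system on `Γ₀(N q)` with distinct cosets, `q + 1` indices
  and representatives in `Γ₀(N)` (up to positive scalars) has operator `1 + U_q W`.
* `sys_op_eq_one_add_WU` : ANY coset system on `Γ₀(N q)` with distinct cosets, `q + 1` indices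
  and representatives in `δ⁻¹ Γ₀(N) δ` (up to positive scalars) has operator `1 + W U_q`.
* `heckeHomU_sq_of_sys_zero` : the `q`-new relations for such systems.
-/
import Mathlib
import Fermat.Agent.S41.helper181_QNew
import Fermat.Agent.S41.helper2138_CosetCalc

set_option autoImplicit false

open CongruenceSubgroup Matrix.SpecialLinearGroup
open scoped MatrixGroups

namespace Fermat.Agent.S41.helper181

open Fermat.Agent.S16.helper2138 Fermat.Agent.S41.helper2138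
open ModularForm (heckeMatrix heckeDiagMatrix val_heckeMatrix val_heckeDiagMatrix)

variable {N q : ℕ}

/-- Every element of `Γ₀(N)` lies in a coset `Γ₀(N q) α` of `corrTr`. -/
theorem corrTr_cover [NeZero q] (hq : q.Prime) (D : ALData N q) (hqN : ¬ q ∣ N) (γ : SL(2, ℤ))
    (hγ : γ ∈ Gamma0 N) :
    ∃ (k : Option (ZMod q)) (h : Gamma0 (N * q)),
      mapGL ℝ γ = mapGL ℝ (h : SL(2, ℤ)) * (corrTr D hqN).α k := by
  have : Fact q.Prime := ⟨hq⟩
  obtain ⟨c₁, hc₁⟩ := mem_Gamma0_iff_dvd.mp hγ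
  by_cases hc : (q : ℤ) ∣ γ 1 0
  · obtain ⟨c₂, hc₂⟩ := hc
    have hmem : γ ∈ Gamma0 (N * q) := by
      rw [mem_Gamma0_iff_dvd]
      refine ⟨c₁ * D.a₀ + c₂ * D.b₀, ?_⟩
      push_cast
      linear_combination (-(γ 1 0)) * D.bez + ((q : ℤ) * D.a₀) * hc₁ + ((N : ℤ) * D.b₀) * hc₂
    refine ⟨none, ⟨γ, hmem⟩, ?_⟩
    rw [corrTr, corrWithOne_α_none, mul_one]
  · have hc0 : ((γ 1 0 : ℤ) : ZMod q) ≠ 0 := by
      rwa [Ne, ZMod.intCast_zmod_eq_zero_iff_dvd]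
    set j : ZMod q := ((γ 1 1 : ℤ) : ZMod q) * ((γ 1 0 : ℤ) : ZMod q)⁻¹ with hj
    have hj' : ((γ 1 0 : ℤ) : ZMod q) * j = ((γ 1 1 : ℤ) : ZMod q) := by
      rw [hj, mul_comm, mul_assoc, inv_mul_cancel₀ hc0, mul_one]
    have hjv : (((j.val : ℕ) : ℤ) : ZMod q) = j := by
      rw [Int.cast_natCast, ZMod.natCast_zmod_val]
    have hdvd : (q : ℤ) ∣ γ 1 0 * ((j.val : ℕ) : ℤ) - γ 1 1 := by
      rw [← ZMod.intCast_zmod_eq_zero_iff_dvd]
      push_cast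
      rw [ZMod.natCast_zmod_val, hj', sub_self]
    obtain ⟨t, ht⟩ := hdvd
    have hentry : (γ * (rTMat D ((j.val : ℕ) : ℤ))⁻¹) 1 0 =
        γ 1 0 * ((N : ℤ) * ((j.val : ℕ) : ℤ) + (q : ℤ) * D.a₀) - γ 1 1 * (N : ℤ) := by
      simp [rTMat, Matrix.SpecialLinearGroup.coe_mul, Matrix.SpecialLinearGroup.coe_inv,
        Matrix.adjugate_fin_two, Matrix.mul_apply, Fin.sum_univ_two]
      ring
    have hmem : γ * (rTMat D ((j.val : ℕ) : ℤ))⁻¹ ∈ Gamma0 (N * q) := by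
      rw [mem_Gamma0_iff_dvd, hentry]
      refine ⟨t + c₁ * D.a₀, ?_⟩
      push_cast
      linear_combination (N : ℤ) * ht + ((q : ℤ) * D.a₀) * hc₁
    refine ⟨some j, ⟨_, hmem⟩, ?_⟩
    rw [corrTr, corrWithOne_α_some, corrRT_α, ← map_mul, inv_mul_cancel_right]

theorem corrTr_det [NeZero q] (D : ALData N q) (hqN : ¬ q ∣ N) (k : Option (ZMod q)) :
    Matrix.GeneralLinearGroup.det ((corrTr D hqN).α k) = 1 := by
  cases k with
  | none => rw [corrTr, corrWithOne_α_none, map_one]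
  | some j => rw [corrTr, corrWithOne_α_some, corrRT_α, det_mapGL]

theorem corrTr_isDistinct [NeZero q] (D : ALData N q) (hqN : ¬ q ∣ N) :
    (Sys.ofCorr (corrTr D hqN)).IsDistinct :=
  Sys.isDistinct_of_det _
    (fun i j => by rw [Sys.ofCorr_α, Sys.ofCorr_α, corrTr_det, corrTr_det])
    (fun i j h H => (corrTr D hqN).inj i j h H)

/-- **Bridge for `res ∘ cores`.** Any coset system on `Γ₀(N q)` with distinct cosets, `q + 1`
indices and representatives in `Γ₀(N)` (up to positive scalars) has operator `1 + U_q W`. -/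
theorem sys_op_eq_one_add_UW [NeZero q] (hq : q.Prime) (D : ALData N q) (hqN : ¬ q ∣ N) {κ : Type}
    [Fintype κ] (S : Sys (Gamma0 (N * q)) (Gamma0 (N * q)) κ) (hS : S.IsDistinct)
    (hcard : Fintype.card κ = q + 1)
    (hrep : ∀ k, ∃ (γ : SL(2, ℤ)) (c : ℝˣ), γ ∈ Gamma0 N ∧ 0 < (c : ℝ) ∧
      S.α k = sc c * mapGL ℝ γ)
    (A : Type*) [AddCommGroup A] (x : Additive (Gamma0 (N * q)) →+ A) :
    S.op A x = x + heckeHomU (N * q) q (dvd_mul_left q N) A (alWOp D (NeZero.ne q) A x) := by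
  rw [← corrTr_op D hqN, ← Sys.ofCorr_op]
  refine Sys.op_eq_of_card S (Sys.ofCorr (corrTr D hqN)) hS (corrTr_isDistinct D hqN) ?_ ?_ A x
  · rw [hcard, Fintype.card_option, ZMod.card]
  · intro k
    obtain ⟨γ, c, hγ, hc, hk⟩ := hrep k
    obtain ⟨j, h, hh⟩ := corrTr_cover hq D hqN γ hγ
    refine ⟨j, h, c, hc, ?_⟩
    rw [hk, hh, Sys.ofCorr_α, mul_assoc]

/-! ### The conjugate side -/

/-- `T^j r = !![1 + j N, -b₀ + j q a₀; N, q a₀] ∈ Γ₀(N)`. -/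
def trMat (D : ALData N q) (j : ℤ) : SL(2, ℤ) :=
  ⟨!![1 + j * (N : ℤ), -D.b₀ + j * (q : ℤ) * D.a₀; (N : ℤ), (q : ℤ) * D.a₀], by
    rw [Matrix.det_fin_two_of]
    linear_combination D.bez⟩

theorem trMat_mem (D : ALData N q) (j : ℤ) : trMat D j ∈ Gamma0 N := by
  rw [mem_Gamma0_iff_dvd]
  simp [trMat]

/-- `δ * (δ⁻¹ T^j r δ) = T^j r * δ`. -/
theorem delta_mul_rcGL (D : ALData N q) (hq : q ≠ 0) (j : ℤ) :
    heckeDiagMatrix q * rcGL D hq j = mapGL ℝ (trMat D j) * heckeDiagMatrix q := by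
  have hq' : (q : ℝ) ≠ 0 := by exact_mod_cast hq
  apply Matrix.GeneralLinearGroup.ext
  intro i k
  simp only [Matrix.GeneralLinearGroup.coe_mul, Matrix.mul_apply, Fin.sum_univ_two, mapGL_val,
    rcGL_val, trMat, val_heckeDiagMatrix hq]
  fin_cases i <;> fin_cases k <;> simp <;> field_simp

theorem rcGL_det (D : ALData N q) (hq : q ≠ 0) (j : ℤ) :
    Matrix.GeneralLinearGroup.det (rcGL D hq j) = 1 := by
  have hq' : (q : ℝ) ≠ 0 := by exact_mod_cast hq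
  have h := D.bezR
  apply Units.ext
  rw [Matrix.GeneralLinearGroup.val_det_apply, rcGL_val, Matrix.det_fin_two_of]
  simp only [Units.val_one]
  field_simp
  linear_combination h

/-- An element of `Γ₀(N)` whose upper right entry is divisible by `q` is `δ h δ⁻¹` with
`h ∈ Γ₀(N q)`. -/
theorem delta_conj_of_dvd (hq : q ≠ 0) (g : SL(2, ℤ)) (hg : g ∈ Gamma0 N)
    (hb : (q : ℤ) ∣ g 0 1) :
    ∃ h : Gamma0 (N * q),
      mapGL ℝ g * heckeDiagMatrix q = heckeDiagMatrix q * mapGL ℝ (h : SL(2, ℤ)) := by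
  obtain ⟨b', hb'⟩ := hb
  obtain ⟨c₁, hc₁⟩ := mem_Gamma0_iff_dvd.mp hg
  have hdet := det_SL g
  have hb'R : ((g 0 1 : ℤ) : ℝ) = (q : ℝ) * b' := by exact_mod_cast hb'
  refine ⟨⟨⟨!![g 0 0, b'; (q : ℤ) * g 1 0, g 1 1], ?_⟩, ?_⟩, ?_⟩
  · rw [Matrix.det_fin_two_of]
    linear_combination hdet + g 1 0 * hb'
  · rw [mem_Gamma0_iff_dvd]
    refine ⟨c₁, ?_⟩
    simp only [Matrix.of_apply, Matrix.cons_val_zero, Matrix.cons_val_one]
    push_cast
    rw [hc₁]; ring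
  · apply Matrix.GeneralLinearGroup.ext
    intro i k
    simp only [Matrix.GeneralLinearGroup.coe_mul, Matrix.mul_apply, Fin.sum_univ_two, mapGL_val,
      val_heckeDiagMatrix hq]
    fin_cases i <;> fin_cases k
    · simp
      ring
    · simp [hb'R]
    · simp
      ring
    · simp

/-- Every element of `δ⁻¹ Γ₀(N) δ` lies in a coset `Γ₀(N q) α` of `corrTrc`. -/
theorem corrTrc_cover [NeZero q] (hq : q.Prime) (D : ALData N q) (hqN : ¬ q ∣ N) (γ : SL(2, ℤ))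
    (hγ : γ ∈ Gamma0 N) :
    ∃ (k : Option (ZMod q)) (h : Gamma0 (N * q)),
      mapGL ℝ γ * heckeDiagMatrix q =
        heckeDiagMatrix q * (mapGL ℝ (h : SL(2, ℤ)) * (corrTrc D hqN).α k) := by
  have : Fact q.Prime := ⟨hq⟩
  by_cases hb : (q : ℤ) ∣ γ 0 1
  · obtain ⟨h, hh⟩ := delta_conj_of_dvd (NeZero.ne q) γ hγ hb
    refine ⟨none, h, ?_⟩
    rw [corrTrc, corrWithOne_α_none, mul_one]
    exact hh
  · have hb0 : ((γ 0 1 : ℤ) : ZMod q) ≠ 0 := by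
      rwa [Ne, ZMod.intCast_zmod_eq_zero_iff_dvd]
    have hN0 : ((N : ℕ) : ZMod q) ≠ 0 := by
      rwa [Ne, ZMod.natCast_eq_zero_iff]
    have hbN : ((γ 0 1 : ℤ) : ZMod q) * ((N : ℕ) : ZMod q) ≠ 0 := mul_ne_zero hb0 hN0
    set j : ZMod q := -(((γ 0 0 : ℤ) : ZMod q) * ((D.b₀ : ℤ) : ZMod q) + ((γ 0 1 : ℤ) : ZMod q)) *
      (((γ 0 1 : ℤ) : ZMod q) * ((N : ℕ) : ZMod q))⁻¹ with hj
    have hj' : ((γ 0 1 : ℤ) : ZMod q) * ((N : ℕ) : ZMod q) * j =
        -(((γ 0 0 : ℤ) : ZMod q) * ((D.b₀ : ℤ) : ZMod q) + ((γ 0 1 : ℤ) : ZMod q)) := by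
      rw [hj, mul_comm, mul_assoc, inv_mul_cancel₀ hbN, mul_one]
    have hg₀ : γ * (trMat D ((j.val : ℕ) : ℤ))⁻¹ ∈ Gamma0 N :=
      Subgroup.mul_mem _ hγ (Subgroup.inv_mem _ (trMat_mem D _))
    have hentry : (γ * (trMat D ((j.val : ℕ) : ℤ))⁻¹) 0 1 =
        γ 0 0 * (D.b₀ - ((j.val : ℕ) : ℤ) * (q : ℤ) * D.a₀)
          + γ 0 1 * (1 + ((j.val : ℕ) : ℤ) * (N : ℤ)) := by
      rw [Matrix.SpecialLinearGroup.coe_mul, Matrix.SpecialLinearGroup.coe_inv,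
        Matrix.adjugate_fin_two, Matrix.mul_apply, Fin.sum_univ_two]
      simp only [trMat, Matrix.of_apply, Matrix.cons_val_zero, Matrix.cons_val_one,
        Matrix.cons_val']
      ring
    have hdvd : (q : ℤ) ∣ (γ * (trMat D ((j.val : ℕ) : ℤ))⁻¹) 0 1 := by
      rw [← ZMod.intCast_zmod_eq_zero_iff_dvd, hentry]
      push_cast
      rw [ZMod.natCast_zmod_val, ZMod.natCast_self]
      linear_combination hj'
    obtain ⟨h, hh⟩ := delta_conj_of_dvd (NeZero.ne q) _ hg₀ hdvd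
    refine ⟨some j, h, ?_⟩
    rw [corrTrc, corrWithOne_α_some, corrRC_α]
    calc mapGL ℝ γ * heckeDiagMatrix q
        = mapGL ℝ (γ * (trMat D ((j.val : ℕ) : ℤ))⁻¹) *
            (mapGL ℝ (trMat D ((j.val : ℕ) : ℤ)) * heckeDiagMatrix q) := by
          rw [← mul_assoc, ← map_mul, inv_mul_cancel_right]
      _ = mapGL ℝ (γ * (trMat D ((j.val : ℕ) : ℤ))⁻¹) *
            (heckeDiagMatrix q * rcGL D (NeZero.ne q) ((j.val : ℕ) : ℤ)) := by
          rw [delta_mul_rcGL]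
      _ = heckeDiagMatrix q * (mapGL ℝ (h : SL(2, ℤ)) *
            rcGL D (NeZero.ne q) ((j.val : ℕ) : ℤ)) := by
          rw [← mul_assoc, hh, mul_assoc]

theorem corrTrc_det [NeZero q] (D : ALData N q) (hqN : ¬ q ∣ N) (k : Option (ZMod q)) :
    Matrix.GeneralLinearGroup.det ((corrTrc D hqN).α k) = 1 := by
  cases k with
  | none => rw [corrTrc, corrWithOne_α_none, map_one]
  | some j => rw [corrTrc, corrWithOne_α_some, corrRC_α, rcGL_det]

theorem corrTrc_isDistinct [NeZero q] (D : ALData N q) (hqN : ¬ q ∣ N) :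
    (Sys.ofCorr (corrTrc D hqN)).IsDistinct :=
  Sys.isDistinct_of_det _
    (fun i j => by rw [Sys.ofCorr_α, Sys.ofCorr_α, corrTrc_det, corrTrc_det])
    (fun i j h H => (corrTrc D hqN).inj i j h H)

/-- **Bridge for `res^c ∘ cores^c`.** Any coset system on `Γ₀(N q)` with distinct cosets,
`q + 1` indices and representatives in `δ⁻¹ Γ₀(N) δ` (up to positive scalars), `δ = diag(q, 1)`,
has operator `1 + W U_q`. -/
theorem sys_op_eq_one_add_WU [NeZero q] (hq : q.Prime) (D : ALData N q) (hqN : ¬ q ∣ N) {κ : Type}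
    [Fintype κ] (S : Sys (Gamma0 (N * q)) (Gamma0 (N * q)) κ) (hS : S.IsDistinct)
    (hcard : Fintype.card κ = q + 1)
    (hrep : ∀ k, ∃ (γ : SL(2, ℤ)) (c : ℝˣ), γ ∈ Gamma0 N ∧ 0 < (c : ℝ) ∧
      heckeDiagMatrix q * S.α k = sc c * (mapGL ℝ γ * heckeDiagMatrix q))
    (A : Type*) [AddCommGroup A] (x : Additive (Gamma0 (N * q)) →+ A) :
    S.op A x = x + alWOp D (NeZero.ne q) A (heckeHomU (N * q) q (dvd_mul_left q N) A x) := by
  rw [← corrTrc_op D hqN, ← Sys.ofCorr_op]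
  refine Sys.op_eq_of_card S (Sys.ofCorr (corrTrc D hqN)) hS (corrTrc_isDistinct D hqN) ?_ ?_ A x
  · rw [hcard, Fintype.card_option, ZMod.card]
  · intro k
    obtain ⟨γ, c, hγ, hc, hk⟩ := hrep k
    obtain ⟨j, h, hh⟩ := corrTrc_cover hq D hqN γ hγ
    refine ⟨j, h, c, hc, ?_⟩
    apply mul_left_cancel (a := heckeDiagMatrix q)
    rw [hk, hh, Sys.ofCorr_α, ← mul_assoc (sc c), sc_comm, mul_assoc, mul_assoc]

/-- **The `q`-new relations for coset systems.** `S₁` a system of representatives of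
`Γ₀(N q) \ Γ₀(N)`, `S₂` one of `Γ₀(N q) \ δ⁻¹ Γ₀(N) δ` (both up to positive scalars). If
`S₁.op x = 0` and `S₂.op x = 0` then `U_q (U_q x) = x` and both operators kill `U_q x`. -/
theorem heckeHomU_sq_of_sys_zero [NeZero q] (hq : q.Prime) (hqN : ¬ q ∣ N) {κ₁ κ₂ : Type}
    [Fintype κ₁] [Fintype κ₂]
    (S₁ : Sys (Gamma0 (N * q)) (Gamma0 (N * q)) κ₁) (hS₁ : S₁.IsDistinct)
    (hcard₁ : Fintype.card κ₁ = q + 1)
    (hrep₁ : ∀ k, ∃ (γ : SL(2, ℤ)) (c : ℝˣ), γ ∈ Gamma0 N ∧ 0 < (c : ℝ) ∧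
      S₁.α k = sc c * mapGL ℝ γ)
    (S₂ : Sys (Gamma0 (N * q)) (Gamma0 (N * q)) κ₂) (hS₂ : S₂.IsDistinct)
    (hcard₂ : Fintype.card κ₂ = q + 1)
    (hrep₂ : ∀ k, ∃ (γ : SL(2, ℤ)) (c : ℝˣ), γ ∈ Gamma0 N ∧ 0 < (c : ℝ) ∧
      heckeDiagMatrix q * S₂.α k = sc c * (mapGL ℝ γ * heckeDiagMatrix q))
    (A : Type*) [AddCommGroup A] (x : Additive (Gamma0 (N * q)) →+ A)
    (h1 : S₁.op A x = 0) (h2 : S₂.op A x = 0) :
    heckeHomU (N * q) q (dvd_mul_left q N) A (heckeHomU (N * q) q (dvd_mul_left q N) A x) = x ∧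
    S₁.op A (heckeHomU (N * q) q (dvd_mul_left q N) A x) = 0 ∧
    S₂.op A (heckeHomU (N * q) q (dvd_mul_left q N) A x) = 0 := by
  have hcop : Nat.Coprime q N := (Nat.Prime.coprime_iff_not_dvd hq).mpr hqN
  set D : ALData N q := ALData.ofCoprime hcop
  rw [sys_op_eq_one_add_UW hq D hqN S₁ hS₁ hcard₁ hrep₁, ← corrTr_op D hqN] at h1
  rw [sys_op_eq_one_add_WU hq D hqN S₂ hS₂ hcard₂ hrep₂, ← corrTrc_op D hqN] at h2
  obtain ⟨hUU, -, hP, hPc⟩ := heckeHomU_sq_of_corrTr_zero D hqN A x h1 h2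
  refine ⟨hUU, ?_, ?_⟩
  · rw [sys_op_eq_one_add_UW hq D hqN S₁ hS₁ hcard₁ hrep₁, ← corrTr_op D hqN]
    exact hP
  · rw [sys_op_eq_one_add_WU hq D hqN S₂ hS₂ hcard₂ hrep₂, ← corrTrc_op D hqN]
    exact hPc

end Fermat.Agent.S41.helper181
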