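/-
helper2138 — S41: the captain's `IsIharaPackage` (helper123_Spec) for the concrete degeneracy maps
`res, resc, cores, coresc` of `helper2138_LevelRaise`, given the two Ihara halves.
-/
import Mathlib
import Fermat.Agent.S41.helper123_Spec
import Fermat.Agent.S41.helper2138_LevelRaise

set_option autoImplicit false

open CongruenceSubgroup
open scoped MatrixGroups
open Fermat.Agent.S16.helper2138 (heckeHomT heckeHomU)
open Fermat.Agent.S41.helper123 (Lam eta IsIharaPackage)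

namespace Fermat.Agent.S41.helper2138

/-- The six "module A" fields of `IsIharaPackage` hold for `(res, resc, cores, coresc)` at
`A = ℤ`; the two Ihara halves are the remaining hypotheses. -/
theorem isIharaPackage_of (N q p ℓ₀ : ℕ) [Fact q.Prime] [Fact ℓ₀.Prime] (hqN : ¬ q ∣ N)
    (h₀N : ¬ ℓ₀ ∣ N)
    (ha : ∀ x y : Lam N, (∃ w : Lam (N * q), res N q ℤ x + resc N q ℤ y = (p : ℤ) • w) →
      (∃ x' : Lam N, eta N ℓ₀ h₀N ℤ (eta N ℓ₀ h₀N ℤ (eta N ℓ₀ h₀N ℤ x)) = (p : ℤ) • x') ∧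
      (∃ y' : Lam N, eta N ℓ₀ h₀N ℤ (eta N ℓ₀ h₀N ℤ (eta N ℓ₀ h₀N ℤ y)) = (p : ℤ) • y'))
    (hb : ∀ x y : Lam N, ∃ w : Lam (N * q),
      (∃ x' : Lam N, eta N ℓ₀ h₀N ℤ x - cores N q hqN ℤ w = (p : ℤ) • x') ∧
      (∃ y' : Lam N, eta N ℓ₀ h₀N ℤ y - coresc N q hqN ℤ w = (p : ℤ) • y')) :
    IsIharaPackage N q p ℓ₀ hqN h₀N (res N q ℤ) (resc N q ℤ) (cores N q hqN ℤ)
      (coresc N q hqN ℤ) where
  r_T := ihara_r_T N q hqN
  r_U := ihara_r_U N q hqN
  k_T := ihara_k_T N q hqN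
  k_U := ihara_k_U N q hqN
  kr := ihara_kr N q hqN
  new_U := ihara_new_U N q hqN
  ihara_a := ha
  ihara_b := hb

end Fermat.Agent.S41.helper2138
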