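import Fermat.Agent.S21
import Fermat.Agent.S21.helper21_Assembly
import Fermat.Agent.S16.helper262_PeriodHeckeHom
import Fermat.Agent.S49.helper589_Eigenform
import Fermat.Agent.S29.helper7617_Integrality

/-!
# S41, module G: eigenclass ⟹ eigenform

A nonzero parabolic class `v ∈ Hom(Γ₀(L), ℂ)` which is a simultaneous eigenvector of the
coset-transfer Hecke operators `helper2138.heckeHomT` (`ℓ ∤ L`) and `helper2138.heckeHomU`
(`r ∣ L`) with eigenvalues `a ℓ` comes from a weight-2 normalised cuspidal eigenform `g` of level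
`Γ₀(L)` with `a_ℓ(g) = a ℓ` for every prime `ℓ`.

Inputs (all landed): Eichler–Shimura `S21.result` (range of `periodHomPair` = parabolic classes,
injectivity), the Hecke-equivariance of the period map
(`S16.helper262.periodMap_heckeTLin/_heckeULin`), the commutation of the Hecke operators with the
Prelude involution (`S16.helper2138.heckeHomT/U_charInvolution`) and
`S49.helper589.exists_normalizedEigenform_of_eigenvector`.
-/

set_option autoImplicit false

open ModularCurve ModularCurve.Period CongruenceSubgroup UpperHalfPlane ModularFormClass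
open scoped MatrixGroups ModularForm

namespace Fermat.Agent.S41.helper262

open Fermat.Agent.S16.helper2138 Fermat.Agent.S16.helper262

/-- `T_ℓ` on `Hom(Γ₀(L), ℂ)` as a `ℂ`-linear map. -/
noncomputable def heckeHomTLin (L l : ℕ) [Fact l.Prime] (hlL : ¬ l ∣ L) :
    (Additive (Gamma0 L) →+ ℂ) →ₗ[ℂ] (Additive (Gamma0 L) →+ ℂ) :=
  (corrT L l hlL).opLin ℂ ℂ

/-- `U_q` on `Hom(Γ₀(L), ℂ)` as a `ℂ`-linear map. -/
noncomputable def heckeHomULin (L q : ℕ) [NeZero q] (hqL : q ∣ L) :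
    (Additive (Gamma0 L) →+ ℂ) →ₗ[ℂ] (Additive (Gamma0 L) →+ ℂ) :=
  (corrU L q hqL).opLin ℂ ℂ

@[simp] theorem heckeHomTLin_apply (L l : ℕ) [Fact l.Prime] (hlL : ¬ l ∣ L)
    (φ : Additive (Gamma0 L) →+ ℂ) : heckeHomTLin L l hlL φ = heckeHomT L l hlL ℂ φ := rfl

@[simp] theorem heckeHomULin_apply (L q : ℕ) [NeZero q] (hqL : q ∣ L)
    (φ : Additive (Gamma0 L) →+ ℂ) : heckeHomULin L q hqL φ = heckeHomU L q hqL ℂ φ := rfl

/-- `T_ℓ` on classes corresponds to `(T_ℓ, T_ℓ)` on pairs of forms under `periodHomPair`. -/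
theorem heckeHomT_periodHomPair (L l : ℕ) [NeZero L] [Fact l.Prime] (hlL : ¬ l ∣ L)
    (f g : CuspForm (Gamma0 L) 2) :
    heckeHomT L l hlL ℂ (periodHomPair L (f, g))
      = periodHomPair L (CuspForm.heckeTLin 2 (Fact.out : l.Prime) hlL f,
          CuspForm.heckeTLin 2 (Fact.out : l.Prime) hlL g) := by
  rw [Fermat.Agent.S21.helper21.periodHomPair_apply,
    Fermat.Agent.S21.helper21.periodHomPair_apply, periodMap_heckeTLin, periodMap_heckeTLin,
    ← heckeHomT_charInvolution, ← heckeHomT_charInvolution]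
  simp only [← heckeHomTLin_apply, map_add, map_sub]

/-- `U_q` on classes corresponds to `(U_q, U_q)` on pairs of forms under `periodHomPair`. -/
theorem heckeHomU_periodHomPair (L q : ℕ) [NeZero L] [Fact q.Prime] [NeZero q] (hqL : q ∣ L)
    (f g : CuspForm (Gamma0 L) 2) :
    heckeHomU L q hqL ℂ (periodHomPair L (f, g))
      = periodHomPair L (CuspForm.heckeULin 2 hqL f, CuspForm.heckeULin 2 hqL g) := by
  rw [Fermat.Agent.S21.helper21.periodHomPair_apply,
    Fermat.Agent.S21.helper21.periodHomPair_apply, periodMap_heckeULin, periodMap_heckeULin,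
    ← heckeHomU_charInvolution, ← heckeHomU_charInvolution]
  simp only [← heckeHomULin_apply, map_add, map_sub]

/-- **Eigenclass ⟹ eigenform.** A nonzero parabolic class in `Hom(Γ₀(L), ℂ)` which is an
eigenvector of all `T_ℓ` (`ℓ ∤ L`) and `U_r` (`r ∣ L`) with eigenvalues `a ℓ` gives a normalised
weight-2 eigenform of level `Γ₀(L)` whose prime coefficients are the `a ℓ`. -/
theorem exists_eigenform_of_eigenclass (L : ℕ) [NeZero L]
    (v : Additive (Gamma0 L) →+ ℂ) (hv0 : v ≠ 0)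
    (hv : v ∈ parabolicHoms ℂ (Gamma0 L) ℂ) (a : ℕ → ℂ)
    (hT : ∀ (l : ℕ) [Fact l.Prime] (hlL : ¬ l ∣ L), heckeHomT L l hlL ℂ v = a l • v)
    (hU : ∀ (r : ℕ) [Fact r.Prime] [NeZero r] (hrL : r ∣ L), heckeHomU L r hrL ℂ v = a r • v) :
    ∃ g : CuspForm (Gamma0 L) 2, g.IsNormalizedEigenform ∧
      ∀ l : ℕ, l.Prime → qCoeff (⇑g) l = a l := by
  obtain ⟨hinj, hrange⟩ := Fermat.Agent.S21.result L
  rw [← hrange] at hv
  obtain ⟨⟨f₁, f₂⟩, rfl⟩ := hv
  have key : ∀ f : CuspForm (Gamma0 L) 2 × CuspForm (Gamma0 L) 2,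
      (∀ (l : ℕ) (hl : l.Prime) (hlL : ¬ l ∣ L),
          CuspForm.heckeTLin 2 hl hlL f.1 = a l • f.1 ∧
          CuspForm.heckeTLin 2 hl hlL f.2 = a l • f.2) ∧
      (∀ (r : ℕ) (_ : r.Prime) (hrL : r ∣ L),
          CuspForm.heckeULin 2 hrL f.1 = a r • f.1 ∧
          CuspForm.heckeULin 2 hrL f.2 = a r • f.2) →
      f ≠ 0 → ∃ g : CuspForm (Gamma0 L) 2, g.IsNormalizedEigenform ∧
        ∀ l : ℕ, l.Prime → qCoeff (⇑g) l = a l := by
    rintro ⟨g₁, g₂⟩ ⟨hT', hU'⟩ hne
    by_cases h1 : g₁ = 0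
    · have h2 : g₂ ≠ 0 := by
        rintro rfl
        exact hne (by rw [h1]; rfl)
      obtain ⟨g, hg, hga, -⟩ :=
        Fermat.Agent.S49.helper589.exists_normalizedEigenform_of_eigenvector g₂ h2 a
          (fun l hl hlL => (hT' l hl hlL).2) (fun r hr hrL => (hU' r hr hrL).2)
      exact ⟨g, hg, hga⟩
    · obtain ⟨g, hg, hga, -⟩ :=
        Fermat.Agent.S49.helper589.exists_normalizedEigenform_of_eigenvector g₁ h1 a
          (fun l hl hlL => (hT' l hl hlL).1) (fun r hr hrL => (hU' r hr hrL).1)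
      exact ⟨g, hg, hga⟩
  refine key (f₁, f₂) ⟨?_, ?_⟩ ?_
  · intro l hl hlL
    have : Fact l.Prime := ⟨hl⟩
    have h := hT l hlL
    rw [heckeHomT_periodHomPair, ← map_smul] at h
    have h' := hinj h
    rw [Prod.smul_mk, Prod.mk.injEq] at h'
    exact h'
  · intro r hr hrL
    have : Fact r.Prime := ⟨hr⟩
    have : NeZero r := ⟨hr.ne_zero⟩
    have h := hU r hrL
    rw [heckeHomU_periodHomPair, ← map_smul] at h
    have h' := hinj h
    rw [Prod.smul_mk, Prod.mk.injEq] at h'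
    exact h'
  · rintro h
    apply hv0
    rw [h, map_zero]

/-- The period map of the zero form is zero. -/
theorem periodMap_zero' (N : ℕ) [NeZero N] : periodMap N (0 : CuspForm (Gamma0 N) 2) = 0 := by
  obtain ⟨pml, hpml⟩ := Fermat.Agent.S21.helper921.existsPeriodMapLinear_of_A
    (Fermat.Agent.S21.helper21.stmtA N)
  rw [← hpml, map_zero]

/-- Variant of `exists_eigenform_of_eigenclass` with explicit primality hypotheses. -/
theorem exists_eigenform_of_eigenclass' (L : ℕ) [NeZero L]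
    (v : Additive (Gamma0 L) →+ ℂ) (hv0 : v ≠ 0)
    (hv : v ∈ parabolicHoms ℂ (Gamma0 L) ℂ) (a : ℕ → ℂ)
    (hT : ∀ (l : ℕ) (hl : l.Prime) (hlL : ¬ l ∣ L),
      haveI : Fact l.Prime := ⟨hl⟩
      heckeHomT L l hlL ℂ v = a l • v)
    (hU : ∀ (r : ℕ) (hr : r.Prime) (hrL : r ∣ L),
      haveI : NeZero r := ⟨hr.ne_zero⟩
      heckeHomU L r hrL ℂ v = a r • v) :
    ∃ g : CuspForm (Gamma0 L) 2, g.IsNormalizedEigenform ∧
      ∀ l : ℕ, l.Prime → qCoeff (⇑g) l = a l :=
  exists_eigenform_of_eigenclass L v hv0 hv a (fun l hl hlL => hT l hl.out hlL)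
    (fun r hr _ hrL => hU r hr.out hrL)

/-- **Eigenform ⟹ eigenclasses.** For a normalised eigenform `f` of level `Γ₀(L)` and either
sign, the class `periodMap f ± ι (periodMap f)` is a nonzero parabolic class in
`Hom(Γ₀(L), ℂ)`, an eigenvector of all `T_ℓ` (`ℓ ∤ L`) and `U_r` (`r ∣ L`) with eigenvalues
`a_ℓ(f)`, and an eigenvector of the involution `ι = charInvolution` with eigenvalue `±1`. -/
theorem exists_eigenclass_of_eigenform (L : ℕ) [NeZero L] (f : CuspForm (Gamma0 L) 2)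
    (hf : f.IsNormalizedEigenform) (s : ℂ) (hs : s = 1 ∨ s = -1) :
    ∃ v : Additive (Gamma0 L) →+ ℂ, v ≠ 0 ∧ v ∈ parabolicHoms ℂ (Gamma0 L) ℂ ∧
      charInvolution L ℂ ℂ v = s • v ∧
      (∀ (l : ℕ) [Fact l.Prime] (hlL : ¬ l ∣ L),
        heckeHomT L l hlL ℂ v = qCoeff (⇑f) l • v) ∧
      (∀ (r : ℕ) [Fact r.Prime] [NeZero r] (hrL : r ∣ L),
        heckeHomU L r hrL ℂ v = qCoeff (⇑f) r • v) := by
  obtain ⟨hinj, hrange⟩ := Fermat.Agent.S21.result L
  have hf0 : f ≠ 0 := Fermat.Agent.S29.helper7617.ne_zero_of_isNormalizedEigenform hf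
  have hmain : ∀ x : CuspForm (Gamma0 L) 2 × CuspForm (Gamma0 L) 2, x ≠ 0 →
      (x = (f, 0) ∨ x = (0, f)) →
      periodHomPair L x ≠ 0 ∧ periodHomPair L x ∈ parabolicHoms ℂ (Gamma0 L) ℂ ∧
      (∀ (l : ℕ) [Fact l.Prime] (hlL : ¬ l ∣ L),
        heckeHomT L l hlL ℂ (periodHomPair L x) = qCoeff (⇑f) l • periodHomPair L x) ∧
      (∀ (r : ℕ) [Fact r.Prime] [NeZero r] (hrL : r ∣ L),
        heckeHomU L r hrL ℂ (periodHomPair L x) = qCoeff (⇑f) r • periodHomPair L x) := by
    intro x hx0 hx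
    refine ⟨fun h => hx0 (hinj (by rw [h, map_zero])), ?_, ?_, ?_⟩
    · rw [← hrange]; exact ⟨x, rfl⟩
    · intro l _ hlL
      have hl : l.Prime := Fact.out
      have hTf := Fermat.Agent.S29.helper7617.heckeTLin_apply_eq_smul hf hl hlL
      rcases hx with rfl | rfl
      · rw [heckeHomT_periodHomPair, hTf, map_zero, ← map_smul, Prod.smul_mk, smul_zero]
      · rw [heckeHomT_periodHomPair, hTf, map_zero, ← map_smul, Prod.smul_mk, smul_zero]
    · intro r _ _ hrL
      have hr : r.Prime := Fact.out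
      have hUf := Fermat.Agent.S29.helper7617.heckeULin_apply_eq_smul hf hr hrL
      rcases hx with rfl | rfl
      · rw [heckeHomU_periodHomPair, hUf, map_zero, ← map_smul, Prod.smul_mk, smul_zero]
      · rw [heckeHomU_periodHomPair, hUf, map_zero, ← map_smul, Prod.smul_mk, smul_zero]
  rcases hs with rfl | rfl
  · obtain ⟨h1, h2, h3, h4⟩ := hmain (f, 0)
      (fun h => hf0 (congrArg Prod.fst h)) (Or.inl rfl)
    refine ⟨periodHomPair L (f, 0), h1, h2, ?_, h3, h4⟩
    rw [Fermat.Agent.S21.helper21.periodHomPair_apply]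
    simp only [periodMap_zero', map_add, map_sub, map_zero, charInvolution_charInvolution,
      one_smul]
    abel
  · obtain ⟨h1, h2, h3, h4⟩ := hmain (0, f)
      (fun h => hf0 (congrArg Prod.snd h)) (Or.inr rfl)
    refine ⟨periodHomPair L (0, f), h1, h2, ?_, h3, h4⟩
    rw [neg_one_smul, Fermat.Agent.S21.helper21.periodHomPair_apply]
    simp only [periodMap_zero', map_add, map_sub, map_zero, charInvolution_charInvolution]
    abel

end Fermat.Agent.S41.helper262
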