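import Mathlib

/-!
# S41, endgame (L5): interface of the abstract level-raising algebra (H-ALG)

`Stmt_HAlg` is the exact statement consumed by `helper262_Endgame.lean`.

Data: a commutative ring `T` acting on two finite free `ℤ`-lattices `L` (level `N`) and `L'`
(level `N q`), an extra endomorphism `tq` of `L` (`= T_q`) commuting with `T`, equivariant
degeneracy maps `r₁ r₂ : L → L'`, `k₁ k₂ : L' → L` with `κρ = [[q+1, tq], [tq, q+1]]`, the two
Ihara halves up to `η ∈ T`: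
* (a) `r₁ x + r₂ y ∈ p L' ⟹ η³ x, η³ y ∈ p L`;
* (b) `∀ x y, ∃ w, η x - k₁ w ∈ p L ∧ η y - k₂ w ∈ p L`;
a character `lam : T →+* k` to a field of characteristic `p` with `lam η ≠ 0`, and a nonzero
eigenvector `c ∈ k ⊗ L` for `(T, lam)` and `(tq, a)` with `a² = (q+1)²`.

Conclusion: `lam` occurs in the `q`-new sublattice `ker k₁ ⊓ ker k₂ ⊆ L'`, in the form needed by
Deligne–Serre lifting: every `t ∈ T` acting as zero on `ker k₁ ⊓ ker k₂` has `lam t = 0`.

(Proof sketch: `z := r₁ c + ε r₂ c`, `ε = ∓1`, is a `lam`-eigenvector of `k ⊗ L'` killed by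
`k₁`, `k₂`; it is nonzero by (a) and `lam η ≠ 0`; by (b) the quotient
`ker (κ ⊗ k) / (k ⊗ ker κ) = Tor(k, coker κ)` is killed by a power of `η`, so `z` comes from
`k ⊗ ker κ`.)
-/

set_option autoImplicit false

open TensorProduct

namespace Fermat.Agent.S41.helper262

/-- **H-ALG**: the abstract level-raising linear algebra (see the module docstring). -/
def Stmt_HAlg : Prop :=
  ∀ (T : Type) [CommRing T] (L L' : Type) [AddCommGroup L] [AddCommGroup L']
    [Module.Free ℤ L] [Module.Finite ℤ L] [Module.Free ℤ L'] [Module.Finite ℤ L']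
    (actL : T →+* Module.End ℤ L) (actL' : T →+* Module.End ℤ L')
    (tq : Module.End ℤ L) (r₁ r₂ : L →ₗ[ℤ] L') (k₁ k₂ : L' →ₗ[ℤ] L)
    (q p : ℕ) (eta : T) (k : Type) [Field k] (lam : T →+* k) (a : k) (c : k ⊗[ℤ] L),
    p.Prime → CharP k p →
    (∀ t, tq * actL t = actL t * tq) →
    (∀ t x, r₁ (actL t x) = actL' t (r₁ x)) → (∀ t x, r₂ (actL t x) = actL' t (r₂ x)) →
    (∀ t w, k₁ (actL' t w) = actL t (k₁ w)) → (∀ t w, k₂ (actL' t w) = actL t (k₂ w)) →
    (∀ x, k₁ (r₁ x) = ((q : ℤ) + 1) • x) → (∀ x, k₂ (r₂ x) = ((q : ℤ) + 1) • x) →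
    (∀ x, k₁ (r₂ x) = tq x) → (∀ x, k₂ (r₁ x) = tq x) →
    (∀ x y : L, (∃ w : L', r₁ x + r₂ y = (p : ℤ) • w) →
      (∃ x' : L, actL (eta ^ 3) x = (p : ℤ) • x') ∧ (∃ y' : L, actL (eta ^ 3) y = (p : ℤ) • y')) →
    (∀ x y : L, ∃ w : L', (∃ x' : L, actL eta x - k₁ w = (p : ℤ) • x') ∧
      (∃ y' : L, actL eta y - k₂ w = (p : ℤ) • y')) →
    lam eta ≠ 0 → a ^ 2 = ((q : k) + 1) ^ 2 → c ≠ 0 →
    (∀ t, (actL t).baseChange k c = lam t • c) → tq.baseChange k c = a • c →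
    ∀ t : T, (∀ w : L', k₁ w = 0 → k₂ w = 0 → actL' t w = 0) → lam t = 0

end Fermat.Agent.S41.helper262
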