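/-
S41, module B (crossing map), sub-lemma D4 of helper6553 (team_s41_chat #96): finiteness of the
set of integer triples `(u, v, w)` with prescribed determinants for which at most one of the
three pairs is "bad" at the point `x + i y` of the upper half plane.

With `n(u) = |u₂ z - u₁|²` one has `PP u v ^ 2 + QQ u v ^ 2 = n(u) n(v)`; a good pair
(`PP² ≤ QQ²`) gives `n(u) n(v) ≤ 2 y² det(u,v)²`, and `n(u) ≥ min 1 y²` for `u ≠ 0`.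
Two good pairs cover `u, v, w`, so all three vectors lie in a finite box.

Mathlib only.
-/
import Mathlib

set_option autoImplicit false

namespace Fermat.Agent.S41.helper2867

/-- Real part of `(u₂ z - u₁) * conj (v₂ z - v₁)` at `z = x + i y`. -/
def PP (u v : ℤ × ℤ) (x y : ℝ) : ℝ := (u.2 * x - u.1) * (v.2 * x - v.1) + u.2 * v.2 * y ^ 2

/-- Imaginary part of `(u₂ z - u₁) * conj (v₂ z - v₁)` at `z = x + i y`. -/
def QQ (u v : ℤ × ℤ) (y : ℝ) : ℝ := y * (u.1 * v.2 - u.2 * v.1)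

/-- `|u₂ z - u₁|²` at `z = x + i y`. -/
def nn (u : ℤ × ℤ) (x y : ℝ) : ℝ := (u.2 * x - u.1) ^ 2 + (u.2 : ℝ) ^ 2 * y ^ 2

theorem PP_sq_add_QQ_sq (u v : ℤ × ℤ) (x y : ℝ) :
    PP u v x y ^ 2 + QQ u v y ^ 2 = nn u x y * nn v x y := by
  unfold PP QQ nn; ring

theorem nn_nonneg (u : ℤ × ℤ) (x y : ℝ) : 0 ≤ nn u x y := by
  unfold nn; positivity

theorem min_le_nn (u : ℤ × ℤ) (hu : u ≠ 0) (x y : ℝ) : min 1 (y ^ 2) ≤ nn u x y := by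
  unfold nn
  by_cases h2 : u.2 = 0
  · have h1 : u.1 ≠ 0 := fun h => hu (Prod.ext h h2)
    have hz : (1 : ℤ) ≤ u.1 ^ 2 := by
      have := Int.one_le_abs h1
      nlinarith [abs_nonneg u.1, sq_abs u.1]
    have hr : (1 : ℝ) ≤ (u.1 : ℝ) ^ 2 := by exact_mod_cast hz
    refine le_trans (min_le_left _ _) ?_
    have h2' : (u.2 : ℝ) = 0 := by exact_mod_cast h2
    have e : ((u.2 : ℝ) * x - u.1) ^ 2 + (u.2 : ℝ) ^ 2 * y ^ 2 = (u.1 : ℝ) ^ 2 := by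
      rw [h2']; ring
    rw [e]
    exact hr
  · have hz : (1 : ℤ) ≤ u.2 ^ 2 := by
      have := Int.one_le_abs h2
      nlinarith [abs_nonneg u.2, sq_abs u.2]
    have hr : (1 : ℝ) ≤ (u.2 : ℝ) ^ 2 := by exact_mod_cast hz
    refine le_trans (min_le_right _ _) ?_
    nlinarith [sq_nonneg ((u.2 : ℝ) * x - u.1), sq_nonneg y]

/-- A good pair bounds both norms. -/
theorem nn_le_of_good (a b : ℤ × ℤ) (x y : ℝ) (hy : 0 < y) (ha : a ≠ 0) (hb : b ≠ 0) (D : ℤ)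
    (M : ℝ) (hD : a.1 * b.2 - a.2 * b.1 = D) (hDM : (D : ℝ) ^ 2 ≤ M)
    (hgood : ¬ (QQ a b y ^ 2 < PP a b x y ^ 2)) :
    nn a x y ≤ 2 * y ^ 2 * M / min 1 (y ^ 2) ∧ nn b x y ≤ 2 * y ^ 2 * M / min 1 (y ^ 2) := by
  have hm : 0 < min 1 (y ^ 2) := lt_min one_pos (pow_pos hy 2)
  have hD' : (a.1 : ℝ) * b.2 - a.2 * b.1 = D := by exact_mod_cast hD
  have hQ : QQ a b y ^ 2 = y ^ 2 * (D : ℝ) ^ 2 := by
    unfold QQ; rw [hD']; ring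
  have hprod : nn a x y * nn b x y ≤ 2 * y ^ 2 * M := by
    rw [← PP_sq_add_QQ_sq]
    have h1 : PP a b x y ^ 2 ≤ QQ a b y ^ 2 := not_lt.mp hgood
    have h2 : y ^ 2 * (D : ℝ) ^ 2 ≤ y ^ 2 * M := by
      apply mul_le_mul_of_nonneg_left hDM (by positivity)
    nlinarith
  have hna := nn_nonneg a x y
  have hnb := nn_nonneg b x y
  have hma := min_le_nn a ha x y
  have hmb := min_le_nn b hb x y
  constructor
  · rw [le_div_iff₀ hm]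
    calc nn a x y * min 1 (y ^ 2) ≤ nn a x y * nn b x y := by
          apply mul_le_mul_of_nonneg_left hmb hna
      _ ≤ 2 * y ^ 2 * M := hprod
  · rw [le_div_iff₀ hm]
    calc nn b x y * min 1 (y ^ 2) ≤ nn b x y * nn a x y := by
          apply mul_le_mul_of_nonneg_left hma hnb
      _ = nn a x y * nn b x y := by ring
      _ ≤ 2 * y ^ 2 * M := hprod

/-- The integer vectors of bounded norm form a finite set. -/
theorem finite_nn_le (x y : ℝ) (hy : 0 < y) (B : ℝ) : {u : ℤ × ℤ | nn u x y ≤ B}.Finite := by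
  have hy2 : 0 < y ^ 2 := pow_pos hy 2
  set K2 : ℤ := ⌈B / y ^ 2⌉ with hK2
  set K1 : ℤ := ⌈B / y ^ 2 * |x| + B + 1⌉ with hK1
  refine (Set.finite_Icc ((-K1, -K2) : ℤ × ℤ) (K1, K2)).subset ?_
  intro u hu
  have hu' : nn u x y ≤ B := hu
  unfold nn at hu'
  have hsq1 : 0 ≤ ((u.2 : ℝ) * x - u.1) ^ 2 := sq_nonneg _
  have hsq2 : 0 ≤ (u.2 : ℝ) ^ 2 * y ^ 2 := by positivity
  -- bound on `u.2`
  have h2a : (u.2 : ℝ) ^ 2 ≤ B / y ^ 2 := by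
    rw [le_div_iff₀ hy2]; linarith
  have h2b : (|u.2| : ℤ) ≤ u.2 ^ 2 := by
    rcases abs_cases u.2 with ⟨h, _⟩ | ⟨h, _⟩ <;> rw [h] <;> nlinarith
  have h2c : ((|u.2| : ℤ) : ℝ) ≤ B / y ^ 2 := by
    have : ((|u.2| : ℤ) : ℝ) ≤ ((u.2 ^ 2 : ℤ) : ℝ) := by exact_mod_cast h2b
    push_cast at this ⊢
    linarith
  have h2d : |u.2| ≤ K2 := by
    have : ((|u.2| : ℤ) : ℝ) ≤ (K2 : ℝ) := le_trans h2c (Int.le_ceil _)
    exact_mod_cast this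
  -- bound on `u.1`
  have h1a : |(u.2 : ℝ) * x - u.1| ≤ B + 1 := by
    have hB : ((u.2 : ℝ) * x - u.1) ^ 2 ≤ B := by linarith
    have := sq_nonneg (|(u.2 : ℝ) * x - u.1| - 1 / 2)
    have h3 := sq_abs ((u.2 : ℝ) * x - u.1)
    nlinarith
  have h1b : |(u.1 : ℝ)| ≤ B / y ^ 2 * |x| + B + 1 := by
    have e : (u.1 : ℝ) = (u.2 : ℝ) * x - ((u.2 : ℝ) * x - u.1) := by ring
    have h4 : |(u.1 : ℝ)| ≤ |(u.2 : ℝ) * x| + |(u.2 : ℝ) * x - u.1| := by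
      calc |(u.1 : ℝ)| = |(u.2 : ℝ) * x - ((u.2 : ℝ) * x - u.1)| := by rw [← e]
        _ ≤ |(u.2 : ℝ) * x| + |(u.2 : ℝ) * x - u.1| := abs_sub _ _
    have h5 : |(u.2 : ℝ) * x| ≤ B / y ^ 2 * |x| := by
      rw [abs_mul]
      apply mul_le_mul_of_nonneg_right _ (abs_nonneg x)
      have : |(u.2 : ℝ)| = ((|u.2| : ℤ) : ℝ) := by push_cast; rfl
      rw [this]; exact h2c
    linarith
  have h1c : |u.1| ≤ K1 := by
    have : ((|u.1| : ℤ) : ℝ) ≤ (K1 : ℝ) := by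
      push_cast
      exact le_trans h1b (Int.le_ceil _)
    exact_mod_cast this
  rw [Set.mem_Icc]
  refine ⟨Prod.mk_le_mk.mpr ⟨?_, ?_⟩, Prod.mk_le_mk.mpr ⟨?_, ?_⟩⟩
  · exact (abs_le.mp h1c).1
  · exact (abs_le.mp h2d).1
  · exact (abs_le.mp h1c).2
  · exact (abs_le.mp h2d).2

/-- **D4** (`triangle_finite`, verbatim statement of team_s41_chat #96). -/
theorem triangle_finite (x y : ℝ) (hy : 0 < y) (D1 D2 D3 : ℤ) (h1 : D1 ≠ 0) (h2 : D2 ≠ 0) :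
    {t : (ℤ × ℤ) × (ℤ × ℤ) × (ℤ × ℤ) |
      t.1.1 * t.2.1.2 - t.1.2 * t.2.1.1 = D1 ∧
      t.2.1.1 * t.2.2.2 - t.2.1.2 * t.2.2.1 = D2 ∧
      t.1.1 * t.2.2.2 - t.1.2 * t.2.2.1 = D3 ∧
      ¬ ((QQ t.1 t.2.1 y ^ 2 < PP t.1 t.2.1 x y ^ 2 ∧
            QQ t.2.1 t.2.2 y ^ 2 < PP t.2.1 t.2.2 x y ^ 2) ∨
          (QQ t.1 t.2.1 y ^ 2 < PP t.1 t.2.1 x y ^ 2 ∧
            QQ t.1 t.2.2 y ^ 2 < PP t.1 t.2.2 x y ^ 2) ∨
          (QQ t.2.1 t.2.2 y ^ 2 < PP t.2.1 t.2.2 x y ^ 2 ∧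
            QQ t.1 t.2.2 y ^ 2 < PP t.1 t.2.2 x y ^ 2))}.Finite := by
  set M : ℝ := max ((D1 : ℝ) ^ 2) (max ((D2 : ℝ) ^ 2) ((D3 : ℝ) ^ 2)) with hM
  have hM1 : (D1 : ℝ) ^ 2 ≤ M := le_max_left _ _
  have hM2 : (D2 : ℝ) ^ 2 ≤ M := le_trans (le_max_left _ _) (le_max_right _ _)
  have hM3 : (D3 : ℝ) ^ 2 ≤ M := le_trans (le_max_right _ _) (le_max_right _ _)
  have hS := finite_nn_le x y hy (2 * y ^ 2 * M / min 1 (y ^ 2))
  refine (hS.prod (hS.prod hS)).subset ?_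
  rintro ⟨u, v, w⟩ ⟨hd1, hd2, hd3, hneg⟩
  simp only at hd1 hd2 hd3 hneg
  have hu : u ≠ 0 := by
    rintro rfl
    apply h1
    simpa using hd1.symm
  have hv : v ≠ 0 := by
    rintro rfl
    apply h1
    simpa using hd1.symm
  have hw : w ≠ 0 := by
    rintro rfl
    apply h2
    simpa using hd2.symm
  have n1 : ¬ (QQ u v y ^ 2 < PP u v x y ^ 2 ∧ QQ v w y ^ 2 < PP v w x y ^ 2) :=
    fun h => hneg (Or.inl h)
  have n2 : ¬ (QQ u v y ^ 2 < PP u v x y ^ 2 ∧ QQ u w y ^ 2 < PP u w x y ^ 2) :=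
    fun h => hneg (Or.inr (Or.inl h))
  have n3 : ¬ (QQ v w y ^ 2 < PP v w x y ^ 2 ∧ QQ u w y ^ 2 < PP u w x y ^ 2) :=
    fun h => hneg (Or.inr (Or.inr h))
  have key : nn u x y ≤ 2 * y ^ 2 * M / min 1 (y ^ 2) ∧ nn v x y ≤ 2 * y ^ 2 * M / min 1 (y ^ 2) ∧
      nn w x y ≤ 2 * y ^ 2 * M / min 1 (y ^ 2) := by
    by_cases buv : QQ u v y ^ 2 < PP u v x y ^ 2
    · have gvw : ¬ (QQ v w y ^ 2 < PP v w x y ^ 2) := fun h => n1 ⟨buv, h⟩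
      have guw : ¬ (QQ u w y ^ 2 < PP u w x y ^ 2) := fun h => n2 ⟨buv, h⟩
      have e1 := nn_le_of_good v w x y hy hv hw D2 M hd2 hM2 gvw
      have e2 := nn_le_of_good u w x y hy hu hw D3 M hd3 hM3 guw
      exact ⟨e2.1, e1.1, e1.2⟩
    · have e1 := nn_le_of_good u v x y hy hu hv D1 M hd1 hM1 buv
      by_cases bvw : QQ v w y ^ 2 < PP v w x y ^ 2
      · have guw : ¬ (QQ u w y ^ 2 < PP u w x y ^ 2) := fun h => n3 ⟨bvw, h⟩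
        have e2 := nn_le_of_good u w x y hy hu hw D3 M hd3 hM3 guw
        exact ⟨e1.1, e1.2, e2.2⟩
      · have e2 := nn_le_of_good v w x y hy hv hw D2 M hd2 hM2 bvw
        exact ⟨e1.1, e1.2, e2.2⟩
  exact ⟨key.1, key.2.1, key.2.2⟩

end Fermat.Agent.S41.helper2867
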