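/-
S41, module E (CSP core), L3: the abelian congruence subgroup property `helper123.Stmt_CSP`
(sharp form, `M = N`), obtained by wiring the two halves of the proof in findings #2895:

* (I)  `helper5755.stmt_CSP_of : helper389.Stmt_SymbolVanish → helper123.Stmt_CSP`;
* (II) `helper389.stmt_SymbolVanish : helper389.Stmt_SymbolVanish`.
-/
import Fermat.Agent.S41.helper389_SymbolVanish
import Fermat.Agent.S41.helper5755_SymbolOfHom

set_option autoImplicit false

namespace Fermat.Agent.S41.helper389

/-- **L3 = CSP**: a function on `SL(2, ℚ)` that is additive on `Γ₀(N)[1/q]` with values in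
`ZMod p` (`p` odd) and kills the unipotents vanishes on a principal congruence subgroup. -/
theorem stmt_CSP : Fermat.Agent.S41.helper123.Stmt_CSP :=
  Fermat.Agent.S41.helper5755.stmt_CSP_of stmt_SymbolVanish

end Fermat.Agent.S41.helper389
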