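/-
S41, leaf L4 (IHARA-INT), concrete inputs, part 1 (GEN) — helper4449 (backup of L4).

Carriers of the L4 owner (helper7223): cusps `OnePoint ℚ` with Mathlib's `GL (Fin 2) ℚ` action,
`ρ γ = mapGL ℚ γ`, `β = betaQ q = diag(q, 1) : GL (Fin 2) ℚ` (the same matrix as
`helper8689.diagQ q`).

* `gen_conj`      : `Γ₀(N)[1/q]` (Spec predicate `InDelta`) is generated, inside `GL (Fin 2) ℚ`, by
                    `ρ(Γ₀(N))` and `β⁻¹ ρ(Γ₀(N)) β` (from the landed `helper5755.deltaQ_eq_sup`).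
* `inDelta_upperUni`, `inDelta_lowerUni` : the two unipotent families of `Stmt_CSP` lie in
                    `Γ₀(N)[1/q]`.
-/
import Mathlib
import Fermat.Agent.S41.helper123_Spec
import Fermat.Agent.S41.helper5755_Generation

set_option autoImplicit false

open CongruenceSubgroup Matrix.SpecialLinearGroup
open scoped MatrixGroups

namespace Fermat.Agent.S41.helper4449

open Fermat.Agent.S41.helper123 (InDelta IsZq upperUni lowerUni)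
open Fermat.Agent.S41.helper5755 (mapQ conjD deltaQ gammaQ gammaQc zInv mk2 sl_ext sl_det)

/-! ### `diag(q, 1)` and the two copies of `Γ₀(N)` in `GL (Fin 2) ℚ` -/

/-- `β = diag(q, 1)` in `GL (Fin 2) ℚ`. -/
noncomputable def betaQ (q : ℕ) (hq : q ≠ 0) : GL (Fin 2) ℚ :=
  Matrix.GeneralLinearGroup.mkOfDetNeZero !![(q : ℚ), 0; 0, 1]
    (by rw [Matrix.det_fin_two_of]; simpa using hq)

@[simp] theorem val_betaQ (q : ℕ) (hq : q ≠ 0) :
    ((betaQ q hq : GL (Fin 2) ℚ) : Matrix (Fin 2) (Fin 2) ℚ) = !![(q : ℚ), 0; 0, 1] := rfl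

theorem mapGL_eq_toGL_mapQ (γ : SL(2, ℤ)) :
    (mapGL ℚ γ : GL (Fin 2) ℚ) = toGL (mapQ γ) := rfl

theorem val_mapGL (γ : SL(2, ℤ)) (i j : Fin 2) :
    ((mapGL ℚ γ : GL (Fin 2) ℚ) : Matrix (Fin 2) (Fin 2) ℚ) i j = ((γ i j : ℤ) : ℚ) := rfl

/-- The Spec predicate `InDelta` is membership in the landed subgroup `helper5755.deltaQ`. -/
theorem inDelta_iff_mem_deltaQ {N q : ℕ} {g : SL(2, ℚ)} : InDelta N q g ↔ g ∈ deltaQ N q :=
  Iff.rfl

/-- `Γ₀(N)[1/q]` is stable under conjugation by `diag(q, 1)`. -/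
theorem conjD_mem_deltaQ {N q : ℕ} (hq : q ≠ 0) {g : SL(2, ℚ)} (hg : g ∈ deltaQ N q) :
    conjD q hq g ∈ deltaQ N q := by
  obtain ⟨hg, y, hy, hgy⟩ := hg
  refine ⟨fun i j => ?_, y / q, helper5755.div_mem_zInv hq hy, ?_⟩
  · fin_cases i <;> fin_cases j
    · exact hg 0 0
    · exact Subring.mul_mem _ (helper5755.natCast_mem_zInv q q) (hg 0 1)
    · exact helper5755.div_mem_zInv hq (hg 1 0)
    · exact hg 1 1
  · show g 1 0 / q = N * (y / q)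
    rw [hgy]; ring

/-- The inverse conjugate `β⁻¹ γ β = [[a, b / q], [q c, d]]` of an integral matrix, in `SL(2, ℚ)`. -/
noncomputable def conjInv (q : ℕ) (hq : q ≠ 0) (γ : SL(2, ℤ)) : SL(2, ℚ) :=
  mk2 ((γ 0 0 : ℤ) : ℚ) (((γ 0 1 : ℤ) : ℚ) / q) (q * ((γ 1 0 : ℤ) : ℚ)) ((γ 1 1 : ℤ) : ℚ) (by
    have hq' : (q : ℚ) ≠ 0 := Nat.cast_ne_zero.2 hq
    have h := sl_det γ
    have h' : ((γ 0 0 : ℤ) : ℚ) * ((γ 1 1 : ℤ) : ℚ) - ((γ 0 1 : ℤ) : ℚ) * ((γ 1 0 : ℤ) : ℚ) = 1 := by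
      exact_mod_cast h
    field_simp
    linarith)

theorem conjD_conjInv (q : ℕ) (hq : q ≠ 0) (γ : SL(2, ℤ)) :
    conjD q hq (conjInv q hq γ) = mapQ γ := by
  have hq' : (q : ℚ) ≠ 0 := Nat.cast_ne_zero.2 hq
  apply sl_ext
  · rfl
  · show (q : ℚ) * (((γ 0 1 : ℤ) : ℚ) / q) = ((γ 0 1 : ℤ) : ℚ)
    field_simp
  · show (q : ℚ) * ((γ 1 0 : ℤ) : ℚ) / q = ((γ 1 0 : ℤ) : ℚ)
    field_simp
  · rfl

theorem conjD_injective (q : ℕ) (hq : q ≠ 0) : Function.Injective (conjD q hq) := by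
  have hq' : (q : ℚ) ≠ 0 := Nat.cast_ne_zero.2 hq
  intro g h hgh
  have h00 : (conjD q hq g) 0 0 = (conjD q hq h) 0 0 := by rw [hgh]
  have h01 : (conjD q hq g) 0 1 = (conjD q hq h) 0 1 := by rw [hgh]
  have h10 : (conjD q hq g) 1 0 = (conjD q hq h) 1 0 := by rw [hgh]
  have h11 : (conjD q hq g) 1 1 = (conjD q hq h) 1 1 := by rw [hgh]
  simp only [helper5755.conjD_00, helper5755.conjD_01, helper5755.conjD_10,
    helper5755.conjD_11] at h00 h01 h10 h11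
  apply sl_ext h00 _ _ h11
  · exact mul_left_cancel₀ hq' h01
  · field_simp at h10
    exact h10

/-- `toGL (conjInv γ) = β⁻¹ * ρ γ * β`. -/
theorem toGL_conjInv (q : ℕ) (hq : q ≠ 0) (γ : SL(2, ℤ)) :
    (toGL (conjInv q hq γ) : GL (Fin 2) ℚ) = (betaQ q hq)⁻¹ * mapGL ℚ γ * betaQ q hq := by
  have hq' : (q : ℚ) ≠ 0 := Nat.cast_ne_zero.2 hq
  rw [eq_comm, mul_assoc, inv_mul_eq_iff_eq_mul]
  apply Units.ext
  ext i j
  fin_cases i <;> fin_cases j <;>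
    simp [Matrix.mul_apply, Fin.sum_univ_two, conjInv, mk2] <;> field_simp

/-- **Generation, `GL (Fin 2) ℚ` form, for the conjugate `β⁻¹ ρ(Γ₀(N)) β`.**  Every element of
`Γ₀(N)[1/q]` (Spec predicate `InDelta`) lies in the subgroup of `GL (Fin 2) ℚ` generated by
`ρ(Γ₀(N))` and `β⁻¹ ρ(Γ₀(N)) β`, `β = diag(q, 1)`. -/
theorem gen_conj {N q : ℕ} (hq : q.Prime) (hNq : Nat.Coprime N q) (g : SL(2, ℚ))
    (hg : InDelta N q g) :
    (toGL g : GL (Fin 2) ℚ) ∈ Subgroup.closure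
      ((fun γ : SL(2, ℤ) => (mapGL ℚ γ : GL (Fin 2) ℚ)) '' (Gamma0 N : Set SL(2, ℤ)) ∪
        (fun γ : SL(2, ℤ) => (betaQ q hq.ne_zero)⁻¹ * mapGL ℚ γ * betaQ q hq.ne_zero) ''
          (Gamma0 N : Set SL(2, ℤ))) := by
  have hq0 := hq.ne_zero
  -- the generating set inside `SL(2, ℚ)`
  set A : Set SL(2, ℚ) := mapQ '' (Gamma0 N : Set SL(2, ℤ)) ∪
    conjInv q hq0 '' (Gamma0 N : Set SL(2, ℤ)) with hA
  have key : g ∈ Subgroup.closure A := by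
    have h1 : conjD q hq0 g ∈ gammaQ N ⊔ gammaQc N q hq0 := by
      rw [← helper5755.deltaQ_eq_sup hq hNq]
      exact conjD_mem_deltaQ hq0 hg
    have h2 : gammaQ N ⊔ gammaQc N q hq0 ≤ (Subgroup.closure A).map (conjD q hq0) := by
      refine sup_le ?_ ?_
      · rintro _ ⟨γ, hγ, rfl⟩
        refine ⟨conjInv q hq0 γ, Subgroup.subset_closure (Or.inr ⟨γ, hγ, rfl⟩), ?_⟩
        exact conjD_conjInv q hq0 γ
      · rintro _ ⟨_, ⟨γ, hγ, rfl⟩, rfl⟩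
        exact ⟨mapQ γ, Subgroup.subset_closure (Or.inl ⟨γ, hγ, rfl⟩), rfl⟩
    obtain ⟨g', hg', hgg'⟩ := h2 h1
    rwa [← conjD_injective q hq0 hgg']
  have h3 : (toGL g : GL (Fin 2) ℚ) ∈ (Subgroup.closure A).map (toGL : SL(2, ℚ) →* GL (Fin 2) ℚ) :=
    Subgroup.mem_map_of_mem _ key
  rw [MonoidHom.map_closure] at h3
  refine Subgroup.closure_mono ?_ h3
  rintro _ ⟨x, hx, rfl⟩
  rcases hx with ⟨γ, hγ, rfl⟩ | ⟨γ, hγ, rfl⟩
  · exact Or.inl ⟨γ, hγ, rfl⟩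
  · exact Or.inr ⟨γ, hγ, (toGL_conjInv q hq0 γ).symm⟩

/-- The upper unipotents of the Spec lie in `Γ₀(N)[1/q]`. -/
theorem inDelta_upperUni (N : ℕ) {q : ℕ} {x : ℚ} (hx : IsZq q x) : InDelta N q (upperUni x) := by
  refine ⟨fun i j => ?_, 0, ⟨0, 0, by simp⟩, ?_⟩
  · fin_cases i <;> fin_cases j
    · exact ⟨0, 1, by simp [upperUni]⟩
    · simpa [upperUni] using hx
    · exact ⟨0, 0, by simp [upperUni]⟩
    · exact ⟨0, 1, by simp [upperUni]⟩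
  · simp [upperUni]

/-- The lower unipotents of the Spec lie in `Γ₀(N)[1/q]`. -/
theorem inDelta_lowerUni (N : ℕ) {q : ℕ} {y : ℚ} (hy : IsZq q y) :
    InDelta N q (lowerUni ((N : ℚ) * y)) := by
  refine ⟨fun i j => ?_, y, hy, by simp [lowerUni]⟩
  fin_cases i <;> fin_cases j
  · exact ⟨0, 1, by simp [lowerUni]⟩
  · exact ⟨0, 0, by simp [lowerUni]⟩
  · have h : (N : ℚ) * y ∈ zInv q := Subring.mul_mem _ (helper5755.natCast_mem_zInv q N) hy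
    have h10 : (lowerUni ((N : ℚ) * y)) 1 0 = (N : ℚ) * y := by simp [lowerUni]
    show IsZq q ((lowerUni ((N : ℚ) * y)) 1 0)
    rw [h10]
    exact h
  · exact ⟨0, 1, by simp [lowerUni]⟩

end Fermat.Agent.S41.helper4449
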