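import Mathlib

/-!
# Abstract level-raising linear algebra (S41, module H, first half)

`T` is a commutative ring acting on two `ℤ`-modules `M` (think `Λ_N × Λ_N`,
`Λ_N = Hom(Γ₀(N), ℤ)`) and `L'` (think `Λ_{Nq}`), `ρ : M → L'` and `κ : L' → M` are the
two degeneracy maps, `η ∈ T` is the non-Eisenstein witness, and

* (a) `ρ` is injective modulo `p` up to a power of `η`;
* (b) `κ` is surjective modulo `p` up to `η`.

If a ring homomorphism `lam : T →+* k` to a field of characteristic `p` with `lam η ≠ 0`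
occurs in `ker (κ ∘ ρ) ⊗ k`, then it occurs in the sublattice `ker κ` of `L'`: every `t ∈ T`
that kills `ker κ` has `lam t = 0`.  This is the input of the Deligne–Serre lifting lemma.
-/

set_option autoImplicit false

namespace Fermat.Agent.S41.helper5350

open TensorProduct

section Tech

variable (p : ℕ)

/-- The submodule `p • Y` of an abelian group `Y`. -/
def pSub (Y : Type*) [AddCommGroup Y] : Submodule ℤ Y :=
  LinearMap.range ((p : ℤ) • (LinearMap.id : Y →ₗ[ℤ] Y))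

theorem mem_pSub {Y : Type*} [AddCommGroup Y] {y : Y} :
    y ∈ pSub p Y ↔ ∃ y' : Y, (p : ℤ) • y' = y := by
  rw [pSub, LinearMap.mem_range]
  simp

theorem smul_mem_pSub {Y : Type*} [AddCommGroup Y] (y : Y) : (p : ℤ) • y ∈ pSub p Y :=
  (mem_pSub p).mpr ⟨y, rfl⟩

variable (k : Type*) [Field k] [CharP k p]

/-- `k ⊗ (p • Y) → k ⊗ Y` is the zero map when `k` has characteristic `p`. -/
theorem baseChange_subtype_pSub (Y : Type*) [AddCommGroup Y] (w : k ⊗[ℤ] (pSub p Y)) :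
    (pSub p Y).subtype.baseChange k w = 0 := by
  induction w using TensorProduct.induction_on with
  | zero => simp
  | tmul b y =>
    obtain ⟨y', hy'⟩ := (mem_pSub p).mp y.2
    rw [LinearMap.baseChange_tmul, Submodule.subtype_apply, ← hy', ← TensorProduct.smul_tmul]
    have : (p : ℤ) • b = 0 := by
      rw [zsmul_eq_mul, Int.cast_natCast, CharP.cast_eq_zero k p, zero_mul]
    rw [this, TensorProduct.zero_tmul]
  | add a b iha ihb => rw [map_add, iha, ihb, add_zero]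

/-- `k ⊗ Y → k ⊗ (Y / p Y)` is injective when `k` has characteristic `p`. -/
theorem baseChange_mkQ_pSub_injective (Y : Type*) [AddCommGroup Y] :
    Function.Injective ((pSub p Y).mkQ.baseChange k) := by
  rw [injective_iff_map_eq_zero]
  intro w hw
  have hex : Function.Exact ((pSub p Y).subtype.lTensor k) ((pSub p Y).mkQ.lTensor k) :=
    lTensor_exact k (LinearMap.exact_subtype_mkQ (pSub p Y)) (Submodule.mkQ_surjective _)
  have hw' : (pSub p Y).mkQ.lTensor k w = 0 := hw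
  obtain ⟨w', rfl⟩ := (hex w).mp hw'
  exact baseChange_subtype_pSub p k Y w'

theorem nsmul_quot_pSub (Y : Type*) [AddCommGroup Y] (x : Y ⧸ pSub p Y) : p • x = 0 := by
  induction x using Submodule.Quotient.induction_on with
  | H x =>
    rw [← natCast_zsmul, ← Submodule.Quotient.mk_smul, Submodule.Quotient.mk_eq_zero]
    exact smul_mem_pSub p x

/-- The `ZMod p`-module structure on `Y / p Y`. -/
@[reducible] noncomputable def zmodModuleQuot (Y : Type*) [AddCommGroup Y] :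
    Module (ZMod p) (Y ⧸ pSub p Y) :=
  AddCommGroup.zmodModule (nsmul_quot_pSub p Y)

attribute [local instance] zmodModuleQuot

/-- **Kernel comparison after base change to characteristic `p`.**  If `g x ∈ p Y` implies
`h x ∈ p Z`, then the kernel of `k ⊗ g` is contained in the kernel of `k ⊗ h`. -/
theorem baseChange_eq_zero_of_imp [Fact p.Prime] {X Y Z : Type*} [AddCommGroup X]
    [AddCommGroup Y] [AddCommGroup Z] (g : X →ₗ[ℤ] Y) (h : X →ₗ[ℤ] Z)
    (H : ∀ x, g x ∈ pSub p Y → h x ∈ pSub p Z) (z : k ⊗[ℤ] X)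
    (hz : g.baseChange k z = 0) : h.baseChange k z = 0 := by
  classical
  have hgle : pSub p X ≤ (pSub p Y).comap g := by
    intro x hx
    obtain ⟨x', rfl⟩ := (mem_pSub p).mp hx
    rw [Submodule.mem_comap, map_zsmul]
    exact smul_mem_pSub p _
  have hhle : pSub p X ≤ (pSub p Z).comap h := by
    intro x hx
    obtain ⟨x', rfl⟩ := (mem_pSub p).mp hx
    rw [Submodule.mem_comap, map_zsmul]
    exact smul_mem_pSub p _
  let gb : (X ⧸ pSub p X) →ₗ[ℤ] (Y ⧸ pSub p Y) := (pSub p X).mapQ (pSub p Y) g hgle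
  let hb : (X ⧸ pSub p X) →ₗ[ℤ] (Z ⧸ pSub p Z) := (pSub p X).mapQ (pSub p Z) h hhle
  let gF : (X ⧸ pSub p X) →ₗ[ZMod p] (Y ⧸ pSub p Y) :=
    AddMonoidHom.toZModLinearMap p gb.toAddMonoidHom
  let hF : (X ⧸ pSub p X) →ₗ[ZMod p] (Z ⧸ pSub p Z) :=
    AddMonoidHom.toZModLinearMap p hb.toAddMonoidHom
  have hgF : ∀ x : X, gF (Submodule.Quotient.mk x) = Submodule.Quotient.mk (g x) := fun x => rfl
  have hhF : ∀ x : X, hF (Submodule.Quotient.mk x) = Submodule.Quotient.mk (h x) := fun x => rfl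
  have hker : LinearMap.ker gF ≤ LinearMap.ker hF := by
    intro x hx
    induction x using Submodule.Quotient.induction_on with
    | H x =>
      rw [LinearMap.mem_ker] at hx ⊢
      rw [hgF, Submodule.Quotient.mk_eq_zero] at hx
      rw [hhF, Submodule.Quotient.mk_eq_zero]
      exact H x hx
  -- factor `hF` through `gF` (linear algebra over the field `ZMod p`)
  let f : ((X ⧸ pSub p X) ⧸ LinearMap.ker gF) →ₗ[ZMod p] (Y ⧸ pSub p Y) :=
    (LinearMap.ker gF).liftQ gF le_rfl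
  have hf : LinearMap.ker f = ⊥ := Submodule.ker_liftQ_eq_bot _ _ _ le_rfl
  obtain ⟨r, hr⟩ := f.exists_leftInverse_of_injective hf
  let sF : (Y ⧸ pSub p Y) →ₗ[ZMod p] (Z ⧸ pSub p Z) :=
    ((LinearMap.ker gF).liftQ hF hker).comp r
  have hs : ∀ x : X ⧸ pSub p X, sF (gF x) = hF x := by
    intro x
    have h1 : f (Submodule.Quotient.mk x) = gF x := Submodule.liftQ_apply _ _ _
    have h2 : r (f (Submodule.Quotient.mk x)) = Submodule.Quotient.mk x := by
      have := congrArg (fun φ => φ (Submodule.Quotient.mk x)) hr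
      simpa using this
    show (LinearMap.ker gF).liftQ hF hker (r (gF x)) = hF x
    rw [← h1, h2, Submodule.liftQ_apply]
  let s : (Y ⧸ pSub p Y) →ₗ[ℤ] (Z ⧸ pSub p Z) := sF.toAddMonoidHom.toIntLinearMap
  have hcomp : (pSub p Z).mkQ ∘ₗ h = s ∘ₗ ((pSub p Y).mkQ ∘ₗ g) := by
    ext x
    have := hs (Submodule.Quotient.mk x)
    rw [hgF, hhF] at this
    exact this.symm
  apply baseChange_mkQ_pSub_injective p k Z
  rw [map_zero, ← LinearMap.comp_apply, ← LinearMap.baseChange_comp, hcomp,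
    LinearMap.baseChange_comp, LinearMap.comp_apply, LinearMap.baseChange_comp,
    LinearMap.comp_apply, hz, map_zero, map_zero]

end Tech

section Core

variable (p : ℕ)

/-- In a finitely generated abelian group the `p`-power torsion of a quotient is bounded. -/
theorem exists_bound_pow_smul_mem {M : Type*} [AddCommGroup M] [Module.Finite ℤ M]
    (I : Submodule ℤ M) :
    ∃ e : ℕ, ∀ (n : ℕ) (m : M), ((p : ℤ) ^ n) • m ∈ I → ((p : ℤ) ^ e) • m ∈ I := by
  let S : ℕ →o Submodule ℤ M :=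
    { toFun := fun n => I.comap (((p : ℤ) ^ n) • (LinearMap.id : M →ₗ[ℤ] M))
      monotone' := by
        intro a b hab m hm
        rw [Submodule.mem_comap, LinearMap.smul_apply, LinearMap.id_apply] at hm ⊢
        obtain ⟨d, rfl⟩ := Nat.exists_eq_add_of_le hab
        rw [pow_add, mul_comm, mul_smul]
        exact I.smul_mem _ hm }
  have hS : ∀ (n : ℕ) (m : M), m ∈ S n ↔ ((p : ℤ) ^ n) • m ∈ I := by
    intro n m
    show m ∈ I.comap (((p : ℤ) ^ n) • (LinearMap.id : M →ₗ[ℤ] M)) ↔ _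
    rw [Submodule.mem_comap, LinearMap.smul_apply, LinearMap.id_apply]
  obtain ⟨e, he⟩ := (monotone_stabilizes_iff_noetherian (R := ℤ) (M := M)).mpr inferInstance S
  refine ⟨e, fun n m hm => ?_⟩
  rcases le_total n e with hne | hen
  · exact (hS e m).mp (S.monotone hne ((hS n m).mpr hm))
  · have : S e = S n := he n hen
    exact (hS e m).mp (this ▸ (hS n m).mpr hm)

variable [Fact p.Prime] {k : Type*} [Field k] [CharP k p]
variable {T : Type*} [CommRing T] {M L' : Type*} [AddCommGroup M] [AddCommGroup L']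
  [Module.Finite ℤ M]

/-- **Abstract level raising, core.**  See the module docstring.  `M` plays the role of
`Λ_N × Λ_N`, `L'` of `Λ_{Nq}`; (a) is `ha`, (b) is `hb`.  Conclusion: every `t ∈ T` which
kills `ker κ` lies in the kernel of `lam`. -/
theorem lam_eq_zero_of_forall_ker
    (actM : T →+* Module.End ℤ M) (actL' : T →+* Module.End ℤ L')
    (ρ : M →ₗ[ℤ] L') (κ : L' →ₗ[ℤ] M)
    (hρ : ∀ t x, ρ (actM t x) = actL' t (ρ x))
    (hκ : ∀ t y, κ (actL' t y) = actM t (κ y))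
    (η : T) (j : ℕ)
    (ha : ∀ x : M, ρ x ∈ pSub p L' → actM (η ^ j) x ∈ pSub p M)
    (hb : ∀ x : M, ∃ w : L', actM η x - κ w ∈ pSub p M)
    (lam : T →+* k) (hη : lam η ≠ 0)
    (c : k ⊗[ℤ] M) (hc0 : c ≠ 0) (hc : ∀ t, (actM t).baseChange k c = lam t • c)
    (hcκρ : (κ ∘ₗ ρ).baseChange k c = 0)
    (t : T) (ht : ∀ y : L', κ y = 0 → actL' t y = 0) : lam t = 0 := by
  classical
  -- Step 1: the image `y` of `c` in `k ⊗ L'` is a `lam`-eigenvector
  set y : k ⊗[ℤ] L' := ρ.baseChange k c with hy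
  have hρcomp : ∀ s : T, actL' s ∘ₗ ρ = ρ ∘ₗ actM s := fun s =>
    LinearMap.ext fun x => (hρ s x).symm
  have hy_eig : ∀ s : T, (actL' s).baseChange k y = lam s • y := by
    intro s
    rw [hy, ← LinearMap.comp_apply, ← LinearMap.baseChange_comp, hρcomp,
      LinearMap.baseChange_comp, LinearMap.comp_apply, hc, map_smul]
  -- Step 2: `y ≠ 0`
  have hy0 : y ≠ 0 := by
    intro h0
    have h1 := baseChange_eq_zero_of_imp p k ρ (actM (η ^ j)) ha c h0
    rw [hc, map_pow] at h1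
    exact hc0 ((smul_eq_zero.mp h1).resolve_left (pow_ne_zero _ hη))
  -- Step 3: `κ y = 0`
  have hκy : κ.baseChange k y = 0 := by
    rw [hy, ← LinearMap.comp_apply, ← LinearMap.baseChange_comp]
    exact hcκρ
  -- Step 4: pass to the image `I` of `κ`
  set I : Submodule ℤ M := LinearMap.range κ with hI
  set κ' : L' →ₗ[ℤ] I := κ.rangeRestrict with hκ'
  have hsub : I.subtype ∘ₗ κ' = κ := LinearMap.ext fun x => rfl
  set z : k ⊗[ℤ] I := κ'.baseChange k y with hz
  have hz0 : I.subtype.baseChange k z = 0 := by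
    rw [hz, ← LinearMap.comp_apply, ← LinearMap.baseChange_comp, hsub]
    exact hκy
  -- Step 5: a power of `η` kills `(I ∩ p M) / p I`
  obtain ⟨e, he⟩ := exists_bound_pow_smul_mem p I
  have hstab : ∀ (s : T) (x : M), x ∈ I → actM s x ∈ I := by
    rintro s _ ⟨w, rfl⟩
    exact ⟨actL' s w, hκ s w⟩
  have hA : ∀ (n : ℕ) (x : M), x ∈ I → x ∈ pSub p M →
      ∃ i ∈ I, ∃ m : M, actM (η ^ n) x = (p : ℤ) • i + ((p : ℤ) ^ (n + 1)) • m := by
    intro n
    induction n with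
    | zero =>
      intro x _ hxp
      obtain ⟨m, rfl⟩ := (mem_pSub p).mp hxp
      refine ⟨0, I.zero_mem, m, ?_⟩
      simp
    | succ n ih =>
      intro x hxI hxp
      obtain ⟨i, hi, m, hm⟩ := ih x hxI hxp
      obtain ⟨w, hw⟩ := hb m
      obtain ⟨m', hm'⟩ := (mem_pSub p).mp hw
      refine ⟨actM η i + ((p : ℤ) ^ n) • κ w,
        I.add_mem (hstab η i hi) (I.smul_mem _ ⟨w, rfl⟩), m', ?_⟩
      have h1 : actM (η ^ (n + 1)) x = actM η (actM (η ^ n) x) := by
        rw [pow_succ', map_mul, Module.End.mul_apply]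
      have h2 : actM η m = κ w + (p : ℤ) • m' := by
        rw [hm']; abel
      rw [h1, hm, map_add, map_zsmul, map_zsmul, h2]
      module
  let h : I →ₗ[ℤ] I := (actM (η ^ e)).restrict (fun x hx => hstab (η ^ e) x hx)
  have hH : ∀ x : I, I.subtype x ∈ pSub p M → h x ∈ pSub p I := by
    intro x hx
    obtain ⟨i, hi, m, hm⟩ := hA e x x.2 hx
    have hmem : ((p : ℤ) ^ (e + 1)) • m ∈ I := by
      have : ((p : ℤ) ^ (e + 1)) • m = actM (η ^ e) x - (p : ℤ) • i := by
        rw [hm]; abel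
      rw [this]
      exact I.sub_mem (hstab _ _ x.2) (I.smul_mem _ hi)
    have hmem' : ((p : ℤ) ^ e) • m ∈ I := he (e + 1) m hmem
    refine (mem_pSub p).mpr ⟨⟨i + ((p : ℤ) ^ e) • m, I.add_mem hi hmem'⟩, ?_⟩
    apply Subtype.ext
    show (p : ℤ) • (i + ((p : ℤ) ^ e) • m) = actM (η ^ e) x
    rw [hm, smul_add, smul_smul]
    congr 2
    ring
  have hz1 : h.baseChange k z = 0 := baseChange_eq_zero_of_imp p k I.subtype h hH z hz0
  have hcomm : h ∘ₗ κ' = κ' ∘ₗ actL' (η ^ e) := by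
    ext x
    show actM (η ^ e) (κ x) = κ (actL' (η ^ e) x)
    exact (hκ _ _).symm
  have hz2 : h.baseChange k z = lam η ^ e • z := by
    rw [hz, ← LinearMap.comp_apply, ← LinearMap.baseChange_comp, hcomm,
      LinearMap.baseChange_comp, LinearMap.comp_apply, hy_eig, map_smul, map_pow]
  have hzz : z = 0 := by
    rw [hz2] at hz1
    exact (smul_eq_zero.mp hz1).resolve_left (pow_ne_zero _ hη)
  -- Step 6: `y` comes from `k ⊗ ker κ`
  have hex : Function.Exact ((LinearMap.ker κ').subtype.lTensor k) (κ'.lTensor k) :=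
    lTensor_exact k (LinearMap.exact_subtype_ker_map κ') (LinearMap.surjective_rangeRestrict κ)
  have hzz' : κ'.lTensor k y = 0 := hzz
  obtain ⟨d, hd⟩ := (hex y).mp hzz'
  -- Step 7: `t` kills `y`
  have hzero : actL' t ∘ₗ (LinearMap.ker κ').subtype = 0 := by
    ext x
    have hx : κ' x.1 = 0 := x.2
    have hx' : κ x.1 = 0 := congrArg Subtype.val hx
    simpa using ht x.1 hx'
  have hty : (actL' t).baseChange k y = 0 := by
    have hd' : (LinearMap.ker κ').subtype.baseChange k d = y := hd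
    rw [← hd', ← LinearMap.comp_apply, ← LinearMap.baseChange_comp, hzero,
      LinearMap.baseChange_zero, LinearMap.zero_apply]
  rw [hy_eig] at hty
  exact (smul_eq_zero.mp hty).resolve_right hy0

/-- **Abstract level raising, two-map form.**  `L = Λ_N`, `L' = Λ_{Nq}`, `r1, r2 : L → L'`
the two restriction maps, `k1, k2 : L' → L` the two corestriction (trace) maps, with
`k1 r1 = k2 r2 = q + 1` and `k1 r2 = k2 r1 = tq`.  Let `c ∈ k ⊗ L` be a nonzero
`lam`-eigenvector on which `tq` acts by `a` with `a ^ 2 = (q + 1) ^ 2`.  Under the two Ihara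
hypotheses (a) `ha` and (b) `hb` and `lam η ≠ 0`, every `t ∈ T` which kills the `q`-new
sublattice `ker k1 ⊓ ker k2` of `L'` satisfies `lam t = 0`. -/
theorem levelRaise_core {L : Type*} [AddCommGroup L] [Module.Finite ℤ L]
    (actL : T →+* Module.End ℤ L) (actL' : T →+* Module.End ℤ L')
    (tq : Module.End ℤ L)
    (r1 r2 : L →ₗ[ℤ] L') (k1 k2 : L' →ₗ[ℤ] L)
    (hr1 : ∀ t x, r1 (actL t x) = actL' t (r1 x))
    (hr2 : ∀ t x, r2 (actL t x) = actL' t (r2 x))
    (hk1 : ∀ t y, k1 (actL' t y) = actL t (k1 y))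
    (hk2 : ∀ t y, k2 (actL' t y) = actL t (k2 y))
    (q : ℕ)
    (h11 : ∀ x, k1 (r1 x) = ((q : ℤ) + 1) • x) (h22 : ∀ x, k2 (r2 x) = ((q : ℤ) + 1) • x)
    (h12 : ∀ x, k1 (r2 x) = tq x) (h21 : ∀ x, k2 (r1 x) = tq x)
    (η : T) (j : ℕ)
    (ha : ∀ x y : L, r1 x + r2 y ∈ pSub p L' →
      actL (η ^ j) x ∈ pSub p L ∧ actL (η ^ j) y ∈ pSub p L)
    (hb : ∀ x y : L, ∃ w : L', actL η x - k1 w ∈ pSub p L ∧ actL η y - k2 w ∈ pSub p L)
    (lam : T →+* k) (hη : lam η ≠ 0)
    (c : k ⊗[ℤ] L) (hc0 : c ≠ 0) (hc : ∀ t, (actL t).baseChange k c = lam t • c)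
    (a : k) (hca : tq.baseChange k c = a • c) (ha2 : a ^ 2 = ((q : k) + 1) ^ 2)
    (t : T) (ht : ∀ y : L', k1 y = 0 → k2 y = 0 → actL' t y = 0) : lam t = 0 := by
  classical
  let actM : T →+* Module.End ℤ (L × L) :=
    (LinearMap.prodMapRingHom ℤ L L).comp (actL.prod actL)
  have hactM : ∀ (s : T) (x : L × L), actM s x = (actL s x.1, actL s x.2) := fun s x => rfl
  let ρ : L × L →ₗ[ℤ] L' := r1.coprod r2
  let κ : L' →ₗ[ℤ] L × L := k1.prod k2
  have hρx : ∀ x : L × L, ρ x = r1 x.1 + r2 x.2 := fun x => LinearMap.coprod_apply r1 r2 x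
  have hκy : ∀ y : L', κ y = (k1 y, k2 y) := fun y => rfl
  have hpM : ∀ x : L × L, x ∈ pSub p (L × L) ↔ x.1 ∈ pSub p L ∧ x.2 ∈ pSub p L := by
    intro x
    simp only [mem_pSub]
    constructor
    · rintro ⟨y, rfl⟩
      exact ⟨⟨y.1, rfl⟩, ⟨y.2, rfl⟩⟩
    · rintro ⟨⟨y1, h1⟩, ⟨y2, h2⟩⟩
      exact ⟨(y1, y2), Prod.ext h1 h2⟩
  -- a kernel vector of the matrix `[[q+1, a], [a, q+1]]`
  obtain ⟨x₀, y₀, hxy, e1, e2⟩ : ∃ x₀ y₀ : k, (x₀ ≠ 0 ∨ y₀ ≠ 0) ∧
      ((q : k) + 1) * x₀ + a * y₀ = 0 ∧ a * x₀ + ((q : k) + 1) * y₀ = 0 := by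
    by_cases hq : ((q : k) + 1) = 0
    · have ha0 : a = 0 := by
        rw [hq] at ha2
        simpa using ha2
      exact ⟨1, 0, Or.inl one_ne_zero, by rw [hq, ha0]; simp, by rw [hq, ha0]; simp⟩
    · refine ⟨a, -((q : k) + 1), Or.inr (neg_ne_zero.mpr hq), by ring, ?_⟩
      linear_combination ha2
  let il : k ⊗[ℤ] L →ₗ[k] k ⊗[ℤ] (L × L) := (LinearMap.inl ℤ L L).baseChange k
  let ir : k ⊗[ℤ] L →ₗ[k] k ⊗[ℤ] (L × L) := (LinearMap.inr ℤ L L).baseChange k
  have hil : ∀ {X : Type _} [AddCommGroup X] (f : L × L →ₗ[ℤ] X) (v : k ⊗[ℤ] L),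
      f.baseChange k (il v) = (f ∘ₗ LinearMap.inl ℤ L L).baseChange k v := by
    intro X _ f v
    rw [LinearMap.baseChange_comp]; rfl
  have hir : ∀ {X : Type _} [AddCommGroup X] (f : L × L →ₗ[ℤ] X) (v : k ⊗[ℤ] L),
      f.baseChange k (ir v) = (f ∘ₗ LinearMap.inr ℤ L L).baseChange k v := by
    intro X _ f v
    rw [LinearMap.baseChange_comp]; rfl
  let c₂ : k ⊗[ℤ] (L × L) := x₀ • il c + y₀ • ir c
  have hzsmul : ∀ (n : ℤ) (v : k ⊗[ℤ] L), n • v = (n : k) • v := fun n v =>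
    (Int.cast_smul_eq_zsmul k n v).symm
  refine lam_eq_zero_of_forall_ker p actM actL' ρ κ ?_ ?_ η j ?_ ?_ lam hη c₂ ?_ ?_ ?_ t ?_
  · intro s x
    rw [hρx, hρx, hactM, hr1, hr2, map_add]
  · intro s y
    rw [hκy, hκy, hactM, hk1, hk2]
  · intro x hx
    rw [hρx] at hx
    rw [hpM, hactM]
    exact ha x.1 x.2 hx
  · intro x
    obtain ⟨w, hw1, hw2⟩ := hb x.1 x.2
    refine ⟨w, ?_⟩
    rw [hpM, hactM, hκy]
    exact ⟨hw1, hw2⟩
  · -- `c₂ ≠ 0`
    intro h0
    have h1 : (LinearMap.fst ℤ L L).baseChange k c₂ = x₀ • c := by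
      show (LinearMap.fst ℤ L L).baseChange k (x₀ • il c + y₀ • ir c) = _
      rw [map_add, map_smul, map_smul, hil, hir, LinearMap.fst_comp_inl, LinearMap.fst_comp_inr,
        LinearMap.baseChange_id, LinearMap.baseChange_zero]
      simp
    have h2 : (LinearMap.snd ℤ L L).baseChange k c₂ = y₀ • c := by
      show (LinearMap.snd ℤ L L).baseChange k (x₀ • il c + y₀ • ir c) = _
      rw [map_add, map_smul, map_smul, hil, hir, LinearMap.snd_comp_inl, LinearMap.snd_comp_inr,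
        LinearMap.baseChange_id, LinearMap.baseChange_zero]
      simp
    rw [h0, map_zero] at h1 h2
    rcases hxy with hx | hy
    · exact hc0 ((smul_eq_zero.mp h1.symm).resolve_left hx)
    · exact hc0 ((smul_eq_zero.mp h2.symm).resolve_left hy)
  · -- eigenvector
    intro s
    have e3 : actM s ∘ₗ LinearMap.inl ℤ L L = LinearMap.inl ℤ L L ∘ₗ actL s := by
      ext x <;> simp [hactM]
    have e4 : actM s ∘ₗ LinearMap.inr ℤ L L = LinearMap.inr ℤ L L ∘ₗ actL s := by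
      ext x <;> simp [hactM]
    show (actM s).baseChange k (x₀ • il c + y₀ • ir c) = lam s • (x₀ • il c + y₀ • ir c)
    rw [map_add, map_smul, map_smul, hil, hir, e3, e4, LinearMap.baseChange_comp,
      LinearMap.baseChange_comp, LinearMap.comp_apply, LinearMap.comp_apply, hc, map_smul,
      map_smul, smul_add, smul_comm x₀ (lam s), smul_comm y₀ (lam s)]
  · -- killed by `κ ∘ ρ`
    have e5 : (κ ∘ₗ ρ) ∘ₗ LinearMap.inl ℤ L L =
        LinearMap.inl ℤ L L ∘ₗ (((q : ℤ) + 1) • LinearMap.id) + LinearMap.inr ℤ L L ∘ₗ tq := by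
      ext x <;> simp [hκy, hρx, h11, h21, add_smul]
    have e6 : (κ ∘ₗ ρ) ∘ₗ LinearMap.inr ℤ L L =
        LinearMap.inl ℤ L L ∘ₗ tq + LinearMap.inr ℤ L L ∘ₗ (((q : ℤ) + 1) • LinearMap.id) := by
      ext x <;> simp [hκy, hρx, h12, h22, add_smul]
    have e7 : (((q : ℤ) + 1) • (LinearMap.id : L →ₗ[ℤ] L)).baseChange k c = ((q : k) + 1) • c := by
      rw [LinearMap.baseChange_smul, LinearMap.baseChange_id, LinearMap.smul_apply,
        LinearMap.id_apply, hzsmul]
      push_cast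
      rfl
    show (κ ∘ₗ ρ).baseChange k (x₀ • il c + y₀ • ir c) = 0
    rw [map_add, map_smul, map_smul, hil, hir, e5, e6, LinearMap.baseChange_add,
      LinearMap.baseChange_add, LinearMap.baseChange_comp, LinearMap.baseChange_comp,
      LinearMap.baseChange_comp, LinearMap.baseChange_comp, LinearMap.add_apply,
      LinearMap.add_apply, LinearMap.comp_apply, LinearMap.comp_apply, LinearMap.comp_apply,
      LinearMap.comp_apply, e7, hca]
    show x₀ • (il (((q : k) + 1) • c) + ir (a • c)) + y₀ • (il (a • c) + ir (((q : k) + 1) • c)) = 0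
    rw [map_smul, map_smul, map_smul, map_smul]
    have : x₀ • ((((q : k) + 1) • il c) + a • ir c) + y₀ • (a • il c + ((q : k) + 1) • ir c) =
        ((((q : k) + 1) * x₀ + a * y₀) • il c) + ((a * x₀ + ((q : k) + 1) * y₀) • ir c) := by
      module
    rw [this, e1, e2, zero_smul, zero_smul, add_zero]
  · intro y hy
    rw [hκy, Prod.mk_eq_zero] at hy
    exact ht y hy.1 hy.2

/-- `levelRaise_core` with the two Ihara hypotheses spelled out without `pSub`. -/
theorem levelRaise_core' {L : Type*} [AddCommGroup L] [Module.Finite ℤ L]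
    (actL : T →+* Module.End ℤ L) (actL' : T →+* Module.End ℤ L')
    (tq : Module.End ℤ L)
    (r1 r2 : L →ₗ[ℤ] L') (k1 k2 : L' →ₗ[ℤ] L)
    (hr1 : ∀ t x, r1 (actL t x) = actL' t (r1 x))
    (hr2 : ∀ t x, r2 (actL t x) = actL' t (r2 x))
    (hk1 : ∀ t y, k1 (actL' t y) = actL t (k1 y))
    (hk2 : ∀ t y, k2 (actL' t y) = actL t (k2 y))
    (q : ℕ)
    (h11 : ∀ x, k1 (r1 x) = ((q : ℤ) + 1) • x) (h22 : ∀ x, k2 (r2 x) = ((q : ℤ) + 1) • x)
    (h12 : ∀ x, k1 (r2 x) = tq x) (h21 : ∀ x, k2 (r1 x) = tq x)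
    (η : T) (j : ℕ)
    (ha : ∀ (x y : L) (z : L'), r1 x + r2 y = (p : ℤ) • z →
      (∃ x' : L, actL (η ^ j) x = (p : ℤ) • x') ∧ ∃ y' : L, actL (η ^ j) y = (p : ℤ) • y')
    (hb : ∀ x y : L, ∃ (w : L') (x' y' : L),
      actL η x = k1 w + (p : ℤ) • x' ∧ actL η y = k2 w + (p : ℤ) • y')
    (lam : T →+* k) (hη : lam η ≠ 0)
    (c : k ⊗[ℤ] L) (hc0 : c ≠ 0) (hc : ∀ t, (actL t).baseChange k c = lam t • c)
    (a : k) (hca : tq.baseChange k c = a • c) (ha2 : a ^ 2 = ((q : k) + 1) ^ 2)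
    (t : T) (ht : ∀ y : L', k1 y = 0 → k2 y = 0 → actL' t y = 0) : lam t = 0 := by
  refine levelRaise_core p actL actL' tq r1 r2 k1 k2 hr1 hr2 hk1 hk2 q h11 h22 h12 h21 η j
    ?_ ?_ lam hη c hc0 hc a hca ha2 t ht
  · intro x y hxy
    obtain ⟨z, hz⟩ := (mem_pSub p).mp hxy
    obtain ⟨⟨x', hx'⟩, ⟨y', hy'⟩⟩ := ha x y z hz.symm
    exact ⟨(mem_pSub p).mpr ⟨x', hx'.symm⟩, (mem_pSub p).mpr ⟨y', hy'.symm⟩⟩
  · intro x y
    obtain ⟨w, x', y', hx', hy'⟩ := hb x y
    refine ⟨w, (mem_pSub p).mpr ⟨x', ?_⟩, (mem_pSub p).mpr ⟨y', ?_⟩⟩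
    · rw [hx']; abel
    · rw [hy']; abel

end Core

end Fermat.Agent.S41.helper5350
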