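import Fermat.Agent.S41.helper262_HAlgSpec
import Fermat.Agent.S41.helper5350_LevelRaiseAlg

/-!
# S41, H-ALG: the abstract level-raising algebra in the interface of the endgame

`stmt_HAlg` proves `Fermat.Agent.S41.helper262.Stmt_HAlg` from `levelRaise_core'`.
-/

set_option autoImplicit false

open TensorProduct

namespace Fermat.Agent.S41.helper5350

/-- **H-ALG** in the exact shape consumed by the S41 endgame. -/
theorem stmt_HAlg : Fermat.Agent.S41.helper262.Stmt_HAlg := by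
  intro T _ L L' _ _ _ _ _ _ actL actL' tq r₁ r₂ k₁ k₂ q p eta k _ lam a c hp hchar _hcomm
    hr1 hr2 hk1 hk2 h11 h22 h12 h21 ha hb hη ha2 hc0 hc hca t ht
  have : Fact p.Prime := ⟨hp⟩
  have : CharP k p := hchar
  refine levelRaise_core' p actL actL' tq r₁ r₂ k₁ k₂ hr1 hr2 hk1 hk2 q h11 h22 h12 h21 eta 3
    ?_ ?_ lam hη c hc0 hc a hca ha2 t ht
  · intro x y z hz
    exact ha x y ⟨z, hz⟩
  · intro x y
    obtain ⟨w, ⟨x', hx'⟩, ⟨y', hy'⟩⟩ := hb x y
    refine ⟨w, x', y', ?_, ?_⟩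
    · rw [← hx']; abel
    · rw [← hy']; abel

end Fermat.Agent.S41.helper5350
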