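/-
S41 (level raising), module B (crossing map Theta), delegated sub-lemma D4 of helper6553
(team_s41_chat #96): finiteness of the set of integer triples of vectors with prescribed
determinants for which the base point is "inside or on" the ideal triangle, i.e. for which at
least two of the three pairs are "good" (`PP ^ 2 ≤ QQ ^ 2`).  Mathlib only.
-/
import Mathlib

set_option autoImplicit false

namespace Fermat.Agent.S41.helper6493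

/-- Real part of `(u₂ z - u₁) * conj (v₂ z - v₁)` at `z = x + i y`. -/
def PP (u v : ℤ × ℤ) (x y : ℝ) : ℝ := (u.2 * x - u.1) * (v.2 * x - v.1) + u.2 * v.2 * y ^ 2

/-- Imaginary part of `(u₂ z - u₁) * conj (v₂ z - v₁)` at `z = x + i y`. -/
def QQ (u v : ℤ × ℤ) (y : ℝ) : ℝ := y * (u.1 * v.2 - u.2 * v.1)

/-- The squared norm `|u₂ z - u₁|²` at `z = x + i y`. -/
def nn (u : ℤ × ℤ) (x y : ℝ) : ℝ := ((u.2 : ℝ) * x - u.1) ^ 2 + (u.2 : ℝ) ^ 2 * y ^ 2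

theorem PP_sq_add_QQ_sq (u v : ℤ × ℤ) (x y : ℝ) :
    PP u v x y ^ 2 + QQ u v y ^ 2 = nn u x y * nn v x y := by
  simp only [PP, QQ, nn]; ring

theorem nn_nonneg (u : ℤ × ℤ) (x y : ℝ) : 0 ≤ nn u x y := by
  unfold nn; positivity

theorem one_le_sq_of_int_ne_zero (k : ℤ) (hk : k ≠ 0) : (1 : ℝ) ≤ (k : ℝ) ^ 2 := by
  have h : (1 : ℤ) ≤ k ^ 2 := by
    have := Int.one_le_abs hk
    nlinarith [abs_nonneg k, sq_abs k]
  exact_mod_cast h

theorem nn_lower (u : ℤ × ℤ) (hu : u ≠ 0) (x y : ℝ) : min 1 (y ^ 2) ≤ nn u x y := by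
  unfold nn
  by_cases h2 : u.2 = 0
  · have h1 : u.1 ≠ 0 := by
      intro h; apply hu; ext <;> simp [h, h2]
    have h1' := one_le_sq_of_int_ne_zero u.1 h1
    have : (1 : ℝ) ≤ ((u.2 : ℝ) * x - u.1) ^ 2 + (u.2 : ℝ) ^ 2 * y ^ 2 := by
      simp only [h2, Int.cast_zero, zero_mul, zero_sub, neg_sq]
      nlinarith
    exact le_trans (min_le_left _ _) this
  · have h2' := one_le_sq_of_int_ne_zero u.2 h2
    have : y ^ 2 ≤ ((u.2 : ℝ) * x - u.1) ^ 2 + (u.2 : ℝ) ^ 2 * y ^ 2 := by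
      nlinarith [sq_nonneg y, sq_nonneg ((u.2 : ℝ) * x - u.1)]
    exact le_trans (min_le_right _ _) this

theorem finite_nn_le (x y : ℝ) (hy : 0 < y) (B : ℝ) : {u : ℤ × ℤ | nn u x y ≤ B}.Finite := by
  obtain ⟨K, hK⟩ := exists_nat_ge (max (Real.sqrt B / y) (Real.sqrt B / y * |x| + Real.sqrt B))
  refine Set.Finite.subset ((Set.finite_Icc (-(K : ℤ)) K).prod (Set.finite_Icc (-(K : ℤ)) K)) ?_
  intro u hu
  have hu : nn u x y ≤ B := hu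
  unfold nn at hu
  have hK1 : Real.sqrt B / y ≤ K := le_trans (le_max_left _ _) hK
  have hK2 : Real.sqrt B / y * |x| + Real.sqrt B ≤ K := le_trans (le_max_right _ _) hK
  have hsq1 : ((u.2 : ℝ) * x - u.1) ^ 2 ≤ B := by nlinarith [sq_nonneg ((u.2 : ℝ) * y)]
  have hsq2 : ((u.2 : ℝ) * y) ^ 2 ≤ B := by nlinarith [sq_nonneg ((u.2 : ℝ) * x - u.1)]
  have ha1 : |(u.2 : ℝ) * x - u.1| ≤ Real.sqrt B := Real.abs_le_sqrt hsq1
  have ha2 : |(u.2 : ℝ) * y| ≤ Real.sqrt B := Real.abs_le_sqrt hsq2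
  have hb2 : |(u.2 : ℝ)| ≤ Real.sqrt B / y := by
    rw [le_div_iff₀ hy]
    rw [abs_mul, abs_of_pos hy] at ha2
    exact ha2
  have hb1 : |(u.1 : ℝ)| ≤ Real.sqrt B / y * |x| + Real.sqrt B := by
    have h3 : |(u.1 : ℝ)| ≤ |(u.2 : ℝ) * x| + |(u.2 : ℝ) * x - u.1| := by
      have := abs_sub_abs_le_abs_sub ((u.1 : ℝ)) ((u.2 : ℝ) * x)
      rw [abs_sub_comm] at this
      linarith
    have h4 : |(u.2 : ℝ) * x| ≤ Real.sqrt B / y * |x| := by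
      rw [abs_mul]
      exact mul_le_mul_of_nonneg_right hb2 (abs_nonneg x)
    linarith
  have hc1 : |u.1| ≤ (K : ℤ) := by
    have : (|(u.1 : ℝ)|) ≤ (K : ℝ) := le_trans hb1 hK2
    exact_mod_cast this
  have hc2 : |u.2| ≤ (K : ℤ) := by
    have : (|(u.2 : ℝ)|) ≤ (K : ℝ) := le_trans hb2 hK1
    exact_mod_cast this
  rw [abs_le] at hc1 hc2
  exact ⟨⟨hc1.1, hc1.2⟩, ⟨hc2.1, hc2.2⟩⟩

/-- A good pair (`PP² ≤ QQ²`) of nonzero vectors: both norms are bounded by `2 y² D² / m`. -/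
theorem nn_le_of_good (u v : ℤ × ℤ) (hu : u ≠ 0) (hv : v ≠ 0) (x y : ℝ) (hy : 0 < y)
    (hg : PP u v x y ^ 2 ≤ QQ u v y ^ 2) :
    nn u x y ≤ 2 * QQ u v y ^ 2 / min 1 (y ^ 2) ∧ nn v x y ≤ 2 * QQ u v y ^ 2 / min 1 (y ^ 2) := by
  have hm : 0 < min 1 (y ^ 2) := lt_min one_pos (by positivity)
  have hprod : nn u x y * nn v x y ≤ 2 * QQ u v y ^ 2 := by
    rw [← PP_sq_add_QQ_sq]; linarith
  have hlu := nn_lower u hu x y
  have hlv := nn_lower v hv x y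
  have hnu := nn_nonneg u x y
  have hnv := nn_nonneg v x y
  constructor
  · rw [le_div_iff₀ hm]
    calc nn u x y * min 1 (y ^ 2) ≤ nn u x y * nn v x y := mul_le_mul_of_nonneg_left hlv hnu
      _ ≤ _ := hprod
  · rw [le_div_iff₀ hm]
    calc nn v x y * min 1 (y ^ 2) ≤ nn v x y * nn u x y := mul_le_mul_of_nonneg_left hlu hnv
      _ = nn u x y * nn v x y := mul_comm _ _
      _ ≤ _ := hprod

/-- **D4** (helper6553, team_s41_chat #96).  Finiteness of the integer triples `(u, v, w)` with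
prescribed determinants `D1 = det (u, v) ≠ 0`, `D2 = det (v, w) ≠ 0`, `D3 = det (u, w)` such that
at least two of the three pairs are good (`PP² ≤ QQ²`) at the base point `x + i y`. -/
theorem triangle_finite (x y : ℝ) (hy : 0 < y) (D1 D2 D3 : ℤ) (h1 : D1 ≠ 0) (h2 : D2 ≠ 0) :
    {t : (ℤ × ℤ) × (ℤ × ℤ) × (ℤ × ℤ) |
      t.1.1 * t.2.1.2 - t.1.2 * t.2.1.1 = D1 ∧
      t.2.1.1 * t.2.2.2 - t.2.1.2 * t.2.2.1 = D2 ∧
      t.1.1 * t.2.2.2 - t.1.2 * t.2.2.1 = D3 ∧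
      ¬ ((QQ t.1 t.2.1 y ^ 2 < PP t.1 t.2.1 x y ^ 2 ∧
            QQ t.2.1 t.2.2 y ^ 2 < PP t.2.1 t.2.2 x y ^ 2) ∨
          (QQ t.1 t.2.1 y ^ 2 < PP t.1 t.2.1 x y ^ 2 ∧
            QQ t.1 t.2.2 y ^ 2 < PP t.1 t.2.2 x y ^ 2) ∨
          (QQ t.2.1 t.2.2 y ^ 2 < PP t.2.1 t.2.2 x y ^ 2 ∧
            QQ t.1 t.2.2 y ^ 2 < PP t.1 t.2.2 x y ^ 2))}.Finite := by
  set m : ℝ := min 1 (y ^ 2) with hm_def
  have hm : 0 < m := lt_min one_pos (by positivity)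
  set B : ℝ := 2 * (y ^ 2 * ((D1 : ℝ) ^ 2 + (D2 : ℝ) ^ 2 + (D3 : ℝ) ^ 2)) / m with hB_def
  have hS := finite_nn_le x y hy B
  refine Set.Finite.subset (hS.prod (hS.prod hS)) ?_
  rintro ⟨u, v, w⟩ ⟨hD1, hD2, hD3, hgood⟩
  simp only at hD1 hD2 hD3 hgood
  -- the three vectors are nonzero
  have hu : u ≠ 0 := by
    rintro rfl; apply h1; rw [← hD1]; simp
  have hv : v ≠ 0 := by
    rintro rfl; apply h1; rw [← hD1]; simp
  have hw : w ≠ 0 := by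
    rintro rfl; apply h2; rw [← hD2]; simp
  -- values of QQ²
  have hQ1 : QQ u v y ^ 2 = y ^ 2 * (D1 : ℝ) ^ 2 := by
    have : ((D1 : ℤ) : ℝ) = (u.1 : ℝ) * v.2 - u.2 * v.1 := by rw [← hD1]; push_cast; ring
    simp only [QQ]; rw [this]; ring
  have hQ2 : QQ v w y ^ 2 = y ^ 2 * (D2 : ℝ) ^ 2 := by
    have : ((D2 : ℤ) : ℝ) = (v.1 : ℝ) * w.2 - v.2 * w.1 := by rw [← hD2]; push_cast; ring
    simp only [QQ]; rw [this]; ring
  have hQ3 : QQ u w y ^ 2 = y ^ 2 * (D3 : ℝ) ^ 2 := by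
    have : ((D3 : ℤ) : ℝ) = (u.1 : ℝ) * w.2 - u.2 * w.1 := by rw [← hD3]; push_cast; ring
    simp only [QQ]; rw [this]; ring
  have hy2 : 0 ≤ y ^ 2 := sq_nonneg y
  have hd1 : 0 ≤ (D1 : ℝ) ^ 2 := sq_nonneg _
  have hd2 : 0 ≤ (D2 : ℝ) ^ 2 := sq_nonneg _
  have hd3 : 0 ≤ (D3 : ℝ) ^ 2 := sq_nonneg _
  have hB1 : 2 * QQ u v y ^ 2 / m ≤ B := by
    rw [hQ1, hB_def]
    apply div_le_div_of_nonneg_right _ hm.le
    nlinarith [mul_nonneg hy2 hd2, mul_nonneg hy2 hd3]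
  have hB2 : 2 * QQ v w y ^ 2 / m ≤ B := by
    rw [hQ2, hB_def]
    apply div_le_div_of_nonneg_right _ hm.le
    nlinarith [mul_nonneg hy2 hd1, mul_nonneg hy2 hd3]
  have hB3 : 2 * QQ u w y ^ 2 / m ≤ B := by
    rw [hQ3, hB_def]
    apply div_le_div_of_nonneg_right _ hm.le
    nlinarith [mul_nonneg hy2 hd1, mul_nonneg hy2 hd2]
  -- at least two good pairs
  have key : nn u x y ≤ B ∧ nn v x y ≤ B ∧ nn w x y ≤ B := by
    by_cases g1 : PP u v x y ^ 2 ≤ QQ u v y ^ 2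
    · obtain ⟨a1, a2⟩ := nn_le_of_good u v hu hv x y hy g1
      by_cases g2 : PP v w x y ^ 2 ≤ QQ v w y ^ 2
      · obtain ⟨b1, b2⟩ := nn_le_of_good v w hv hw x y hy g2
        exact ⟨a1.trans hB1, a2.trans hB1, b2.trans hB2⟩
      · by_cases g3 : PP u w x y ^ 2 ≤ QQ u w y ^ 2
        · obtain ⟨c1, c2⟩ := nn_le_of_good u w hu hw x y hy g3
          exact ⟨a1.trans hB1, a2.trans hB1, c2.trans hB3⟩
        · exact absurd (Or.inr (Or.inr ⟨not_le.mp g2, not_le.mp g3⟩)) hgood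
    · by_cases g2 : PP v w x y ^ 2 ≤ QQ v w y ^ 2
      · by_cases g3 : PP u w x y ^ 2 ≤ QQ u w y ^ 2
        · obtain ⟨b1, b2⟩ := nn_le_of_good v w hv hw x y hy g2
          obtain ⟨c1, c2⟩ := nn_le_of_good u w hu hw x y hy g3
          exact ⟨c1.trans hB3, b1.trans hB2, b2.trans hB2⟩
        · exact absurd (Or.inr (Or.inl ⟨not_le.mp g1, not_le.mp g3⟩)) hgood
      · exact absurd (Or.inl ⟨not_le.mp g1, not_le.mp g2⟩) hgood
  exact ⟨key.1, key.2.1, key.2.2⟩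

end Fermat.Agent.S41.helper6493
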