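/-
S41 (level raising), leaf L4 (IHARA-INT), wiring file -- helper7223.

`stmt_Ihara_of : Stmt_CSP → Stmt_Boundary → Stmt_Ihara` and `stmt_Ihara : Stmt_Ihara`.

`stmt_Ihara_of_theta` : `Stmt_CSP → Stmt_Boundary → Stmt_Ihara`, given the two facts
about helper6553's crossing maps `Theta (Gamma0 M)` (now landed: helper6553.Theta_add,
helper996.theta_cores / theta_coresc):
* (Θ1) additivity `Θ a b + Θ b c = Θ a c`,
* (Θ-deg) `cores (Θ_{Nq} a b) = Θ_N a b`, `coresc (Θ_{Nq} a b) = Θ_N (β • a) (β • b)`.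
Everything else is discharged from landed files: cusp-move (helper8689), pair-function CSP
(helper1763), module A (helper2138), Θ-invariance (helper6553), Θ-span (helper9161),
Θ-Hecke (helper3777).
-/
import Mathlib
import Fermat.Agent.S41.helper123_Spec
import Fermat.Agent.S41.helper7223_IharaHalves
import Fermat.Agent.S41.helper1763_CspPair
import Fermat.Agent.S41.helper6553_Crossing
import Fermat.Agent.S41.helper9161_ThetaSpan
import Fermat.Agent.S41.helper3777_ThetaHeckeFinal
import Fermat.Agent.S41.helper6553_CrossingRel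
import Fermat.Agent.S41.helper996_ThetaDeg
import Fermat.Agent.S41.helper123_Wire

set_option autoImplicit false

open CongruenceSubgroup Matrix.SpecialLinearGroup OnePoint
open scoped MatrixGroups

namespace Fermat.Agent.S41.helper7223

open Fermat.Agent.S41.helper2138 (res resc cores coresc)
open Fermat.Agent.S41.helper123 (Lam Stmt_Boundary Stmt_CSP Stmt_Ihara)
open Fermat.Agent.S41.helper6553 (Theta)

/-- **L4 modulo (Θ1) and (Θ-deg).** -/
theorem stmt_Ihara_of_theta
    (hΘ1 : ∀ M : ℕ, 0 < M → ∀ a b c : OnePoint ℚ,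
      Theta (Gamma0 M) a b + Theta (Gamma0 M) b c = Theta (Gamma0 M) a c)
    (hΘd : ∀ (N q : ℕ) [Fact q.Prime] (hqN : ¬ q ∣ N), 0 < N → ∀ a b : OnePoint ℚ,
      cores N q hqN ℤ (Theta (Gamma0 (N * q)) a b) = Theta (Gamma0 N) a b ∧
      coresc N q hqN ℤ (Theta (Gamma0 (N * q)) a b) =
        Theta (Gamma0 N) (helper8689.diagQ q • a) (helper8689.diagQ q • b))
    (hCSP : Stmt_CSP) (hB : Stmt_Boundary) : Stmt_Ihara :=
  stmt_Ihara_of_inputs
    (fun M l _ _ h1 i x => helper8689.repTQ_smul_eq M l h1 i x)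
    (fun N q p _ hN hqN hp hp2 hqp => helper1763.csp_pair hCSP N q p hN hqN hp hp2 hqp)
    (fun N q _ hqN _ =>
      { r_T := helper2138.ihara_r_T N q hqN
        r_U := helper2138.ihara_r_U N q hqN
        k_T := helper2138.ihara_k_T N q hqN
        k_U := helper2138.ihara_k_U N q hqN
        kr := helper2138.ihara_kr N q hqN
        new_U := helper2138.ihara_new_U N q hqN })
    (fun M => Theta (Gamma0 M))
    hΘ1
    (fun M _ γ hγ a b => helper6553.Theta_smul (Gamma0 M) hγ a b)
    (fun M hM => by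
      have : NeZero M := ⟨hM.ne'⟩
      exact helper9161.Theta_span (Gamma0 M))
    (fun M l _ hl _ a b => helper3777.heckeHomT_Theta M l hl a b)
    hΘd hB

/-- **Leaf L4 (IHARA-INT)**: `Stmt_CSP → Stmt_Boundary → Stmt_Ihara`. -/
theorem stmt_Ihara_of (hCSP : Stmt_CSP) (hB : Stmt_Boundary) : Stmt_Ihara :=
  stmt_Ihara_of_theta (fun M _ a b c => helper6553.Theta_add (Gamma0 M) a b c)
    (fun N q _ hqN _ a b =>
      ⟨helper996.theta_cores N q hqN a b, helper996.theta_coresc N q hqN a b⟩)
    hCSP hB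

/-- The Ihara package, unconditionally (L3 = `helper123.stmt_CSP`, L2 = `helper1763.stmt_Boundary`). -/
theorem stmt_Ihara : Stmt_Ihara :=
  stmt_Ihara_of Fermat.Agent.S41.helper123.stmt_CSP Fermat.Agent.S41.helper1763.stmt_Boundary

end Fermat.Agent.S41.helper7223
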