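/-
S41, module E (congruence subgroup property), helper7853: interface between
PART I (matrices, `SL(2, ℚ)`) and PART II (pure integer number theory) of the proof in
findings #3117.

An *integer symbol* is a function `S : ℤ → ℤ → ZMod p` (think: `S a b = Φ γ` for any integral
`γ ∈ Γ₀(N)` with first column `(a, b)`) with
* (s1) `S (a + x b) b = S a b`                      (left multiplication by `[[1, x], [0, 1]]`),
* (s2) `S a (b + N y a) = S a b`                    (left multiplication by `[[1, 0], [N y, 1]]`),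
* (s3) `S a (q ^ (2 n) b) = S a b`                  (conjugation by `diag(q ^ n, q ^ (-n))`),
* (s4) `S (a x + β y) (b x + d y) = S a b + S x y`  (`Φ (g g') = Φ g + Φ g'`),
* (s5) `S 1 0 = 0`.

`Stmt_SymbolVanish` : every integer symbol vanishes on the first columns of `Γ(N p)`.
-/
import Mathlib

set_option autoImplicit false

namespace Fermat.Agent.S41.helper7853

/-- An integer symbol of level `N` for the unit `q`, with values in `ZMod p`. -/
structure IsSymbol (N q p : ℕ) (S : ℤ → ℤ → ZMod p) : Prop where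
  s1 : ∀ a b x : ℤ, IsCoprime a b → (N : ℤ) ∣ b → S (a + x * b) b = S a b
  s2 : ∀ a b y : ℤ, IsCoprime a b → (N : ℤ) ∣ b → S a (b + N * y * a) = S a b
  s3 : ∀ (a b : ℤ) (n : ℕ), IsCoprime a ((q : ℤ) ^ (2 * n) * b) → (N : ℤ) ∣ b →
    S a ((q : ℤ) ^ (2 * n) * b) = S a b
  s4 : ∀ a β b d x y : ℤ, a * d - β * b = 1 → (N : ℤ) ∣ b → IsCoprime x y → (N : ℤ) ∣ y →
    S (a * x + β * y) (b * x + d * y) = S a b + S x y
  s5 : S 1 0 = 0

/-- PART II: an integer symbol vanishes on coprime `(a, b)` with `a ≡ 1`, `b ≡ 0 mod N p`. -/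
def Stmt_SymbolVanish : Prop :=
  ∀ (N q p : ℕ), 0 < N → q.Prime → ¬ q ∣ N → p.Prime → p ≠ 2 → q ≠ p →
  ∀ (S : ℤ → ℤ → ZMod p), IsSymbol N q p S →
  ∀ a b : ℤ, IsCoprime a b → ((N : ℤ) * (p : ℤ)) ∣ a - 1 → ((N : ℤ) * (p : ℤ)) ∣ b → S a b = 0

end Fermat.Agent.S41.helper7853
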