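/-
S41, module E (CSP core), Step 3 of findings #2895 — character-free version.

Let `l` be a prime, `G = (ZMod l)ˣ`, `ι ∈ G`, `ι ≠ 1`, and let `V` be an abelian group in which
`(l - 1) • c = 0` forces `c = 0`.  If `f : G → V` satisfies

* (inv) `f (ι s) = f s`,
* (W)   `f (s ρ t) - f (s ρ) = f (s t) - f s` whenever `t ≠ 1`, `ι t ≠ 1` and
        `ρ (ι t - 1) = t - 1` in `ZMod l`,

then `f` is constant.

Proof (no characters, no roots of unity, no averaging).  The set `FF` of such `f` is stable under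
the difference operators `D_g f = (s ↦ f (s g) - f s)`.  We show that every member of `FF` is
constant by downward induction on the subgroup `stab f = {g | ∀ s, f (s g) = f s}`.  If
`H = stab f ≠ ⊤` and `t ∉ H`, then `h = D_t f ∈ FF` is not constant (else `(l - 1) • c = 0` for
its value `c`, so `c = 0` and `t ∈ H`), `H ≤ stab h`, hence `stab h = H` by the induction
hypothesis, and (W) says `ρ(t) ∈ stab h = H`.  So `t ∉ H → ρ(t) ∈ H`, and for a fixed `t₀ ∉ H`
the map `x ↦ ρ(t₀ x)` is an injective self-map of the finite set `H` which misses `1`.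
Mathlib only.
-/
import Mathlib

set_option autoImplicit false

namespace Fermat.Agent.S41.helper8311

variable {l : ℕ} [Fact l.Prime] {V : Type*} [AddCommGroup V]

/-- The hypotheses (inv) and (W) of Step 3, for a function on the units of `ZMod l`. -/
structure InFF (ι : (ZMod l)ˣ) (f : (ZMod l)ˣ → V) : Prop where
  inv : ∀ s, f (ι * s) = f s
  W : ∀ t ρ s : (ZMod l)ˣ, t ≠ 1 → ι * t ≠ 1 →
    (ρ : ZMod l) * ((ι : ZMod l) * (t : ZMod l) - 1) = (t : ZMod l) - 1 →
    f (s * ρ * t) - f (s * ρ) = f (s * t) - f s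

/-- The group of periods of `f`. -/
def stab (f : (ZMod l)ˣ → V) : Subgroup (ZMod l)ˣ where
  carrier := {g | ∀ s, f (s * g) = f s}
  mul_mem' := by
    intro a b ha hb s
    rw [← mul_assoc, hb, ha]
  one_mem' := by
    intro s
    simp
  inv_mem' := by
    intro a ha s
    have h := ha (s * a⁻¹)
    simpa using h.symm

/-- `FF` is stable under the difference operators. -/
theorem InFF.diff {ι : (ZMod l)ˣ} {f : (ZMod l)ˣ → V} (hf : InFF ι f) (g : (ZMod l)ˣ) :
    InFF ι (fun s => f (s * g) - f s) where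
  inv s := by
    show f (ι * s * g) - f (ι * s) = f (s * g) - f s
    rw [mul_assoc, hf.inv, hf.inv]
  W t ρ s ht hιt hρ := by
    have h1 := hf.W t ρ s ht hιt hρ
    have h2 := hf.W t ρ (s * g) ht hιt hρ
    have e1 : s * ρ * t * g = s * g * ρ * t := by
      simp only [mul_assoc, mul_comm g]
    have e2 : s * ρ * g = s * g * ρ := by
      simp only [mul_assoc, mul_comm g]
    have e3 : s * t * g = s * g * t := by
      simp only [mul_assoc, mul_comm g]
    show f (s * ρ * t * g) - f (s * ρ * t) - (f (s * ρ * g) - f (s * ρ))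
        = f (s * t * g) - f (s * t) - (f (s * g) - f s)
    rw [e1, e2, e3]
    have h3 : f (s * g * ρ * t) - f (s * g * ρ) - (f (s * g * t) - f (s * g)) = 0 := by
      rw [h2, sub_self]
    have h4 : f (s * ρ * t) - f (s * ρ) - (f (s * t) - f s) = 0 := by
      rw [h1, sub_self]
    have h5 : f (s * g * ρ * t) - f (s * ρ * t) - (f (s * g * ρ) - f (s * ρ))
        - (f (s * g * t) - f (s * t) - (f (s * g) - f s))
        = (f (s * g * ρ * t) - f (s * g * ρ) - (f (s * g * t) - f (s * g)))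
          - (f (s * ρ * t) - f (s * ρ) - (f (s * t) - f s)) := by
      abel
    rw [h3, h4, sub_zero] at h5
    exact sub_eq_zero.mp h5

theorem InFF.iota_mem_stab {ι : (ZMod l)ˣ} {f : (ZMod l)ˣ → V} (hf : InFF ι f) :
    ι ∈ stab f := by
  intro s
  rw [mul_comm]
  exact hf.inv s

/-- If `f (s t) = f s + c` for all `s`, then `f (s t ^ n) = f s + n • c`. -/
theorem shift_pow {f : (ZMod l)ˣ → V} {t : (ZMod l)ˣ} {c : V}
    (h : ∀ s, f (s * t) = f s + c) (n : ℕ) (s : (ZMod l)ˣ) : f (s * t ^ n) = f s + n • c := by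
  induction n with
  | zero => simp
  | succ n ih =>
    rw [pow_succ, ← mul_assoc, h, ih, succ_nsmul, add_assoc]

/-- A difference `D_t f` which is constant is zero (this is where `l - 1` is inverted). -/
theorem diff_const_eq_zero (hV : ∀ c : V, (l - 1) • c = 0 → c = 0) {f : (ZMod l)ˣ → V}
    {t : (ZMod l)ˣ} (h : ∀ s, f (s * t) - f s = f (1 * t) - f 1) : t ∈ stab f := by
  set c : V := f (1 * t) - f 1 with hc
  have h' : ∀ s, f (s * t) = f s + c := by
    intro s
    have := h s
    rw [sub_eq_iff_eq_add] at this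
    rw [this, add_comm]
  have h1 := shift_pow h' (l - 1) 1
  rw [ZMod.units_pow_card_sub_one_eq_one, mul_one] at h1
  have hc0 : c = 0 := hV c (by simpa using h1.symm)
  intro s
  rw [h' s, hc0, add_zero]

theorem coe_sub_one_ne_zero {t : (ZMod l)ˣ} (ht : t ≠ 1) : (t : ZMod l) - 1 ≠ 0 := by
  intro h
  apply ht
  apply Units.ext
  rw [Units.val_one]
  exact sub_eq_zero.mp h

/-- The main induction: every member of `FF` is constant. -/
theorem const_of_InFF (hV : ∀ c : V, (l - 1) • c = 0 → c = 0) (ι : (ZMod l)ˣ) (hι : ι ≠ 1) :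
    ∀ (H : Subgroup (ZMod l)ˣ) (f : (ZMod l)ˣ → V), InFF ι f → stab f = H → ∀ s, f s = f 1 := by
  intro H
  induction H using WellFoundedGT.induction with
  | ind H IH =>
    intro f hf hH
    by_contra hne
    -- the key claim
    have key : ∀ t : (ZMod l)ˣ, t ∉ stab f → ∀ ρ : (ZMod l)ˣ,
        (ρ : ZMod l) * ((ι : ZMod l) * (t : ZMod l) - 1) = (t : ZMod l) - 1 → ρ ∈ stab f := by
      intro t ht ρ hρ
      have ht1 : t ≠ 1 := by
        rintro rfl
        exact ht (one_mem _)
      have hιt : ι * t ≠ 1 := by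
        intro h
        apply ht
        have : t = ι⁻¹ := by
          rw [eq_inv_iff_mul_eq_one, mul_comm]
          exact h
        rw [this]
        exact inv_mem hf.iota_mem_stab
      have hh : InFF ι (fun s => f (s * t) - f s) := hf.diff t
      have hle : stab f ≤ stab (fun s => f (s * t) - f s) := by
        intro g hg s
        show f (s * g * t) - f (s * g) = f (s * t) - f s
        have e : s * g * t = s * t * g := by
          simp only [mul_assoc, mul_comm g]
        rw [e, hg, hg]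
      have hnc : ¬ ∀ s, (fun s => f (s * t) - f s) s = (fun s => f (s * t) - f s) 1 := by
        intro h
        exact ht (diff_const_eq_zero hV h)
      have heq : stab (fun s => f (s * t) - f s) = stab f := by
        by_contra hne'
        have hlt : stab f < stab (fun s => f (s * t) - f s) := lt_of_le_of_ne hle (Ne.symm hne')
        exact hnc (IH _ (hH ▸ hlt) _ hh rfl)
      rw [← heq]
      intro s
      show f (s * ρ * t) - f (s * ρ) = f (s * t) - f s
      exact hf.W t ρ s ht1 hιt hρ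
    -- a point outside the stabiliser
    have hex : ∃ t0 : (ZMod l)ˣ, t0 ∉ stab f := by
      by_contra hall
      have hall : ∀ t0 : (ZMod l)ˣ, t0 ∈ stab f := fun t0 => by
        by_contra h
        exact hall ⟨t0, h⟩
      apply hne
      intro s
      have := hall s 1
      rwa [one_mul] at this
    obtain ⟨t0, ht0⟩ := hex
    have hnot : ∀ x : stab f, t0 * (x : (ZMod l)ˣ) ∉ stab f := by
      intro x hx
      exact ht0 ((Subgroup.mul_mem_cancel_right _ x.2).mp hx)
    have hι1 : (ι : ZMod l) - 1 ≠ 0 := coe_sub_one_ne_zero hι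
    -- the self-map of the stabiliser
    have hρex : ∀ x : stab f, ∃ ρ : stab f,
        ((ρ : (ZMod l)ˣ) : ZMod l) * ((ι : ZMod l) * ((t0 * (x : (ZMod l)ˣ) : (ZMod l)ˣ) : ZMod l) - 1)
          = ((t0 * (x : (ZMod l)ˣ) : (ZMod l)ˣ) : ZMod l) - 1 := by
      intro x
      have hx := hnot x
      have ht1 : t0 * (x : (ZMod l)ˣ) ≠ 1 := by
        intro h
        rw [h] at hx
        exact hx (one_mem _)
      have hιt : ι * (t0 * (x : (ZMod l)ˣ)) ≠ 1 := by
        intro h
        apply hx
        have : t0 * (x : (ZMod l)ˣ) = ι⁻¹ := by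
          rw [eq_inv_iff_mul_eq_one, mul_comm]
          exact h
        rw [this]
        exact inv_mem hf.iota_mem_stab
      have hn : ((t0 * (x : (ZMod l)ˣ) : (ZMod l)ˣ) : ZMod l) - 1 ≠ 0 := coe_sub_one_ne_zero ht1
      have hd : (ι : ZMod l) * ((t0 * (x : (ZMod l)ˣ) : (ZMod l)ˣ) : ZMod l) - 1 ≠ 0 := by
        have := coe_sub_one_ne_zero hιt
        rwa [Units.val_mul] at this
      have hρ : ((Units.mk0 _ (div_ne_zero hn hd) : (ZMod l)ˣ) : ZMod l)
          * ((ι : ZMod l) * ((t0 * (x : (ZMod l)ˣ) : (ZMod l)ˣ) : ZMod l) - 1)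
          = ((t0 * (x : (ZMod l)ˣ) : (ZMod l)ˣ) : ZMod l) - 1 := by
        rw [Units.val_mk0, div_mul_cancel₀ _ hd]
      exact ⟨⟨Units.mk0 _ (div_ne_zero hn hd), key _ hx _ hρ⟩, hρ⟩
    choose ψ hψ using hρex
    have hinj : Function.Injective ψ := by
      intro x x' hxx
      have h1 := hψ x
      have h2 := hψ x'
      rw [hxx] at h1
      -- (a - a') * (r * i - 1) = 0
      have h3 : (((t0 * (x : (ZMod l)ˣ) : (ZMod l)ˣ) : ZMod l)
            - ((t0 * (x' : (ZMod l)ˣ) : (ZMod l)ˣ) : ZMod l))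
          * ((((ψ x' : stab f) : (ZMod l)ˣ) : ZMod l) * (ι : ZMod l) - 1) = 0 := by
        linear_combination h1 - h2
      rcases mul_eq_zero.mp h3 with h4 | h4
      · have h5 : t0 * (x : (ZMod l)ˣ) = t0 * (x' : (ZMod l)ˣ) :=
          Units.ext (sub_eq_zero.mp h4)
        exact Subtype.ext (mul_left_cancel h5)
      · exfalso
        -- r * i = 1, then r = 1, then i = 1
        have h5 : (((ψ x' : stab f) : (ZMod l)ˣ) : ZMod l) - 1 = 0 := by
          linear_combination (((t0 * (x' : (ZMod l)ˣ) : (ZMod l)ˣ) : ZMod l)) * h4 - h2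
        apply hι1
        linear_combination h4 - (ι : ZMod l) * h5
    obtain ⟨x, hx⟩ := (Finite.injective_iff_surjective.mp hinj) 1
    have h1 := hψ x
    rw [hx] at h1
    have h2 : ((ι : ZMod l) - 1) * ((t0 * (x : (ZMod l)ˣ) : (ZMod l)ˣ) : ZMod l) = 0 := by
      have h1' : (1 : ZMod l) * ((ι : ZMod l) * ((t0 * (x : (ZMod l)ˣ) : (ZMod l)ˣ) : ZMod l) - 1)
          = ((t0 * (x : (ZMod l)ˣ) : (ZMod l)ˣ) : ZMod l) - 1 := by
        simpa using h1
      linear_combination h1'
    rcases mul_eq_zero.mp h2 with h3 | h3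
    · exact hι1 h3
    · exact (Units.ne_zero _) h3

/-- **Step 3, units form, general coefficients.**  (Shape of `const_of_W` in the S41 chat #57,
with `V` any abelian group in which `(l - 1) • c = 0 → c = 0`.) -/
theorem const_of_W_gen (hV : ∀ c : V, (l - 1) • c = 0 → c = 0) (ι : (ZMod l)ˣ) (hι : ι ≠ 1)
    (f : (ZMod l)ˣ → V) (hinv : ∀ s, f (ι * s) = f s)
    (hW : ∀ t ρ s : (ZMod l)ˣ, t ≠ 1 → ι * t ≠ 1 →
      (ρ : ZMod l) * ((ι : ZMod l) * t - 1) = t - 1 →
      f (s * ρ * t) - f (s * ρ) = f (s * t) - f s) :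
    ∀ s s', f s = f s' := by
  intro s s'
  have h := const_of_InFF hV ι hι (stab f) f ⟨hinv, hW⟩ rfl
  rw [h s, h s']

/-- **Step 3, units form, field coefficients** (exactly the statement announced in chat #57). -/
theorem const_of_W {l : ℕ} [Fact l.Prime] {K : Type*} [Field K] (hK : ((l - 1 : ℕ) : K) ≠ 0)
    (ι : (ZMod l)ˣ) (hι : ι ≠ 1) (f : (ZMod l)ˣ → K) (hinv : ∀ s, f (ι * s) = f s)
    (hW : ∀ t ρ s : (ZMod l)ˣ, t ≠ 1 → ι * t ≠ 1 →
      (ρ : ZMod l) * ((ι : ZMod l) * t - 1) = t - 1 →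
      f (s * ρ * t) - f (s * ρ) = f (s * t) - f s) :
    ∀ s s', f s = f s' := by
  refine const_of_W_gen ?_ ι hι f hinv hW
  intro c hc
  rw [nsmul_eq_mul] at hc
  rcases mul_eq_zero.mp hc with h | h
  · exact absurd h hK
  · exact h

/-- **Step 3, units form, `ZMod p` coefficients.** -/
theorem const_of_W_zmod {l p : ℕ} [Fact l.Prime] [Fact p.Prime] (hpl : ¬ p ∣ l - 1)
    (ι : (ZMod l)ˣ) (hι : ι ≠ 1) (f : (ZMod l)ˣ → ZMod p) (hinv : ∀ s, f (ι * s) = f s)
    (hW : ∀ t ρ s : (ZMod l)ˣ, t ≠ 1 → ι * t ≠ 1 →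
      (ρ : ZMod l) * ((ι : ZMod l) * t - 1) = t - 1 →
      f (s * ρ * t) - f (s * ρ) = f (s * t) - f s) :
    ∀ s s', f s = f s' := by
  refine const_of_W ?_ ι hι f hinv hW
  intro h
  exact hpl ((ZMod.natCast_eq_zero_iff _ _).mp h)

/-- **Step 3 on `ZMod l`** (exactly the statement announced in chat #56): only the values of
`f` at nonzero arguments are used, and `ρ` is passed explicitly. -/
theorem const_of_cross {l p : ℕ} [Fact l.Prime] [Fact p.Prime] (hpl : ¬ p ∣ l - 1)
    (f : ZMod l → ZMod p) (iota : ZMod l) (hi0 : iota ≠ 0) (hi1 : iota ≠ 1)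
    (hinv : ∀ s, s ≠ 0 → f (iota * s) = f s)
    (hW : ∀ t rho s : ZMod l, t ≠ 0 → t ≠ 1 → iota * t ≠ 1 → s ≠ 0 →
      rho * (iota * t - 1) = t - 1 → f (s * rho * t) - f (s * rho) = f (s * t) - f s) :
    ∀ s s', s ≠ 0 → s' ≠ 0 → f s = f s' := by
  intro s s' hs hs'
  have hι : (Units.mk0 iota hi0 : (ZMod l)ˣ) ≠ 1 := by
    intro h
    apply hi1
    have := congrArg (fun u : (ZMod l)ˣ => (u : ZMod l)) h
    simpa using this
  have h := const_of_W_zmod hpl (Units.mk0 iota hi0) hι (fun u => f (u : ZMod l))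
    (fun u => by
      show f (((Units.mk0 iota hi0 * u : (ZMod l)ˣ) : ZMod l)) = f (u : ZMod l)
      rw [Units.val_mul, Units.val_mk0]
      exact hinv _ (Units.ne_zero u))
    (fun t ρ u ht hιt hρ => by
      show f (((u * ρ * t : (ZMod l)ˣ) : ZMod l)) - f (((u * ρ : (ZMod l)ˣ) : ZMod l))
        = f (((u * t : (ZMod l)ˣ) : ZMod l)) - f (u : ZMod l)
      simp only [Units.val_mul]
      have ht1 : (t : ZMod l) ≠ 1 := by
        intro h1
        exact ht (Units.ext (by rw [h1, Units.val_one]))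
      have hιt1 : iota * (t : ZMod l) ≠ 1 := by
        intro h1
        apply hιt
        apply Units.ext
        rw [Units.val_mul, Units.val_mk0, h1, Units.val_one]
      rw [Units.val_mk0] at hρ
      exact hW _ _ _ (Units.ne_zero t) ht1 hιt1 (Units.ne_zero u) hρ)
    (Units.mk0 s hs) (Units.mk0 s' hs')
  simpa using h

end Fermat.Agent.S41.helper8311
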